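/-
S16 project, lower bound (LB-2), part 1: `SL(2, ℤ)` maps to any group with prescribed images
of `S` (of square one) and `S * T` (of cube one).
-/
import Mathlib

set_option autoImplicit false

/-!
# `PSL₂(ℤ) = C₂ * C₃`: the universal property of `SL(2, ℤ)` with respect to `S` and `S * T`

For every group `K` and `s u : K` with `s ^ 2 = 1`, `u ^ 3 = 1` there is a homomorphism
`SL(2, ℤ) →* K` with `S ↦ s`, `S * T ↦ u`.  Proof: Mathlib's ping-pong lemma on the upper half
plane with the sets `{0 < re z}` and `{re z < 0}`.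
-/

namespace Fermat.Agent.S16.FreeProd

open scoped MatrixGroups Pointwise
open UpperHalfPlane ModularGroup

/-- The homomorphism out of a cyclic group `Multiplicative (ZMod n)` given by an element of order
dividing `n`. -/
noncomputable def cycHom {K : Type*} [Group K] (n : ℕ) (k : K) (hk : k ^ n = 1) :
    Multiplicative (ZMod n) →* K :=
  AddMonoidHom.toMultiplicativeLeft (ZMod.lift n
    ⟨zmultiplesHom (Additive K) (Additive.ofMul k), by
      show (n : ℤ) • Additive.ofMul k = 0
      rw [natCast_zsmul, ← ofMul_pow, hk]; rfl⟩)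

theorem cycHom_ofAdd_intCast {K : Type*} [Group K] (n : ℕ) (k : K) (hk : k ^ n = 1) (j : ℤ) :
    cycHom n k hk (Multiplicative.ofAdd (j : ZMod n)) = k ^ j := by
  show Additive.toMul (ZMod.lift n _ (j : ZMod n)) = k ^ j
  rw [ZMod.lift_coe]
  show Additive.toMul (j • Additive.ofMul k) = k ^ j
  rw [← ofMul_zpow]; rfl

theorem cycHom_ofAdd_one {K : Type*} [Group K] (n : ℕ) (k : K) (hk : k ^ n = 1) :
    cycHom n k hk (Multiplicative.ofAdd (1 : ZMod n)) = k := by
  have h := cycHom_ofAdd_intCast n k hk 1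
  rwa [Int.cast_one, zpow_one] at h

theorem cycHom_mem_zpowers {K : Type*} [Group K] (n : ℕ) (k : K) (hk : k ^ n = 1)
    (x : Multiplicative (ZMod n)) : ∃ j : ℤ, cycHom n k hk x = k ^ j := by
  obtain ⟨j, hj⟩ := ZMod.intCast_surjective (Multiplicative.toAdd x)
  refine ⟨j, ?_⟩
  rw [← cycHom_ofAdd_intCast n k hk j, hj]; rfl


/-! ### The action on the upper half plane -/

/-- The action of `SL(2, ℤ)` on `ℍ` as a homomorphism to permutations. -/
noncomputable def actH : SL(2, ℤ) →* Equiv.Perm ℍ := MulAction.toPermHom SL(2, ℤ) ℍ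

theorem actH_apply (g : SL(2, ℤ)) (z : ℍ) : actH g z = g • z := rfl

theorem actH_neg_one : actH (-1) = 1 := by
  ext z
  show (((-1 : SL(2, ℤ)) • z : ℍ) : ℂ) = ((z : ℍ) : ℂ)
  rw [SL_neg_smul, one_smul]

theorem S_sq_eq : S ^ 2 = (-1 : SL(2, ℤ)) := by decide

theorem U_cube_eq : (S * T) ^ 3 = (-1 : SL(2, ℤ)) := by decide

theorem actH_S_sq : actH S ^ 2 = 1 := by rw [← map_pow, S_sq_eq, actH_neg_one]

theorem actH_U_cube : actH (S * T) ^ 3 = 1 := by rw [← map_pow, U_cube_eq, actH_neg_one]

theorem re_S_smul (z : ℍ) : (S • z).re = -z.re / Complex.normSq (z : ℂ) := by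
  rw [modular_S_smul]
  show ((-(z : ℂ))⁻¹).re = _
  rw [Complex.inv_re, Complex.normSq_neg, Complex.neg_re]
  rfl

theorem re_T_smul (z : ℍ) : (T • z).re = 1 + z.re := by
  rw [modular_T_smul, vadd_re]

theorem normSq_pos' (z : ℍ) : 0 < Complex.normSq (z : ℂ) :=
  Complex.normSq_pos.mpr z.ne_zero

theorem re_S_smul_pos {z : ℍ} (hz : z.re < 0) : 0 < (S • z).re := by
  rw [re_S_smul]
  exact div_pos (by linarith) (normSq_pos' z)

theorem re_S_smul_neg {z : ℍ} (hz : 0 < z.re) : (S • z).re < 0 := by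
  rw [re_S_smul]
  exact div_neg_of_neg_of_pos (by linarith) (normSq_pos' z)

theorem neg_one_lt_re_S_smul {z : ℍ} (hz : 1 < z.re) : -1 < (S • z).re := by
  rw [re_S_smul, lt_div_iff₀ (normSq_pos' z)]
  have h1 : Complex.normSq (z : ℂ) = z.re * z.re + z.im * z.im := Complex.normSq_apply _
  have h2 : 0 < z.im * z.im := mul_pos z.im_pos z.im_pos
  nlinarith

theorem re_U_smul_neg {z : ℍ} (hz : -1 < z.re) : ((S * T) • z).re < 0 := by
  rw [mul_smul]
  exact re_S_smul_neg (by rw [re_T_smul]; linarith)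

theorem neg_one_lt_re_U_smul {z : ℍ} (hz : 0 < z.re) : -1 < ((S * T) • z).re := by
  rw [mul_smul]
  exact neg_one_lt_re_S_smul (by rw [re_T_smul]; linarith)

/-! ### The ping-pong set-up -/

/-- The two cyclic factors `C₂` (index `false`) and `C₃` (index `true`). -/
abbrev Hfam (b : Bool) : Type := Multiplicative (ZMod (cond b 3 2))

/-- The two cyclic subgroups of `Perm ℍ` generated by `S` and by `S * T`. -/
noncomputable def fFam : ∀ b : Bool, Hfam b →* Equiv.Perm ℍ
  | false => cycHom 2 (actH S) actH_S_sq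
  | true => cycHom 3 (actH (S * T)) actH_U_cube

/-- The ping-pong sets. -/
def Xset : Bool → Set ℍ
  | false => {z | 0 < z.re}
  | true => {z | z.re < 0}

theorem cycHom_two_of_ne_one {K : Type*} [Group K] (k : K) (hk : k ^ 2 = 1) (x : ZMod 2)
    (hx : (Multiplicative.ofAdd x : Multiplicative (ZMod 2)) ≠ 1) :
    cycHom 2 k hk (Multiplicative.ofAdd x) = k := by
  fin_cases x
  · exact absurd rfl hx
  · exact cycHom_ofAdd_one 2 k hk

theorem cycHom_three_of_ne_one {K : Type*} [Group K] (k : K) (hk : k ^ 3 = 1) (x : ZMod 3)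
    (hx : (Multiplicative.ofAdd x : Multiplicative (ZMod 3)) ≠ 1) :
    cycHom 3 k hk (Multiplicative.ofAdd x) = k ∨ cycHom 3 k hk (Multiplicative.ofAdd x) = k ^ 2 := by
  fin_cases x
  · exact absurd rfl hx
  · exact Or.inl (cycHom_ofAdd_one 3 k hk)
  · right
    have h2 := cycHom_ofAdd_intCast 3 k hk 2
    rw [show (2 : ℤ) = ((2 : ℕ) : ℤ) from rfl, zpow_natCast] at h2
    exact h2

theorem fFam_false_of_ne_one (h : Hfam false) (hh : h ≠ 1) : fFam false h = actH S :=
  cycHom_two_of_ne_one (actH S) actH_S_sq (Multiplicative.toAdd h) hh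

theorem fFam_true_of_ne_one (h : Hfam true) (hh : h ≠ 1) :
    fFam true h = actH (S * T) ∨ fFam true h = actH (S * T) ^ 2 :=
  cycHom_three_of_ne_one (actH (S * T)) actH_U_cube (Multiplicative.toAdd h) hh

theorem pingpong : Pairwise fun i j : Bool => ∀ h : Hfam i, h ≠ 1 → fFam i h • Xset j ⊆ Xset i := by
  intro i j hij h hh
  rw [Set.smul_set_subset_iff]
  cases i <;> cases j
  · exact absurd rfl hij
  · intro z hz
    rw [fFam_false_of_ne_one h hh]
    exact re_S_smul_pos hz
  · intro z hz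
    have hz' : 0 < z.re := hz
    rcases fFam_true_of_ne_one h hh with h1 | h1
    · rw [h1]
      exact re_U_smul_neg (by linarith)
    · rw [h1, pow_two, mul_smul]
      exact re_U_smul_neg (neg_one_lt_re_U_smul hz')
  · exact absurd rfl hij

theorem lift_fFam_injective : Function.Injective (Monoid.CoprodI.lift fFam) := by
  refine Monoid.CoprodI.lift_injective_of_ping_pong fFam ?_ Xset ?_ ?_ pingpong
  · right
    refine ⟨true, ?_⟩
    show (3 : Cardinal) ≤ Cardinal.mk (Multiplicative (ZMod 3))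
    rw [Cardinal.mk_fintype, Fintype.card_multiplicative, ZMod.card]
    norm_num
  · intro i
    cases i
    · exact ⟨UpperHalfPlane.mk ⟨1, 1⟩ (by norm_num), by show (0 : ℝ) < 1; norm_num⟩
    · exact ⟨UpperHalfPlane.mk ⟨-1, 1⟩ (by norm_num), by show (-1 : ℝ) < 0; norm_num⟩
  · intro i j hij
    cases i <;> cases j
    · exact absurd rfl hij
    · exact Set.disjoint_left.mpr fun z (h1 : 0 < z.re) (h2 : z.re < 0) => by linarith
    · exact Set.disjoint_left.mpr fun z (h1 : z.re < 0) (h2 : 0 < z.re) => by linarith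
    · exact absurd rfl hij


/-! ### The universal property -/

theorem lift_of_false_one :
    Monoid.CoprodI.lift fFam (Monoid.CoprodI.of (i := false) (Multiplicative.ofAdd (1 : ZMod 2)))
      = actH S := by
  rw [Monoid.CoprodI.lift_of]
  exact cycHom_ofAdd_one 2 (actH S) actH_S_sq

theorem lift_of_true_one :
    Monoid.CoprodI.lift fFam (Monoid.CoprodI.of (i := true) (Multiplicative.ofAdd (1 : ZMod 3)))
      = actH (S * T) := by
  rw [Monoid.CoprodI.lift_of]
  exact cycHom_ofAdd_one 3 (actH (S * T)) actH_U_cube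

theorem actH_mem_range (g : SL(2, ℤ)) : actH g ∈ (Monoid.CoprodI.lift fFam).range := by
  have hg : g ∈ Subgroup.closure ({S, T} : Set SL(2, ℤ)) := by
    rw [SpecialLinearGroup.SL2Z_generators]; trivial
  induction hg using Subgroup.closure_induction with
  | mem y hy =>
    rcases hy with rfl | rfl
    · exact ⟨_, lift_of_false_one⟩
    · have hT : actH T = (actH S)⁻¹ * actH (S * T) := by
        rw [← map_inv, ← map_mul, inv_mul_cancel_left]
      rw [hT]
      exact mul_mem (inv_mem ⟨_, lift_of_false_one⟩) ⟨_, lift_of_true_one⟩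
  | one => rw [map_one]; exact one_mem _
  | mul a b _ _ ha hb => rw [map_mul]; exact mul_mem ha hb
  | inv a _ ha => rw [map_inv]; exact inv_mem ha

/-- `SL(2, ℤ) → C₂ * C₃`, the quotient map to `PSL(2, ℤ)` read through the ping-pong
isomorphism. -/
noncomputable def toCoprod : SL(2, ℤ) →* Monoid.CoprodI Hfam :=
  (MonoidHom.ofInjective lift_fFam_injective).symm.toMonoidHom.comp
    (actH.codRestrict (Monoid.CoprodI.lift fFam).range actH_mem_range)

theorem lift_toCoprod (g : SL(2, ℤ)) : Monoid.CoprodI.lift fFam (toCoprod g) = actH g := by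
  have h := (MonoidHom.ofInjective lift_fFam_injective).apply_symm_apply
    (actH.codRestrict (Monoid.CoprodI.lift fFam).range actH_mem_range g)
  exact congrArg Subtype.val h

theorem toCoprod_S :
    toCoprod S = Monoid.CoprodI.of (i := false) (Multiplicative.ofAdd (1 : ZMod 2)) :=
  lift_fFam_injective (by rw [lift_toCoprod, lift_of_false_one])

theorem toCoprod_U :
    toCoprod (S * T) = Monoid.CoprodI.of (i := true) (Multiplicative.ofAdd (1 : ZMod 3)) :=
  lift_fFam_injective (by rw [lift_toCoprod, lift_of_true_one])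

/-- **Universal property of `SL(2, ℤ)` (equivalently `PSL(2, ℤ) = C₂ * C₃`).**  For every group
`K` and elements `s`, `u` with `s ^ 2 = 1` and `u ^ 3 = 1` there is a homomorphism
`SL(2, ℤ) →* K` sending `S` to `s` and `S * T` to `u`. -/
theorem exists_hom {K : Type*} [Group K] (s u : K) (hs : s ^ 2 = 1) (hu : u ^ 3 = 1) :
    ∃ Θ : SL(2, ℤ) →* K, Θ S = s ∧ Θ (S * T) = u := by
  let k : ∀ b : Bool, Hfam b →* K := fun b =>
    match b with
    | false => cycHom 2 s hs
    | true => cycHom 3 u hu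
  refine ⟨(Monoid.CoprodI.lift k).comp toCoprod, ?_, ?_⟩
  · rw [MonoidHom.comp_apply, toCoprod_S, Monoid.CoprodI.lift_of]
    exact cycHom_ofAdd_one 2 s hs
  · rw [MonoidHom.comp_apply, toCoprod_U, Monoid.CoprodI.lift_of]
    exact cycHom_ofAdd_one 3 u hu

end Fermat.Agent.S16.FreeProd
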