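/-
S16 project, lower bound (LB-2), part 2: cocycles of `SL(2, ℤ)` with values in functions on an
`SL(2, ℤ)`-set, built from their values at `S` and `S * T`.
-/
import Mathlib
import Fermat.Agent.S16.FreeProd

set_option autoImplicit false

/-!
# Cocycles of `SL(2, ℤ)` from their values at `S` and `S * T`
-/

namespace Fermat.Agent.S16.FreeProd

open scoped MatrixGroups
open ModularGroup

section Cocycle

variable {X : Type*} [MulAction SL(2, ℤ) X] {A : Type*} [AddCommGroup A]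

/-- The permutation `(x, t) ↦ (g • x, t + v x)` of `X × A`. -/
def affPerm (g : SL(2, ℤ)) (v : X → A) : Equiv.Perm (X × A) where
  toFun q := (g • q.1, q.2 + v q.1)
  invFun q := (g⁻¹ • q.1, q.2 - v (g⁻¹ • q.1))
  left_inv q := by
    simp only [inv_smul_smul, add_sub_cancel_right]
  right_inv q := by
    simp only [smul_inv_smul, sub_add_cancel]

theorem affPerm_apply (g : SL(2, ℤ)) (v : X → A) (x : X) (t : A) :
    affPerm g v (x, t) = (g • x, t + v x) := rfl

/-- **Cocycle extension.**  If `-1` acts trivially on `X`, every pair `a b : X → A` with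
`(1 + S) a = 0` and `(1 + U + U²) b = 0` (`U = S * T`) is the pair of values at `S`, `U` of a
cocycle `c` of `SL(2, ℤ)` in `X → A` (convention `c (g * h) x = c g (h • x) + c h x`). -/
theorem exists_cocycle (hneg : ∀ x : X, (-1 : SL(2, ℤ)) • x = x) (a b : X → A)
    (ha : ∀ x, a x + a (S • x) = 0)
    (hb : ∀ x, b x + b ((S * T) • x) + b ((S * T) • (S * T) • x) = 0) :
    ∃ c : SL(2, ℤ) → X → A, (∀ g h x, c (g * h) x = c g (h • x) + c h x) ∧ c S = a ∧
      c (S * T) = b := by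
  have hs : (affPerm S a : Equiv.Perm (X × A)) ^ 2 = 1 := by
    ext q : 1
    obtain ⟨x, t⟩ := q
    rw [pow_two, Equiv.Perm.mul_apply, affPerm_apply, affPerm_apply, Equiv.Perm.one_apply,
      ← mul_smul, ← pow_two, S_sq_eq, hneg, add_assoc, ha, add_zero]
  have hu : (affPerm (S * T) b : Equiv.Perm (X × A)) ^ 3 = 1 := by
    ext q : 1
    obtain ⟨x, t⟩ := q
    have h3 : (S * T) • (S * T) • (S * T) • x = x := by
      rw [← mul_smul, ← mul_smul, ← pow_two, ← pow_succ, U_cube_eq, hneg]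
    rw [pow_succ, pow_two, Equiv.Perm.mul_apply, Equiv.Perm.mul_apply, affPerm_apply,
      affPerm_apply, affPerm_apply, Equiv.Perm.one_apply, h3, add_assoc, add_assoc,
      ← add_assoc (b x), hb, add_zero]
  obtain ⟨Θ, hΘS, hΘU⟩ := exists_hom (affPerm S a : Equiv.Perm (X × A)) (affPerm (S * T) b) hs hu
  -- every `Θ g` is of the form `affPerm g v`
  have hP : ∀ g : SL(2, ℤ), ∃ v : X → A, ∀ x t, Θ g (x, t) = (g • x, t + v x) := by
    intro g
    have hg : g ∈ Subgroup.closure ({S, T} : Set SL(2, ℤ)) := by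
      rw [SpecialLinearGroup.SL2Z_generators]; trivial
    have hmul : ∀ g h : SL(2, ℤ), (∃ v : X → A, ∀ x t, Θ g (x, t) = (g • x, t + v x)) →
        (∃ v : X → A, ∀ x t, Θ h (x, t) = (h • x, t + v x)) →
        ∃ v : X → A, ∀ x t, Θ (g * h) (x, t) = ((g * h) • x, t + v x) := by
      rintro g h ⟨v, hv⟩ ⟨w, hw⟩
      refine ⟨fun x => w x + v (h • x), fun x t => ?_⟩
      rw [map_mul, Equiv.Perm.mul_apply, hw, hv, mul_smul, add_assoc]
    have hinv : ∀ g : SL(2, ℤ), (∃ v : X → A, ∀ x t, Θ g (x, t) = (g • x, t + v x)) →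
        ∃ v : X → A, ∀ x t, Θ g⁻¹ (x, t) = (g⁻¹ • x, t + v x) := by
      rintro g ⟨v, hv⟩
      refine ⟨fun x => -v (g⁻¹ • x), fun x t => ?_⟩
      rw [map_inv, Equiv.Perm.inv_def, Equiv.symm_apply_eq, hv, smul_inv_smul, add_assoc,
        neg_add_cancel, add_zero]
    have hS : ∃ v : X → A, ∀ x t, Θ S (x, t) = (S • x, t + v x) :=
      ⟨a, fun x t => by rw [hΘS]; rfl⟩
    have hU : ∃ v : X → A, ∀ x t, Θ (S * T) (x, t) = ((S * T) • x, t + v x) :=
      ⟨b, fun x t => by rw [hΘU]; rfl⟩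
    induction hg using Subgroup.closure_induction with
    | mem y hy =>
      rcases hy with rfl | rfl
      · exact hS
      · have hT : (T : SL(2, ℤ)) = S⁻¹ * (S * T) := by rw [inv_mul_cancel_left]
        rw [hT]
        exact hmul _ _ (hinv _ hS) hU
    | one => exact ⟨0, fun x t => by rw [map_one, Equiv.Perm.one_apply, one_smul]; simp⟩
    | mul g h _ _ ihg ihh => exact hmul g h ihg ihh
    | inv g _ ih => exact hinv g ih
  have hform : ∀ g x t, Θ g (x, t) = (g • x, t + (Θ g (x, 0)).2) := by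
    intro g x t
    obtain ⟨v, hv⟩ := hP g
    rw [hv, hv, zero_add]
  refine ⟨fun g x => (Θ g (x, 0)).2, fun g h x => ?_, ?_, ?_⟩
  · show (Θ (g * h) (x, 0)).2 = (Θ g (h • x, 0)).2 + (Θ h (x, 0)).2
    rw [map_mul, Equiv.Perm.mul_apply, hform h x 0, hform g (h • x), zero_add, add_comm]
  · funext x
    show (Θ S (x, 0)).2 = a x
    rw [hΘS, affPerm_apply, zero_add]
  · funext x
    show (Θ (S * T) (x, 0)).2 = b x
    rw [hΘU, affPerm_apply, zero_add]

end Cocycle

section Hom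

variable (Γ : Subgroup SL(2, ℤ)) {A : Type*} [AddCommGroup A]

/-- A cocycle restricts to a homomorphism on the stabiliser `Γ` of the base coset. -/
theorem exists_hom_of_cocycle (c : SL(2, ℤ) → SL(2, ℤ) ⧸ Γ → A)
    (hc : ∀ g h x, c (g * h) x = c g (h • x) + c h x) :
    ∃ ψ : Additive Γ →+ A, ∀ γ : Γ,
      ψ (Additive.ofMul γ) = c (γ : SL(2, ℤ)) ((1 : SL(2, ℤ)) : SL(2, ℤ) ⧸ Γ) := by
  have hfix : ∀ γ : Γ, (γ : SL(2, ℤ)) • (((1 : SL(2, ℤ)) : SL(2, ℤ) ⧸ Γ))
      = ((1 : SL(2, ℤ)) : SL(2, ℤ) ⧸ Γ) := by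
    intro γ
    rw [MulAction.Quotient.smul_mk, smul_eq_mul, mul_one, QuotientGroup.eq, mul_one]
    exact Γ.inv_mem γ.2
  have h1 : c 1 ((1 : SL(2, ℤ)) : SL(2, ℤ) ⧸ Γ) = 0 := by
    have h := hc 1 1 ((1 : SL(2, ℤ)) : SL(2, ℤ) ⧸ Γ)
    rw [mul_one, one_smul] at h
    exact left_eq_add.mp h
  refine ⟨{ toFun := fun γ => c ((Additive.toMul γ : Γ) : SL(2, ℤ))
              ((1 : SL(2, ℤ)) : SL(2, ℤ) ⧸ Γ)
            map_zero' := h1
            map_add' := fun γ δ => ?_ }, fun γ => rfl⟩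
  show c (((Additive.toMul γ * Additive.toMul δ : Γ)) : SL(2, ℤ)) _ = _
  rw [Subgroup.coe_mul, hc, hfix]

end Hom

section CocycleLemmas

variable {X : Type*} [MulAction SL(2, ℤ) X] {A : Type*} [AddCommGroup A]
  (c : SL(2, ℤ) → X → A) (hc : ∀ g h x, c (g * h) x = c g (h • x) + c h x)

include hc

theorem coc_one (x : X) : c 1 x = 0 := by
  have h := hc 1 1 x
  rw [mul_one, one_smul] at h
  exact left_eq_add.mp h

theorem coc_inv (g : SL(2, ℤ)) (x : X) : c g⁻¹ x = -c g (g⁻¹ • x) := by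
  have h := hc g g⁻¹ x
  rw [mul_inv_cancel, coc_one c hc] at h
  exact eq_neg_of_add_eq_zero_right h.symm

theorem coc_conj_of_fixed (g h : SL(2, ℤ)) (y : X) (hy : h • y = y) :
    c (g * h * g⁻¹) (g • y) = c h y := by
  rw [hc (g * h) g⁻¹, inv_smul_smul, coc_inv c hc, inv_smul_smul, hc g h, hy]
  abel

theorem coc_pow_sum (g : SL(2, ℤ)) (m : ℕ) (y : X) :
    c (g ^ m) y = ∑ i ∈ Finset.range m, c g (g ^ i • y) := by
  induction m with
  | zero => rw [pow_zero, coc_one c hc, Finset.range_zero, Finset.sum_empty]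
  | succ m ih => rw [pow_succ', hc, ih, Finset.sum_range_succ, add_comm]

theorem coc_zpow_of_fixed (g : SL(2, ℤ)) (y : X) (hy : g • y = y) (k : ℤ) :
    c (g ^ k) y = k • c g y := by
  have hpow : ∀ m : ℕ, c (g ^ m) y = m • c g y := by
    intro m
    rw [coc_pow_sum c hc]
    have : ∀ i : ℕ, g ^ i • y = y := by
      intro i
      induction i with
      | zero => rw [pow_zero, one_smul]
      | succ i ih => rw [pow_succ, mul_smul, hy, ih]
    simp_rw [this]
    rw [Finset.sum_const, Finset.card_range]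
  have hfix : ∀ m : ℕ, (g ^ m)⁻¹ • y = y := by
    intro m
    rw [inv_smul_eq_iff]
    induction m with
    | zero => rw [pow_zero, one_smul]
    | succ i ih => rw [pow_succ, mul_smul, hy, ← ih]
  obtain ⟨m, rfl | rfl⟩ := Int.eq_nat_or_neg k
  · rw [zpow_natCast, hpow, natCast_zsmul]
  · rw [zpow_neg, zpow_natCast, coc_inv c hc, hfix, hpow, neg_smul, natCast_zsmul]

theorem coc_neg_one_mul (hneg : ∀ x, c (-1) x = 0) (g : SL(2, ℤ)) (x : X) :
    c (-g) x = c g x := by
  have h := hc (-1) g x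
  rw [neg_one_mul, hneg, zero_add] at h
  exact h

omit hc in
/-- Two cocycles with values in `A`, `B` which correspond under `f : A →+ B` at `S` and at
`S * T` correspond everywhere. -/
theorem coc_map_eq {B : Type*} [AddCommGroup B] (f : A →+ B)
    (c₁ : SL(2, ℤ) → X → A) (hc₁ : ∀ g h x, c₁ (g * h) x = c₁ g (h • x) + c₁ h x)
    (c₂ : SL(2, ℤ) → X → B) (hc₂ : ∀ g h x, c₂ (g * h) x = c₂ g (h • x) + c₂ h x)
    (hS : ∀ x, f (c₁ S x) = c₂ S x) (hU : ∀ x, f (c₁ (S * T) x) = c₂ (S * T) x)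
    (g : SL(2, ℤ)) (x : X) : f (c₁ g x) = c₂ g x := by
  have hg : g ∈ Subgroup.closure ({S, T} : Set SL(2, ℤ)) := by
    rw [SpecialLinearGroup.SL2Z_generators]; trivial
  have hmul : ∀ g h : SL(2, ℤ), (∀ x, f (c₁ g x) = c₂ g x) → (∀ x, f (c₁ h x) = c₂ h x) →
      ∀ x, f (c₁ (g * h) x) = c₂ (g * h) x := by
    intro g h ihg ihh x
    rw [hc₁, hc₂, map_add, ihg, ihh]
  have hinv : ∀ g : SL(2, ℤ), (∀ x, f (c₁ g x) = c₂ g x) → ∀ x, f (c₁ g⁻¹ x) = c₂ g⁻¹ x := by
    intro g ih x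
    rw [coc_inv c₁ hc₁, coc_inv c₂ hc₂, map_neg, ih]
  revert x
  induction hg using Subgroup.closure_induction with
  | mem y hy =>
    rcases hy with rfl | rfl
    · exact hS
    · have hT : (T : SL(2, ℤ)) = S⁻¹ * (S * T) := by rw [inv_mul_cancel_left]
      rw [hT]
      exact hmul _ _ (hinv _ hS) hU
  | one => intro x; rw [coc_one c₁ hc₁, coc_one c₂ hc₂, map_zero]
  | mul g h _ _ ihg ihh => exact hmul g h ihg ihh
  | inv g _ ih => exact hinv g ih

theorem coc_T (x : X) : c T x = -c S (T • x) + c (S * T) x := by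
  have hT : (T : SL(2, ℤ)) = S⁻¹ * (S * T) := by rw [inv_mul_cancel_left]
  conv_lhs => rw [hT]
  rw [hc, coc_inv c hc, ← mul_smul, inv_mul_cancel_left]

end CocycleLemmas

end Fermat.Agent.S16.FreeProd
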