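/-
S16 project: shared definitions (interfaces between the S16 packages).
-/
import Mathlib
import Fermat.Prelude.Def_CuspForm_HeckeLocal
import Fermat.Prelude.Def_CuspForm_HeckeEvalForms
import Fermat.Prelude.Def_HeckeGalois_EichlerShimura
import Fermat.Prelude.Def_ModularCurve_ModularUnit
import Fermat.Prelude.Def_ModularCurve_PeriodHomPair

set_option autoImplicit false

namespace Fermat.Agent.S16

open UpperHalfPlane CongruenceSubgroup ModularCurve CuspForm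
open scoped MatrixGroups ModularForm

noncomputable section

/-! ### Top level -/

/-- `P` acts as zero on `S₂(Γ₀(p))`. -/
def KerP (p : ℕ) [NeZero p] (P : HeckeAlg) : Prop :=
  ((heckeEvalForms p 2 P : heckeAlgebra p 2 ∅) :
    Module.End ℂ (CuspForm (Gamma0 p) 2)) = 0

/-- The Eisenstein character `T_ℓ ↦ 1 + ℓ`, `U_p ↦ 1`. -/
def eisE (p : ℕ) : HeckeAlg →ₐ[ℤ] ℤ := MvPolynomial.aeval (eisensteinSystem p)

/-- Lower bound statement. -/
def LBstmt (p : ℕ) [NeZero p] : Prop :=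
  ∀ P : HeckeAlg, KerP p P → (eisensteinNumerator p : ℤ) ∣ eisE p P

/-- Upper bound statement. -/
def UBstmt (p : ℕ) [NeZero p] : Prop :=
  ∃ P : HeckeAlg, KerP p P ∧ eisE p P = (eisensteinNumerator p : ℤ)

/-- `σ'(m)`: the sum of the divisors of `m` prime to `p`. -/
def sigmaP (p m : ℕ) : ℕ := ∑ d ∈ m.divisors with ¬ p ∣ d, d

/-! ### `ℓ`-integral algebraic numbers -/

/-- The ring of algebraic numbers integral at `ℓ`: `b * x` is an algebraic integer for some `b`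
prime to `ℓ`. -/
def RL (ℓ : ℕ) : Subring ℂ where
  carrier := {x | ∃ b : ℕ, b.Coprime ℓ ∧ IsIntegral ℤ ((b : ℂ) * x)}
  mul_mem' := by
    rintro x y ⟨b, hb, hx⟩ ⟨c, hc, hy⟩
    refine ⟨b * c, Nat.Coprime.mul_left hb hc, ?_⟩
    have : ((b * c : ℕ) : ℂ) * (x * y) = ((b : ℂ) * x) * ((c : ℂ) * y) := by push_cast; ring
    rw [this]; exact hx.mul hy
  one_mem' := ⟨1, Nat.coprime_one_left _, by simpa using isIntegral_one⟩
  add_mem' := by
    rintro x y ⟨b, hb, hx⟩ ⟨c, hc, hy⟩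
    refine ⟨b * c, Nat.Coprime.mul_left hb hc, ?_⟩
    have : ((b * c : ℕ) : ℂ) * (x + y) = (c : ℂ) * ((b : ℂ) * x) + (b : ℂ) * ((c : ℂ) * y) := by
      push_cast; ring
    rw [this]
    have hc' : IsIntegral ℤ ((c : ℕ) : ℂ) := by
      simpa using (isIntegral_algebraMap (R := ℤ) (A := ℂ) (x := (c : ℤ)))
    have hb' : IsIntegral ℤ ((b : ℕ) : ℂ) := by
      simpa using (isIntegral_algebraMap (R := ℤ) (A := ℂ) (x := (b : ℤ)))
    exact (hc'.mul hx).add (hb'.mul hy)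
  zero_mem' := ⟨1, Nat.coprime_one_left _, by simpa using isIntegral_zero⟩
  neg_mem' := by
    rintro x ⟨b, hb, hx⟩
    exact ⟨b, hb, by simpa using hx.neg⟩

theorem mem_RL {ℓ : ℕ} {x : ℂ} :
    x ∈ RL ℓ ↔ ∃ b : ℕ, b.Coprime ℓ ∧ IsIntegral ℤ ((b : ℂ) * x) := Iff.rfl

/-- The sequence `c` is `1 + ℓ^s * (ℓ-integral)`: `c 0 = 1` and `c m ∈ ℓ^s RL` for `m ≥ 1`. -/
def OneMod (ℓ s : ℕ) (c : ℕ → ℂ) : Prop :=
  c 0 = 1 ∧ ∀ m, 1 ≤ m → ∃ y ∈ RL ℓ, c m = (ℓ : ℂ) ^ s * y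

/-- The exponent needed at `ℓ`: `v_ℓ(24) - v_ℓ(gcd(p-1,12)) + 1`. -/
def sExp (p ℓ : ℕ) : ℕ := padicValNat ℓ 24 - padicValNat ℓ (Nat.gcd (p - 1) 12) + 1

/-- Non-existence statement at `ℓ`: no `G ∈ M₂(Γ₀(p))` is `≡ 1 mod ℓ^s`. -/
def Kstmt (p ℓ s : ℕ) : Prop :=
  ¬ ∃ G : ModularForm (Gamma0 p) 2, OneMod ℓ s (fun m => (qExpansion 1 G).coeff m)

/-! ### Formal operations on `q`-series -/

/-- `A(x) ↦ A(x^p)`. -/
def stretch (p : ℕ) (A : PowerSeries ℂ) : PowerSeries ℂ :=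
  PowerSeries.mk fun n => if p ∣ n then PowerSeries.coeff (n / p) A else 0

/-- `U_p` on `q`-series: `(U_p A)_n = A_{pn}`. -/
def Up (p : ℕ) (A : PowerSeries ℂ) : PowerSeries ℂ :=
  PowerSeries.mk fun n => PowerSeries.coeff (p * n) A

/-- `exp(2πi/p)`. -/
def zetaP (p : ℕ) : ℂ := Complex.exp (2 * Real.pi * Complex.I / p)

/-- The multiset of `q^{1/p}`-expansions of the `p + 1` conjugates of a form on `Γ₀(p)` with
expansion `A` (in `q`) at `∞` and `B` (in `x = q^{1/p}`) for its `S`-translate. -/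
def conjMS (p : ℕ) (A B : PowerSeries ℂ) : Multiset (PowerSeries ℂ) :=
  stretch p A ::ₘ (Multiset.range p).map (fun j => PowerSeries.rescale (zetaP p ^ j) B)

/-- `Cusp2 p k A B`: there is a modular form `Θ` of weight `k` on `Γ₀(p)` whose `q`-expansion is
`A` and whose `S`-translate has `q^{1/p}`-expansion `B`. -/
def Cusp2 (p : ℕ) (k : ℤ) (A B : PowerSeries ℂ) : Prop :=
  ∃ Θ : ModularForm (Gamma0 p) k, qExpansion 1 Θ = A ∧
    qExpansion (p : ℝ) (⇑Θ ∣[k] ModularGroup.S) = B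

/-- `f` is the `q`-expansion of a level one modular form of weight `k`. -/
def IsL1 (k : ℤ) (f : PowerSeries ℂ) : Prop :=
  ∃ F : ModularForm 𝒮ℒ k, qExpansion 1 F = f

/-! ### Interfaces between the packages (each `…Stmt`/structure is proved by one package and
consumed as a hypothesis by the others) -/

/-- Upper bound input of the final glue: a cusp form congruent to `δ = Σ σ'(k) q^k` modulo `d`
forces `d ∣ n`. -/
def NoFormStmt (p : ℕ) [NeZero p] : Prop :=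
  ∀ d : ℕ, 0 < d → ∀ f : CuspForm (Gamma0 p) 2,
    (∀ k : ℕ, 1 ≤ k → ∃ m : ℤ, (qExpansion 1 f).coeff k = (m : ℂ) ∧
      (d : ℤ) ∣ m - (sigmaP p k : ℤ)) →
    d ∣ eisensteinNumerator p

/-- The weight two Eisenstein series of level `p`. -/
def EisStmt (p : ℕ) [NeZero p] : Prop :=
  ∃ E : ModularForm (Gamma0 p) 2, (qExpansion 1 E).coeff 0 = ((p : ℂ) - 1) / 24 ∧
    ∀ m : ℕ, 1 ≤ m → (qExpansion 1 E).coeff m = (sigmaP p m : ℂ)

/-- The analytic toolkit: closure properties of `Cusp2` and the passage to level one. -/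
structure Toolkit (p : ℕ) : Prop where
  mul : ∀ {k k' : ℤ} {A B A' B' : PowerSeries ℂ}, Cusp2 p k A B → Cusp2 p k' A' B' →
    Cusp2 p (k + k') (A * A') (B * B')
  add : ∀ {k : ℤ} {A B A' B' : PowerSeries ℂ}, Cusp2 p k A B → Cusp2 p k A' B' →
    Cusp2 p k (A + A') (B + B')
  smul : ∀ {k : ℤ} {A B : PowerSeries ℂ} (c : ℂ), Cusp2 p k A B →
    Cusp2 p k (PowerSeries.C c * A) (PowerSeries.C c * B)
  levelOne : ∀ {k : ℤ} (F : ModularForm 𝒮ℒ k),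
    Cusp2 p k (qExpansion 1 F) (stretch p (qExpansion 1 F))
  swap : ∀ {A B : PowerSeries ℂ}, Cusp2 p 2 A B →
    Cusp2 p 2 (PowerSeries.C (p : ℂ) * B) (PowerSeries.C (p : ℂ)⁻¹ * A)
  esymm : ∀ {k : ℤ} {A B : PowerSeries ℂ}, Cusp2 p k A B → ∀ i : ℕ,
    ∃ e : ModularForm 𝒮ℒ (k * i), stretch p (qExpansion 1 e) = (conjMS p A B).esymm i

/-- `q`-expansions of `E₄`, `E₆`, `Δ`. -/
def E4q : PowerSeries ℂ := qExpansion 1 ModularForm.E₄

def E6q : PowerSeries ℂ := qExpansion 1 ModularForm.E₆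

def Dq : PowerSeries ℂ := qExpansion 1 CuspForm.discriminant

/-- `Σ_{n ≥ 1} σ_k(n) q^n`. -/
def Sq (k : ℕ) : PowerSeries ℂ := PowerSeries.mk fun n => (ArithmeticFunction.sigma k n : ℂ)

/-- Elementary facts on the level one `q`-expansions. -/
structure L1Facts : Prop where
  E4q_eq : E4q = 1 + PowerSeries.C (240 : ℂ) * Sq 3
  E6q_eq : E6q = 1 - PowerSeries.C (504 : ℂ) * Sq 5
  Dq_eq : PowerSeries.C (1728 : ℂ) * Dq = E4q ^ 3 - E6q ^ 2
  Dq_int : ∀ n, ∃ z : ℤ, PowerSeries.coeff n Dq = (z : ℂ)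
  Dq_zero : PowerSeries.coeff 0 Dq = 0
  Dq_one : PowerSeries.coeff 1 Dq = 1
  wt2 : ∀ F : ModularForm 𝒮ℒ 2, F = 0
  wt4 : ∀ F : ModularForm 𝒮ℒ 4, qExpansion 1 F = PowerSeries.C ((qExpansion 1 F).coeff 0) * E4q

/-- "Sturm bound modulo an ideal" in level one: if the coefficients `a_n`, `12 n ≤ k`, of a level
one form with `ℓ`-integral coefficients lie in the ideal `I`, then all of them do. -/
def SturmStmt : Prop :=
  ∀ (ℓ : ℕ) (I : Ideal (RL ℓ)) (k : ℤ) (F : ModularForm 𝒮ℒ k) (c : ℕ → RL ℓ),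
    (∀ n, (qExpansion 1 F).coeff n = (c n : ℂ)) →
    (∀ n : ℕ, 12 * (n : ℤ) ≤ k → c n ∈ I) → ∀ n, c n ∈ I

/-- No level one form of weight `2 ℓ^a` (`ℓ ≥ 5`, `a ≥ 1`) is congruent to a nonzero constant
modulo a maximal ideal above `ℓ`. -/
def SDConstStmt : Prop :=
  ∀ (ℓ : ℕ), ℓ.Prime → 5 ≤ ℓ → ∀ (𝔪 : Ideal (RL ℓ)), 𝔪.IsMaximal → ((ℓ : ℕ) : RL ℓ) ∈ 𝔪 →
    ∀ (a : ℕ), 1 ≤ a → ∀ (k : ℤ), k = 2 * (ℓ : ℤ) ^ a →
    ∀ (e : ModularForm 𝒮ℒ k) (c : ℕ → RL ℓ),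
      (∀ n, (qExpansion 1 e).coeff n = (c n : ℂ)) → (∀ n, 1 ≤ n → c n ∈ 𝔪) → c 0 ∈ 𝔪

/-- The generator `T_ℓ` (`ℓ ≠ p`) resp. `U_p` of the Hecke algebra, as an endomorphism. -/
def heckeTop (p : ℕ) [NeZero p] (ℓ : Nat.Primes) : Module.End ℂ (CuspForm (Gamma0 p) 2) :=
  ((heckeFormsGen p 2 ℓ : heckeAlgebra p 2 ∅) : Module.End ℂ (CuspForm (Gamma0 p) 2))

/-- Transfer description of the Hecke operator at `ℓ` on periods: there are maps
`k i : Γ₀(p) → Γ₀(p)` (the "transfer" elements `δ_i γ = k_i(γ) δ_{σ(i)}`) computing the periods of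
`T f`, and the product of the lower right entries of the `k i γ` is `d(γ)^{e_ℓ}` mod `p`. -/
def TransferStmt (p : ℕ) [NeZero p] (ℓ : Nat.Primes) : Prop :=
  ∃ (m : ℕ) (k : Fin m → Gamma0 p → Gamma0 p),
    (∀ (f g : CuspForm (Gamma0 p) 2) (γ : Gamma0 p),
      periodHomPair p (heckeTop p ℓ f, heckeTop p ℓ g) (Additive.ofMul γ)
        = ∑ i, periodHomPair p (f, g) (Additive.ofMul (k i γ))) ∧
    (∀ γ : Gamma0 p, ∏ i, Gamma0Map p (k i γ)
        = Gamma0Map p γ ^ (eisensteinSystem p ℓ).toNat)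

end

end Fermat.Agent.S16
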