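/-
S16 project: interface for the integral lifting of characters of `Γ₀(p)` (lower bound side).
-/
import Fermat.Agent.S16.Defs

set_option autoImplicit false

namespace Fermat.Agent.S16

open CongruenceSubgroup
open scoped MatrixGroups

/-- Integral lifting: a character `φ : Γ₀(p) → ℤ/n` killing all elements with `trace² ≤ 4`
(elliptic and parabolic elements, `± 1`) is the reduction of a homomorphism `ψ : Γ₀(p) → ℤ`
killing all elements with `trace² = 4`. -/
def LiftStmt (p : ℕ) : Prop :=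
  ∀ (n : ℕ) [NeZero n] (φ : Additive (Gamma0 p) →+ ZMod n),
    (∀ γ : Gamma0 p, (((γ : SL(2, ℤ)) : Matrix (Fin 2) (Fin 2) ℤ).trace) ^ 2 ≤ 4 →
      φ (Additive.ofMul γ) = 0) →
    ∃ ψ : Additive (Gamma0 p) →+ ℤ,
      (∀ γ : Gamma0 p, (((γ : SL(2, ℤ)) : Matrix (Fin 2) (Fin 2) ℤ).trace) ^ 2 = 4 →
        ψ (Additive.ofMul γ) = 0) ∧
      ∀ γ : Gamma0 p, ((ψ (Additive.ofMul γ) : ℤ) : ZMod n) = φ (Additive.ofMul γ)

end Fermat.Agent.S16
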