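/-
S16 project, lower bound (LB-2), part 3: `FreeProd.lift : LiftStmt p`.
-/
import Mathlib
import Fermat.Agent.S16.FreeProdCoc
import Fermat.Agent.S16.LiftIface
import Fermat.Agent.ES.ParabolicDim
import Fermat.Agent.ES.Cocycle
import Fermat.Agent.ES.Prim

set_option autoImplicit false

/-!
# Integral lifting of characters of `Γ₀(p)` killing elliptic and parabolic elements
-/

namespace Fermat.Agent.S16.FreeProd

open scoped MatrixGroups
open ModularGroup CongruenceSubgroup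
open Fermat.Agent.S24 (X0)
open Fermat.Agent.ES.ParabolicDim (cocElt coe_cocElt coe_cocElt_of_smul_eq cocElt_mul
  neg_one_smul_X0 trace_cocElt)

section Base

theorem coc_base_add {G : Type*} [Group G] (Γ : Subgroup G) {A : Type*} [AddCommGroup A]
    (φ : Additive Γ →+ A) (γ : Γ) :
    φ (Additive.ofMul (cocElt Γ (γ : G) ((1 : G) : G ⧸ Γ))) = φ (Additive.ofMul γ) := by
  have hx : (γ : G) • (((1 : G) : G ⧸ Γ)) = ((1 : G) : G ⧸ Γ) := by
    rw [MulAction.Quotient.smul_mk, smul_eq_mul, mul_one, QuotientGroup.eq, mul_one]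
    exact Γ.inv_mem γ.2
  have hout : (Quotient.out (((1 : G) : G ⧸ Γ))) ∈ Γ := by
    have := QuotientGroup.out_eq' (((1 : G) : G ⧸ Γ))
    rw [QuotientGroup.eq] at this
    simpa using Γ.inv_mem this
  set δ : Γ := ⟨_, hout⟩ with hδ
  have hc : cocElt Γ (γ : G) ((1 : G) : G ⧸ Γ) = δ⁻¹ * (γ * δ) := by
    apply Subtype.ext
    rw [coe_cocElt_of_smul_eq Γ _ _ hx]
    rfl
  rw [hc, ofMul_mul, ofMul_mul, ofMul_inv, map_add, map_add, map_neg]
  abel

end Base

section Sums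

theorem sum_eq_zero_of_two {X : Type*} [Fintype X] (σ : Equiv.Perm X) (a : X → ℤ)
    (h : ∀ x, a x + a (σ x) = 0) : ∑ x, a x = 0 := by
  have h1 : ∑ x, a (σ x) = ∑ x, a x := Equiv.sum_comp σ a
  have h2 : ∑ x, (a x + a (σ x)) = 0 := Finset.sum_eq_zero (fun x _ => h x)
  rw [Finset.sum_add_distrib, h1] at h2
  omega

theorem sum_eq_zero_of_three {X : Type*} [Fintype X] (σ : Equiv.Perm X) (b : X → ℤ)
    (h : ∀ x, b x + b (σ x) + b (σ (σ x)) = 0) : ∑ x, b x = 0 := by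
  have h1 : ∑ x, b (σ x) = ∑ x, b x := Equiv.sum_comp σ b
  have h1' : ∑ x, b (σ (σ x)) = ∑ x, b x :=
    (Equiv.sum_comp σ (fun x => b (σ x))).trans h1
  have h2 : ∑ x, (b x + b (σ x) + b (σ (σ x))) = 0 := Finset.sum_eq_zero (fun x _ => h x)
  rw [Finset.sum_add_distrib, Finset.sum_add_distrib, h1, h1'] at h2
  omega

end Sums

section LiftComb

theorem lift_two {X : Type*} [Countable X] (n : ℕ) [NeZero n] (s : X → X)
    (hs : ∀ x, s (s x) = x) (a0 : X → ZMod n) (h1 : ∀ x, a0 x + a0 (s x) = 0)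
    (h0 : ∀ x, s x = x → a0 x = 0) :
    ∃ a : X → ℤ, (∀ x, a x + a (s x) = 0) ∧ ∀ x, ((a x : ℤ) : ZMod n) = a0 x := by
  obtain ⟨r, hr⟩ := exists_injective_nat X
  have hval : ∀ z : ZMod n, (((z.val : ℕ) : ℤ) : ZMod n) = z := fun z => by
    rw [Int.cast_natCast, ZMod.natCast_zmod_val]
  refine ⟨fun x => if r x ≤ r (s x) then ((a0 x).val : ℤ) else -((a0 (s x)).val : ℤ),
    fun x => ?_, fun x => ?_⟩
  · show (if r x ≤ r (s x) then ((a0 x).val : ℤ) else -((a0 (s x)).val : ℤ))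
      + (if r (s x) ≤ r (s (s x)) then ((a0 (s x)).val : ℤ) else -((a0 (s (s x))).val : ℤ)) = 0
    rw [hs]
    by_cases hx : s x = x
    · rw [hx, h0 x hx, ZMod.val_zero]
      simp
    · have hne : r x ≠ r (s x) := fun h => hx (hr h).symm
      split_ifs with h2 h3 h3
      · omega
      · ring
      · ring
      · omega
  · show (((if r x ≤ r (s x) then ((a0 x).val : ℤ) else -((a0 (s x)).val : ℤ)) : ℤ) : ZMod n)
      = a0 x
    split_ifs
    · exact hval _
    · rw [Int.cast_neg, hval]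
      exact neg_eq_of_add_eq_zero_left (h1 x)

theorem lift_three {X : Type*} [Countable X] (n : ℕ) [NeZero n] (u : X → X)
    (hu : ∀ x, u (u (u x)) = x) (b0 : X → ZMod n)
    (h1 : ∀ x, b0 x + b0 (u x) + b0 (u (u x)) = 0) (h0 : ∀ x, u x = x → b0 x = 0) :
    ∃ b : X → ℤ, (∀ x, b x + b (u x) + b (u (u x)) = 0) ∧
      ∀ x, ((b x : ℤ) : ZMod n) = b0 x := by
  obtain ⟨r, hr⟩ := exists_injective_nat X
  have hval : ∀ z : ZMod n, (((z.val : ℕ) : ℤ) : ZMod n) = z := fun z => by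
    rw [Int.cast_natCast, ZMod.natCast_zmod_val]
  refine ⟨fun x => if r x ≤ r (u x) ∧ r x ≤ r (u (u x)) then
      -((b0 (u x)).val : ℤ) - ((b0 (u (u x))).val : ℤ) else ((b0 x).val : ℤ),
    fun x => ?_, fun x => ?_⟩
  · show (if r x ≤ r (u x) ∧ r x ≤ r (u (u x)) then
          -((b0 (u x)).val : ℤ) - ((b0 (u (u x))).val : ℤ) else ((b0 x).val : ℤ))
      + (if r (u x) ≤ r (u (u x)) ∧ r (u x) ≤ r (u (u (u x))) then
          -((b0 (u (u x))).val : ℤ) - ((b0 (u (u (u x)))).val : ℤ) else ((b0 (u x)).val : ℤ))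
      + (if r (u (u x)) ≤ r (u (u (u x))) ∧ r (u (u x)) ≤ r (u (u (u (u x)))) then
          -((b0 (u (u (u x)))).val : ℤ) - ((b0 (u (u (u (u x))))).val : ℤ)
          else ((b0 (u (u x))).val : ℤ)) = 0
    rw [hu]
    by_cases hx : u x = x
    · rw [hx, hx, h0 x hx, ZMod.val_zero]
      simp
    · have hne1 : r x ≠ r (u x) := fun h => hx (hr h).symm
      have hne2 : r (u x) ≠ r (u (u x)) := fun h => hx (by
        have h' := congrArg u (congrArg u (hr h))
        rw [hu] at h'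
        exact h'.symm)
      have hne3 : r x ≠ r (u (u x)) := fun h => hx (by
        have h' := congrArg u (hr h)
        rw [hu] at h'
        exact h')
      split_ifs <;> omega
  · show (((if r x ≤ r (u x) ∧ r x ≤ r (u (u x)) then
          -((b0 (u x)).val : ℤ) - ((b0 (u (u x))).val : ℤ) else ((b0 x).val : ℤ)) : ℤ) : ZMod n)
      = b0 x
    split_ifs
    · rw [Int.cast_sub, Int.cast_neg, hval, hval]
      linear_combination -(h1 x)
    · exact hval _

end LiftComb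

section Abstract

variable {X : Type*} [MulAction SL(2, ℤ) X]

/-- **Integral lifting of cocycles.** -/
theorem exists_integral_cocycle [Finite X] (n : ℕ) [NeZero n]
    (hneg : ∀ x : X, (-1 : SL(2, ℤ)) • x = x) (x₀ : X) (q : ℕ) (hq : 0 < q)
    (hS₀ : S • x₀ ≠ x₀) (hT₀ : T • x₀ = x₀) (hTq : ∀ x : X, T ^ q • x = x)
    (horb : ∀ x : X, x ≠ x₀ → ∃ j : ℕ, x = T ^ j • S • x₀)
    (hdvd : ∀ k : ℤ, T ^ k • S • x₀ = S • x₀ → (q : ℤ) ∣ k)
    (c' : SL(2, ℤ) → X → ZMod n) (hc' : ∀ g h x, c' (g * h) x = c' g (h • x) + c' h x)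
    (hc'neg : ∀ x, c' (-1) x = 0)
    (hc'S : ∀ x, S • x = x → c' S x = 0) (hc'U : ∀ x, (S * T) • x = x → c' (S * T) x = 0)
    (hc'T : c' T x₀ = 0) :
    ∃ c : SL(2, ℤ) → X → ℤ, (∀ g h x, c (g * h) x = c g (h • x) + c h x) ∧
      (∀ g x, ((c g x : ℤ) : ZMod n) = c' g x) ∧ (∀ x, c (-1) x = 0) ∧
      ∀ (k : ℤ) (y : X), T ^ k • y = y → c (T ^ k) y = 0 := by
  classical
  have := Fintype.ofFinite X
  have hS2 : ∀ x : X, S • S • x = x := fun x => by
    rw [← mul_smul, ← pow_two, S_sq_eq, hneg]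
  have hU3 : ∀ x : X, (S * T) • (S * T) • (S * T) • x = x := fun x => by
    rw [← mul_smul, ← mul_smul, ← pow_two, ← pow_succ, U_cube_eq, hneg]
  have ha' : ∀ x, c' S x + c' S (S • x) = 0 := fun x => by
    have h := hc' S S x
    rw [← pow_two, S_sq_eq, hc'neg] at h
    rw [add_comm]
    exact h.symm
  have hb' : ∀ x, c' (S * T) x + c' (S * T) ((S * T) • x)
      + c' (S * T) ((S * T) • (S * T) • x) = 0 := fun x => by
    have h := hc' (S * T) ((S * T) * (S * T)) x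
    have h2 := hc' (S * T) (S * T) x
    have h3 : (S * T) * ((S * T) * (S * T)) = (-1 : SL(2, ℤ)) := by
      rw [← pow_two, ← pow_succ', U_cube_eq]
    rw [h3, hc'neg, h2, mul_smul] at h
    rw [h]
    abel
  obtain ⟨a, ha, har⟩ := lift_two n (fun x : X => S • x) hS2 (c' S) ha' hc'S
  obtain ⟨b, hb, hbr⟩ := lift_three n (fun x : X => (S * T) • x) hU3 (c' (S * T)) hb' hc'U
  -- correction at the base point
  set m : ℤ := b x₀ - a x₀ with hm
  have hm0 : ((m : ℤ) : ZMod n) = 0 := by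
    have h := coc_T c' hc' x₀
    rw [hT₀, hc'T] at h
    rw [hm, Int.cast_sub, har, hbr, h]
    abel
  let a2 : X → ℤ := fun x =>
    a x + m * ((if x = x₀ then 1 else 0) - (if x = S • x₀ then 1 else 0))
  have ha2 : ∀ x, a2 x + a2 (S • x) = 0 := by
    intro x
    have e1 : (S • x = x₀) ↔ (x = S • x₀) :=
      ⟨fun h => by rw [← h, hS2], fun h => by rw [h, hS2]⟩
    have e2 : (S • x = S • x₀) ↔ (x = x₀) :=
      ⟨fun h => smul_left_cancel _ h, fun h => by rw [h]⟩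
    have h := ha x
    simp only [a2, e1, e2]
    split_ifs <;> linarith
  have ha2r : ∀ x, ((a2 x : ℤ) : ZMod n) = c' S x := by
    intro x
    simp only [a2]
    rw [Int.cast_add, Int.cast_mul, hm0, zero_mul, add_zero, har]
  have ha2x₀ : a2 x₀ = a x₀ + m := by
    show a x₀ + m * ((if x₀ = x₀ then 1 else 0) - (if x₀ = S • x₀ then 1 else 0)) = a x₀ + m
    rw [if_pos rfl, if_neg (fun h => hS₀ h.symm)]
    ring
  obtain ⟨c, hc, hcS, hcU⟩ := exists_cocycle hneg a2 b ha2 hb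
  have hcneg : ∀ x, c (-1) x = 0 := by
    intro x
    have h := hc S S x
    rw [← pow_two, S_sq_eq, hcS] at h
    rw [h, add_comm]
    exact ha2 x
  have hcT : ∀ x, c T x = -a2 (T • x) + b x := by
    intro x
    rw [coc_T c hc, hcS, hcU]
  have hcT₀ : c T x₀ = 0 := by
    rw [hcT, hT₀, ha2x₀, hm]
    ring
  have hsum_a : ∑ x, a2 x = 0 := sum_eq_zero_of_two (MulAction.toPerm S) a2 ha2
  have hsum_b : ∑ x, b x = 0 := sum_eq_zero_of_three (MulAction.toPerm (S * T)) b hb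
  have hsum_T : ∑ x, c T x = 0 := by
    simp_rw [hcT]
    rw [Finset.sum_add_distrib, Finset.sum_neg_distrib, hsum_b, add_zero, neg_eq_zero]
    exact (Equiv.sum_comp (MulAction.toPerm T) a2).trans hsum_a
  -- powers of `T` fix the base point
  have hTpow₀ : ∀ i : ℕ, T ^ i • x₀ = x₀ := by
    intro i
    induction i with
    | zero => rw [pow_zero, one_smul]
    | succ i ih => rw [pow_succ, mul_smul, hT₀, ih]
  have hTqpow : ∀ (i : ℕ) (x : X), (T ^ q) ^ i • x = x := by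
    intro i x
    induction i with
    | zero => rw [pow_zero, one_smul]
    | succ i ih => rw [pow_succ, mul_smul, hTq, ih]
  -- the big `T`-orbit
  have hTq_y : c (T ^ q) (S • x₀) = 0 := by
    rw [coc_pow_sum c hc]
    have himg : (Finset.range q).image (fun i => T ^ i • S • x₀) = Finset.univ.erase x₀ := by
      ext x
      simp only [Finset.mem_image, Finset.mem_range, Finset.mem_erase, Finset.mem_univ,
        and_true]
      constructor
      · rintro ⟨i, _, rfl⟩ h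
        apply hS₀
        have h' : S • x₀ = (T ^ i)⁻¹ • x₀ := eq_inv_smul_iff.mpr h
        rw [h', inv_smul_eq_iff, hTpow₀]
      · intro hx
        obtain ⟨j, rfl⟩ := horb x hx
        refine ⟨j % q, Nat.mod_lt _ hq, ?_⟩
        conv_rhs => rw [← Nat.mod_add_div j q, pow_add, pow_mul, mul_smul, hTqpow]
    have hinj : Set.InjOn (fun i => T ^ i • S • x₀) (Finset.range q : Set ℕ) := by
      intro i hi j hj hij
      have hi' : i < q := Finset.mem_range.mp hi
      have hj' : j < q := Finset.mem_range.mp hj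
      have h1 : T ^ ((i : ℤ) - j) • S • x₀ = S • x₀ := by
        have e : (T : SL(2, ℤ)) ^ ((i : ℤ) - j) = (T ^ j)⁻¹ * T ^ i := by
          rw [sub_eq_neg_add, zpow_add, zpow_neg, zpow_natCast, zpow_natCast]
        rw [e, mul_smul, inv_smul_eq_iff]
        exact hij
      have h2 : (i : ℤ) - j = 0 :=
        Int.eq_zero_of_abs_lt_dvd (hdvd _ h1) (by rw [abs_lt]; constructor <;> omega)
      omega
    rw [← Finset.sum_image (f := fun x => c T x) hinj, himg,
      Finset.sum_erase_eq_sub (Finset.mem_univ x₀), hsum_T, hcT₀, sub_zero]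
  refine ⟨c, hc, ?_, hcneg, ?_⟩
  · intro g x
    exact coc_map_eq (Int.castAddHom (ZMod n)) c hc c' hc'
      (fun x => by rw [hcS]; exact ha2r x) (fun x => by rw [hcU]; exact hbr x) g x
  · intro k y hy
    by_cases hyx : y = x₀
    · rw [hyx, coc_zpow_of_fixed c hc T x₀ hT₀ k, hcT₀, smul_zero]
    · obtain ⟨j, rfl⟩ := horb y hyx
      have h1 : T ^ k • S • x₀ = S • x₀ := by
        have e : (T : SL(2, ℤ)) ^ k = (T ^ j)⁻¹ * (T ^ k * T ^ j) := by
          rw [← zpow_natCast, ← zpow_neg, ← zpow_add, ← zpow_add]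
          congr 1
          ring
        rw [e, mul_smul, mul_smul, inv_smul_eq_iff]
        exact hy
      obtain ⟨d, rfl⟩ := hdvd k h1
      rw [zpow_mul, zpow_natCast, coc_zpow_of_fixed c hc (T ^ q) _ (hTq _) d]
      have h2 : c (T ^ q) (T ^ j • S • x₀) = c (T ^ q) (S • x₀) := by
        have h := coc_conj_of_fixed c hc (T ^ j) (T ^ q) (S • x₀) (hTq _)
        rwa [show T ^ j * T ^ q * (T ^ j)⁻¹ = T ^ q from by
          rw [← pow_add, add_comm, pow_add, mul_inv_cancel_right]] at h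
      rw [h2, hTq_y, smul_zero]

end Abstract

section Gamma0

variable (p : ℕ) [Fact p.Prime]

theorem smul_base_eq_iff (g : SL(2, ℤ)) :
    g • ((1 : SL(2, ℤ)) : X0 p) = ((1 : SL(2, ℤ)) : X0 p)
      ↔ ((g 1 0 : ℤ) : ZMod p) = 0 := by
  rw [MulAction.Quotient.smul_mk, smul_eq_mul, mul_one, QuotientGroup.eq, mul_one,
    Subgroup.inv_mem_iff, Gamma0_mem]

theorem S_smul_ne : S • ((1 : SL(2, ℤ)) : X0 p) ≠ ((1 : SL(2, ℤ)) : X0 p) := by
  rw [Ne, smul_base_eq_iff]
  have : Fact (1 < p) := ⟨(Fact.out : p.Prime).one_lt⟩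
  simp [ModularGroup.S]

theorem T_smul_base : T • ((1 : SL(2, ℤ)) : X0 p) = ((1 : SL(2, ℤ)) : X0 p) := by
  rw [smul_base_eq_iff]
  simp [ModularGroup.T]

theorem dvd_of_T_zpow (k : ℤ)
    (h : T ^ k • S • ((1 : SL(2, ℤ)) : X0 p) = S • ((1 : SL(2, ℤ)) : X0 p)) : (p : ℤ) ∣ k := by
  have h2 : (S⁻¹ * T ^ k * S) • ((1 : SL(2, ℤ)) : X0 p) = ((1 : SL(2, ℤ)) : X0 p) := by
    rw [mul_smul, mul_smul, inv_smul_eq_iff]
    exact h
  rw [smul_base_eq_iff] at h2
  have e : ((S⁻¹ * T ^ k * S : SL(2, ℤ)) 1 0 : ℤ) = -k := by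
    rw [Matrix.SpecialLinearGroup.coe_mul, Matrix.SpecialLinearGroup.coe_mul, coe_T_zpow,
      Matrix.SpecialLinearGroup.coe_inv, Matrix.adjugate_fin_two]
    simp [ModularGroup.S, Matrix.mul_apply, Fin.sum_univ_two]
  rw [e, ZMod.intCast_zmod_eq_zero_iff_dvd] at h2
  exact (dvd_neg.mp h2)

theorem exists_T_pow (x : X0 p) (hx : x ≠ ((1 : SL(2, ℤ)) : X0 p)) :
    ∃ j : ℕ, x = T ^ j • S • ((1 : SL(2, ℤ)) : X0 p) := by
  obtain ⟨g, rfl⟩ := QuotientGroup.mk_surjective x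
  have hg : ((g 1 0 : ℤ) : ZMod p) ≠ 0 := by
    intro h
    apply hx
    have := (smul_base_eq_iff p g).mpr h
    rwa [MulAction.Quotient.smul_mk, smul_eq_mul, mul_one] at this
  refine ⟨(((g 0 0 : ℤ) : ZMod p) * ((g 1 0 : ℤ) : ZMod p)⁻¹).val, ?_⟩
  set j : ℕ := (((g 0 0 : ℤ) : ZMod p) * ((g 1 0 : ℤ) : ZMod p)⁻¹).val with hj
  have hjc : (j : ZMod p) = ((g 0 0 : ℤ) : ZMod p) * ((g 1 0 : ℤ) : ZMod p)⁻¹ := by
    rw [hj, ZMod.natCast_zmod_val]
  rw [MulAction.Quotient.smul_mk, MulAction.Quotient.smul_mk, smul_eq_mul, smul_eq_mul, mul_one]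
  symm
  rw [QuotientGroup.eq, Gamma0_mem]
  have e : (((T ^ j * S)⁻¹ * g : SL(2, ℤ)) 1 0 : ℤ) = -(g 0 0) + j * g 1 0 := by
    rw [Matrix.SpecialLinearGroup.coe_mul, Matrix.SpecialLinearGroup.coe_inv,
      Matrix.SpecialLinearGroup.coe_mul, ← zpow_natCast, coe_T_zpow, Matrix.adjugate_fin_two]
    simp [ModularGroup.S, Matrix.mul_apply, Fin.sum_univ_two]
  rw [e]
  push_cast
  rw [hjc, mul_assoc, inv_mul_cancel₀ hg, mul_one, neg_add_cancel]

/-- **Integral lifting** (`LiftStmt`). -/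
theorem lift : LiftStmt p := by
  intro n _ φ hφ
  have : NeZero p := ⟨(Fact.out : p.Prime).ne_zero⟩
  set x₀ : X0 p := ((1 : SL(2, ℤ)) : X0 p) with hx₀
  let c' : SL(2, ℤ) → X0 p → ZMod n := fun g x => φ (Additive.ofMul (cocElt (Gamma0 p) g x))
  have hc' : ∀ g h x, c' (g * h) x = c' g (h • x) + c' h x := by
    intro g h x
    show φ _ = φ _ + φ _
    rw [cocElt_mul, ofMul_mul, map_add]
  have hfix : ∀ (g : SL(2, ℤ)) (x : X0 p), g • x = x →
      ((g : Matrix (Fin 2) (Fin 2) ℤ).trace) ^ 2 ≤ 4 → c' g x = 0 := by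
    intro g x hx htr
    apply hφ
    rw [trace_cocElt p g x hx]
    exact htr
  obtain ⟨c, hc, hcr, hcneg, hcT⟩ := exists_integral_cocycle n (neg_one_smul_X0 p) x₀ p
    (Fact.out : p.Prime).pos (S_smul_ne p) (T_smul_base p)
    (fun x => Fermat.Agent.ES.Cocycle.T_pow_smul p x) (exists_T_pow p) (dvd_of_T_zpow p) c' hc'
    (fun x => hfix (-1) x (neg_one_smul_X0 p x) (by simp))
    (fun x hx => hfix S x hx (by simp [ModularGroup.S, Matrix.trace_fin_two]))
    (fun x hx => hfix (S * T) x hx (by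
      rw [Matrix.SpecialLinearGroup.coe_mul]
      simp [ModularGroup.S, ModularGroup.T, Matrix.trace_fin_two]))
    (hfix T x₀ (T_smul_base p) (by simp [ModularGroup.T, Matrix.trace_fin_two]))
  obtain ⟨ψ, hψ⟩ := exists_hom_of_cocycle (Gamma0 p) c hc
  refine ⟨ψ, ?_, ?_⟩
  · intro γ hγ
    rw [hψ]
    obtain ⟨δ, k, h⟩ := Fermat.Agent.ES.exists_conj_T_of_trace_sq (γ : SL(2, ℤ)) hγ
    have hγx : (γ : SL(2, ℤ)) • x₀ = x₀ := by
      rw [hx₀, smul_base_eq_iff, ← Gamma0_mem]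
      exact γ.2
    set y : X0 p := δ⁻¹ • x₀ with hy
    have hxy : x₀ = δ • y := by rw [hy, smul_inv_smul]
    have hTy : T ^ k • y = y := by
      have h1 : ((γ : SL(2, ℤ)) * δ) • y = x₀ := by rw [mul_smul, ← hxy, hγx]
      have h2 : ((γ : SL(2, ℤ)) * δ) • y = δ • T ^ k • y := by
        rcases h with h | h
        · rw [h, mul_smul]
        · rw [h, ← neg_one_mul, mul_smul, neg_one_smul_X0, mul_smul]
      rw [h2] at h1
      exact (inv_smul_eq_iff.mpr h1.symm).symm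
    have hγeq : c (γ : SL(2, ℤ)) x₀ = c (δ * T ^ k * δ⁻¹) (δ • y) := by
      rcases h with h | h
      · have e : (γ : SL(2, ℤ)) = δ * T ^ k * δ⁻¹ := by rw [← h, mul_inv_cancel_right]
        rw [e, ← hxy]
      · have e : (γ : SL(2, ℤ)) = -(δ * T ^ k * δ⁻¹) := by
          rw [← neg_mul, ← h, mul_inv_cancel_right]
        rw [e, coc_neg_one_mul c hc hcneg, ← hxy]
    rw [hγeq, coc_conj_of_fixed c hc δ (T ^ k) y hTy]
    exact hcT k y hTy
  · intro γ
    rw [hψ, hcr]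
    exact coc_base_add (Gamma0 p) φ γ

end Gamma0

end Fermat.Agent.S16.FreeProd
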