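/-
S16 / P2 (Eis): the weight two Eisenstein series of level `p`,
`E(z) = (p E₂(pz) - E₂(z)) / 24`, as a modular form on `Γ₀(p)`, with its `q`-expansion
`(p - 1)/24 + Σ_{m ≥ 1} σ'(m) q^m` (`σ'(m)` = sum of the divisors of `m` prime to `p`).
Main result: `Fermat.Agent.S16.Eis.main : EisStmt p`.
-/
import Mathlib
import Fermat.Agent.S16.Defs
import Fermat.Prelude.Thm_CongruenceSubgroup_one_mem_strictPeriods_Gamma0

set_option autoImplicit false

namespace Fermat.Agent.S16.Eis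

open UpperHalfPlane CongruenceSubgroup EisensteinSeries ModularForm OnePoint
open scoped MatrixGroups ModularForm Manifold

noncomputable section

/-! ### `D₂ γ` and `E₂ ∣ γ` are bounded at `i∞` -/

theorem isBoundedAtImInfty_D2 (γ : SL(2, ℤ)) : IsBoundedAtImInfty (D2 γ) := by
  rw [UpperHalfPlane.isBoundedAtImInfty_iff]
  refine ⟨2 * Real.pi, 1, fun z hz => ?_⟩
  have hπ : (0 : ℝ) ≤ 2 * Real.pi := by positivity
  simp only [D2]
  by_cases hc : γ 1 0 = 0
  · simp [hc, hπ]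
  · have hc' : ((γ 1 0 : ℤ) : ℝ) ≠ 0 := by exact_mod_cast hc
    have hden : |((γ 1 0 : ℤ) : ℝ)| ≤ ‖denom γ z‖ := by
      have h1 : (denom γ z).im = ((γ 1 0 : ℤ) : ℝ) * z.im := by
        simp [ModularGroup.denom_apply]
      calc |((γ 1 0 : ℤ) : ℝ)| ≤ |((γ 1 0 : ℤ) : ℝ)| * z.im := by
            nlinarith [abs_nonneg ((γ 1 0 : ℤ) : ℝ)]
        _ = |(denom γ z).im| := by rw [h1, abs_mul, abs_of_pos z.im_pos]
        _ ≤ ‖denom γ z‖ := Complex.abs_im_le_norm _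
    have hpos : 0 < ‖denom γ z‖ := lt_of_lt_of_le (abs_pos.mpr hc') hden
    rw [norm_div, div_le_iff₀ hpos]
    calc ‖2 * (Real.pi : ℂ) * Complex.I * ((γ 1 0 : ℤ) : ℂ)‖
          = 2 * Real.pi * |((γ 1 0 : ℤ) : ℝ)| := by
          simp [abs_of_pos Real.pi_pos]
      _ ≤ 2 * Real.pi * ‖denom γ z‖ := by gcongr

theorem isBoundedAtImInfty_E2_slash (γ : SL(2, ℤ)) : IsBoundedAtImInfty (E2 ∣[(2 : ℤ)] γ) := by
  rw [E2_slash_action]
  exact isBoundedAtImInfty_E2.sub ((isBoundedAtImInfty_D2 γ).const_smul_left _)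

/-- `E₂` is bounded at every rational cusp. -/
theorem isBoundedAt_E2 {c : OnePoint ℝ} (hc : IsCusp c 𝒮ℒ) : c.IsBoundedAt E2 2 := by
  rw [OnePoint.isBoundedAt_iff_forall_SL2Z hc]
  exact fun γ _ => isBoundedAtImInfty_E2_slash γ

/-! ### The matrix `diag(p, 1)` -/

/-- `diag(p, 1)` with rational entries. -/
def alphaQ (p : ℕ) [NeZero p] : GL (Fin 2) ℚ :=
  Matrix.GeneralLinearGroup.mkOfDetNeZero !![(p : ℚ), 0; 0, 1]
    (by simp [Matrix.det_fin_two_of, NeZero.ne p])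

theorem heckeDiagMatrix_eq_map (p : ℕ) [NeZero p] :
    heckeDiagMatrix p = Matrix.GeneralLinearGroup.map (Rat.castHom ℝ) (alphaQ p) := by
  ext i j
  fin_cases i <;> fin_cases j <;>
    simp [heckeDiagMatrix, NeZero.ne p, alphaQ, upperTriangularGL,
      Matrix.GeneralLinearGroup.mkOfDetNeZero]

theorem isCusp_heckeDiagMatrix_smul (p : ℕ) [NeZero p] {c : OnePoint ℝ} (hc : IsCusp c 𝒮ℒ) :
    IsCusp (heckeDiagMatrix p • c) 𝒮ℒ := by
  rw [isCusp_SL2Z_iff] at hc ⊢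
  obtain ⟨c, rfl⟩ := hc
  exact ⟨alphaQ p • c, by rw [heckeDiagMatrix_eq_map, ← Rat.coe_castHom, OnePoint.map_smul]⟩

theorem isBoundedAt_E2_slash_diag (p : ℕ) [NeZero p] {c : OnePoint ℝ} (hc : IsCusp c 𝒮ℒ) :
    c.IsBoundedAt (E2 ∣[(2 : ℤ)] heckeDiagMatrix p) 2 :=
  OnePoint.IsBoundedAt.smul_iff.mp (isBoundedAt_E2 (isCusp_heckeDiagMatrix_smul p hc))

/-! ### The function `(p E₂(pz) - E₂(z)) / 24` -/

/-- The function `(p E₂(pz) - E₂(z)) / 24`. -/
def eFun (p : ℕ) : ℍ → ℂ := (24 : ℂ)⁻¹ • (E2 ∣[(2 : ℤ)] heckeDiagMatrix p - E2)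

theorem eFun_apply (p : ℕ) [NeZero p] (z : ℍ) :
    eFun p z = ((p : ℂ) * E2 (heckeDiagMatrix p • z) - E2 z) / 24 := by
  simp only [eFun, Pi.smul_apply, Pi.sub_apply, smul_eq_mul,
    slash_heckeDiagMatrix_apply 2 (NeZero.ne p)]
  norm_num
  ring

theorem mdiff_eFun (p : ℕ) : MDiff (eFun p) := by
  unfold eFun
  exact ((E2_mdifferentiable.slash 2 _).sub E2_mdifferentiable).const_smul _

theorem isBoundedAt_eFun (p : ℕ) [NeZero p] {c : OnePoint ℝ} (hc : IsCusp c 𝒮ℒ) :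
    c.IsBoundedAt (eFun p) 2 := by
  intro g hg
  have h1 := isBoundedAt_E2_slash_diag p hc g hg
  have h2 := isBoundedAt_E2 hc g hg
  have : (eFun p) ∣[(2 : ℤ)] g = (σ g (24 : ℂ)⁻¹) •
      ((E2 ∣[(2 : ℤ)] heckeDiagMatrix p) ∣[(2 : ℤ)] g - E2 ∣[(2 : ℤ)] g) := by
    rw [eFun, ModularForm.smul_slash, sub_eq_add_neg, SlashAction.add_slash,
      SlashAction.neg_slash, ← sub_eq_add_neg]
  rw [this]
  exact (h1.sub h2).const_smul_left _

/-! ### Invariance under `Γ₀(p)` -/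

/-- For `γ ∈ Γ₀(p)`, the conjugate `diag(p,1) γ diag(p,1)⁻¹ ∈ SL(2, ℤ)`. -/
def conjDiag (p : ℕ) (γ : SL(2, ℤ)) (h : (p : ℤ) ∣ γ 1 0) : SL(2, ℤ) :=
  ⟨!![γ 0 0, p * γ 0 1; γ 1 0 / p, γ 1 1], by
    obtain ⟨c, hc⟩ := h
    have hdet := γ.det_coe
    rw [Matrix.det_fin_two] at hdet
    rw [Matrix.det_fin_two_of]
    rcases eq_or_ne (p : ℤ) 0 with hp | hp
    · simp only [hp, zero_mul, Int.ediv_zero, mul_zero, sub_zero]
      rw [hc, hp, zero_mul, mul_zero, sub_zero] at hdet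
      exact hdet
    · rw [hc, Int.mul_ediv_cancel_left _ hp]
      rw [hc] at hdet
      linarith⟩

theorem conjDiag_apply (p : ℕ) (γ : SL(2, ℤ)) (h : (p : ℤ) ∣ γ 1 0) (i j : Fin 2) :
    (conjDiag p γ h) i j =
      (!![γ 0 0, p * γ 0 1; γ 1 0 / p, γ 1 1] : Matrix (Fin 2) (Fin 2) ℤ) i j := rfl

theorem diag_mul_eq (p : ℕ) [NeZero p] (γ : SL(2, ℤ)) (h : (p : ℤ) ∣ γ 1 0) :
    heckeDiagMatrix p * (γ : GL (Fin 2) ℝ)
      = (conjDiag p γ h : GL (Fin 2) ℝ) * heckeDiagMatrix p := by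
  have hc' : ((γ 1 0 / (p : ℤ) : ℤ) : ℝ) * (p : ℝ) = ((γ 1 0 : ℤ) : ℝ) := by
    obtain ⟨c, hc⟩ := h
    rw [hc, Int.mul_ediv_cancel_left _ (by exact_mod_cast NeZero.ne p)]
    push_cast; ring
  have e : ∀ (δ : SL(2, ℤ)) (i j : Fin 2),
      ((δ : GL (Fin 2) ℝ) : Matrix (Fin 2) (Fin 2) ℝ) i j = ((δ i j : ℤ) : ℝ) := by
    intro δ i j; simp
  ext i j
  simp only [Units.val_mul, Matrix.mul_apply, Fin.sum_univ_two,
    val_heckeDiagMatrix (NeZero.ne p), e, conjDiag_apply]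
  fin_cases i <;> fin_cases j <;> simp [hc', mul_comm]

theorem D2_conjDiag_slash (p : ℕ) [NeZero p] (γ : SL(2, ℤ)) (h : (p : ℤ) ∣ γ 1 0) :
    D2 (conjDiag p γ h) ∣[(2 : ℤ)] heckeDiagMatrix p = D2 γ := by
  have hc' : ((γ 1 0 / (p : ℤ) : ℤ) : ℂ) * (p : ℂ) = ((γ 1 0 : ℤ) : ℂ) := by
    obtain ⟨c, hc⟩ := h
    rw [hc, Int.mul_ediv_cancel_left _ (by exact_mod_cast NeZero.ne p)]
    push_cast; ring
  funext z
  rw [slash_heckeDiagMatrix_apply 2 (NeZero.ne p)]
  have hden : denom (conjDiag p γ h) ((heckeDiagMatrix p • z : ℍ) : ℂ) = denom γ z := by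
    rw [ModularGroup.denom_apply, ModularGroup.denom_apply,
      coe_heckeDiagMatrix_smul (NeZero.ne p)]
    simp only [conjDiag_apply, Matrix.of_apply, Matrix.cons_val', Matrix.cons_val_zero,
      Matrix.cons_val_one, Matrix.cons_val_fin_one]
    rw [← hc']
    ring
  simp only [D2, hden, conjDiag_apply, Matrix.of_apply, Matrix.cons_val', Matrix.cons_val_zero,
      Matrix.cons_val_one, Matrix.cons_val_fin_one]
  rw [← hc']
  norm_num
  ring

theorem eFun_slash (p : ℕ) [NeZero p] (γ : SL(2, ℤ)) (h : (p : ℤ) ∣ γ 1 0) :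
    eFun p ∣[(2 : ℤ)] γ = eFun p := by
  have key : (E2 ∣[(2 : ℤ)] heckeDiagMatrix p) ∣[(2 : ℤ)] γ
      = (E2 ∣[(2 : ℤ)] conjDiag p γ h) ∣[(2 : ℤ)] heckeDiagMatrix p := by
    rw [ModularForm.SL_slash, ← SlashAction.slash_mul, diag_mul_eq p γ h, SlashAction.slash_mul,
      ← ModularForm.SL_slash]
  have h2 : (E2 ∣[(2 : ℤ)] conjDiag p γ h) ∣[(2 : ℤ)] heckeDiagMatrix p
      = E2 ∣[(2 : ℤ)] heckeDiagMatrix p - (1 / (2 * riemannZeta 2)) • D2 γ := by
    rw [E2_slash_action, sub_eq_add_neg, SlashAction.add_slash, SlashAction.neg_slash,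
      ModularForm.smul_slash, σ_heckeDiagMatrix, D2_conjDiag_slash p γ h, ← sub_eq_add_neg]
    rfl
  rw [eFun, ModularForm.SL_smul_slash, sub_eq_add_neg, SlashAction.add_slash,
    SlashAction.neg_slash, key, h2, E2_slash_action]
  congr 1
  abel

/-! ### The modular form -/

/-- The weight two Eisenstein series of level `p`: `(p E₂(pz) - E₂(z)) / 24`. -/
def eis (p : ℕ) [NeZero p] : ModularForm (Gamma0 p) 2 where
  toFun := eFun p
  slash_action_eq' A hA := by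
    obtain ⟨γ, hγ, rfl⟩ := hA
    have hγ' : γ ∈ Gamma0 p := hγ
    rw [Gamma0_mem] at hγ'
    exact eFun_slash p γ ((ZMod.intCast_zmod_eq_zero_iff_dvd _ _).mp hγ')
  holo' := mdiff_eFun p
  bdd_at_cusps' hc :=
    isBoundedAt_eFun p ((Subgroup.IsArithmetic.isCusp_iff_isCusp_SL2Z _).mp hc)

theorem eis_apply (p : ℕ) [NeZero p] (z : ℍ) :
    eis p z = ((p : ℂ) * E2 (heckeDiagMatrix p • z) - E2 z) / 24 :=
  eFun_apply p z

/-! ### The divisor sum `σ'` -/

/-- `σ'(n) = σ(n) - p σ(n/p)` (second term only if `p ∣ n`). -/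
theorem sigmaP_eq (p : ℕ) (hp : p ≠ 0) (n : ℕ) :
    (sigmaP p n : ℂ) = (ArithmeticFunction.sigma 1 n : ℂ) -
      (if p ∣ n then (p : ℂ) * (ArithmeticFunction.sigma 1 (n / p) : ℂ) else 0) := by
  have h1 : ArithmeticFunction.sigma 1 n
      = sigmaP p n + ∑ d ∈ n.divisors with p ∣ d, d := by
    rw [ArithmeticFunction.sigma_one_apply, sigmaP, add_comm]
    exact (Finset.sum_filter_add_sum_filter_not n.divisors (fun d => p ∣ d) (fun d => d)).symm
  have h2 : ∑ d ∈ n.divisors with p ∣ d, d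
      = if p ∣ n then p * ArithmeticFunction.sigma 1 (n / p) else 0 := by
    split_ifs with hpn
    · rw [ArithmeticFunction.sigma_one_apply, Finset.mul_sum]
      refine Finset.sum_nbij' (fun d => d / p) (fun e => p * e) ?_ ?_ ?_ ?_ ?_
      · intro d hd
        rw [Finset.mem_filter, Nat.mem_divisors] at hd
        obtain ⟨⟨hdn, hn⟩, e, rfl⟩ := hd
        rw [Nat.mul_div_cancel_left _ (Nat.pos_of_ne_zero hp), Nat.mem_divisors]
        obtain ⟨m, rfl⟩ := hpn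
        rw [Nat.mul_div_cancel_left _ (Nat.pos_of_ne_zero hp)]
        refine ⟨(Nat.mul_dvd_mul_iff_left (Nat.pos_of_ne_zero hp)).mp hdn, ?_⟩
        rintro rfl; simp at hn
      · intro e he
        rw [Nat.mem_divisors] at he
        rw [Finset.mem_filter, Nat.mem_divisors]
        obtain ⟨m, rfl⟩ := hpn
        rw [Nat.mul_div_cancel_left _ (Nat.pos_of_ne_zero hp)] at he
        exact ⟨⟨Nat.mul_dvd_mul_left p he.1, Nat.mul_ne_zero hp he.2⟩, dvd_mul_right p e⟩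
      · intro d hd
        rw [Finset.mem_filter] at hd
        exact Nat.mul_div_cancel' hd.2
      · intro e _
        exact Nat.mul_div_cancel_left _ (Nat.pos_of_ne_zero hp)
      · intro d hd
        rw [Finset.mem_filter] at hd
        exact (Nat.mul_div_cancel' hd.2).symm
    · refine Finset.sum_eq_zero fun d hd => ?_
      rw [Finset.mem_filter, Nat.mem_divisors] at hd
      exact absurd (hd.2.trans hd.1.1) hpn
  have h3 : (ArithmeticFunction.sigma 1 n : ℂ) = (sigmaP p n : ℂ) +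
      (if p ∣ n then (p : ℂ) * (ArithmeticFunction.sigma 1 (n / p) : ℂ) else 0) := by
    rw [h1, h2]
    split_ifs <;> push_cast <;> ring
  rw [h3]; ring

/-! ### The `q`-expansion -/

/-- The coefficients of `E₂`. -/
def aE2 (m : ℕ) : ℂ := if m = 0 then 1 else -24 * (ArithmeticFunction.sigma 1 m : ℂ)

theorem hasSum_E2 (z : ℍ) :
    HasSum (fun m : ℕ => aE2 m • Function.Periodic.qParam 1 (z : ℂ) ^ m) (E2 z) := by
  simpa only [Function.Periodic.qParam, Complex.ofReal_one, div_one, aE2] using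
    hasSum_qExpansion_E2 (z := z)

theorem qParam_diag (p : ℕ) [NeZero p] (z : ℍ) :
    Function.Periodic.qParam 1 ((heckeDiagMatrix p • z : ℍ) : ℂ)
      = Function.Periodic.qParam 1 (z : ℂ) ^ p := by
  rw [coe_heckeDiagMatrix_smul (NeZero.ne p)]
  simp only [Function.Periodic.qParam, Complex.ofReal_one, div_one]
  rw [← Complex.exp_nat_mul]
  congr 1
  ring

theorem hasSum_E2_diag (p : ℕ) [NeZero p] (z : ℍ) :
    HasSum (fun n : ℕ => (if p ∣ n then aE2 (n / p) else 0) •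
        Function.Periodic.qParam 1 (z : ℂ) ^ n) (E2 (heckeDiagMatrix p • z)) := by
  have h := hasSum_E2 (heckeDiagMatrix p • z)
  rw [qParam_diag] at h
  have hinj : Function.Injective (fun m : ℕ => p * m) :=
    fun a b hab => Nat.eq_of_mul_eq_mul_left (Nat.pos_of_ne_zero (NeZero.ne p)) hab
  refine (Function.Injective.hasSum_iff hinj ?_).mp ?_
  · intro n hn
    have : ¬ p ∣ n := fun ⟨m, hm⟩ => hn ⟨m, hm.symm⟩
    simp [this]
  · convert h using 2 with m
    simp only [Function.comp_apply, dvd_mul_right, if_true,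
      Nat.mul_div_cancel_left _ (Nat.pos_of_ne_zero (NeZero.ne p)), pow_mul]

/-- The coefficients of the Eisenstein series of level `p`. -/
def cEis (p : ℕ) (n : ℕ) : ℂ := if n = 0 then ((p : ℂ) - 1) / 24 else (sigmaP p n : ℂ)

theorem cEis_eq (p : ℕ) [NeZero p] (n : ℕ) :
    cEis p n = ((p : ℂ) * (if p ∣ n then aE2 (n / p) else 0) - aE2 n) / 24 := by
  rcases Nat.eq_zero_or_pos n with rfl | hn
  · simp [cEis, aE2]
  · have hn0 : n ≠ 0 := hn.ne'
    rw [cEis, if_neg hn0, sigmaP_eq p (NeZero.ne p) n]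
    by_cases hpn : p ∣ n
    · have hnp : n / p ≠ 0 := by
        obtain ⟨m, rfl⟩ := hpn
        rw [Nat.mul_div_cancel_left _ (Nat.pos_of_ne_zero (NeZero.ne p))]
        rintro rfl; simp at hn0
      simp only [hpn, if_true, aE2, if_neg hn0, if_neg hnp]
      ring
    · simp only [hpn, if_false, aE2, if_neg hn0]
      ring

theorem hasSum_eis (p : ℕ) [NeZero p] (z : ℍ) :
    HasSum (fun n : ℕ => cEis p n • Function.Periodic.qParam 1 (z : ℂ) ^ n) (eis p z) := by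
  have h := (((hasSum_E2_diag p z).mul_left (p : ℂ)).sub (hasSum_E2 z)).div_const 24
  have hfun : (fun n : ℕ => cEis p n • Function.Periodic.qParam 1 (z : ℂ) ^ n)
      = fun i : ℕ => ((p : ℂ) * ((if p ∣ i then aE2 (i / p) else 0) •
          Function.Periodic.qParam 1 (z : ℂ) ^ i) -
          aE2 i • Function.Periodic.qParam 1 (z : ℂ) ^ i) / 24 := by
    funext n
    rw [cEis_eq]
    simp only [smul_eq_mul]
    ring
  rw [hfun, eis_apply]
  exact h

/-- **P2.** The weight two Eisenstein series of level `p`. -/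
theorem main (p : ℕ) [Fact p.Prime] : EisStmt p := by
  have : NeZero p := ⟨(Fact.out : p.Prime).ne_zero⟩
  have hcoeff : ∀ m : ℕ, cEis p m = (qExpansion 1 (eis p)).coeff m := fun m =>
    ModularFormClass.qExpansion_coeff_unique one_pos
      (CongruenceSubgroup.one_mem_strictPeriods_Gamma0 p) (f := eis p) (hasSum_eis p) m
  refine ⟨eis p, ?_, fun m hm => ?_⟩
  · rw [← hcoeff 0, cEis, if_pos rfl]
  · rw [← hcoeff m, cEis, if_neg (by omega)]

end

end Fermat.Agent.S16.Eis
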