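/-
S16 glue, pure algebra part (Mathlib only).
-/
import Mathlib

set_option autoImplicit false

namespace Fermat.Agent.S16.GlueAlg

/-- If `Φ : R → T` is surjective and `eis : R → ℤ` is a ring hom, then `T ⧸ Φ(ker eis)` is cyclic
of order `d`, where `dℤ = eis (ker Φ)` (also for `d = 0`). -/
theorem natCard_quotient_map_ker {R T : Type*} [CommRing R] [CommRing T]
    (Φ : R →+* T) (hΦ : Function.Surjective Φ) (eis : R →+* ℤ) (d : ℕ)
    (hd : ∀ k : ℤ, (∃ r : R, Φ r = 0 ∧ eis r = k) ↔ (d : ℤ) ∣ k) :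
    Nat.card (T ⧸ Ideal.map Φ (RingHom.ker eis)) = d := by
  set J : Ideal T := Ideal.map Φ (RingHom.ker eis) with hJ
  set g : ℤ →+* T ⧸ J := Int.castRingHom (T ⧸ J) with hg
  have hmem : ∀ t : T, t ∈ J ↔ ∃ r : R, eis r = 0 ∧ Φ r = t := by
    intro t
    rw [hJ, Ideal.mem_map_iff_of_surjective Φ hΦ]
    simp only [RingHom.mem_ker]
  have hsurj : Function.Surjective g := by
    intro x
    obtain ⟨t, rfl⟩ := Ideal.Quotient.mk_surjective x
    obtain ⟨r, rfl⟩ := hΦ t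
    refine ⟨eis r, ?_⟩
    rw [hg, eq_intCast, ← map_intCast (Ideal.Quotient.mk J), Ideal.Quotient.eq, hmem]
    refine ⟨((eis r : ℤ) : R) - r, ?_, ?_⟩
    · rw [map_sub, map_intCast, Int.cast_id, sub_self]
    · rw [map_sub, map_intCast]
  have hker : RingHom.ker g = Ideal.span {(d : ℤ)} := by
    ext k
    rw [RingHom.mem_ker, Ideal.mem_span_singleton, ← hd k, hg, eq_intCast,
      ← map_intCast (Ideal.Quotient.mk J), Ideal.Quotient.eq_zero_iff_mem, hmem]
    constructor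
    · rintro ⟨r, hr0, hrk⟩
      refine ⟨(k : R) - r, ?_, ?_⟩
      · rw [map_sub, map_intCast, hrk, sub_self]
      · rw [map_sub, map_intCast, hr0, sub_zero, Int.cast_id]
    · rintro ⟨r, hr0, hrk⟩
      refine ⟨(k : R) - r, ?_, ?_⟩
      · rw [map_sub, map_intCast, hrk, Int.cast_id, sub_self]
      · rw [map_sub, map_intCast, hr0, sub_zero]
  have e1 : (ℤ ⧸ RingHom.ker g) ≃+* T ⧸ J := RingHom.quotientKerEquivOfSurjective hsurj
  rw [← Nat.card_congr e1.toEquiv, hker, Nat.card_congr (Int.quotientSpanNatEquivZMod d).toEquiv,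
    Nat.card_zmod]

end Fermat.Agent.S16.GlueAlg

namespace Fermat.Agent.S16.GlueAlg

open Module in
/-- An injective linear map between free `ℤ`-modules of the same finite rank has torsion
cokernel. -/
theorem exists_nsmul_mem_range {M M' : Type*} [AddCommGroup M] [AddCommGroup M']
    [Module.Finite ℤ M] [Module.Free ℤ M] [Module.Finite ℤ M'] [Module.Free ℤ M']
    (ι : M →ₗ[ℤ] M') (hι : Function.Injective ι) (hrk : finrank ℤ M' ≤ finrank ℤ M) (x : M') :
    ∃ N : ℤ, N ≠ 0 ∧ ∃ y : M, ι y = N • x := by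
  have h1 : finrank ℤ (LinearMap.range ι) = finrank ℤ M' :=
    le_antisymm (Submodule.finrank_le _) (by rw [LinearMap.finrank_range_of_inj hι]; exact hrk)
  have hfin : Finite (M' ⧸ LinearMap.range ι) := Submodule.finiteQuotientOfFreeOfRankEq _ h1
  have hfin' : Finite (M' ⧸ (LinearMap.range ι).toAddSubgroup) := hfin
  have h2 : (LinearMap.range ι).toAddSubgroup.index ≠ 0 := AddSubgroup.index_ne_zero_of_finite
  have h3 := AddSubgroup.nsmul_index_mem (LinearMap.range ι).toAddSubgroup x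
  obtain ⟨y, hy⟩ := h3
  exact ⟨((LinearMap.range ι).toAddSubgroup.index : ℤ), by exact_mod_cast h2, y,
    by rw [hy, natCast_zsmul]⟩

open Module in
/-- Abstract `q`-expansion duality: `L ≃ Hom_ℤ(𝕋, ℤ)` via `(T, f) ↦ a₁(T f)`. -/
theorem exists_repr {L 𝕋 : Type*} [AddCommGroup L] [Module.Finite ℤ L] [Module.Free ℤ L]
    [CommRing 𝕋] [Module.Finite ℤ 𝕋] [Module.Free ℤ 𝕋]
    (ρ : 𝕋 →+* Module.End ℤ L) (hρ : Function.Injective ρ)
    (a : ℕ → L →ₗ[ℤ] ℤ)
    (h1 : ∀ f : L, (∀ k, 0 < k → a k f = 0) → f = 0)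
    (h2 : ∀ k, 0 < k → ∃ T : 𝕋, ∀ f, a k f = a 1 (ρ T f))
    (h3 : ∀ (f : L) (N : ℤ), N ≠ 0 → (∀ k, 0 < k → N ∣ a k f) → ∃ g : L, f = N • g)
    (ψ : 𝕋 →ₗ[ℤ] ℤ) : ∃ f : L, ∀ T, a 1 (ρ T f) = ψ T := by
  -- the pairing
  let κ₀ : 𝕋 →+ (L →ₗ[ℤ] ℤ) :=
    { toFun := fun T => (a 1).comp (ρ T)
      map_zero' := by rw [map_zero, LinearMap.comp_zero]
      map_add' := fun S T => by rw [map_add, LinearMap.comp_add] }
  let κ : 𝕋 →ₗ[ℤ] (L →ₗ[ℤ] ℤ) := κ₀.toIntLinearMap
  let ι : L →ₗ[ℤ] (𝕋 →ₗ[ℤ] ℤ) := κ.flip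
  have hκ : ∀ T f, κ T f = a 1 (ρ T f) := fun T f => rfl
  have hι : ∀ f T, ι f T = a 1 (ρ T f) := fun f T => rfl
  have hιinj : Function.Injective ι := by
    rw [injective_iff_map_eq_zero]
    intro f hf
    refine h1 f fun k hk => ?_
    obtain ⟨T, hT⟩ := h2 k hk
    rw [hT, ← hι, hf, LinearMap.zero_apply]
  have hκinj : Function.Injective κ := by
    rw [injective_iff_map_eq_zero]
    intro T hT
    apply hρ
    rw [map_zero]
    refine LinearMap.ext fun f => ?_
    rw [LinearMap.zero_apply]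
    refine h1 _ fun k hk => ?_
    obtain ⟨S, hS⟩ := h2 k hk
    rw [hS, ← Module.End.mul_apply, ← map_mul, mul_comm, map_mul, Module.End.mul_apply, ← hκ, hT,
      LinearMap.zero_apply]
  have hrk : finrank ℤ (𝕋 →ₗ[ℤ] ℤ) ≤ finrank ℤ L := by
    rw [Module.finrank_linearMap_self]
    calc finrank ℤ 𝕋 ≤ finrank ℤ (L →ₗ[ℤ] ℤ) := LinearMap.finrank_le_finrank_of_injective hκinj
      _ = finrank ℤ L := Module.finrank_linearMap_self ℤ ℤ L
  obtain ⟨N, hN, f, hf⟩ := exists_nsmul_mem_range ι hιinj hrk ψ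
  obtain ⟨g, hg⟩ := h3 f N hN fun k hk => by
    obtain ⟨T, hT⟩ := h2 k hk
    rw [hT, ← hι, hf, LinearMap.smul_apply, smul_eq_mul]
    exact dvd_mul_right _ _
  refine ⟨g, fun T => ?_⟩
  have h4 : N • ι g = N • ψ := by rw [← map_smul, ← hg, hf]
  have h5 : ι g = ψ := by
    refine LinearMap.ext fun T => ?_
    have h6 := congrArg (fun φ : 𝕋 →ₗ[ℤ] ℤ => φ T) h4
    simp only [LinearMap.smul_apply, smul_eq_mul] at h6
    exact mul_left_cancel₀ hN h6
  rw [← hι, h5]

/-- Lifting an additive map to `ZMod d` from a free `ℤ`-module. -/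
theorem exists_lift_zmod {M : Type*} [AddCommGroup M] [Module.Free ℤ M] (d : ℕ)
    (χ : M →+ ZMod d) : ∃ ψ : M →ₗ[ℤ] ℤ, ∀ x, ((ψ x : ℤ) : ZMod d) = χ x := by
  classical
  let b := Module.Free.chooseBasis ℤ M
  have hsurj : ∀ i, ∃ n : ℤ, (n : ZMod d) = χ (b i) := fun i => ZMod.intCast_surjective _
  choose c hc using hsurj
  refine ⟨b.constr ℤ c, fun x => ?_⟩
  have key : ((Int.castAddHom (ZMod d)).comp (b.constr ℤ c).toAddMonoidHom).toIntLinearMap =
      χ.toIntLinearMap := by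
    refine b.ext fun i => ?_
    simp [hc]
  exact congrArg (fun φ : M →ₗ[ℤ] ZMod d => φ x) key

/-- Two sequences satisfying the Eisenstein recurrences at level `p` agree. -/
theorem eq_of_recurrence {A : Type*} [CommRing A] (p : ℕ) (c s : ℕ → A) (h1 : c 1 = s 1)
    (hc : ∀ ℓ : ℕ, ℓ.Prime → ℓ ≠ p → ∀ k, 0 < k →
      c (k * ℓ) + (if ℓ ∣ k then (ℓ : A) * c (k / ℓ) else 0) = (1 + ℓ) * c k)
    (hcp : ∀ k, 0 < k → c (k * p) = c k)
    (hs : ∀ ℓ : ℕ, ℓ.Prime → ℓ ≠ p → ∀ k, 0 < k →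
      s (k * ℓ) + (if ℓ ∣ k then (ℓ : A) * s (k / ℓ) else 0) = (1 + ℓ) * s k)
    (hsp : ∀ k, 0 < k → s (k * p) = s k) :
    ∀ k, 0 < k → c k = s k := by
  intro k
  induction k using Nat.strong_induction_on with
  | _ n ih =>
    intro hn
    rcases Nat.lt_or_ge n 2 with hn2 | hn2
    · obtain rfl : n = 1 := by omega
      exact h1
    · have hn1 : n ≠ 1 := by omega
      have hq : (n.minFac).Prime := Nat.minFac_prime hn1
      set q := n.minFac with hqdef
      obtain ⟨m, hm⟩ : q ∣ n := Nat.minFac_dvd n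
      have hm' : n = m * q := by rw [hm, mul_comm]
      have hmpos : 0 < m := by
        rcases Nat.eq_zero_or_pos m with h | h
        · rw [h, zero_mul] at hm'; omega
        · exact h
      have hmlt : m < n := by
        rw [hm']
        exact lt_mul_of_one_lt_right hmpos hq.one_lt
      by_cases hqp : q = p
      · rw [hm', hqp, hcp m hmpos, hsp m hmpos]
        exact ih m hmlt hmpos
      · have e1 := hc q hq hqp m hmpos
        have e2 := hs q hq hqp m hmpos
        rw [← hm'] at e1 e2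
        have e3 := ih m hmlt hmpos
        by_cases hqm : q ∣ m
        · have hlt2 : m / q < n := lt_of_le_of_lt (Nat.div_le_self m q) hmlt
          have hpos2 : 0 < m / q := Nat.div_pos (Nat.le_of_dvd hmpos hqm) hq.pos
          have e4 := ih (m / q) hlt2 hpos2
          rw [if_pos hqm] at e1 e2
          rw [e3, e4] at e1
          exact add_right_cancel (e1.trans e2.symm)
        · rw [if_neg hqm, add_zero] at e1 e2
          rw [e1, e2, e3]

end Fermat.Agent.S16.GlueAlg
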