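/-
S16 glue: the coefficients of the weight 2 Eisenstein series of level `p` and their Hecke
recurrences (Mathlib only).
-/
import Mathlib

set_option autoImplicit false

namespace Fermat.Agent.S16.GlueSigma

local notation "σ₁" => ArithmeticFunction.sigma 1

/-- Geometric sums: `G (j+1) = 1 + ℓ * G j`. -/
theorem geom_succ' (ℓ j : ℕ) :
    ∑ i ∈ Finset.range (j + 2), ℓ ^ i = 1 + ℓ * ∑ i ∈ Finset.range (j + 1), ℓ ^ i := by
  rw [Finset.sum_range_succ', Finset.mul_sum, pow_zero, add_comm]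
  congr 1
  exact Finset.sum_congr rfl fun i _ => by rw [pow_succ, mul_comm]

/-- The Hecke relation for `σ`: `σ(kℓ) + [ℓ ∣ k] ℓ σ(k/ℓ) = (1 + ℓ) σ(k)`. -/
theorem sigma_hecke {ℓ : ℕ} (hℓ : ℓ.Prime) {k : ℕ} (hk : 0 < k) :
    σ₁ (k * ℓ) + (if ℓ ∣ k then ℓ * σ₁ (k / ℓ) else 0) = (1 + ℓ) * σ₁ k := by
  obtain ⟨b, m, hm, rfl⟩ := Nat.exists_eq_pow_mul_and_not_dvd hk.ne' ℓ hℓ.ne_one
  have hcop : ∀ j : ℕ, Nat.Coprime (ℓ ^ j) m := fun j =>
    ((Nat.Prime.coprime_iff_not_dvd hℓ).mpr hm).pow_left j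
  have hmul : ∀ j : ℕ, σ₁ (ℓ ^ j * m) = σ₁ (ℓ ^ j) * σ₁ m := fun j =>
    ArithmeticFunction.isMultiplicative_sigma.map_mul_of_coprime (hcop j)
  have e1 : ℓ ^ b * m * ℓ = ℓ ^ (b + 1) * m := by ring
  rw [e1, hmul, hmul]
  rcases b with _ | b
  · rw [pow_zero, one_mul, if_neg hm, add_zero, zero_add,
      ArithmeticFunction.sigma_one_apply_prime_pow hℓ,
      ArithmeticFunction.isMultiplicative_sigma.map_one]
    simp [Finset.sum_range_succ]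
  · have hdvd : ℓ ∣ ℓ ^ (b + 1) * m := Dvd.dvd.mul_right (dvd_pow_self ℓ (Nat.succ_ne_zero b)) m
    have e2 : ℓ ^ (b + 1) * m / ℓ = ℓ ^ b * m := by
      rw [pow_succ, mul_assoc, mul_comm ℓ m, ← mul_assoc]
      exact Nat.mul_div_cancel _ hℓ.pos
    rw [if_pos hdvd, e2, hmul, ArithmeticFunction.sigma_one_apply_prime_pow hℓ,
      ArithmeticFunction.sigma_one_apply_prime_pow hℓ,
      ArithmeticFunction.sigma_one_apply_prime_pow hℓ, geom_succ' ℓ (b + 1), geom_succ' ℓ b]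
    ring

/-- The `k`-th `q`-coefficient (`k ≥ 1`) of the Eisenstein series of weight 2 and level `p`,
`(p E₂(pz) - E₂(z))/24 = (p-1)/24 + ∑ (σ(k) - p σ(k/p)) q^k`. -/
def eisCoeff (p k : ℕ) : ℤ :=
  (σ₁ k : ℤ) - p * (if p ∣ k then (σ₁ (k / p) : ℤ) else 0)

theorem eisCoeff_of_not_dvd {p k : ℕ} (h : ¬ p ∣ k) : eisCoeff p k = (σ₁ k : ℤ) := by
  rw [eisCoeff, if_neg h, mul_zero, sub_zero]

theorem eisCoeff_of_dvd {p k : ℕ} (h : p ∣ k) :
    eisCoeff p k = (σ₁ k : ℤ) - p * (σ₁ (k / p) : ℤ) := by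
  rw [eisCoeff, if_pos h]

theorem eisCoeff_one {p : ℕ} (hp : p.Prime) : eisCoeff p 1 = 1 := by
  rw [eisCoeff_of_not_dvd (fun hd => hp.one_lt.not_ge (Nat.le_of_dvd one_pos hd))]
  simp

theorem eisCoeff_mul_self {p : ℕ} (hp : p.Prime) {k : ℕ} (hk : 0 < k) :
    eisCoeff p (k * p) = eisCoeff p k := by
  have h := sigma_hecke hp hk
  have h' : ((σ₁ (k * p) : ℕ) : ℤ) + ((if p ∣ k then p * σ₁ (k / p) else 0 : ℕ) : ℤ) =
      (1 + p) * (σ₁ k : ℤ) := by exact_mod_cast h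
  rw [eisCoeff_of_dvd (dvd_mul_left p k), Nat.mul_div_cancel _ hp.pos, eisCoeff]
  split_ifs at h' ⊢ with hpk
  · push_cast at h'; linarith
  · push_cast at h'; linarith

theorem eisCoeff_hecke {p : ℕ} (hp : p.Prime) {ℓ : ℕ} (hℓ : ℓ.Prime) (hℓp : ℓ ≠ p) {k : ℕ}
    (hk : 0 < k) :
    eisCoeff p (k * ℓ) + (if ℓ ∣ k then (ℓ : ℤ) * eisCoeff p (k / ℓ) else 0) =
      (1 + ℓ) * eisCoeff p k := by
  have hcast : ∀ j : ℕ, 0 < j → ((σ₁ (j * ℓ) : ℕ) : ℤ) +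
      (if ℓ ∣ j then (ℓ : ℤ) * (σ₁ (j / ℓ) : ℤ) else 0) = (1 + ℓ) * (σ₁ j : ℤ) := by
    intro j hj
    have h := sigma_hecke hℓ hj
    have h' : ((σ₁ (j * ℓ) : ℕ) : ℤ) + ((if ℓ ∣ j then ℓ * σ₁ (j / ℓ) else 0 : ℕ) : ℤ) =
        (1 + ℓ) * (σ₁ j : ℤ) := by exact_mod_cast h
    split_ifs at h' ⊢ with hd
    · push_cast at h'; exact h'
    · push_cast at h'; exact h'
  have hpl : ¬ p ∣ ℓ := fun h => hℓp ((Nat.prime_dvd_prime_iff_eq hp hℓ).mp h).symm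
  have hlp : ¬ ℓ ∣ p := fun h => hℓp ((Nat.prime_dvd_prime_iff_eq hℓ hp).mp h)
  by_cases hpk : p ∣ k
  · obtain ⟨k₁, rfl⟩ := hpk
    have hk₁ : 0 < k₁ := by
      rcases Nat.eq_zero_or_pos k₁ with h | h
      · rw [h, mul_zero] at hk; exact absurd hk (lt_irrefl 0)
      · exact h
    have e1 : p * k₁ * ℓ / p = k₁ * ℓ := by rw [mul_assoc]; exact Nat.mul_div_cancel_left _ hp.pos
    have e2 : p * k₁ / p = k₁ := Nat.mul_div_cancel_left _ hp.pos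
    have hdiv : ℓ ∣ p * k₁ ↔ ℓ ∣ k₁ :=
      ⟨fun h => (hℓ.dvd_mul.mp h).resolve_left hlp, fun h => Dvd.dvd.mul_left h p⟩
    rw [eisCoeff_of_dvd (Dvd.dvd.mul_right (dvd_mul_right p k₁) ℓ), e1,
      eisCoeff_of_dvd (dvd_mul_right p k₁), e2]
    have h1 := hcast (p * k₁) hk
    have h2 := hcast k₁ hk₁
    by_cases hlk : ℓ ∣ k₁
    · obtain ⟨k₂, rfl⟩ := hlk
      have e3 : p * (ℓ * k₂) / ℓ = p * k₂ := by
        rw [mul_left_comm]; exact Nat.mul_div_cancel_left _ hℓ.pos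
      have e4 : ℓ * k₂ / ℓ = k₂ := Nat.mul_div_cancel_left _ hℓ.pos
      rw [if_pos (hdiv.mpr (dvd_mul_right ℓ k₂)), e3] at h1 ⊢
      rw [if_pos (dvd_mul_right ℓ k₂), e4] at h2
      rw [eisCoeff_of_dvd (dvd_mul_right p k₂), Nat.mul_div_cancel_left _ hp.pos]
      linear_combination h1 - (p : ℤ) * h2
    · rw [if_neg (fun h => hlk (hdiv.mp h))] at h1 ⊢
      rw [if_neg hlk] at h2
      linear_combination h1 - (p : ℤ) * h2
  · have hpkl : ¬ p ∣ k * ℓ := fun h => (hp.dvd_mul.mp h).elim hpk hpl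
    rw [eisCoeff_of_not_dvd hpkl, eisCoeff_of_not_dvd hpk]
    have h1 := hcast k hk
    by_cases hlk : ℓ ∣ k
    · have hpkl' : ¬ p ∣ k / ℓ := fun h => hpk (dvd_trans h (Nat.div_dvd_of_dvd hlk))
      rw [if_pos hlk] at h1 ⊢
      rw [eisCoeff_of_not_dvd hpkl']
      exact h1
    · rw [if_neg hlk] at h1 ⊢
      exact h1

/-- The sum of the divisors of `k` divisible by `p` is `p σ(k/p)` (resp. `0` if `p ∤ k`). -/
theorem sum_divisors_filter_dvd {p : ℕ} (hp : 0 < p) (k : ℕ) :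
    ∑ d ∈ k.divisors with p ∣ d, d = if p ∣ k then p * σ₁ (k / p) else 0 := by
  split_ifs with hpk
  · obtain ⟨k', rfl⟩ := hpk
    rw [Nat.mul_div_cancel_left _ hp, ArithmeticFunction.sigma_one_apply, Finset.mul_sum]
    rcases Nat.eq_zero_or_pos k' with rfl | hk'
    · simp
    have himg : (p * k').divisors.filter (fun d => p ∣ d) = k'.divisors.image (fun e => p * e) := by
      ext d
      simp only [Finset.mem_filter, Nat.mem_divisors, Finset.mem_image]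
      constructor
      · rintro ⟨⟨hd, -⟩, e, rfl⟩
        exact ⟨e, ⟨Nat.dvd_of_mul_dvd_mul_left hp hd, hk'.ne'⟩, rfl⟩
      · rintro ⟨e, ⟨he, -⟩, rfl⟩
        exact ⟨⟨Nat.mul_dvd_mul_left p he, (Nat.mul_pos hp hk').ne'⟩, dvd_mul_right p e⟩
    rw [himg, Finset.sum_image]
    intro a _ b _ hab
    exact Nat.eq_of_mul_eq_mul_left hp hab
  · apply Finset.sum_eq_zero
    intro d hd
    rw [Finset.mem_filter, Nat.mem_divisors] at hd
    exact absurd (dvd_trans hd.2 hd.1.1) hpk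

/-- The sum of the divisors of `k` prime to `p` is `eisCoeff p k`. -/
theorem sum_divisors_filter_not_dvd {p : ℕ} (hp : 0 < p) (k : ℕ) :
    ((∑ d ∈ k.divisors with ¬ p ∣ d, d : ℕ) : ℤ) = eisCoeff p k := by
  have h1 : ∑ d ∈ k.divisors with p ∣ d, d + ∑ d ∈ k.divisors with ¬ p ∣ d, d = σ₁ k := by
    rw [Finset.sum_filter_add_sum_filter_not, ArithmeticFunction.sigma_one_apply]
  rw [sum_divisors_filter_dvd hp] at h1
  have h2 : (((if p ∣ k then p * σ₁ (k / p) else 0) + ∑ d ∈ k.divisors with ¬ p ∣ d, d : ℕ) : ℤ)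
      = (σ₁ k : ℤ) := by exact_mod_cast h1
  rw [eisCoeff]
  split_ifs at h2 ⊢ with hpk
  · push_cast at h2 ⊢; linarith
  · push_cast at h2 ⊢; linarith

end Fermat.Agent.S16.GlueSigma
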