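/-
S16 glue: from the two arithmetic inputs (LB), (UB) to the statement.

* `𝕋_L ⧸ Φ(I) ≃ ℤ ⧸ eis(ker Φ)` (pure algebra, `GlueAlg.natCard_quotient_map_ker`);
* duality `intLattice ≃ Hom_ℤ(𝕋_L, ℤ)` via `(T, f) ↦ a₁(T f)` (`GlueAlg.exists_repr`), which turns
  a ring hom `𝕋_L → ZMod d` killing the Eisenstein ideal into a cusp form with integral
  `q`-expansion congruent to the Eisenstein series mod `d`.
-/
import Fermat.Prelude.Def_CuspForm_HeckeLocal
import Fermat.Prelude.Def_CuspForm_HeckeEvalForms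
import Fermat.Prelude.Def_HeckeGalois_EichlerShimura
import Fermat.Prelude.Def_ModularCurve_ModularUnit
import Fermat.Agent.S23
import Fermat.Agent.S16.Defs
import Fermat.Agent.S16.GlueAlg
import Fermat.Agent.S16.GlueSigma

set_option autoImplicit false

noncomputable section

namespace Fermat.Agent.S16.Glue

open CuspForm ModularFormClass ModularCurve
open Fermat.Agent.S23.BoundedDenom Fermat.Agent.S23.Reduce Fermat.Agent.S16.GlueAlg
  Fermat.Agent.S16.GlueSigma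

local notation "Γ₀(" N ")" => CongruenceSubgroup.Gamma0 N

/-- Elements of the integral lattice have integral `q`-coefficients. -/
theorem exists_int_coeff {N : ℕ} {k : ℤ} {f : CuspForm Γ₀(N) k} (hf : f ∈ intLattice N k)
    (n : ℕ) : ∃ m : ℤ, qCoeff f n = (m : ℂ) := by
  unfold intLattice at hf
  induction hf using Submodule.span_induction with
  | mem x hx => exact hx n
  | zero => exact ⟨0, by rw [← coeffLin_apply, map_zero, Int.cast_zero]⟩
  | add x y _ _ hx hy =>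
    obtain ⟨a, ha⟩ := hx
    obtain ⟨b, hb⟩ := hy
    exact ⟨a + b, by rw [← coeffLin_apply, map_add, coeffLin_apply, coeffLin_apply, ha, hb,
      Int.cast_add]⟩
  | smul c x _ hx =>
    obtain ⟨a, ha⟩ := hx
    exact ⟨c * a, by rw [← coeffLin_apply, map_zsmul, coeffLin_apply, ha, zsmul_eq_mul,
      Int.cast_mul]⟩

/-- The `n`-th `q`-coefficient of an element of the integral lattice, as an integer. -/
def aZfun (N : ℕ) (n : ℕ) (f : ↥(intLattice N 2)) : ℤ :=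
  ⌊(qCoeff (f : CuspForm Γ₀(N) 2) n).re⌋

theorem aZfun_cast (N : ℕ) (n : ℕ) (f : ↥(intLattice N 2)) :
    ((aZfun N n f : ℤ) : ℂ) = qCoeff (f : CuspForm Γ₀(N) 2) n := by
  obtain ⟨m, hm⟩ := exists_int_coeff f.2 n
  rw [aZfun, hm]
  simp

/-- The `n`-th `q`-coefficient as a `ℤ`-linear functional on the integral lattice. -/
def aZ (N : ℕ) (n : ℕ) : ↥(intLattice N 2) →ₗ[ℤ] ℤ :=
  AddMonoidHom.toIntLinearMap
    { toFun := aZfun N n
      map_zero' := by
        have h : ((aZfun N n 0 : ℤ) : ℂ) = ((0 : ℤ) : ℂ) := by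
          rw [aZfun_cast, Submodule.coe_zero, ← coeffLin_apply, map_zero, Int.cast_zero]
        exact_mod_cast h
      map_add' := fun f g => by
        have h : ((aZfun N n (f + g) : ℤ) : ℂ) = ((aZfun N n f + aZfun N n g : ℤ) : ℂ) := by
          rw [Int.cast_add, aZfun_cast, aZfun_cast, aZfun_cast, Submodule.coe_add,
            ← coeffLin_apply, map_add, coeffLin_apply, coeffLin_apply]
        exact_mod_cast h }

theorem aZ_cast (N : ℕ) (n : ℕ) (f : ↥(intLattice N 2)) :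
    ((aZ N n f : ℤ) : ℂ) = qCoeff (f : CuspForm Γ₀(N) 2) n :=
  aZfun_cast N n f

section Duality

variable (N : ℕ) [NeZero N]

/-- The tautological action of the lattice Hecke algebra. -/
def ρ : ↥(heckeLatticeAlgebra N ∅) →+* Module.End ℤ ↥(intLattice N 2) :=
  (heckeLatticeAlgebra N ∅).val.toRingHom

theorem ρ_injective : Function.Injective (ρ N) := Subtype.val_injective

theorem ρ_restrict (t : ↥(heckeAlgebra N 2 ∅)) (f : ↥(intLattice N 2)) :
    ((ρ N (latticeRestrictHom N ∅ t) f : ↥(intLattice N 2)) : CuspForm Γ₀(N) 2) =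
      (t : Module.End ℂ (CuspForm Γ₀(N) 2)) (f : CuspForm Γ₀(N) 2) := rfl

theorem eq_zero_of_aZ (f : ↥(intLattice N 2)) (hf : ∀ k, 0 < k → aZ N k f = 0) : f = 0 := by
  apply Subtype.ext
  apply coeffSeq_injective N 2
  funext n
  rw [coeffSeq_apply, Submodule.coe_zero, map_zero]
  rcases Nat.eq_zero_or_pos n with rfl | hn
  · exact coeffLin_zero _
  · rw [← aZ_cast, hf n hn, Int.cast_zero]
    rfl

theorem exists_hecke_aZ (k : ℕ) :
    ∃ T : ↥(heckeLatticeAlgebra N ∅), ∀ f, aZ N k f = aZ N 1 (ρ N T f) := by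
  obtain ⟨t, ht, h⟩ := exists_hecke_coeff N k
  refine ⟨latticeRestrictHom N ∅ ⟨t, ht⟩, fun f => ?_⟩
  have h' : ((aZ N k f : ℤ) : ℂ) = ((aZ N 1 (ρ N (latticeRestrictHom N ∅ ⟨t, ht⟩) f) : ℤ) : ℂ) := by
    rw [aZ_cast, aZ_cast, ρ_restrict]
    exact (h f).symm
  exact_mod_cast h'

omit [NeZero N] in
theorem saturated (f : ↥(intLattice N 2)) (M : ℤ) (hM : M ≠ 0)
    (hdiv : ∀ k, 0 < k → M ∣ aZ N k f) : ∃ g : ↥(intLattice N 2), f = M • g := by
  have hM' : (M : ℂ) ≠ 0 := by exact_mod_cast hM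
  have hg₀ : (M : ℂ)⁻¹ • (f : CuspForm Γ₀(N) 2) ∈ intLattice N 2 := by
    refine Submodule.subset_span fun n => ?_
    rcases Nat.eq_zero_or_pos n with rfl | hn
    · exact ⟨0, by rw [Int.cast_zero]; exact coeffLin_zero _⟩
    · obtain ⟨c, hc⟩ := hdiv n hn
      refine ⟨c, ?_⟩
      have h1 : coeffLin N 2 n ((M : ℂ)⁻¹ • (f : CuspForm Γ₀(N) 2)) =
          (M : ℂ)⁻¹ * coeffLin N 2 n (f : CuspForm Γ₀(N) 2) := (coeffLin N 2 n).map_smul _ _
      rw [← coeffLin_apply, h1, coeffLin_apply, ← aZ_cast, hc, Int.cast_mul,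
        inv_mul_cancel_left₀ hM']
  refine ⟨⟨_, hg₀⟩, Subtype.ext ?_⟩
  rw [Submodule.coe_smul, ← Int.cast_smul_eq_zsmul ℂ, smul_smul, mul_inv_cancel₀ hM', one_smul]

/-- `q`-expansion duality: every `ℤ`-linear functional on the lattice Hecke algebra is
`T ↦ a₁(T f)` for some `f` in the integral lattice. -/
theorem exists_form_of_linear (ψ : ↥(heckeLatticeAlgebra N ∅) →ₗ[ℤ] ℤ) :
    ∃ f : ↥(intLattice N 2), ∀ T, aZ N 1 (ρ N T f) = ψ T := by
  have := intLattice.moduleFinite N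
  have := intLattice.moduleFree N
  exact exists_repr (ρ N) (ρ_injective N) (aZ N) (eq_zero_of_aZ N)
    (fun k _ => exists_hecke_aZ N k) (saturated N) ψ

/-- A ring homomorphism from the lattice Hecke algebra to `ZMod d` is `T ↦ a₁(T f) mod d`. -/
theorem exists_form_of_ringHom (d : ℕ) (χ : ↥(heckeLatticeAlgebra N ∅) →+* ZMod d) :
    ∃ f : ↥(intLattice N 2), ∀ T, ((aZ N 1 (ρ N T f) : ℤ) : ZMod d) = χ T := by
  obtain ⟨ψ, hψ⟩ := exists_lift_zmod d χ.toAddMonoidHom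
  obtain ⟨f, hf⟩ := exists_form_of_linear N ψ
  exact ⟨f, fun T => by rw [hf, hψ]; rfl⟩

/-- For such an `f`, all coefficients of `S f` are determined mod `d`. -/
theorem aZ_apply_of_ringHom (d : ℕ) (χ : ↥(heckeLatticeAlgebra N ∅) →+* ZMod d)
    (f : ↥(intLattice N 2)) (hf : ∀ T, ((aZ N 1 (ρ N T f) : ℤ) : ZMod d) = χ T)
    (k : ℕ) (S : ↥(heckeLatticeAlgebra N ∅)) :
    ((aZ N k (ρ N S f) : ℤ) : ZMod d) = ((aZ N k f : ℤ) : ZMod d) * χ S := by
  obtain ⟨T, hT⟩ := exists_hecke_aZ N k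
  rw [hT, hT f, hf T, ← Module.End.mul_apply, ← map_mul, hf, map_mul]

end Duality

theorem heckeEvalForms_surjective (N : ℕ) [NeZero N] (k : ℤ) :
    Function.Surjective (heckeEvalForms N k) := by
  rintro ⟨t, ht⟩
  unfold heckeAlgebra at ht
  induction ht using Algebra.adjoin_induction with
  | mem x hx =>
    rcases hx with ⟨ℓ, hℓ, hℓN, -, rfl⟩ | ⟨q, hqN, hq, -, rfl⟩
    · exact ⟨heckeGen ⟨ℓ, hℓ⟩, heckeEvalForms_heckeGen_of_not_dvd (ℓ := ⟨ℓ, hℓ⟩) hℓN⟩
    · exact ⟨heckeGen ⟨q, hq⟩, heckeEvalForms_heckeGen_of_dvd (q := ⟨q, hq⟩) hqN⟩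
  | algebraMap r => exact ⟨MvPolynomial.C r, by rw [heckeEvalForms_C]; rfl⟩
  | add x y hx hy ihx ihy =>
    obtain ⟨a, ha⟩ := ihx
    obtain ⟨b, hb⟩ := ihy
    exact ⟨a + b, by rw [map_add, ha, hb]; rfl⟩
  | mul x y hx hy ihx ihy =>
    obtain ⟨a, ha⟩ := ihx
    obtain ⟨b, hb⟩ := ihy
    exact ⟨a * b, by rw [map_mul, ha, hb]; rfl⟩

section Prime

variable (p : ℕ) [Fact p.Prime]

/-- The surjection from the abstract Hecke algebra onto the lattice Hecke algebra. -/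
def Φ : HeckeAlg →+* ↥(heckeLatticeAlgebra p ∅) :=
  (latticeRestrictHom p ∅).toRingHom.comp (heckeEvalForms p 2)

/-- The Eisenstein character `T_ℓ ↦ 1 + ℓ`, `U_p ↦ 1`. -/
def eis : HeckeAlg →+* ℤ :=
  (MvPolynomial.aeval (eisensteinSystem p) : HeckeAlg →ₐ[ℤ] ℤ).toRingHom

theorem Φ_surjective : Function.Surjective (Φ p) :=
  (latticeRestrictHom_surjective p ∅).comp (heckeEvalForms_surjective p 2)

theorem eis_heckeGen_of_ne {ℓ : ℕ} (hℓ : ℓ.Prime) (hℓp : ℓ ≠ p) :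
    eis p (heckeGen ⟨ℓ, hℓ⟩) = 1 + ℓ := by
  have hp : p.Prime := Fact.out
  have hℓN : ¬ ((⟨ℓ, hℓ⟩ : Nat.Primes) : ℕ) ∣ p := fun h =>
    hℓp ((Nat.prime_dvd_prime_iff_eq hℓ hp).mp h)
  exact (aeval_heckeGen (eisensteinSystem p) ⟨ℓ, hℓ⟩).trans (eisensteinSystem_of_not_dvd hℓN)

omit [Fact p.Prime] in
theorem eis_heckeGen_self (hp : p.Prime) : eis p (heckeGen ⟨p, hp⟩) = 1 := by
  exact (aeval_heckeGen (eisensteinSystem p) ⟨p, hp⟩).trans
    (eisensteinSystem_of_dvd (ℓ := ⟨p, hp⟩) (dvd_refl p))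

theorem aZ_heckeGen_of_ne {ℓ : ℕ} (hℓ : ℓ.Prime) (hℓp : ℓ ≠ p) (k : ℕ)
    (f : ↥(intLattice p 2)) :
    aZ p k (ρ p (Φ p (heckeGen ⟨ℓ, hℓ⟩)) f) =
      aZ p (k * ℓ) f + (if ℓ ∣ k then (ℓ : ℤ) * aZ p (k / ℓ) f else 0) := by
  have hp : p.Prime := Fact.out
  have hℓN : ¬ ℓ ∣ p := fun h => hℓp ((Nat.prime_dvd_prime_iff_eq hℓ hp).mp h)
  have e1 : Φ p (heckeGen ⟨ℓ, hℓ⟩) =
      latticeRestrictHom p ∅ (heckeAlgebra.T hℓ hℓN (Set.notMem_empty _)) := by
    exact congrArg (latticeRestrictHom p ∅)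
      (heckeEvalForms_heckeGen_of_not_dvd (ℓ := ⟨ℓ, hℓ⟩) hℓN)
  have h : ((aZ p k (ρ p (Φ p (heckeGen ⟨ℓ, hℓ⟩)) f) : ℤ) : ℂ) =
      ((aZ p (k * ℓ) f + (if ℓ ∣ k then (ℓ : ℤ) * aZ p (k / ℓ) f else 0) : ℤ) : ℂ) := by
    rw [aZ_cast, e1, ρ_restrict, heckeAlgebra.coe_T, ← coeffLin_apply,
      coeffLin_heckeTLin hℓ hℓN, coeffLin_apply, coeffLin_apply, Int.cast_add, aZ_cast]
    congr 1
    split_ifs with hd
    · rw [Int.cast_mul, aZ_cast, Int.cast_natCast]
      norm_num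
    · rw [Int.cast_zero]
  exact_mod_cast h

theorem aZ_heckeGen_self (hp : p.Prime) (k : ℕ) (f : ↥(intLattice p 2)) :
    aZ p k (ρ p (Φ p (heckeGen ⟨p, hp⟩)) f) = aZ p (k * p) f := by
  have e1 : Φ p (heckeGen ⟨p, hp⟩) =
      latticeRestrictHom p ∅ (heckeAlgebra.U hp (dvd_refl p) (Set.notMem_empty _)) := by
    exact congrArg (latticeRestrictHom p ∅)
      (heckeEvalForms_heckeGen_of_dvd (q := ⟨p, hp⟩) (dvd_refl p))
  have h : ((aZ p k (ρ p (Φ p (heckeGen ⟨p, hp⟩)) f) : ℤ) : ℂ) = ((aZ p (k * p) f : ℤ) : ℂ) := by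
    rw [aZ_cast, e1, ρ_restrict, heckeAlgebra.coe_U, ← coeffLin_apply,
      coeffLin_heckeULin hp (dvd_refl p), coeffLin_apply, aZ_cast]
  exact_mod_cast h

/-- If the Eisenstein character is congruent mod `d` to a character of the lattice Hecke algebra,
then the Eisenstein series is congruent mod `d` to a cusp form with integral `q`-expansion. -/
theorem exists_eisenstein_form (d : ℕ) (hd : ∀ P : HeckeAlg, Φ p P = 0 → (d : ℤ) ∣ eis p P) :
    ∃ f : CuspForm Γ₀(p) 2, ∀ k : ℕ, 0 < k →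
      ∃ m : ℤ, qCoeff f k = (m : ℂ) ∧ (d : ℤ) ∣ m - eisCoeff p k := by
  have hp : p.Prime := Fact.out
  let g : HeckeAlg →+* ZMod d := (Int.castRingHom (ZMod d)).comp (eis p)
  have hg : RingHom.ker (Φ p) ≤ RingHom.ker g := fun P hP => by
    rw [RingHom.mem_ker] at hP ⊢
    exact (CharP.intCast_eq_zero_iff (ZMod d) d _).mpr (hd P hP)
  let χ : ↥(heckeLatticeAlgebra p ∅) →+* ZMod d :=
    (Φ p).liftOfSurjective (Φ_surjective p) ⟨g, hg⟩
  have hχ : ∀ P, χ (Φ p P) = ((eis p P : ℤ) : ZMod d) := fun P =>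
    RingHom.liftOfSurjective_comp_apply (Φ p) (Φ_surjective p) ⟨g, hg⟩ P
  obtain ⟨f, hf⟩ := exists_form_of_ringHom p d χ
  have hmul := aZ_apply_of_ringHom p d χ f hf
  refine ⟨(f : CuspForm Γ₀(p) 2), ?_⟩
  have key : ∀ k, 0 < k → ((aZ p k f : ℤ) : ZMod d) = ((eisCoeff p k : ℤ) : ZMod d) := by
    apply eq_of_recurrence p (fun k => ((aZ p k f : ℤ) : ZMod d))
      (fun k => ((eisCoeff p k : ℤ) : ZMod d))
    · have h1 := hf 1
      rw [map_one, Module.End.one_apply, map_one] at h1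
      show ((aZ p 1 f : ℤ) : ZMod d) = ((eisCoeff p 1 : ℤ) : ZMod d)
      rw [h1, eisCoeff_one hp, Int.cast_one]
    · intro ℓ hℓ hℓp k hk
      have h1 := hmul k (Φ p (heckeGen ⟨ℓ, hℓ⟩))
      rw [aZ_heckeGen_of_ne p hℓ hℓp, hχ, eis_heckeGen_of_ne p hℓ hℓp] at h1
      show ((aZ p (k * ℓ) f : ℤ) : ZMod d) +
        (if ℓ ∣ k then (ℓ : ZMod d) * ((aZ p (k / ℓ) f : ℤ) : ZMod d) else 0) =
        (1 + (ℓ : ZMod d)) * ((aZ p k f : ℤ) : ZMod d)
      split_ifs at h1 ⊢ with hdv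
      · push_cast at h1 ⊢; linear_combination h1
      · push_cast at h1 ⊢; linear_combination h1
    · intro k hk
      have h1 := hmul k (Φ p (heckeGen ⟨p, hp⟩))
      rw [aZ_heckeGen_self p hp, hχ, eis_heckeGen_self p hp, Int.cast_one, mul_one] at h1
      exact h1
    · intro ℓ hℓ hℓp k hk
      have h1 := eisCoeff_hecke hp hℓ hℓp hk
      have h2 := congrArg (Int.cast : ℤ → ZMod d) h1
      show ((eisCoeff p (k * ℓ) : ℤ) : ZMod d) +
        (if ℓ ∣ k then (ℓ : ZMod d) * ((eisCoeff p (k / ℓ) : ℤ) : ZMod d) else 0) =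
        (1 + (ℓ : ZMod d)) * ((eisCoeff p k : ℤ) : ZMod d)
      split_ifs at h2 ⊢ with hdv
      · push_cast at h2 ⊢; linear_combination h2
      · push_cast at h2 ⊢; linear_combination h2
    · intro k hk
      show ((eisCoeff p (k * p) : ℤ) : ZMod d) = ((eisCoeff p k : ℤ) : ZMod d)
      rw [eisCoeff_mul_self hp hk]
  intro k hk
  refine ⟨aZ p k f, (aZ_cast p k f).symm, ?_⟩
  rw [← CharP.intCast_eq_zero_iff (ZMod d) d, Int.cast_sub, key k hk, sub_self]

omit [Fact p.Prime] in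
theorem eis_surjective : Function.Surjective (eis p) := fun k =>
  ⟨(k : HeckeAlg), by rw [map_intCast, Int.cast_id]⟩

omit [Fact p.Prime] in
theorem eisensteinNumerator_pos (hp : p.Prime) : 0 < eisensteinNumerator p := by
  unfold eisensteinNumerator
  have h1 : 0 < p - 1 := Nat.sub_pos_of_lt hp.one_lt
  exact Nat.div_pos (Nat.le_of_dvd h1 (Nat.gcd_dvd_left _ _)) (Nat.gcd_pos_of_pos_left _ h1)

/-- **S16 from its two arithmetic inputs.**

* `LB` (lower bound, cohomological side): every polynomial in the Hecke operators which kills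
  `S₂(Γ₀(p))` has Eisenstein value divisible by `n = (p-1)/gcd(p-1,12)`.
* `UB` (upper bound, `q`-expansion side): if a cusp form with integral `q`-expansion is congruent
  to the Eisenstein series `∑ (σ(k) - p σ(k/p)) q^k` modulo `d > 0`, then `d ∣ n`. -/
theorem main_of
    (LB : ∀ P : HeckeAlg, heckeEvalForms p 2 P = 0 →
        (eisensteinNumerator p : ℤ) ∣ MvPolynomial.aeval (eisensteinSystem p) P)
    (UB : ∀ d : ℕ, 0 < d → ∀ f : CuspForm Γ₀(p) 2,
        (∀ k : ℕ, 0 < k → ∃ m : ℤ, qCoeff f k = (m : ℂ) ∧ (d : ℤ) ∣ m - eisCoeff p k) →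
        d ∣ eisensteinNumerator p) :
    Nat.card (↥(heckeLatticeAlgebra p ∅) ⧸
        Ideal.map ((latticeRestrictHom p ∅).toRingHom.comp (heckeEvalForms p 2))
          (eisensteinIdeal p)) = eisensteinNumerator p := by
  have hp : p.Prime := Fact.out
  have hn := eisensteinNumerator_pos p hp
  have hinj : ∀ P : HeckeAlg, Φ p P = 0 → heckeEvalForms p 2 P = 0 := fun P hP =>
    (latticeRestrictHom_bijective p ∅ (Fermat.Agent.S23.result p)).1 (hP.trans (map_zero _).symm)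
  -- the ideal `eis (ker Φ)` of `ℤ`
  let D : Ideal ℤ := Ideal.map (eis p) (RingHom.ker (Φ p))
  have hD : ∀ k : ℤ, k ∈ D ↔ ∃ P, Φ p P = 0 ∧ eis p P = k := by
    intro k
    rw [Ideal.mem_map_iff_of_surjective (eis p) (eis_surjective p)]
    simp only [RingHom.mem_ker]
  set d : ℕ := (Submodule.IsPrincipal.generator D).natAbs with hddef
  have hDspan : D = Ideal.span {(d : ℤ)} := by
    rw [hddef, Int.span_natAbs, Ideal.span_singleton_generator]
  have hDmem : ∀ k : ℤ, k ∈ D ↔ (d : ℤ) ∣ k := fun k => by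
    rw [hDspan, Ideal.mem_span_singleton]
  -- `n ∣ d`
  have h1 : (eisensteinNumerator p : ℤ) ∣ (d : ℤ) := by
    obtain ⟨P, hP0, hPd⟩ := (hD d).mp ((hDmem d).mpr dvd_rfl)
    rw [← hPd]
    exact LB P (hinj P hP0)
  -- `d ∣ n`
  have h2 : d ∣ eisensteinNumerator p := by
    rcases Nat.eq_zero_or_pos d with hd0 | hdpos
    · exfalso
      have hall : ∀ P, Φ p P = 0 → ((eisensteinNumerator p + 1 : ℕ) : ℤ) ∣ eis p P := by
        intro P hP
        have h3 : eis p P ∈ D := (hD _).mpr ⟨P, hP, rfl⟩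
        rw [hDmem, hd0, Nat.cast_zero, zero_dvd_iff] at h3
        rw [h3]
        exact dvd_zero _
      obtain ⟨f, hf⟩ := exists_eisenstein_form p _ hall
      have h4 := UB _ (Nat.succ_pos _) f hf
      have h5 := Nat.le_of_dvd hn h4
      omega
    · have hall : ∀ P, Φ p P = 0 → (d : ℤ) ∣ eis p P := fun P hP =>
        (hDmem _).mp ((hD _).mpr ⟨P, hP, rfl⟩)
      obtain ⟨f, hf⟩ := exists_eisenstein_form p d hall
      exact UB d hdpos f hf
  have hdn : d = eisensteinNumerator p := Nat.dvd_antisymm h2 (by exact_mod_cast h1)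
  exact natCard_quotient_map_ker (Φ p) (Φ_surjective p) (eis p) (eisensteinNumerator p)
    (fun k => by rw [← hdn, ← hDmem, hD])

/-- **S16 from the two interface statements of `Defs.lean`.** -/
theorem main (hLB : LBstmt p) (hUB : NoFormStmt p) :
    Nat.card (↥(heckeLatticeAlgebra p ∅) ⧸
        Ideal.map ((latticeRestrictHom p ∅).toRingHom.comp (heckeEvalForms p 2))
          (eisensteinIdeal p)) = eisensteinNumerator p := by
  have hp : p.Prime := Fact.out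
  refine main_of p (fun P hP => hLB P ?_) (fun d hd f hf => hUB d hd f fun k hk => ?_)
  · show ((heckeEvalForms p 2 P : heckeAlgebra p 2 ∅) :
      Module.End ℂ (CuspForm Γ₀(p) 2)) = 0
    rw [hP]
    rfl
  · obtain ⟨m, hm, hdiv⟩ := hf k hk
    refine ⟨m, hm, ?_⟩
    have h1 : ((sigmaP p k : ℕ) : ℤ) = eisCoeff p k := sum_divisors_filter_not_dvd hp.pos k
    rw [h1]
    exact hdiv

end Prime

end Fermat.Agent.S16.Glue

end
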