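/-
S16 / K2a core (helper23): the case `ℓ = 2`, `p ≡ 1 mod 4`, `s = 2` of the upper bound.
No `G ∈ M₂(Γ₀(p))` has `q`-expansion `≡ 1 mod 4` (2-integrally), given the weight 2 and weight 4
trace identities (W2), (T2) as hypotheses.  Imports `Fermat.Agent.S16.Defs` only.
-/
import Fermat.Agent.S16.Defs

set_option autoImplicit false

namespace Fermat.Agent.S16.K2a

open PowerSeries UpperHalfPlane
open scoped ModularForm

/-- Power series all of whose coefficients are `2`-integral. -/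
def I2 : Subring (PowerSeries ℂ) where
  carrier := {f | ∀ n, coeff n f ∈ RL 2}
  mul_mem' := by
    intro f g hf hg n
    rw [coeff_mul]
    exact Subring.sum_mem _ fun x _ => Subring.mul_mem _ (hf _) (hg _)
  one_mem' := by
    intro n
    rw [coeff_one]
    split_ifs
    · exact Subring.one_mem _
    · exact Subring.zero_mem _
  add_mem' := by
    intro f g hf hg n
    rw [map_add]
    exact Subring.add_mem _ (hf _) (hg _)
  zero_mem' := by
    intro n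
    rw [map_zero]
    exact Subring.zero_mem _
  neg_mem' := by
    intro f hf n
    rw [map_neg]
    exact Subring.neg_mem _ (hf _)

theorem mem_I2 {f : PowerSeries ℂ} : f ∈ I2 ↔ ∀ n, coeff n f ∈ RL 2 := Iff.rfl

theorem C_mem_I2 {c : ℂ} (hc : c ∈ RL 2) : C c ∈ I2 := by
  intro n
  rw [coeff_C]
  split_ifs
  · exact hc
  · exact Subring.zero_mem _

theorem Up_mem_I2 (p : ℕ) {f : PowerSeries ℂ} (hf : f ∈ I2) : Up p f ∈ I2 := by
  intro n
  rw [Up, coeff_mk]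
  exact hf _

theorem Sq_mem_I2 (k : ℕ) : Sq k ∈ I2 := by
  intro n
  rw [Sq, coeff_mk]
  exact natCast_mem _ _

theorem Up_add (p : ℕ) (f g : PowerSeries ℂ) : Up p (f + g) = Up p f + Up p g := by
  ext n
  simp [Up]

theorem Up_C_mul (p : ℕ) (c : ℂ) (f : PowerSeries ℂ) : Up p (C c * f) = C c * Up p f := by
  ext n
  simp [Up]

theorem Up_one {p : ℕ} (hp : p ≠ 0) : Up p (1 : PowerSeries ℂ) = 1 := by
  ext n
  simp [Up, coeff_one, hp]

theorem inv_mem_RL {b : ℕ} (hb : b.Coprime 2) : ((b : ℂ))⁻¹ ∈ RL 2 := by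
  refine ⟨b, hb, ?_⟩
  have hb0 : (b : ℂ) ≠ 0 := by
    have : b ≠ 0 := by
      rintro rfl
      simp at hb
    exact_mod_cast this
  rw [mul_inv_cancel₀ hb0]
  exact isIntegral_one

theorem odd_ne_two_mul {n : ℕ} (hn : ¬ 2 ∣ n) {y : ℂ} (hy : y ∈ RL 2) : (n : ℂ) ≠ 2 * y := by
  intro h
  obtain ⟨b, hb, hint⟩ := hy
  have hq : (b : ℂ) * y = algebraMap ℚ ℂ ((b * n : ℚ) / 2) := by
    have : y = (n : ℂ) / 2 := by rw [h]; ring
    rw [this]
    simp
    ring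
  rw [hq] at hint
  rw [isIntegral_algebraMap_iff (algebraMap ℚ ℂ).injective] at hint
  rw [IsIntegrallyClosed.isIntegral_iff] at hint
  obtain ⟨z, hz⟩ := hint
  have h2 : (2 * z : ℚ) = ((b * n : ℕ) : ℚ) := by
    have : (algebraMap ℤ ℚ z) = (z : ℚ) := rfl
    rw [this] at hz
    rw [hz]; push_cast; ring
  have h3 : (2 * z : ℤ) = ((b * n : ℕ) : ℤ) := by exact_mod_cast h2
  have h4 : (2 : ℤ) ∣ ((b * n : ℕ) : ℤ) := ⟨z, h3.symm⟩
  have h5 : 2 ∣ b * n := by exact_mod_cast h4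
  rcases (Nat.prime_two.dvd_mul).mp h5 with h6 | h6
  · have := Nat.Coprime.eq_one_of_dvd hb.symm h6
    omega
  · exact hn h6

theorem sum_antidiag_sq (g : ℕ → ℂ) (N : ℕ) :
    ∑ x ∈ Finset.HasAntidiagonal.antidiagonal N, g x.1 * g x.2 =
      2 * ∑ x ∈ (Finset.HasAntidiagonal.antidiagonal N).filter (fun x => x.1 < x.2), g x.1 * g x.2 +
        (if 2 ∣ N then g (N / 2) ^ 2 else 0) := by
  rw [← Finset.sum_filter_add_sum_filter_not (Finset.HasAntidiagonal.antidiagonal N) (fun x => x.1 < x.2)]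
  rw [← Finset.sum_filter_add_sum_filter_not ((Finset.HasAntidiagonal.antidiagonal N).filter (fun x => ¬ x.1 < x.2))
    (fun x => x.2 < x.1)]
  have h1 : ∑ x ∈ ((Finset.HasAntidiagonal.antidiagonal N).filter (fun x => ¬ x.1 < x.2)).filter (fun x => x.2 < x.1),
      g x.1 * g x.2 = ∑ x ∈ (Finset.HasAntidiagonal.antidiagonal N).filter (fun x => x.1 < x.2), g x.1 * g x.2 := by
    refine Finset.sum_nbij' Prod.swap Prod.swap ?_ ?_ ?_ ?_ ?_
    · intro a ha
      simp only [Finset.mem_filter, Finset.HasAntidiagonal.mem_antidiagonal] at ha ⊢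
      simp only [Prod.fst_swap, Prod.snd_swap]
      omega
    · intro a ha
      simp only [Finset.mem_filter, Finset.HasAntidiagonal.mem_antidiagonal] at ha ⊢
      simp only [Prod.fst_swap, Prod.snd_swap]
      omega
    · intro a _; simp
    · intro a _; simp
    · intro a _; simp [mul_comm]
  have h2 : ∑ x ∈ ((Finset.HasAntidiagonal.antidiagonal N).filter (fun x => ¬ x.1 < x.2)).filter (fun x => ¬ x.2 < x.1),
      g x.1 * g x.2 = (if 2 ∣ N then g (N / 2) ^ 2 else 0) := by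
    split_ifs with hN
    · have : ((Finset.HasAntidiagonal.antidiagonal N).filter (fun x => ¬ x.1 < x.2)).filter (fun x => ¬ x.2 < x.1)
          = {(N / 2, N / 2)} := by
        ext ⟨a, b⟩
        simp only [Finset.mem_filter, Finset.HasAntidiagonal.mem_antidiagonal, Finset.mem_singleton, Prod.mk.injEq]
        omega
      rw [this, Finset.sum_singleton]
      ring
    · have : ((Finset.HasAntidiagonal.antidiagonal N).filter (fun x => ¬ x.1 < x.2)).filter (fun x => ¬ x.2 < x.1)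
          = ∅ := by
        ext ⟨a, b⟩
        simp only [Finset.mem_filter, Finset.HasAntidiagonal.mem_antidiagonal, Finset.notMem_empty, iff_false]
        omega
      rw [this, Finset.sum_empty]
  rw [h1, h2]
  ring


/-- The coefficients of a square modulo 2. -/
theorem coeff_sq_mod_two {f : PowerSeries ℂ} (hf : f ∈ I2) (N : ℕ) :
    ∃ t ∈ RL 2, coeff N (f ^ 2) = 2 * t + (if 2 ∣ N then (coeff (N / 2) f) ^ 2 else 0) := by
  refine ⟨∑ x ∈ (Finset.HasAntidiagonal.antidiagonal N).filter (fun x => x.1 < x.2),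
    coeff x.1 f * coeff x.2 f, ?_, ?_⟩
  · exact Subring.sum_mem _ fun x _ => Subring.mul_mem _ (hf _) (hf _)
  · rw [pow_two, coeff_mul]
    exact sum_antidiag_sq (fun n => coeff n f) N

/-- Frobenius modulo 2 commutes with `U_p` for odd `p`. -/
theorem frob {p : ℕ} (hp : ¬ 2 ∣ p) {g : PowerSeries ℂ} (hg : g ∈ I2) :
    ∃ r ∈ I2, Up p (g ^ 2) = (Up p g) ^ 2 + C 2 * r := by
  have h1 : ∀ n, ∃ t ∈ RL 2, coeff n (Up p (g ^ 2)) = coeff n ((Up p g) ^ 2) + 2 * t := by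
    intro n
    obtain ⟨t1, ht1, e1⟩ := coeff_sq_mod_two hg (p * n)
    obtain ⟨t2, ht2, e2⟩ := coeff_sq_mod_two (Up_mem_I2 p hg) n
    refine ⟨t1 - t2, Subring.sub_mem _ ht1 ht2, ?_⟩
    have e3 : coeff n (Up p (g ^ 2)) = coeff (p * n) (g ^ 2) := by
      rw [Up, coeff_mk]
    rw [e3, e1, e2]
    have hodd : p % 2 = 1 := by omega
    by_cases h2 : 2 ∣ n
    · have h2' : 2 ∣ p * n := Dvd.dvd.mul_left h2 p
      rw [if_pos h2, if_pos h2']
      have e4 : coeff (n / 2) (Up p g) = coeff (p * n / 2) g := by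
        rw [Up, coeff_mk]
        congr 1
        obtain ⟨m, rfl⟩ := h2
        rw [Nat.mul_div_cancel_left _ (by norm_num : 0 < 2)]
        rw [show p * (2 * m) = 2 * (p * m) by ring, Nat.mul_div_cancel_left _ (by norm_num : 0 < 2)]
      rw [e4]
      ring
    · have h2' : ¬ 2 ∣ p * n := by
        intro h
        rcases (Nat.prime_two.dvd_mul).mp h with h | h
        · exact hp h
        · exact h2 h
      rw [if_neg h2, if_neg h2']
      ring
  choose t ht he using h1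
  refine ⟨PowerSeries.mk t, fun n => by rw [coeff_mk]; exact ht n, ?_⟩
  ext n
  rw [he n, map_add, coeff_C_mul, coeff_mk]


section main

variable {p : ℕ}

/-- The two consequences of the weight 2 / weight 4 trace identities that the argument uses. -/
structure Inputs (p : ℕ) : Prop where
  W2 : ∀ {A B : PowerSeries ℂ}, Cusp2 p 2 A B →
    Up p (Up p A) = A ∧ Cusp2 p 2 (Up p A) (C (-(p : ℂ)⁻¹) * A)
  T2 : ∀ {A B : PowerSeries ℂ}, Cusp2 p 2 A B → coeff 0 A = 1 →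
    A ^ 2 + C ((p : ℂ)⁻¹) * Up p ((Up p A) ^ 2) = C (1 + (p : ℂ)⁻¹) * (1 + C (240 : ℂ) * Sq 3)

theorem C_ofNat_ne_zero (n : ℕ) [n.AtLeastTwo] : (C (OfNat.ofNat n : ℂ) : PowerSeries ℂ) ≠ 0 := by
  rw [Ne, map_eq_zero_iff C PowerSeries.C_injective]
  exact OfNat.ofNat_ne_zero n

/-- The basic equation: `u h + h² + p⁻¹ U((U h)²) = 30 u S₃` where `2u = 1 + p⁻¹`. -/
theorem key_eq (hp : p ≠ 0) (inp : Inputs p) {A B h : PowerSeries ℂ} (hAB : Cusp2 p 2 A B)
    (hA : A = 1 + C 4 * h) (h0 : coeff 0 h = 0) {u : ℂ} (hu : 2 * u = 1 + (p : ℂ)⁻¹) :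
    Up p (Up p h) = h ∧
    C u * h + h ^ 2 + C ((p : ℂ)⁻¹) * Up p ((Up p h) ^ 2) = C 30 * C u * Sq 3 := by
  have hA0 : coeff 0 A = 1 := by
    rw [hA, map_add, coeff_C_mul, h0, mul_zero, add_zero, coeff_one, if_pos rfl]
  obtain ⟨hUU, -⟩ := inp.W2 hAB
  have hT := inp.T2 hAB hA0
  have hUA : Up p A = 1 + C 4 * Up p h := by
    rw [hA, Up_add, Up_one hp, Up_C_mul]
  have hUUh : Up p (Up p h) = h := by
    rw [hUA, Up_add, Up_one hp, Up_C_mul, hA] at hUU
    exact mul_left_cancel₀ (C_ofNat_ne_zero 4) (add_left_cancel hUU)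
  refine ⟨hUUh, ?_⟩
  have hsq : (Up p A) ^ 2 = 1 + C 8 * Up p h + C 16 * (Up p h) ^ 2 := by
    rw [hUA]
    simp only [map_ofNat]
    ring
  have hUsq : Up p ((Up p A) ^ 2) = 1 + C 8 * h + C 16 * Up p ((Up p h) ^ 2) := by
    rw [hsq, Up_add, Up_add, Up_one hp, Up_C_mul, Up_C_mul, hUUh]
  rw [hUsq, hA] at hT
  have hu' : 2 * C u = 1 + C ((p : ℂ)⁻¹) := by
    have := congrArg (C : ℂ →+* PowerSeries ℂ) hu
    simpa only [map_mul, map_add, map_one, map_ofNat] using this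
  have h16 : (C 16 : PowerSeries ℂ) * (C u * h + h ^ 2 + C ((p : ℂ)⁻¹) * Up p ((Up p h) ^ 2)) =
      C 16 * (C 30 * C u * Sq 3) := by
    simp only [map_ofNat, map_add, map_one] at hT ⊢
    linear_combination hT + (8 * h - 240 * Sq 3) * hu'
  exact mul_left_cancel₀ (C_ofNat_ne_zero 16) h16



/-- The main congruence: `h ≡ 2 S₃ mod 4`. -/
theorem cong_main (hp : p.Prime) (hp4 : p % 4 = 1) (inp : Inputs p) {A B h : PowerSeries ℂ}
    (hAB : Cusp2 p 2 A B) (hA : A = 1 + C 4 * h) (hh : h ∈ I2) (h0 : coeff 0 h = 0) :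
    ∃ r ∈ I2, h = C 2 * Sq 3 + C 4 * r := by
  have hp0 : p ≠ 0 := hp.ne_zero
  have hpC : (p : ℂ) ≠ 0 := by exact_mod_cast hp0
  obtain ⟨t, ht⟩ : ∃ t, p = 4 * t + 1 := ⟨p / 4, by omega⟩
  have htC : (p : ℂ) = 4 * (t : ℂ) + 1 := by rw [ht]; push_cast; ring
  have hodd : ¬ 2 ∣ p := by omega
  have hcop1 : (2 * t + 1).Coprime 2 := by
    rw [Nat.coprime_comm, Nat.Prime.coprime_iff_not_dvd Nat.prime_two]; omega
  have hcop2 : p.Coprime 2 := by
    rw [Nat.coprime_comm, Nat.Prime.coprime_iff_not_dvd Nat.prime_two]; exact hodd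
  have hw0 : ((2 * t + 1 : ℕ) : ℂ) ≠ 0 := by
    have : 2 * t + 1 ≠ 0 := by omega
    exact_mod_cast this
  -- the unit `u = (p+1)/(2p)` and its inverse `v`
  set u : ℂ := ((2 * t + 1 : ℕ) : ℂ) * (p : ℂ)⁻¹ with hu_def
  set v : ℂ := (p : ℂ) * ((2 * t + 1 : ℕ) : ℂ)⁻¹ with hv_def
  have hu : 2 * u = 1 + (p : ℂ)⁻¹ := by
    rw [hu_def]
    field_simp
    rw [htC]; push_cast; ring
  have huv : v * u = 1 := by
    rw [hu_def, hv_def]; field_simp
  have hvI : C v ∈ I2 :=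
    C_mem_I2 (Subring.mul_mem _ (natCast_mem _ _) (inv_mem_RL hcop1))
  have hPI : C ((p : ℂ)⁻¹) ∈ I2 := C_mem_I2 (inv_mem_RL hcop2)
  have hCuv : C v * C u = (1 : PowerSeries ℂ) := by rw [← map_mul, huv, map_one]
  have hu' : 2 * C u = 1 + C ((p : ℂ)⁻¹) := by
    have := congrArg (C : ℂ →+* PowerSeries ℂ) hu
    simpa only [map_mul, map_add, map_one, map_ofNat] using this
  have hnat : ∀ n : ℕ, (C (n : ℂ) : PowerSeries ℂ) ∈ I2 := fun n => C_mem_I2 (natCast_mem _ _)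
  -- stage 1: `h` is divisible by 2
  obtain ⟨hUU, hE⟩ := key_eq hp0 inp hAB hA h0 hu
  obtain ⟨r, hr, hfr⟩ := frob hodd (Up_mem_I2 p hh)
  rw [hUU] at hfr
  rw [hfr] at hE
  set h₁ : PowerSeries ℂ := C ((15 : ℕ) : ℂ) * Sq 3 - h ^ 2 - C v * C ((p : ℂ)⁻¹) * r with hh₁_def
  have hh₁ : h₁ ∈ I2 :=
    Subring.sub_mem _ (Subring.sub_mem _ (Subring.mul_mem _ (hnat 15) (Sq_mem_I2 3))
      (Subring.pow_mem _ hh 2)) (Subring.mul_mem _ (Subring.mul_mem _ hvI hPI) hr)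
  have hh2 : h = C 2 * h₁ := by
    rw [hh₁_def]
    simp only [map_ofNat, Nat.cast_ofNat] at hE ⊢
    linear_combination (C v) * hE - (h - 30 * Sq 3 + 2 * h ^ 2) * hCuv + (C v * h ^ 2) * hu'
  -- stage 2: `h₁ ≡ S₃ mod 2`
  have hUh : Up p h = C 2 * Up p h₁ := by rw [hh2, Up_C_mul]
  have hW : Up p ((Up p h) ^ 2) = C 4 * Up p ((Up p h₁) ^ 2) := by
    rw [hUh, mul_pow, ← map_pow, Up_C_mul]
    norm_num
  obtain ⟨-, hE2⟩ := key_eq hp0 inp hAB hA h0 hu
  rw [hW] at hE2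
  refine ⟨C ((7 : ℕ) : ℂ) * Sq 3 - C v * (h₁ ^ 2 + C ((p : ℂ)⁻¹) * Up p ((Up p h₁) ^ 2)), ?_, ?_⟩
  · exact Subring.sub_mem _ (Subring.mul_mem _ (hnat 7) (Sq_mem_I2 3))
      (Subring.mul_mem _ hvI (Subring.add_mem _ (Subring.pow_mem _ hh₁ 2)
        (Subring.mul_mem _ hPI (Up_mem_I2 p (Subring.pow_mem _ (Up_mem_I2 p hh₁) 2)))))
  · have hh2' : h = 2 * h₁ := by rw [hh2, map_ofNat]
    simp only [map_ofNat, Nat.cast_ofNat] at hE2 ⊢
    rw [hh2'] at hE2 ⊢
    linear_combination (C v) * hE2 - (2 * h₁ - 30 * Sq 3) * hCuv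

theorem sigma_three_prime (hp : p.Prime) : (ArithmeticFunction.sigma 3 p : ℂ) = 1 + (p : ℂ) ^ 3 := by
  rw [ArithmeticFunction.sigma_apply, hp.divisors]
  rw [Finset.sum_pair hp.one_lt.ne]
  push_cast
  ring

/-- `K2a` from the two trace identities. -/
theorem main_of (hp : p.Prime) (hp4 : p % 4 = 1) (inp : Inputs p) : Kstmt p 2 2 := by
  rintro ⟨G, hG0, hGm⟩
  have hp0 : p ≠ 0 := hp.ne_zero
  set A : PowerSeries ℂ := qExpansion 1 G with hA_def
  have hAB : Cusp2 p 2 A (qExpansion (p : ℝ) (⇑G ∣[(2 : ℤ)] ModularGroup.S)) :=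
    ⟨G, rfl, rfl⟩
  set h : PowerSeries ℂ := PowerSeries.mk fun m => if m = 0 then 0 else coeff m A / 4 with hh_def
  have hh : h ∈ I2 := by
    intro m
    rw [hh_def, coeff_mk]
    split_ifs with hm
    · exact Subring.zero_mem _
    · obtain ⟨y, hy, hy'⟩ := hGm m (Nat.one_le_iff_ne_zero.mpr hm)
      have hy'' : coeff m A = ((2 : ℕ) : ℂ) ^ 2 * y := hy'
      have : coeff m A / 4 = y := by
        rw [hy'']; push_cast; ring
      rw [this]; exact hy
  have h0 : coeff 0 h = 0 := by rw [hh_def, coeff_mk, if_pos rfl]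
  have hA : A = 1 + C 4 * h := by
    ext m
    rw [map_add, coeff_C_mul, hh_def, coeff_mk, coeff_one]
    by_cases hm : m = 0
    · subst hm
      rw [if_pos rfl, if_pos rfl, mul_zero, add_zero]
      exact hG0
    · rw [if_neg hm, if_neg hm]
      ring
  obtain ⟨r, hr, hr'⟩ := cong_main hp hp4 inp hAB hA hh h0
  obtain ⟨-, hAB'⟩ := inp.W2 hAB
  have hA' : Up p A = 1 + C 4 * Up p h := by
    rw [hA, Up_add, Up_one hp0, Up_C_mul]
  have h0' : coeff 0 (Up p h) = 0 := by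
    rw [Up, coeff_mk, mul_zero, h0]
  obtain ⟨r', hr1, hr1'⟩ := cong_main hp hp4 inp hAB' hA' (Up_mem_I2 p hh) h0'
  have e1 : coeff 1 (Up p h) = 2 * (1 + (p : ℂ) ^ 3) + 4 * coeff p r := by
    rw [Up, coeff_mk, mul_one, hr', map_add, coeff_C_mul, coeff_C_mul, Sq, coeff_mk,
      sigma_three_prime hp]
  have e2 : coeff 1 (Up p h) = 2 + 4 * coeff 1 r' := by
    rw [hr1', map_add, coeff_C_mul, coeff_C_mul, Sq, coeff_mk]
    simp
  have e3 : ((p ^ 3 : ℕ) : ℂ) = 2 * (coeff 1 r' - coeff p r) := by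
    push_cast
    linear_combination (1 / 2 : ℂ) * e2 - (1 / 2 : ℂ) * e1
  have hodd : ¬ 2 ∣ p ^ 3 := by
    intro hdvd
    have := Nat.Prime.dvd_of_dvd_pow Nat.prime_two hdvd
    omega
  exact odd_ne_two_mul hodd (Subring.sub_mem _ (hr1 1) (hr p)) e3

/-- `K2a`, parametrised by the two trace identities in the shape exported by `PSAlg`. -/
theorem main_of_hyps (p : ℕ) [Fact p.Prime] (l1 : L1Facts)
    (hW2 : ∀ {A B : PowerSeries ℂ}, Cusp2 p 2 A B →
      B = C (-(p : ℂ)⁻¹) * Up p A ∧ Up p (Up p A) = A ∧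
        Cusp2 p 2 (Up p A) (C (-(p : ℂ)⁻¹) * A))
    (hT2 : ∀ {A B : PowerSeries ℂ}, Cusp2 p 2 A B → coeff 0 A = 1 →
      A ^ 2 + C ((p : ℂ)⁻¹) * Up p ((Up p A) ^ 2) = C (1 + (p : ℂ)⁻¹) * E4q)
    (hp4 : p % 4 = 1) : Kstmt p 2 2 :=
  main_of (Fact.out : p.Prime) hp4
    { W2 := fun h => (hW2 h).2
      T2 := fun h h0 => by rw [← l1.E4q_eq]; exact hT2 h h0 }

end main

end Fermat.Agent.S16.K2a
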