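/-
S16 project, case K5c of the upper bound:
for a prime `ℓ ≥ 5` with `ℓ ∤ p (p + 1)` there is no `G ∈ M₂(Γ₀(p))` whose `q`-expansion is
`ℓ`-integral and `≡ 1 mod ℓ`.

Self-contained on top of `Defs.lean`: only the interfaces `Toolkit p` and `L1Facts` are used.
The argument is the weight four trace identity
`A² + p⁻¹ U_p((U_p A)²) = (1 + p⁻¹) E₄` for the `q`-expansion `A` of `G`.
-/
import Fermat.Agent.S16.Defs

set_option autoImplicit false

namespace Fermat.Agent.S16.K5c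

open PowerSeries UpperHalfPlane CongruenceSubgroup ModularCurve CuspForm
open scoped MatrixGroups ModularForm

noncomputable section

/-! ### Formal operations on `q`-series -/

theorem coeff_stretch (p n : ℕ) (A : PowerSeries ℂ) :
    coeff n (stretch p A) = if p ∣ n then coeff (n / p) A else 0 := by
  simp [stretch, coeff_mk]

theorem coeff_Up (p n : ℕ) (A : PowerSeries ℂ) : coeff n (Up p A) = coeff (p * n) A := by
  simp [Up, coeff_mk]

theorem stretch_injective {p : ℕ} (hp : p ≠ 0) {A A' : PowerSeries ℂ}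
    (h : stretch p A = stretch p A') : A = A' := by
  ext n
  have h1 := congrArg (coeff (p * n)) h
  simpa [coeff_stretch, Nat.mul_div_cancel_left _ (Nat.pos_of_ne_zero hp)] using h1

theorem stretch_zero (p : ℕ) : stretch p 0 = 0 := by
  ext n; simp [coeff_stretch]

theorem stretch_add (p : ℕ) (A A' : PowerSeries ℂ) :
    stretch p (A + A') = stretch p A + stretch p A' := by
  ext n
  simp only [coeff_stretch, map_add]
  split_ifs <;> simp

theorem stretch_C_mul (p : ℕ) (c : ℂ) (A : PowerSeries ℂ) :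
    stretch p (C c * A) = C c * stretch p A := by
  ext n
  simp only [coeff_stretch, coeff_C_mul]
  split_ifs <;> simp

theorem Up_add (p : ℕ) (A A' : PowerSeries ℂ) : Up p (A + A') = Up p A + Up p A' := by
  ext n; simp [coeff_Up]

theorem Up_C_mul (p : ℕ) (c : ℂ) (A : PowerSeries ℂ) : Up p (C c * A) = C c * Up p A := by
  ext n; simp [coeff_Up]

theorem Up_one {p : ℕ} (hp : p ≠ 0) : Up p (1 : PowerSeries ℂ) = 1 := by
  ext n; simp [coeff_Up, coeff_one, hp]

theorem sum_zeta_pow {p : ℕ} (hp : p.Prime) (n : ℕ) :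
    ∑ j ∈ Finset.range p, (zetaP p ^ j) ^ n = if p ∣ n then (p : ℂ) else 0 := by
  have hz : IsPrimitiveRoot (zetaP p) p := Complex.isPrimitiveRoot_exp p hp.ne_zero
  have h1 : ∀ j, (zetaP p ^ j) ^ n = (zetaP p ^ n) ^ j := fun j => by
    rw [← pow_mul, ← pow_mul, mul_comm]
  simp_rw [h1]
  split_ifs with h
  · obtain ⟨m, rfl⟩ := h
    have h2 : zetaP p ^ (p * m) = 1 := by rw [pow_mul, hz.pow_eq_one, one_pow]
    simp [h2]
  · have hc : n.Coprime p := ((Nat.Prime.coprime_iff_not_dvd hp).2 h).symm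
    exact (hz.pow_of_coprime n hc).geom_sum_eq_zero hp.one_lt

theorem sum_rescale {p : ℕ} (hp : p.Prime) (B : PowerSeries ℂ) :
    ∑ j ∈ Finset.range p, rescale (zetaP p ^ j) B = C (p : ℂ) * stretch p (Up p B) := by
  ext n
  simp only [map_sum, coeff_rescale, coeff_C_mul, coeff_stretch, coeff_Up]
  rw [← Finset.sum_mul, sum_zeta_pow hp]
  split_ifs with h
  · rw [Nat.mul_div_cancel' h]
  · simp

theorem esymm_one_conjMS {p : ℕ} (hp : p.Prime) (A B : PowerSeries ℂ) :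
    (conjMS p A B).esymm 1 = stretch p (A + C (p : ℂ) * Up p B) := by
  have h1 : ∀ s : Multiset (PowerSeries ℂ), s.esymm 1 = s.sum := by
    intro s
    simp [Multiset.esymm, Multiset.powersetCard_one, Multiset.map_map]
  rw [h1, conjMS, Multiset.sum_cons, stretch_add, stretch_C_mul, ← sum_rescale hp]
  rfl

/-! ### The two level one inputs -/

theorem qExp_wt2 (l1 : L1Facts) {k : ℤ} (hk : k = 2) (e : ModularForm 𝒮ℒ k) :
    qExpansion 1 e = 0 := by
  subst hk
  rw [l1.wt2 e]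
  simpa using qExpansion_zero 1

theorem qExp_wt4 (l1 : L1Facts) {k : ℤ} (hk : k = 4) (e : ModularForm 𝒮ℒ k) :
    qExpansion 1 e = C ((qExpansion 1 e).coeff 0) * E4q := by
  subst hk
  exact l1.wt4 e

/-- Weight two trace relation: `A + p U_p B = 0`. -/
theorem wt2_rel {p : ℕ} (hp : p.Prime) (tk : Toolkit p) (l1 : L1Facts) {A B : PowerSeries ℂ}
    (h : Cusp2 p 2 A B) : A + C (p : ℂ) * Up p B = 0 := by
  obtain ⟨e, he⟩ := tk.esymm h 1
  rw [qExp_wt2 l1 (by norm_num) e, esymm_one_conjMS hp] at he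
  exact (stretch_injective hp.ne_zero he).symm

theorem W2 {p : ℕ} (hp : p.Prime) (tk : Toolkit p) (l1 : L1Facts) {A B : PowerSeries ℂ}
    (h : Cusp2 p 2 A B) :
    B = C (-(p : ℂ)⁻¹) * Up p A ∧ Up p (Up p A) = A ∧
      Cusp2 p 2 (Up p A) (C (-(p : ℂ)⁻¹) * A) := by
  have hp0 : (p : ℂ) ≠ 0 := Nat.cast_ne_zero.2 hp.ne_zero
  have e1 := wt2_rel hp tk l1 h
  have e2 := wt2_rel hp tk l1 (tk.swap h)
  rw [Up_C_mul, ← mul_assoc, ← map_mul, mul_inv_cancel₀ hp0, map_one, one_mul] at e2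
  have hd : C (p : ℂ) * C ((p : ℂ)⁻¹) = (1 : PowerSeries ℂ) := by
    rw [← map_mul, mul_inv_cancel₀ hp0, map_one]
  have hB : B = C (-(p : ℂ)⁻¹) * Up p A := by
    rw [map_neg]
    linear_combination C ((p : ℂ)⁻¹) * e2 - B * hd
  refine ⟨hB, ?_, ?_⟩
  · have h3 : Up p A = C (-1 : ℂ) * (C (p : ℂ) * B) := by
      rw [map_neg, map_one]; linear_combination e2
    rw [h3, Up_C_mul, Up_C_mul, map_neg, map_one]
    linear_combination (-1 : PowerSeries ℂ) * e1
  · have h3 := tk.smul (-1) (tk.swap h)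
    have ea : C (-1 : ℂ) * (C (p : ℂ) * B) = Up p A := by
      rw [map_neg, map_one]; linear_combination (-1 : PowerSeries ℂ) * e2
    have eb : C (-1 : ℂ) * (C ((p : ℂ)⁻¹) * A) = C (-(p : ℂ)⁻¹) * A := by
      rw [← mul_assoc, ← map_mul, neg_one_mul]
    rwa [ea, eb] at h3

/-- Weight four trace identity. -/
theorem T2 {p : ℕ} (hp : p.Prime) (tk : Toolkit p) (l1 : L1Facts) {A B : PowerSeries ℂ}
    (h : Cusp2 p 2 A B) (h0 : coeff 0 A = 1) :
    A * A + C ((p : ℂ)⁻¹) * Up p (Up p A * Up p A) = C (1 + (p : ℂ)⁻¹) * E4q := by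
  have hp0 : (p : ℂ) ≠ 0 := Nat.cast_ne_zero.2 hp.ne_zero
  obtain ⟨hB, -, -⟩ := W2 hp tk l1 h
  obtain ⟨e, he⟩ := tk.esymm (tk.mul h h) 1
  rw [esymm_one_conjMS hp] at he
  have he' := stretch_injective hp.ne_zero he
  have h4 := qExp_wt4 l1 (by norm_num) e
  rw [he'] at h4
  have hB0 : coeff 0 B = -(p : ℂ)⁻¹ := by
    rw [hB, coeff_C_mul, coeff_Up, mul_zero, h0, mul_one]
  have hAA : coeff 0 (A * A) = 1 := by
    rw [coeff_mul]; simp [h0]
  have hBB : coeff 0 (B * B) = (p : ℂ)⁻¹ * (p : ℂ)⁻¹ := by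
    rw [coeff_mul]; simp [hB0]
  have hc : coeff 0 (A * A + C (p : ℂ) * Up p (B * B)) = 1 + (p : ℂ)⁻¹ := by
    rw [map_add, coeff_C_mul, coeff_Up, mul_zero, hAA, hBB]
    field_simp
  rw [hc] at h4
  have hBB' : B * B = C ((p : ℂ)⁻¹ * (p : ℂ)⁻¹) * (Up p A * Up p A) := by
    rw [hB, map_mul, map_neg]; ring
  rw [hBB', Up_C_mul, ← mul_assoc, ← map_mul] at h4
  have hpp : (p : ℂ) * ((p : ℂ)⁻¹ * (p : ℂ)⁻¹) = (p : ℂ)⁻¹ := by field_simp
  rw [hpp] at h4
  exact h4

/-! ### `ℓ`-integral power series -/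

/-- Power series all of whose coefficients are `ℓ`-integral. -/
def IntPS (l : ℕ) : Subring (PowerSeries ℂ) where
  carrier := {f | ∀ n, coeff n f ∈ RL l}
  mul_mem' := by
    intro f g hf hg n
    rw [coeff_mul]
    exact Subring.sum_mem _ fun x _ => mul_mem (hf _) (hg _)
  one_mem' := by
    intro n
    rw [coeff_one]
    split_ifs
    · exact one_mem _
    · exact zero_mem _
  add_mem' := by
    intro f g hf hg n
    rw [map_add]
    exact add_mem (hf n) (hg n)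
  zero_mem' := by
    intro n
    rw [map_zero]
    exact zero_mem _
  neg_mem' := by
    intro f hf n
    rw [map_neg]
    exact neg_mem (hf n)

theorem mem_IntPS {l : ℕ} {f : PowerSeries ℂ} : f ∈ IntPS l ↔ ∀ n, coeff n f ∈ RL l := Iff.rfl

theorem Up_mem {l p : ℕ} {f : PowerSeries ℂ} (hf : f ∈ IntPS l) : Up p f ∈ IntPS l := by
  intro n
  rw [coeff_Up]
  exact hf _

theorem C_natCast_mem (l p : ℕ) : C (p : ℂ) ∈ IntPS l := by
  intro n
  rw [coeff_C]
  split_ifs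
  · exact natCast_mem _ _
  · exact zero_mem _

/-- A natural number which is `ℓ` times an `ℓ`-integral algebraic number is divisible by `ℓ`. -/
theorem nat_dvd_of_mem {l : ℕ} (hl : l.Prime) {z : ℕ} {y : ℂ} (hy : y ∈ RL l)
    (h : (z : ℂ) = (l : ℂ) * y) : l ∣ z := by
  obtain ⟨b, hb, hint⟩ := hy
  have hl0 : (l : ℂ) ≠ 0 := Nat.cast_ne_zero.2 hl.ne_zero
  have hl0' : (l : ℚ) ≠ 0 := Nat.cast_ne_zero.2 hl.ne_zero
  have e : (b : ℂ) * y = (((b : ℚ) * z / l : ℚ) : ℂ) := by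
    push_cast; rw [h]; field_simp
  rw [e] at hint
  have hint' : IsIntegral ℤ (algebraMap ℚ ℂ ((b : ℚ) * z / l)) := by rwa [eq_ratCast]
  have hq : IsIntegral ℤ ((b : ℚ) * z / l) :=
    (isIntegral_algebraMap_iff (algebraMap ℚ ℂ).injective).1 hint'
  obtain ⟨m, hm⟩ := IsIntegrallyClosed.isIntegral_iff.1 hq
  have hm' : ((l : ℤ) * m : ℤ) = ((b * z : ℕ) : ℤ) := by
    have : (((l : ℤ) * m : ℤ) : ℚ) = (((b * z : ℕ) : ℤ) : ℚ) := by
      push_cast
      rw [eq_intCast] at hm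
      rw [hm]; field_simp
    exact_mod_cast this
  have hd : l ∣ b * z := by
    have : (l : ℤ) ∣ ((b * z : ℕ) : ℤ) := ⟨m, hm'.symm⟩
    exact_mod_cast this
  exact (Nat.Coprime.dvd_mul_left hb.symm).1 hd

/-! ### The key coefficient identity -/

theorem key {p : ℕ} (hp : p.Prime) (tk : Toolkit p) (l1 : L1Facts) {l : ℕ} (hl : l ≠ 0)
    {A B h : PowerSeries ℂ} (hc : Cusp2 p 2 A B) (hA : A = 1 + C (l : ℂ) * h)
    (hh : h ∈ IntPS l) (hh0 : coeff 0 h = 0) (n : ℕ) :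
    ∃ r ∈ RL l, ((p : ℂ) + 1) * 2 * l * coeff n h + (l : ℂ) ^ 2 * r
      = ((p : ℂ) + 1) * 240 * (ArithmeticFunction.sigma 3 n : ℂ) := by
  have hp0 : (p : ℂ) ≠ 0 := Nat.cast_ne_zero.2 hp.ne_zero
  have h0 : coeff 0 A = 1 := by
    rw [hA, map_add, coeff_C_mul, hh0, mul_zero, add_zero, coeff_one, if_pos rfl]
  obtain ⟨-, hUU, -⟩ := W2 hp tk l1 hc
  have t2 := T2 hp tk l1 hc h0
  have hUA : Up p A = 1 + C (l : ℂ) * Up p h := by
    rw [hA, Up_add, Up_one hp.ne_zero, Up_C_mul]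
  have hcl : C (l : ℂ) ≠ (0 : PowerSeries ℂ) := by
    intro h1
    have h2 := congrArg (coeff 0) h1
    rw [coeff_C, if_pos rfl, map_zero] at h2
    exact hl (Nat.cast_eq_zero.1 h2)
  have hUh : Up p (Up p h) = h := by
    rw [hUA, Up_add, Up_one hp.ne_zero, Up_C_mul, hA] at hUU
    exact mul_left_cancel₀ hcl (add_left_cancel hUU)
  -- the power series identity
  have hXX : A * A = 1 + C (l : ℂ) * (h + h) + C (l : ℂ) * (C (l : ℂ) * (h * h)) := by
    rw [hA]; ring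
  have hYY : Up p A * Up p A
      = 1 + C (l : ℂ) * (Up p h + Up p h) + C (l : ℂ) * (C (l : ℂ) * (Up p h * Up p h)) := by
    rw [hUA]; ring
  rw [hXX, hYY, Up_add, Up_add, Up_one hp.ne_zero, Up_C_mul, Up_C_mul, Up_C_mul, Up_add, hUh,
    l1.E4q_eq] at t2
  have hPd : C (p : ℂ) * C ((p : ℂ)⁻¹) = (1 : PowerSeries ℂ) := by
    rw [← map_mul, mul_inv_cancel₀ hp0, map_one]
  have h1d : C (1 + (p : ℂ)⁻¹) = (1 : PowerSeries ℂ) + C ((p : ℂ)⁻¹) := by
    rw [map_add, map_one]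
  rw [h1d] at t2
  have hid : (C (p : ℂ) + 1) * (C (l : ℂ) * (h + h))
      + C (l : ℂ) * (C (l : ℂ) * (C (p : ℂ) * (h * h) + Up p (Up p h * Up p h)))
      = (C (p : ℂ) + 1) * (C (240 : ℂ) * Sq 3) := by
    linear_combination C (p : ℂ) * t2
      + (C (240 : ℂ) * Sq 3 - C (l : ℂ) * (h + h)
          - C (l : ℂ) * (C (l : ℂ) * Up p (Up p h * Up p h))) * hPd
  have hP1 : (C (p : ℂ) + 1 : PowerSeries ℂ) = C ((p : ℂ) + 1) := by
    rw [map_add, map_one]
  rw [hP1] at hid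
  have hcoef := congrArg (coeff n) hid
  rw [map_add] at hcoef
  simp only [coeff_C_mul] at hcoef
  have hS : coeff n (Sq 3) = (ArithmeticFunction.sigma 3 n : ℂ) := by
    simp [Sq, coeff_mk]
  have h2 : coeff n (h + h) = coeff n h + coeff n h := map_add _ _ _
  rw [hS, h2] at hcoef
  have hr : coeff n (C (p : ℂ) * (h * h) + Up p (Up p h * Up p h)) ∈ RL l := by
    have : C (p : ℂ) * (h * h) + Up p (Up p h * Up p h) ∈ IntPS l :=
      add_mem (mul_mem (C_natCast_mem l p) (mul_mem hh hh))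
        (Up_mem (mul_mem (Up_mem hh) (Up_mem hh)))
    exact this n
  refine ⟨_, hr, ?_⟩
  linear_combination hcoef

/-! ### The main theorem -/

/-- Case K5c: for a prime `ℓ ≥ 5` not dividing `p (p + 1)`, no `G ∈ M₂(Γ₀(p))` has an
`ℓ`-integral `q`-expansion congruent to `1` modulo `ℓ`. -/
theorem main (p : ℕ) [hp : Fact p.Prime] (tk : Toolkit p) (l1 : L1Facts) (l : ℕ) (hl : l.Prime)
    (h5 : 5 ≤ l) (hlp : ¬ l ∣ p) (hlp1 : ¬ l ∣ p + 1) : Kstmt p l 1 := by
  rintro ⟨G, hG0, hG⟩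
  choose! y hy hy' using hG
  have hc : Cusp2 p 2 (qExpansion 1 G) (qExpansion (p : ℝ) (⇑G ∣[(2 : ℤ)] ModularGroup.S)) :=
    ⟨G, rfl, rfl⟩
  let h : PowerSeries ℂ := PowerSeries.mk fun m => if m = 0 then 0 else y m
  have hh : h ∈ IntPS l := by
    intro n
    simp only [h, coeff_mk]
    split_ifs with hn
    · exact zero_mem _
    · exact hy n (Nat.one_le_iff_ne_zero.2 hn)
  have hh0 : coeff 0 h = 0 := by simp [h]
  have hA : qExpansion 1 G = 1 + C (l : ℂ) * h := by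
    ext n
    rcases Nat.eq_zero_or_pos n with rfl | hn
    · rw [map_add, coeff_C_mul, hh0, mul_zero, add_zero, coeff_one, if_pos rfl]
      exact hG0
    · rw [map_add, coeff_C_mul, coeff_one, if_neg hn.ne', zero_add]
      have h1 := hy' n hn
      simp only [pow_one] at h1
      simp only [h, coeff_mk, if_neg hn.ne']
      exact h1
  obtain ⟨-, -, hsw⟩ := W2 hp.out tk l1 hc
  -- Step A: `ℓ = 5`.
  have hl5 : l = 5 := by
    obtain ⟨r, hr, e⟩ := key hp.out tk l1 hl.ne_zero hc hA hh hh0 1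
    have hs1 : ((ArithmeticFunction.sigma 3 1 : ℕ) : ℂ) = 1 := by simp
    rw [hs1] at e
    have hd : l ∣ (p + 1) * 240 := by
      refine nat_dvd_of_mem hl (y := ((p : ℂ) + 1) * 2 * coeff 1 h + (l : ℂ) * r) ?_ ?_
      · refine add_mem (mul_mem (mul_mem (add_mem (natCast_mem _ _) (one_mem _)) ?_) (hh 1))
          (mul_mem (natCast_mem _ _) hr)
        have : (2 : ℂ) = ((2 : ℕ) : ℂ) := by norm_num
        rw [this]; exact natCast_mem _ _
      · push_cast
        linear_combination -e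
    have h240 : l ∣ 240 := (hl.dvd_mul.1 hd).resolve_left hlp1
    have h240' : l ∣ 2 ^ 4 * 3 * 5 := by norm_num; exact h240
    rcases hl.dvd_mul.1 h240' with h1 | h1
    · rcases hl.dvd_mul.1 h1 with h2 | h2
      · have := (Nat.prime_dvd_prime_iff_eq hl Nat.prime_two).1 (hl.dvd_of_dvd_pow h2)
        omega
      · have := (Nat.prime_dvd_prime_iff_eq hl Nat.prime_three).1 h2
        omega
    · exact (Nat.prime_dvd_prime_iff_eq hl Nat.prime_five).1 h1
  subst hl5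
  -- Step B: compare the coefficient `p` of `h` computed in two ways.
  obtain ⟨r, hr, e⟩ := key hp.out tk l1 (by norm_num) hc hA hh hh0 p
  have hUA : Up p (qExpansion 1 G) = 1 + C ((5 : ℕ) : ℂ) * Up p h := by
    rw [hA, Up_add, Up_one hp.out.ne_zero, Up_C_mul]
  have hh0' : coeff 0 (Up p h) = 0 := by rw [coeff_Up, mul_zero, hh0]
  obtain ⟨r', hr', e'⟩ := key hp.out tk l1 (by norm_num) hsw hUA (Up_mem hh) hh0' 1
  rw [coeff_Up, mul_one] at e'
  have hs1 : ((ArithmeticFunction.sigma 3 1 : ℕ) : ℂ) = 1 := by simp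
  have hsp : ((ArithmeticFunction.sigma 3 p : ℕ) : ℂ) = (p : ℂ) ^ 3 + 1 := by
    rw [ArithmeticFunction.sigma_apply, hp.out.sum_divisors]; push_cast; ring
  rw [hs1] at e'
  rw [hsp] at e
  have hd : 5 ∣ (p + 1) * 48 * p ^ 3 := by
    refine nat_dvd_of_mem (by norm_num) (y := r - r') (sub_mem hr hr') ?_
    push_cast
    linear_combination (-1 / 5 : ℂ) * e + (1 / 5 : ℂ) * e'
  have hp5 : Nat.Prime 5 := by norm_num
  rcases hp5.dvd_mul.1 hd with h1 | h1
  · rcases hp5.dvd_mul.1 h1 with h2 | h2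
    · exact hlp1 h2
    · norm_num at h2
  · exact hlp (hp5.dvd_of_dvd_pow h1)

end

end Fermat.Agent.S16.K5c
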