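/-
S16 / K2a (helper23): the case `ℓ = 2`, `p ≡ 1 mod 4`, `s = 2` of the upper bound, in the
exported blueprint shape: no `G ∈ M₂(Γ₀(p))` has `q`-expansion `≡ 1 mod 4` (2-integrally).
`K2aCore.main_of_hyps` with the trace identities (W2), (T2) supplied by `K5c.W2`, `K5c.T2`.
-/
import Fermat.Agent.S16.K2aCore
import Fermat.Agent.S16.K5c

set_option autoImplicit false

namespace Fermat.Agent.S16.K2a

open PowerSeries

/-- `K2a`: for a prime `p ≡ 1 mod 4` there is no `G ∈ M₂(Γ₀(p))` with `G ≡ 1 mod 4`. -/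
theorem main (p : ℕ) [Fact p.Prime] (tk : Toolkit p) (l1 : L1Facts) (hp4 : p % 4 = 1) :
    Kstmt p 2 2 :=
  main_of_hyps p l1 (fun h => K5c.W2 Fact.out tk l1 h)
    (fun h h0 => by simpa only [pow_two] using K5c.T2 Fact.out tk l1 h h0) hp4

end Fermat.Agent.S16.K2a
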