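/-
S16 / W4Core (helper22): pure power-series cores of the weight-4 trace identity.

Setting: `θ, θ'` are the `q`-expansions of `G ∈ M₂(Γ₀(p))` and of `U_p G = -G|W` (so
`U_p θ = θ'`, `U_p θ' = θ`), `E` is the `q`-expansion of `E₄`, and the traces of `G²`, `(G|W)²`
to level one give `p θ² + U_p(θ'²) = (p+1) E` and `p θ'² + U_p(θ²) = (p+1) E`.
If `θ ≡ 1 mod M` with coefficients in a subring `R ⊆ ℂ` in which the relevant prime is not
invertible, we derive `False` in the cases listed at the end of the file.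
No modular forms inside: Mathlib only.
-/
import Mathlib

namespace Fermat.Agent.S16.W4Core

open PowerSeries Finset

/-! ### Squares of power series, coefficientwise -/

lemma sum_antidiagonal_symm (f : ℕ → ℕ → ℂ) (hf : ∀ i j, f i j = f j i) (n : ℕ) :
    ∑ x ∈ antidiagonal n, f x.1 x.2 =
      (if Even n then f (n / 2) (n / 2) else 0) +
        2 * ∑ x ∈ antidiagonal n, (if x.1 < x.2 then f x.1 x.2 else 0) := by
  have hsplit : ∀ x : ℕ × ℕ, f x.1 x.2 = (if x.1 < x.2 then f x.1 x.2 else 0) +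
      (if x.2 < x.1 then f x.1 x.2 else 0) + (if x.1 = x.2 then f x.1 x.2 else 0) := by
    intro x
    rcases lt_trichotomy x.1 x.2 with h | h | h
    · simp [h, h.not_gt, h.ne]
    · simp [h]
    · simp [h, h.not_gt, h.ne']
  have hswap : ∑ x ∈ antidiagonal n, (if x.2 < x.1 then f x.1 x.2 else 0) =
      ∑ x ∈ antidiagonal n, (if x.1 < x.2 then f x.1 x.2 else 0) := by
    rw [← Finset.Nat.sum_antidiagonal_swap]
    refine Finset.sum_congr rfl fun x _ => ?_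
    simp only [Prod.fst_swap, Prod.snd_swap]
    rw [hf]
  have hdiag : ∑ x ∈ antidiagonal n, (if x.1 = x.2 then f x.1 x.2 else 0) =
      if Even n then f (n / 2) (n / 2) else 0 := by
    split_ifs with hn
    · obtain ⟨m, rfl⟩ := hn
      rw [Finset.sum_eq_single (m, m)]
      · simp [show (m + m) / 2 = m by omega]
      · rintro ⟨i, j⟩ hij hne
        rw [Finset.HasAntidiagonal.mem_antidiagonal] at hij
        have hij' : i ≠ j := by
          rintro rfl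
          apply hne
          have : i = m := by omega
          rw [this]
        simp [hij']
      · intro h
        exact absurd (Finset.HasAntidiagonal.mem_antidiagonal.mpr (rfl : (m, m).1 + (m, m).2 = m + m)) h
    · refine Finset.sum_eq_zero fun x hx => ?_
      rw [Finset.HasAntidiagonal.mem_antidiagonal] at hx
      have hx' : x.1 ≠ x.2 := by
        intro h
        apply hn
        exact ⟨x.1, by omega⟩
      simp [hx']
  rw [Finset.sum_congr rfl fun x _ => hsplit x, Finset.sum_add_distrib, Finset.sum_add_distrib,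
    hswap, hdiag]
  ring

lemma coeff_sq_eq (u : PowerSeries ℂ) (n : ℕ) :
    coeff n (u ^ 2) = (if Even n then (coeff (n / 2) u) ^ 2 else 0) +
      2 * ∑ x ∈ antidiagonal n, (if x.1 < x.2 then coeff x.1 u * coeff x.2 u else 0) := by
  rw [sq, coeff_mul,
    sum_antidiagonal_symm (fun i j => coeff i u * coeff j u) (fun i j => mul_comm _ _)]
  simp only [sq]

variable {p : ℕ} {R : Subring ℂ}

lemma coeff_sq_mem {u : PowerSeries ℂ} (hu : ∀ n, coeff n u ∈ R) (n : ℕ) :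
    coeff n (u ^ 2) ∈ R := by
  rw [sq, coeff_mul]
  exact Subring.sum_mem _ fun x _ => R.mul_mem (hu _) (hu _)

lemma coeff_sq_two {u : PowerSeries ℂ} (hu : ∀ n, coeff n u ∈ R) (n : ℕ) :
    ∃ s ∈ R, coeff n (u ^ 2) = (if Even n then (coeff (n / 2) u) ^ 2 else 0) + 2 * s := by
  refine ⟨_, Subring.sum_mem _ fun x _ => ?_, coeff_sq_eq u n⟩
  split_ifs
  exacts [R.mul_mem (hu _) (hu _), R.zero_mem]

/-! ### Coprimality bookkeeping in a subring of `ℂ` -/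

lemma exists_eq_mul_of_coprime {m ℓ : ℤ} (hc : IsCoprime m ℓ) {z r : ℂ} (hz : z ∈ R) (hr : r ∈ R)
    (h : (m : ℂ) * z = ℓ * r) : ∃ r' ∈ R, z = ℓ * r' := by
  obtain ⟨x, y, hxy⟩ := hc
  refine ⟨x * r + y * z, R.add_mem (R.mul_mem (intCast_mem R x) hr)
    (R.mul_mem (intCast_mem R y) hz), ?_⟩
  have h1 : ((x * m + y * ℓ : ℤ) : ℂ) = 1 := by rw [hxy]; simp
  push_cast at h1
  linear_combination (-z) * h1 + (x : ℂ) * h

lemma inv_mem_of_coprime {m ℓ : ℤ} (hc : IsCoprime m ℓ) {r : ℂ} (hr : r ∈ R)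
    (h : (m : ℂ) = ℓ * r) : (ℓ : ℂ)⁻¹ ∈ R := by
  obtain ⟨r', hr', h1⟩ := exists_eq_mul_of_coprime (R := R) hc R.one_mem hr (by rw [mul_one]; exact h)
  rw [inv_eq_of_mul_eq_one_right h1.symm]
  exact hr'

/-! ### The datum -/

/-- `θ = 1 + M u`, `θ' = 1 + M u'` with `u' = U_p u`, `u = U_p u'`, `R`-integral, and the two
weight-4 trace identities (in coefficients of positive index). -/
structure Datum (p : ℕ) (R : Subring ℂ) (M : ℂ) (u u' : PowerSeries ℂ) : Prop where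
  mem : ∀ n, coeff n u ∈ R
  mem' : ∀ n, coeff n u' ∈ R
  U : ∀ n, coeff n u' = coeff (p * n) u
  U' : ∀ n, coeff n u = coeff (p * n) u'
  id1 : ∀ n, n ≠ 0 → 2 * M * (p + 1) * coeff n u +
    M ^ 2 * (p * coeff n (u ^ 2) + coeff (p * n) (u' ^ 2)) =
      240 * (p + 1) * (ArithmeticFunction.sigma 3 n : ℂ)
  id2 : ∀ n, n ≠ 0 → 2 * M * (p + 1) * coeff n u' +
    M ^ 2 * (p * coeff n (u' ^ 2) + coeff (p * n) (u ^ 2)) =
      240 * (p + 1) * (ArithmeticFunction.sigma 3 n : ℂ)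

lemma Datum.symm {M : ℂ} {u u' : PowerSeries ℂ} (D : Datum p R M u u') : Datum p R M u' u :=
  ⟨D.mem', D.mem, D.U', D.U, D.id2, D.id1⟩

/-- Passage from the `θ`-level hypotheses to a datum. -/
lemma exists_datum (hp : p ≠ 0) {M : ℂ} (hM0 : M ≠ 0) {θ θ' E : PowerSeries ℂ}
    (hE : ∀ n, coeff n E = if n = 0 then 1 else 240 * (ArithmeticFunction.sigma 3 n : ℂ))
    (hU : ∀ n, coeff n θ' = coeff (p * n) θ) (hU' : ∀ n, coeff n θ = coeff (p * n) θ')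
    (h1 : ∀ n, (p : ℂ) * coeff n (θ ^ 2) + coeff (p * n) (θ' ^ 2) = (p + 1) * coeff n E)
    (h2 : ∀ n, (p : ℂ) * coeff n (θ' ^ 2) + coeff (p * n) (θ ^ 2) = (p + 1) * coeff n E)
    (h0 : coeff 0 θ = 1) (hM : ∀ n, n ≠ 0 → ∃ r ∈ R, coeff n θ = M * r) :
    ∃ u u', Datum p R M u u' ∧ ∀ n, n ≠ 0 → coeff n θ = M * coeff n u := by
  choose! r hrR hr using hM
  set u : PowerSeries ℂ := PowerSeries.mk fun n => if n = 0 then 0 else r n with hu
  set u' : PowerSeries ℂ := PowerSeries.mk fun n => coeff (p * n) u with hu'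
  have hcu : ∀ n, coeff n u = if n = 0 then 0 else r n := fun n => by rw [hu, coeff_mk]
  have hcu' : ∀ n, coeff n u' = coeff (p * n) u := fun n => by rw [hu', coeff_mk]
  have hθ : θ = 1 + C M * u := by
    ext n
    rw [map_add, coeff_C_mul, coeff_one, hcu]
    by_cases hn : n = 0
    · subst hn; simp [h0]
    · simp [hn, hr n hn]
  have hθ' : θ' = 1 + C M * u' := by
    ext n
    rw [map_add, coeff_C_mul, coeff_one, hcu', hU, hθ, map_add, coeff_C_mul, coeff_one]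
    simp [hp]
  have hsq : ∀ w : PowerSeries ℂ, (1 + C M * w) ^ 2 = 1 + C (2 * M) * w + C (M ^ 2) * w ^ 2 := by
    intro w
    rw [map_mul, map_pow, show (C (2 : ℂ) : PowerSeries ℂ) = 2 from map_ofNat _ 2]
    ring
  have hcsq : ∀ (w : PowerSeries ℂ) (n : ℕ), n ≠ 0 →
      coeff n ((1 + C M * w) ^ 2) = 2 * M * coeff n w + M ^ 2 * coeff n (w ^ 2) := by
    intro w n hn
    rw [hsq, map_add, map_add, coeff_C_mul, coeff_C_mul, coeff_one, if_neg hn, zero_add]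
  have hmem : ∀ n, coeff n u ∈ R := by
    intro n
    rw [hcu]
    split_ifs with hn
    exacts [R.zero_mem, hrR n hn]
  have hUu' : ∀ n, coeff n u = coeff (p * n) u' := by
    intro n
    have h := hU' n
    rw [hθ, hθ', map_add, map_add, coeff_C_mul, coeff_C_mul, coeff_one, coeff_one] at h
    have hpn : (p * n = 0) ↔ n = 0 := by simp [hp]
    simp only [hpn] at h
    exact mul_left_cancel₀ hM0 (add_left_cancel h)
  refine ⟨u, u', ⟨hmem, fun n => by rw [hcu']; exact hmem _, hcu', hUu', ?_, ?_⟩, ?_⟩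
  · intro n hn
    have hpn : p * n ≠ 0 := Nat.mul_ne_zero hp hn
    have h := h1 n
    rw [hE, if_neg hn, hθ, hθ', hcsq u n hn, hcsq u' (p * n) hpn, ← hUu' n] at h
    linear_combination h
  · intro n hn
    have hpn : p * n ≠ 0 := Nat.mul_ne_zero hp hn
    have h := h2 n
    rw [hE, if_neg hn, hθ, hθ', hcsq u' n hn, hcsq u (p * n) hpn, ← hcu' n] at h
    linear_combination h
  · intro n hn
    rw [hcu, if_neg hn, hr n hn]

section datum

variable {M : ℂ} {u u' : PowerSeries ℂ}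

/-- For odd `p` the quadratic term of the trace identity is `≡ 0 mod 2R`. -/
lemma Datum.two_dvd (D : Datum p R M u u') {j : ℕ} (hj : p = 2 * j + 1) (n : ℕ) :
    ∃ s ∈ R, (p : ℂ) * coeff n (u ^ 2) + coeff (p * n) (u' ^ 2) = 2 * s := by
  obtain ⟨s₁, hs₁, h₁⟩ := coeff_sq_two D.mem n
  obtain ⟨s₂, hs₂, h₂⟩ := coeff_sq_two D.mem' (p * n)
  have hev : Even (p * n) ↔ Even n := by
    rw [Nat.even_mul]
    have : ¬ Even p := by rw [hj]; simp
    simp [this]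
  by_cases hn : Even n
  · obtain ⟨m, rfl⟩ := hn
    have hhalf : p * (m + m) / 2 = p * m := by
      rw [show p * (m + m) = 2 * (p * m) by ring, Nat.mul_div_cancel_left _ (by norm_num)]
    have hhalf' : (m + m) / 2 = m := by omega
    rw [if_pos ⟨m, rfl⟩, hhalf'] at h₁
    rw [if_pos (hev.mpr ⟨m, rfl⟩), hhalf, ← D.U' m] at h₂
    refine ⟨(j + 1) * (coeff m u) ^ 2 + p * s₁ + s₂, ?_, ?_⟩
    · refine R.add_mem (R.add_mem (R.mul_mem ?_ (R.pow_mem (D.mem m) 2))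
        (R.mul_mem (natCast_mem R p) hs₁)) hs₂
      exact R.add_mem (natCast_mem R j) R.one_mem
    · rw [h₁, h₂, hj]
      push_cast
      ring
  · rw [if_neg hn] at h₁
    rw [if_neg (fun h => hn (hev.mp h))] at h₂
    refine ⟨p * s₁ + s₂, R.add_mem (R.mul_mem (natCast_mem R p) hs₁) hs₂, ?_⟩
    rw [h₁, h₂]
    ring

/-- The quadratic term is `R`-integral. -/
lemma Datum.quad_mem (D : Datum p R M u u') (n : ℕ) :
    (p : ℂ) * coeff n (u ^ 2) + coeff (p * n) (u' ^ 2) ∈ R :=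
  R.add_mem (R.mul_mem (natCast_mem R p) (coeff_sq_mem D.mem n)) (coeff_sq_mem D.mem' _)

end datum

/-! ### The prime 2 -/

/-- Stage 1 for `p ≡ 1 mod 4`: `θ ≡ 1 mod 4` implies `θ ≡ 1 mod 8`. -/
lemma Datum.two_dvd_coeff {u u' : PowerSeries ℂ} (D : Datum p R 4 u u') {k : ℕ}
    (hk : p = 4 * k + 1) {n : ℕ} (hn : n ≠ 0) : ∃ r ∈ R, coeff n u = 2 * r := by
  obtain ⟨s, hs, h⟩ := D.two_dvd (j := 2 * k) (by omega) n
  have h1 := D.id1 n hn
  rw [h] at h1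
  refine ⟨15 * (2 * k + 1) * (ArithmeticFunction.sigma 3 n : ℂ) - s - k * coeff n u, ?_, ?_⟩
  · refine R.sub_mem (R.sub_mem (R.mul_mem ?_ (natCast_mem R _)) hs)
      (R.mul_mem (natCast_mem R k) (D.mem n))
    have : (15 * (2 * k + 1) : ℂ) = ((15 * (2 * k + 1) : ℕ) : ℂ) := by push_cast; ring
    rw [this]
    exact natCast_mem R _
  · rw [hk] at h1
    push_cast at h1
    linear_combination (1 / 16 : ℂ) * h1

/-- For `M = 8` and `p ≡ 1 mod 4` or `p ≡ 3 mod 8`: `u ≡ σ₃ mod 2R`. -/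
lemma Datum.congr_sigma {u u' : PowerSeries ℂ} (D : Datum p R 8 u u')
    (hp : (∃ k : ℕ, p = 4 * k + 1) ∨ ∃ k : ℕ, p = 8 * k + 3) {n : ℕ} (hn : n ≠ 0) :
    ∃ t ∈ R, coeff n u = (ArithmeticFunction.sigma 3 n : ℂ) + 2 * t := by
  have h1 := D.id1 n hn
  rcases hp with ⟨k, hk⟩ | ⟨k, hk⟩
  · obtain ⟨s, hs, h⟩ := D.two_dvd (j := 2 * k) (by omega) n
    rw [h] at h1
    refine ⟨(15 * k + 7) * (ArithmeticFunction.sigma 3 n : ℂ) - 2 * s - k * coeff n u, ?_, ?_⟩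
    · refine R.sub_mem (R.sub_mem (R.mul_mem ?_ (natCast_mem R _)) ?_)
        (R.mul_mem (natCast_mem R k) (D.mem n))
      · have : (15 * k + 7 : ℂ) = ((15 * k + 7 : ℕ) : ℂ) := by push_cast; ring
        rw [this]
        exact natCast_mem R _
      · exact R.mul_mem (by exact_mod_cast natCast_mem R 2) hs
    · rw [hk] at h1
      push_cast at h1
      linear_combination (1 / 32 : ℂ) * h1
  · obtain ⟨s, hs, h⟩ := D.two_dvd (j := 4 * k + 1) (by omega) n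
    rw [h] at h1
    refine ⟨(15 * k + 7) * (ArithmeticFunction.sigma 3 n : ℂ) - s - k * coeff n u, ?_, ?_⟩
    · refine R.sub_mem (R.sub_mem (R.mul_mem ?_ (natCast_mem R _)) hs)
        (R.mul_mem (natCast_mem R k) (D.mem n))
      have : (15 * k + 7 : ℂ) = ((15 * k + 7 : ℕ) : ℂ) := by push_cast; ring
      rw [this]
      exact natCast_mem R _
    · rw [hk] at h1
      push_cast at h1
      linear_combination (1 / 64 : ℂ) * h1

lemma sigma_three_prime (hp : p.Prime) : ArithmeticFunction.sigma 3 p = p ^ 3 + 1 := by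
  rw [ArithmeticFunction.sigma_apply, hp.sum_divisors]
  simp

/-- The final contradiction at the prime `2` for `M = 8`. -/
lemma Datum.false_two {u u' : PowerSeries ℂ} (D : Datum p R 8 u u') (hpp : p.Prime)
    (hp : (∃ k : ℕ, p = 4 * k + 1) ∨ ∃ k : ℕ, p = 8 * k + 3) (h2 : (2 : ℂ)⁻¹ ∉ R) : False := by
  obtain ⟨t, ht, h⟩ := D.congr_sigma hp hpp.ne_zero
  obtain ⟨t', ht', h'⟩ := D.symm.congr_sigma hp one_ne_zero
  have hU := D.U 1
  rw [mul_one, h, h', ArithmeticFunction.sigma_one, sigma_three_prime hpp] at hU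
  obtain ⟨j, hj⟩ : ∃ j : ℕ, p = 2 * j + 1 := by
    rcases hp with ⟨k, hk⟩ | ⟨k, hk⟩
    · exact ⟨2 * k, by omega⟩
    · exact ⟨4 * k + 1, by omega⟩
  apply h2
  have : (2 : ℂ) * (t' - t - ((4 * j ^ 3 + 6 * j ^ 2 + 3 * j : ℕ) : ℂ)) = 1 := by
    rw [hj] at hU
    push_cast at hU ⊢
    linear_combination hU
  rw [inv_eq_of_mul_eq_one_right this]
  exact R.sub_mem (R.sub_mem ht' ht) (natCast_mem R _)

/-! ### Odd primes -/

/-- Odd `ℓ` not dividing `240` (i.e. `ℓ ≥ 7`): the coefficient of `q` suffices. -/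
lemma Datum.false_of_not_dvd {ℓ : ℕ} {u u' : PowerSeries ℂ} (D : Datum p R (ℓ : ℂ) u u')
    (hℓ : ℓ.Prime) (h240 : ¬ ℓ ∣ 240) (hsq : ¬ ℓ ^ 2 ∣ p + 1) (hR : (ℓ : ℂ)⁻¹ ∉ R) : False := by
  have h := D.id1 1 one_ne_zero
  have hX := D.quad_mem 1
  set X : ℂ := (p : ℂ) * coeff 1 (u ^ 2) + coeff (p * 1) (u' ^ 2) with hXdef
  rw [ArithmeticFunction.sigma_one, Nat.cast_one, mul_one] at h
  have hℓ0 : (ℓ : ℂ) ≠ 0 := by exact_mod_cast hℓ.ne_zero
  have hc240 : Nat.Coprime 240 ℓ := ((Nat.Prime.coprime_iff_not_dvd hℓ).mpr h240).symm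
  apply hR
  by_cases hd : ℓ ∣ p + 1
  · obtain ⟨w, hw⟩ := hd
    have hw' : ¬ ℓ ∣ w := by
      rintro ⟨w', rfl⟩
      exact hsq ⟨w', by rw [hw]; ring⟩
    have hcw : Nat.Coprime w ℓ := ((Nat.Prime.coprime_iff_not_dvd hℓ).mpr hw').symm
    have hc : IsCoprime ((240 * w : ℕ) : ℤ) ((ℓ : ℕ) : ℤ) :=
      Nat.isCoprime_iff_coprime.mpr (Nat.Coprime.mul_left hc240 hcw)
    have hwC : (p : ℂ) + 1 = ℓ * w := by exact_mod_cast hw
    have key : (((240 * w : ℕ) : ℤ) : ℂ) = ((ℓ : ℕ) : ℤ) * (2 * w * coeff 1 u + X) := by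
      rw [hwC] at h
      push_cast
      apply mul_left_cancel₀ hℓ0
      linear_combination -h
    have := inv_mem_of_coprime (R := R) hc
      (R.add_mem (R.mul_mem (R.mul_mem (by exact_mod_cast natCast_mem R 2) (natCast_mem R w))
        (D.mem 1)) hX) key
    exact_mod_cast this
  · have hcp : Nat.Coprime (p + 1) ℓ := ((Nat.Prime.coprime_iff_not_dvd hℓ).mpr hd).symm
    have hc : IsCoprime ((240 * (p + 1) : ℕ) : ℤ) ((ℓ : ℕ) : ℤ) :=
      Nat.isCoprime_iff_coprime.mpr (Nat.Coprime.mul_left hc240 hcp)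
    have key : (((240 * (p + 1) : ℕ) : ℤ) : ℂ) =
        ((ℓ : ℕ) : ℤ) * (2 * (p + 1) * coeff 1 u + ℓ * X) := by
      push_cast
      linear_combination -h
    have := inv_mem_of_coprime (R := R) hc
      (R.add_mem (R.mul_mem (R.mul_mem (by exact_mod_cast natCast_mem R 2)
        (by exact_mod_cast natCast_mem R (p + 1))) (D.mem 1)) (R.mul_mem (natCast_mem R ℓ) hX)) key
    exact_mod_cast this

/-- `ℓ ∈ {3, 5}` (more generally `240 = ℓ t` with `t` prime to `ℓ`), `ℓ ∤ p + 1`: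
`2 u ≡ t σ₃ mod ℓ R`. -/
lemma Datum.congr_sigma_odd {ℓ t : ℕ} {u u' : PowerSeries ℂ} (D : Datum p R (ℓ : ℂ) u u')
    (hℓ : ℓ.Prime) (ht : 240 = ℓ * t) (hd : ¬ ℓ ∣ p + 1) {n : ℕ} (hn : n ≠ 0) :
    ∃ r ∈ R, 2 * coeff n u - t * (ArithmeticFunction.sigma 3 n : ℂ) = ℓ * r := by
  have h := D.id1 n hn
  have hX := D.quad_mem n
  set X : ℂ := (p : ℂ) * coeff n (u ^ 2) + coeff (p * n) (u' ^ 2) with hXdef
  have hℓ0 : (ℓ : ℂ) ≠ 0 := by exact_mod_cast hℓ.ne_zero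
  have htC : (240 : ℂ) = ℓ * t := by exact_mod_cast ht
  have hcp : Nat.Coprime (p + 1) ℓ := ((Nat.Prime.coprime_iff_not_dvd hℓ).mpr hd).symm
  have hc : IsCoprime ((p + 1 : ℕ) : ℤ) ((ℓ : ℕ) : ℤ) := Nat.isCoprime_iff_coprime.mpr hcp
  have key : (((p + 1 : ℕ) : ℤ) : ℂ) * (2 * coeff n u - t * (ArithmeticFunction.sigma 3 n : ℂ)) =
      ((ℓ : ℕ) : ℤ) * (-X) := by
    rw [htC] at h
    push_cast
    apply mul_left_cancel₀ hℓ0
    linear_combination h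
  obtain ⟨r, hr, hr'⟩ := exists_eq_mul_of_coprime (R := R) hc
    (R.sub_mem (R.mul_mem (by exact_mod_cast natCast_mem R 2) (D.mem n))
      (R.mul_mem (natCast_mem R t) (natCast_mem R _))) (R.neg_mem hX) key
  exact ⟨r, hr, by rw [hr']; push_cast; ring⟩

lemma Datum.false_of_dvd {ℓ t : ℕ} {u u' : PowerSeries ℂ} (D : Datum p R (ℓ : ℂ) u u')
    (hpp : p.Prime) (hℓ : ℓ.Prime) (ht : 240 = ℓ * t) (htℓ : Nat.Coprime t ℓ) (hℓp : ¬ ℓ ∣ p)
    (hd : ¬ ℓ ∣ p + 1) (hR : (ℓ : ℂ)⁻¹ ∉ R) : False := by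
  obtain ⟨r, hr, h⟩ := D.congr_sigma_odd hℓ ht hd hpp.ne_zero
  obtain ⟨r', hr', h'⟩ := D.symm.congr_sigma_odd hℓ ht hd one_ne_zero
  have hU := D.U 1
  rw [mul_one] at hU
  rw [hU, ArithmeticFunction.sigma_one] at h'
  rw [sigma_three_prime hpp] at h
  have hcp : Nat.Coprime p ℓ := ((Nat.Prime.coprime_iff_not_dvd hℓ).mpr hℓp).symm
  have hc : IsCoprime ((t * p ^ 3 : ℕ) : ℤ) ((ℓ : ℕ) : ℤ) :=
    Nat.isCoprime_iff_coprime.mpr (Nat.Coprime.mul_left htℓ (Nat.Coprime.pow_left 3 hcp))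
  have key : (((t * p ^ 3 : ℕ) : ℤ) : ℂ) = ((ℓ : ℕ) : ℤ) * (r' - r) := by
    push_cast at h h' ⊢
    linear_combination h' - h
  apply hR
  have := inv_mem_of_coprime (R := R) hc (R.sub_mem hr' hr) key
  exact_mod_cast this

lemma prime_dvd_240 {ℓ : ℕ} (hℓ : ℓ.Prime) (h : ℓ ∣ 240) : ℓ = 2 ∨ ℓ = 3 ∨ ℓ = 5 := by
  rw [show 240 = 2 ^ 4 * (3 * 5) by norm_num] at h
  rcases (Nat.Prime.dvd_mul hℓ).mp h with h | h
  · exact Or.inl ((Nat.prime_dvd_prime_iff_eq hℓ Nat.prime_two).mp (hℓ.dvd_of_dvd_pow h))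
  · rcases (Nat.Prime.dvd_mul hℓ).mp h with h | h
    · exact Or.inr (Or.inl ((Nat.prime_dvd_prime_iff_eq hℓ Nat.prime_three).mp h))
    · exact Or.inr (Or.inr ((Nat.prime_dvd_prime_iff_eq hℓ Nat.prime_five).mp h))

/-- `M = 9`, `27 ∤ p + 1`: the coefficient of `q` suffices. -/
lemma Datum.false_nine {u u' : PowerSeries ℂ} (D : Datum p R 9 u u')
    (h27 : ¬ 27 ∣ p + 1) (hR : (3 : ℂ)⁻¹ ∉ R) : False := by
  have h := D.id1 1 one_ne_zero
  have hX := D.quad_mem 1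
  set X : ℂ := (p : ℂ) * coeff 1 (u ^ 2) + coeff (p * 1) (u' ^ 2) with hXdef
  rw [ArithmeticFunction.sigma_one, Nat.cast_one, mul_one] at h
  have h2R : (2 : ℂ) ∈ R := by exact_mod_cast natCast_mem R 2
  have h3R : (3 : ℂ) ∈ R := by exact_mod_cast natCast_mem R 3
  have h9R : (9 : ℂ) ∈ R := by exact_mod_cast natCast_mem R 9
  have hc80 : Nat.Coprime 80 3 := by norm_num
  have hcop : ∀ w : ℕ, ¬ 3 ∣ w → IsCoprime ((80 * w : ℕ) : ℤ) ((3 : ℕ) : ℤ) := fun w hw =>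
    Nat.isCoprime_iff_coprime.mpr (Nat.Coprime.mul_left hc80
      ((Nat.Prime.coprime_iff_not_dvd Nat.prime_three).mpr hw).symm)
  apply hR
  by_cases h3 : 3 ∣ p + 1
  · obtain ⟨w, hw⟩ := h3
    have hwC : (p : ℂ) + 1 = 3 * w := by exact_mod_cast hw
    rw [hwC] at h
    by_cases h3' : 3 ∣ w
    · obtain ⟨w', rfl⟩ := h3'
      have hw' : ¬ 3 ∣ w' := by
        rintro ⟨w'', rfl⟩
        exact h27 ⟨w'', by rw [hw]; ring⟩
      have key : (((80 * w' : ℕ) : ℤ) : ℂ) = ((3 : ℕ) : ℤ) * (2 * w' * coeff 1 u + X) := by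
        push_cast at h ⊢
        linear_combination (-1 / 27 : ℂ) * h
      have := inv_mem_of_coprime (R := R) (hcop w' hw')
        (R.add_mem (R.mul_mem (R.mul_mem h2R (natCast_mem R w')) (D.mem 1)) hX) key
      exact_mod_cast this
    · have key : (((80 * w : ℕ) : ℤ) : ℂ) = ((3 : ℕ) : ℤ) * (2 * w * coeff 1 u + 3 * X) := by
        push_cast at h ⊢
        linear_combination (-1 / 9 : ℂ) * h
      have := inv_mem_of_coprime (R := R) (hcop w h3')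
        (R.add_mem (R.mul_mem (R.mul_mem h2R (natCast_mem R w)) (D.mem 1)) (R.mul_mem h3R hX)) key
      exact_mod_cast this
  · have key : (((80 * (p + 1) : ℕ) : ℤ) : ℂ) =
        ((3 : ℕ) : ℤ) * (2 * (p + 1) * coeff 1 u + 9 * X) := by
      push_cast at h ⊢
      linear_combination (-1 / 3 : ℂ) * h
    have := inv_mem_of_coprime (R := R) (hcop (p + 1) h3)
      (R.add_mem (R.mul_mem (R.mul_mem h2R (by exact_mod_cast natCast_mem R (p + 1))) (D.mem 1))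
        (R.mul_mem h9R hX)) key
    exact_mod_cast this

/-! ### The theorems -/

section main

variable {θ θ' E : PowerSeries ℂ}

/-- (T1) `ℓ = 2`, `p ≡ 1 mod 4`: there is no `θ ≡ 1 mod 4`. -/
theorem false_of_one_mod_four (hpp : p.Prime) (hp4 : p % 4 = 1) (hR : (2 : ℂ)⁻¹ ∉ R)
    (hE : ∀ n, coeff n E = if n = 0 then 1 else 240 * (ArithmeticFunction.sigma 3 n : ℂ))
    (hU : ∀ n, coeff n θ' = coeff (p * n) θ) (hU' : ∀ n, coeff n θ = coeff (p * n) θ')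
    (h1 : ∀ n, (p : ℂ) * coeff n (θ ^ 2) + coeff (p * n) (θ' ^ 2) = (p + 1) * coeff n E)
    (h2 : ∀ n, (p : ℂ) * coeff n (θ' ^ 2) + coeff (p * n) (θ ^ 2) = (p + 1) * coeff n E)
    (h0 : coeff 0 θ = 1) (hM : ∀ n, n ≠ 0 → ∃ r ∈ R, coeff n θ = 4 * r) : False := by
  obtain ⟨k, hk⟩ : ∃ k, p = 4 * k + 1 := ⟨p / 4, by omega⟩
  obtain ⟨u, u', D, hu⟩ := exists_datum (R := R) hpp.ne_zero (by norm_num : (4 : ℂ) ≠ 0)
    hE hU hU' h1 h2 h0 hM
  have hM8 : ∀ n, n ≠ 0 → ∃ r ∈ R, coeff n θ = 8 * r := by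
    intro n hn
    obtain ⟨r, hr, h⟩ := D.two_dvd_coeff hk hn
    exact ⟨r, hr, by rw [hu n hn, h]; ring⟩
  obtain ⟨v, v', D8, -⟩ := exists_datum (R := R) hpp.ne_zero (by norm_num : (8 : ℂ) ≠ 0)
    hE hU hU' h1 h2 h0 hM8
  exact D8.false_two hpp (Or.inl ⟨k, hk⟩) hR

/-- (T2) `ℓ = 2`, `p ≡ 3 mod 8`: there is no `θ ≡ 1 mod 8`. -/
theorem false_of_three_mod_eight (hpp : p.Prime) (hp8 : p % 8 = 3) (hR : (2 : ℂ)⁻¹ ∉ R)
    (hE : ∀ n, coeff n E = if n = 0 then 1 else 240 * (ArithmeticFunction.sigma 3 n : ℂ))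
    (hU : ∀ n, coeff n θ' = coeff (p * n) θ) (hU' : ∀ n, coeff n θ = coeff (p * n) θ')
    (h1 : ∀ n, (p : ℂ) * coeff n (θ ^ 2) + coeff (p * n) (θ' ^ 2) = (p + 1) * coeff n E)
    (h2 : ∀ n, (p : ℂ) * coeff n (θ' ^ 2) + coeff (p * n) (θ ^ 2) = (p + 1) * coeff n E)
    (h0 : coeff 0 θ = 1) (hM : ∀ n, n ≠ 0 → ∃ r ∈ R, coeff n θ = 8 * r) : False := by
  obtain ⟨k, hk⟩ : ∃ k, p = 8 * k + 3 := ⟨p / 8, by omega⟩
  obtain ⟨v, v', D8, -⟩ := exists_datum (R := R) hpp.ne_zero (by norm_num : (8 : ℂ) ≠ 0)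
    hE hU hU' h1 h2 h0 hM
  exact D8.false_two hpp (Or.inr ⟨k, hk⟩) hR

/-- (T4) `ℓ ≥ 7` prime, `ℓ² ∤ p + 1` (so `ℓ = p` is allowed): there is no `θ ≡ 1 mod ℓ`. -/
theorem false_of_seven_le {ℓ : ℕ} (hpp : p.Prime) (hℓ : ℓ.Prime) (h7 : 7 ≤ ℓ)
    (hsq : ¬ ℓ ^ 2 ∣ p + 1) (hR : (ℓ : ℂ)⁻¹ ∉ R)
    (hE : ∀ n, coeff n E = if n = 0 then 1 else 240 * (ArithmeticFunction.sigma 3 n : ℂ))
    (hU : ∀ n, coeff n θ' = coeff (p * n) θ) (hU' : ∀ n, coeff n θ = coeff (p * n) θ')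
    (h1 : ∀ n, (p : ℂ) * coeff n (θ ^ 2) + coeff (p * n) (θ' ^ 2) = (p + 1) * coeff n E)
    (h2 : ∀ n, (p : ℂ) * coeff n (θ' ^ 2) + coeff (p * n) (θ ^ 2) = (p + 1) * coeff n E)
    (h0 : coeff 0 θ = 1) (hM : ∀ n, n ≠ 0 → ∃ r ∈ R, coeff n θ = ℓ * r) : False := by
  have hℓ0 : (ℓ : ℂ) ≠ 0 := by exact_mod_cast hℓ.ne_zero
  obtain ⟨u, u', D, -⟩ := exists_datum (R := R) hpp.ne_zero hℓ0 hE hU hU' h1 h2 h0 hM
  refine D.false_of_not_dvd hℓ (fun h => ?_) hsq hR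
  rcases prime_dvd_240 hℓ h with h | h | h <;> omega

/-- (T3) `ℓ` an odd prime not dividing `p (p + 1)`: there is no `θ ≡ 1 mod ℓ`. -/
theorem false_of_odd {ℓ : ℕ} (hpp : p.Prime) (hℓ : ℓ.Prime) (hℓ2 : ℓ ≠ 2) (hℓp : ¬ ℓ ∣ p)
    (hd : ¬ ℓ ∣ p + 1) (hR : (ℓ : ℂ)⁻¹ ∉ R)
    (hE : ∀ n, coeff n E = if n = 0 then 1 else 240 * (ArithmeticFunction.sigma 3 n : ℂ))
    (hU : ∀ n, coeff n θ' = coeff (p * n) θ) (hU' : ∀ n, coeff n θ = coeff (p * n) θ')
    (h1 : ∀ n, (p : ℂ) * coeff n (θ ^ 2) + coeff (p * n) (θ' ^ 2) = (p + 1) * coeff n E)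
    (h2 : ∀ n, (p : ℂ) * coeff n (θ' ^ 2) + coeff (p * n) (θ ^ 2) = (p + 1) * coeff n E)
    (h0 : coeff 0 θ = 1) (hM : ∀ n, n ≠ 0 → ∃ r ∈ R, coeff n θ = ℓ * r) : False := by
  have hℓ0 : (ℓ : ℂ) ≠ 0 := by exact_mod_cast hℓ.ne_zero
  obtain ⟨u, u', D, -⟩ := exists_datum (R := R) hpp.ne_zero hℓ0 hE hU hU' h1 h2 h0 hM
  by_cases h240 : ℓ ∣ 240
  · rcases prime_dvd_240 hℓ h240 with h | h | h
    · exact hℓ2 h
    · subst h
      exact D.false_of_dvd (t := 80) hpp hℓ (by norm_num) (by norm_num) hℓp hd hR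
    · subst h
      exact D.false_of_dvd (t := 48) hpp hℓ (by norm_num) (by norm_num) hℓp hd hR
  · refine D.false_of_not_dvd hℓ h240 (fun h => hd ?_) hR
    exact Dvd.dvd.trans (dvd_pow_self ℓ two_ne_zero) h

/-- (T5) `ℓ = 3`, `27 ∤ p + 1`: there is no `θ ≡ 1 mod 9`. -/
theorem false_of_nine (hpp : p.Prime) (h27 : ¬ 27 ∣ p + 1) (hR : (3 : ℂ)⁻¹ ∉ R)
    (hE : ∀ n, coeff n E = if n = 0 then 1 else 240 * (ArithmeticFunction.sigma 3 n : ℂ))
    (hU : ∀ n, coeff n θ' = coeff (p * n) θ) (hU' : ∀ n, coeff n θ = coeff (p * n) θ')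
    (h1 : ∀ n, (p : ℂ) * coeff n (θ ^ 2) + coeff (p * n) (θ' ^ 2) = (p + 1) * coeff n E)
    (h2 : ∀ n, (p : ℂ) * coeff n (θ' ^ 2) + coeff (p * n) (θ ^ 2) = (p + 1) * coeff n E)
    (h0 : coeff 0 θ = 1) (hM : ∀ n, n ≠ 0 → ∃ r ∈ R, coeff n θ = 9 * r) : False := by
  obtain ⟨u, u', D, -⟩ := exists_datum (R := R) hpp.ne_zero (by norm_num : (9 : ℂ) ≠ 0)
    hE hU hU' h1 h2 h0 hM
  exact D.false_nine h27 hR

end main

end Fermat.Agent.S16.W4Core
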