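/-
S16 / W4Bridge (helper22): from the analytic toolkit to the pure cores of `W4Core`.

`(W2)` and `(T2)` of the blueprint (PSAlg-1) are taken as hypotheses `hW2`, `hT2`, in exactly the
shape in which PSAlg-1 exports them; the theorems `k2a`, `k2b`, `k3a`, `k5c` (and the spare `k5p`)
are the corresponding `Kstmt`s.
-/
import Fermat.Agent.S16.Defs
import Fermat.Agent.S16.W4Core

set_option autoImplicit false

namespace Fermat.Agent.S16.W4Bridge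

open UpperHalfPlane CongruenceSubgroup PowerSeries
open scoped MatrixGroups ModularForm

/-- `(W2)` of the blueprint, as a statement. -/
def W2Stmt (p : ℕ) : Prop :=
  ∀ {A B : PowerSeries ℂ}, Cusp2 p 2 A B →
    B = C (-(p : ℂ)⁻¹) * Up p A ∧ Up p (Up p A) = A ∧ Cusp2 p 2 (Up p A) (C (-(p : ℂ)⁻¹) * A)

/-- `(T2)` of the blueprint, as a statement. -/
def T2Stmt (p : ℕ) : Prop :=
  ∀ {A B : PowerSeries ℂ}, Cusp2 p 2 A B → coeff 0 A = 1 →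
    A ^ 2 + C ((p : ℂ)⁻¹) * Up p ((Up p A) ^ 2) = C (1 + (p : ℂ)⁻¹) * E4q

/-- A prime `ℓ` is not invertible in `RL ℓ`. -/
theorem inv_not_mem_RL {ℓ : ℕ} (hℓ : ℓ.Prime) : ((ℓ : ℕ) : ℂ)⁻¹ ∉ RL ℓ := by
  rintro ⟨b, hb, hint⟩
  have hℓ0 : (ℓ : ℚ) ≠ 0 := by exact_mod_cast hℓ.ne_zero
  have hcast : (b : ℂ) * ((ℓ : ℕ) : ℂ)⁻¹ = algebraMap ℚ ℂ ((b : ℚ) / (ℓ : ℚ)) := by
    simp [div_eq_mul_inv]
  rw [hcast, isIntegral_algebraMap_iff (algebraMap ℚ ℂ).injective] at hint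
  obtain ⟨y, hy⟩ := IsIntegrallyClosed.isIntegral_iff.mp hint
  have hy' : (y : ℚ) * ℓ = b := by
    have : (y : ℚ) = (b : ℚ) / ℓ := by simpa using hy
    rw [this]
    field_simp
  have hdvd : (ℓ : ℤ) ∣ (b : ℤ) := ⟨y, by
    have : ((y * ℓ : ℤ) : ℚ) = ((b : ℤ) : ℚ) := by push_cast; exact hy'
    have := Int.cast_injective this
    rw [← this]; ring⟩
  have hdvd' : ℓ ∣ b := by exact_mod_cast hdvd
  have h1 : ℓ ∣ 1 := by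
    have := Nat.dvd_gcd hdvd' dvd_rfl
    rwa [hb] at this
  exact hℓ.one_lt.ne' (Nat.dvd_one.mp h1)

theorem coeff_E4q (l1 : L1Facts) (n : ℕ) :
    coeff n E4q = if n = 0 then 1 else 240 * (ArithmeticFunction.sigma 3 n : ℂ) := by
  rw [l1.E4q_eq, map_add, coeff_C_mul, coeff_one, Sq, coeff_mk]
  split_ifs with hn
  · subst hn; simp
  · simp

theorem coeff_Up (p : ℕ) (A : PowerSeries ℂ) (n : ℕ) : coeff n (Up p A) = coeff (p * n) A := by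
  rw [Up, coeff_mk]

/-- The common hypotheses of `W4Core` from `(W2)`, `(T2)`. -/
theorem hyps (p : ℕ) [hp : Fact p.Prime] (l1 : L1Facts) (hW2 : W2Stmt p) (hT2 : T2Stmt p)
    {A B : PowerSeries ℂ} (h : Cusp2 p 2 A B) (h0 : coeff 0 A = 1) :
    (∀ n, coeff n E4q = if n = 0 then 1 else 240 * (ArithmeticFunction.sigma 3 n : ℂ)) ∧
    (∀ n, coeff n (Up p A) = coeff (p * n) A) ∧
    (∀ n, coeff n A = coeff (p * n) (Up p A)) ∧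
    (∀ n, (p : ℂ) * coeff n (A ^ 2) + coeff (p * n) ((Up p A) ^ 2) = ((p : ℂ) + 1) * coeff n E4q) ∧
    (∀ n, (p : ℂ) * coeff n ((Up p A) ^ 2) + coeff (p * n) (A ^ 2) =
      ((p : ℂ) + 1) * coeff n E4q) := by
  obtain ⟨-, hUU, hsw⟩ := hW2 h
  have hp0 : (p : ℂ) ≠ 0 := by exact_mod_cast hp.out.ne_zero
  have h0' : coeff 0 (Up p A) = 1 := by rw [coeff_Up, mul_zero, h0]
  have hT := hT2 h h0
  have hT' := hT2 hsw h0'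
  rw [hUU] at hT'
  refine ⟨coeff_E4q l1, coeff_Up p A, fun n => ?_, fun n => ?_, fun n => ?_⟩
  · conv_lhs => rw [← hUU]
    rw [coeff_Up]
  · have := congrArg (coeff n) hT
    rw [map_add, coeff_C_mul, coeff_C_mul, coeff_Up] at this
    have h2 : (p : ℂ) * (coeff n (A ^ 2) + (p : ℂ)⁻¹ * coeff (p * n) (Up p A ^ 2)) =
        (p : ℂ) * ((1 + (p : ℂ)⁻¹) * coeff n E4q) := by rw [this]
    have h3 : (p : ℂ) * (p : ℂ)⁻¹ = 1 := mul_inv_cancel₀ hp0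
    linear_combination h2 + (coeff n E4q - coeff (p * n) (Up p A ^ 2)) * h3
  · have := congrArg (coeff n) hT'
    rw [map_add, coeff_C_mul, coeff_C_mul, coeff_Up] at this
    have h2 : (p : ℂ) * (coeff n (Up p A ^ 2) + (p : ℂ)⁻¹ * coeff (p * n) (A ^ 2)) =
        (p : ℂ) * ((1 + (p : ℂ)⁻¹) * coeff n E4q) := by rw [this]
    have h3 : (p : ℂ) * (p : ℂ)⁻¹ = 1 := mul_inv_cancel₀ hp0
    linear_combination h2 + (coeff n E4q - coeff (p * n) (A ^ 2)) * h3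

/-- Generic passage from a pure core to `Kstmt`. -/
theorem kstmt (p : ℕ) [Fact p.Prime] (l1 : L1Facts) (hW2 : W2Stmt p) (hT2 : T2Stmt p) (ℓ s : ℕ)
    (hcore : ∀ θ θ' : PowerSeries ℂ,
      (∀ n, coeff n E4q = if n = 0 then 1 else 240 * (ArithmeticFunction.sigma 3 n : ℂ)) →
      (∀ n, coeff n θ' = coeff (p * n) θ) → (∀ n, coeff n θ = coeff (p * n) θ') →
      (∀ n, (p : ℂ) * coeff n (θ ^ 2) + coeff (p * n) (θ' ^ 2) = ((p : ℂ) + 1) * coeff n E4q) →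
      (∀ n, (p : ℂ) * coeff n (θ' ^ 2) + coeff (p * n) (θ ^ 2) = ((p : ℂ) + 1) * coeff n E4q) →
      coeff 0 θ = 1 → (∀ n, n ≠ 0 → ∃ r ∈ RL ℓ, coeff n θ = (ℓ : ℂ) ^ s * r) → False) :
    Kstmt p ℓ s := by
  rintro ⟨G, h0, hM⟩
  have h : Cusp2 p 2 (qExpansion 1 G) (qExpansion (p : ℝ) (⇑G ∣[(2 : ℤ)] ModularGroup.S)) :=
    ⟨G, rfl, rfl⟩
  obtain ⟨hE, hU, hU', h1, h2⟩ := hyps p l1 hW2 hT2 h h0
  exact hcore _ _ hE hU hU' h1 h2 h0 fun n hn => hM n (Nat.one_le_iff_ne_zero.mpr hn)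

/-- K2a: `ℓ = 2`, `p ≡ 1 mod 4`, `s = 2`. -/
theorem k2a (p : ℕ) [hp : Fact p.Prime] (l1 : L1Facts) (hW2 : W2Stmt p) (hT2 : T2Stmt p)
    (hp4 : p % 4 = 1) : Kstmt p 2 2 := by
  refine kstmt p l1 hW2 hT2 2 2 fun θ θ' hE hU hU' h1 h2 h0 hM => ?_
  have hR : (2 : ℂ)⁻¹ ∉ RL 2 := by simpa using inv_not_mem_RL Nat.prime_two
  refine W4Core.false_of_one_mod_four hp.out hp4 hR hE hU hU' h1 h2 h0 fun n hn => ?_
  obtain ⟨r, hr, h⟩ := hM n hn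
  exact ⟨r, hr, by rw [h]; norm_num⟩

/-- K2b: `ℓ = 2`, `p ≡ 3 mod 8`, `s = 3`. -/
theorem k2b (p : ℕ) [hp : Fact p.Prime] (l1 : L1Facts) (hW2 : W2Stmt p) (hT2 : T2Stmt p)
    (hp8 : p % 8 = 3) : Kstmt p 2 3 := by
  refine kstmt p l1 hW2 hT2 2 3 fun θ θ' hE hU hU' h1 h2 h0 hM => ?_
  have hR : (2 : ℂ)⁻¹ ∉ RL 2 := by simpa using inv_not_mem_RL Nat.prime_two
  refine W4Core.false_of_three_mod_eight hp.out hp8 hR hE hU hU' h1 h2 h0 fun n hn => ?_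
  obtain ⟨r, hr, h⟩ := hM n hn
  exact ⟨r, hr, by rw [h]; norm_num⟩

/-- Odd `ℓ` not dividing `p (p + 1)`, `s = 1`. -/
theorem kodd (p : ℕ) [hp : Fact p.Prime] (l1 : L1Facts) (hW2 : W2Stmt p) (hT2 : T2Stmt p)
    {ℓ : ℕ} (hℓ : ℓ.Prime) (hℓ2 : ℓ ≠ 2) (hℓp : ¬ ℓ ∣ p) (hd : ¬ ℓ ∣ p + 1) : Kstmt p ℓ 1 := by
  refine kstmt p l1 hW2 hT2 ℓ 1 fun θ θ' hE hU hU' h1 h2 h0 hM => ?_
  refine W4Core.false_of_odd hp.out hℓ hℓ2 hℓp hd (inv_not_mem_RL hℓ) hE hU hU' h1 h2 h0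
    fun n hn => ?_
  obtain ⟨r, hr, h⟩ := hM n hn
  exact ⟨r, hr, by rw [h, pow_one]⟩

/-- K3a: `ℓ = 3`, `p ≡ 1 mod 3`, `s = 1`. -/
theorem k3a (p : ℕ) [Fact p.Prime] (l1 : L1Facts) (hW2 : W2Stmt p) (hT2 : T2Stmt p)
    (hp3 : p % 3 = 1) : Kstmt p 3 1 :=
  kodd p l1 hW2 hT2 Nat.prime_three (by norm_num) (by omega) (by omega)

/-- K5c: `ℓ ≥ 5`, `ℓ ∤ p (p + 1)`, `s = 1`. -/
theorem k5c (p : ℕ) [Fact p.Prime] (l1 : L1Facts) (hW2 : W2Stmt p) (hT2 : T2Stmt p)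
    {ℓ : ℕ} (hℓ : ℓ.Prime) (h5 : 5 ≤ ℓ) (hℓp : ¬ ℓ ∣ p) (hd : ¬ ℓ ∣ p + 1) : Kstmt p ℓ 1 :=
  kodd p l1 hW2 hT2 hℓ (by omega) hℓp hd

/-- Spare: `ℓ ≥ 7`, `ℓ² ∤ p + 1`, `s = 1` (covers `ℓ = p ≥ 7` and `ℓ ‖ p + 1`). -/
theorem kseven (p : ℕ) [hp : Fact p.Prime] (l1 : L1Facts) (hW2 : W2Stmt p) (hT2 : T2Stmt p)
    {ℓ : ℕ} (hℓ : ℓ.Prime) (h7 : 7 ≤ ℓ) (hsq : ¬ ℓ ^ 2 ∣ p + 1) : Kstmt p ℓ 1 := by
  refine kstmt p l1 hW2 hT2 ℓ 1 fun θ θ' hE hU hU' h1 h2 h0 hM => ?_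
  refine W4Core.false_of_seven_le hp.out hℓ h7 hsq (inv_not_mem_RL hℓ) hE hU hU' h1 h2 h0
    fun n hn => ?_
  obtain ⟨r, hr, h⟩ := hM n hn
  exact ⟨r, hr, by rw [h, pow_one]⟩

/-- Spare K5p for `p ≥ 7`: `ℓ = p`, `s = 1`. -/
theorem k5p (p : ℕ) [hp : Fact p.Prime] (l1 : L1Facts) (hW2 : W2Stmt p) (hT2 : T2Stmt p)
    (h7 : 7 ≤ p) : Kstmt p p 1 := by
  refine kseven p l1 hW2 hT2 hp.out h7 fun h => ?_
  have h1 : p ^ 2 ≤ p + 1 := Nat.le_of_dvd (by omega) h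
  nlinarith

/-- Spare: `ℓ = 3`, `27 ∤ p + 1`, `s = 2`. -/
theorem knine (p : ℕ) [hp : Fact p.Prime] (l1 : L1Facts) (hW2 : W2Stmt p) (hT2 : T2Stmt p)
    (h27 : ¬ 27 ∣ p + 1) : Kstmt p 3 2 := by
  refine kstmt p l1 hW2 hT2 3 2 fun θ θ' hE hU hU' h1 h2 h0 hM => ?_
  have hR : (3 : ℂ)⁻¹ ∉ RL 3 := by simpa using inv_not_mem_RL Nat.prime_three
  refine W4Core.false_of_nine hp.out h27 hR hE hU hU' h1 h2 h0 fun n hn => ?_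
  obtain ⟨r, hr, h⟩ := hM n hn
  exact ⟨r, hr, by rw [h]; norm_num⟩

end Fermat.Agent.S16.W4Bridge
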