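/-
S16 / K2b (helper22): `ℓ = 2`, `p ≡ 3 mod 8`: no `G ∈ M₂(Γ₀(p))` is `≡ 1 mod 8`.
Pure core: `W4Core.false_of_three_mod_eight`; bridge: `W4Bridge.k2b`; `(W2)`, `(T2)`: `K5c.W2`,
`K5c.T2` (helper13).  Also the analogous one-line closures of the other weight-4 cases.
-/
import Fermat.Agent.S16.W4Bridge
import Fermat.Agent.S16.K5c

set_option autoImplicit false

namespace Fermat.Agent.S16.K2b

/-- `(W2)` from the toolkit. -/
theorem w2 (p : ℕ) [hp : Fact p.Prime] (tk : Toolkit p) (l1 : L1Facts) : W4Bridge.W2Stmt p :=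
  fun h => K5c.W2 hp.out tk l1 h

/-- `(T2)` from the toolkit. -/
theorem t2 (p : ℕ) [hp : Fact p.Prime] (tk : Toolkit p) (l1 : L1Facts) : W4Bridge.T2Stmt p :=
  fun h h0 => by simpa [pow_two] using K5c.T2 hp.out tk l1 h h0

/-- K2b: `ℓ = 2`, `p ≡ 3 mod 8`, `s = 3`. -/
theorem main (p : ℕ) [Fact p.Prime] (tk : Toolkit p) (l1 : L1Facts) (hp8 : p % 8 = 3) :
    Kstmt p 2 3 :=
  W4Bridge.k2b p l1 (w2 p tk l1) (t2 p tk l1) hp8

/-- K2a via the same route: `ℓ = 2`, `p ≡ 1 mod 4`, `s = 2`. -/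
theorem k2a (p : ℕ) [Fact p.Prime] (tk : Toolkit p) (l1 : L1Facts) (hp4 : p % 4 = 1) :
    Kstmt p 2 2 :=
  W4Bridge.k2a p l1 (w2 p tk l1) (t2 p tk l1) hp4

/-- K3a via the same route: `ℓ = 3`, `p ≡ 1 mod 3`, `s = 1`. -/
theorem k3a (p : ℕ) [Fact p.Prime] (tk : Toolkit p) (l1 : L1Facts) (hp3 : p % 3 = 1) :
    Kstmt p 3 1 :=
  W4Bridge.k3a p l1 (w2 p tk l1) (t2 p tk l1) hp3

/-- K5p for `p ≥ 7` via the same route: `ℓ = p`, `s = 1`. -/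
theorem k5p (p : ℕ) [Fact p.Prime] (tk : Toolkit p) (l1 : L1Facts) (h7 : 7 ≤ p) :
    Kstmt p p 1 :=
  W4Bridge.k5p p l1 (w2 p tk l1) (t2 p tk l1) h7

end Fermat.Agent.S16.K2b
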