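/-
S16 project, package PSAlg-2 (helper6): integrality API.
`RL ℓ` (ℓ-integral algebraic numbers), `IntPS ℓ` (power series with coefficients in `RL ℓ`),
`MulI ℓ c` (the additive group `c • IntPS ℓ`, used for congruences `A - B ∈ MulI ℓ c`).
-/
import Fermat.Agent.S16.Defs

set_option autoImplicit false

namespace Fermat.Agent.S16.PSAlg2

open PowerSeries
open Fermat.Agent.S16

noncomputable section

/-! ### Facts on `RL ℓ` -/

/-- Algebraic integers are `ℓ`-integral. -/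
theorem isIntegral_mem_RL (ℓ : ℕ) {x : ℂ} (hx : IsIntegral ℤ x) : x ∈ RL ℓ :=
  ⟨1, Nat.coprime_one_left _, by simpa using hx⟩

/-- `1 / b ∈ RL ℓ` for `b` prime to `ℓ`. -/
theorem inv_natCast_mem_RL {ℓ b : ℕ} (hb : b.Coprime ℓ) : ((b : ℂ))⁻¹ ∈ RL ℓ := by
  refine ⟨b, hb, ?_⟩
  by_cases h : (b : ℂ) = 0
  · simp [h, isIntegral_zero]
  · rw [mul_inv_cancel₀ h]; exact isIntegral_one

theorem div_natCast_mem_RL {ℓ b : ℕ} (hb : b.Coprime ℓ) {x : ℂ} (hx : x ∈ RL ℓ) :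
    x / (b : ℂ) ∈ RL ℓ := by
  rw [div_eq_mul_inv]; exact (RL ℓ).mul_mem hx (inv_natCast_mem_RL hb)

theorem inv_intCast_mem_RL {ℓ : ℕ} {b : ℤ} (hb : b.natAbs.Coprime ℓ) : ((b : ℂ))⁻¹ ∈ RL ℓ := by
  rcases Int.natAbs_eq b with h | h
  · have : ((b : ℂ))⁻¹ = ((b.natAbs : ℕ) : ℂ)⁻¹ := by
      conv_lhs => rw [h]
      simp
    rw [this]; exact inv_natCast_mem_RL hb
  · have : ((b : ℂ))⁻¹ = -((b.natAbs : ℕ) : ℂ)⁻¹ := by
      conv_lhs => rw [h]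
      simp [inv_neg]
    rw [this]; exact (RL ℓ).neg_mem (inv_natCast_mem_RL hb)

theorem div_intCast_mem_RL {ℓ : ℕ} {b : ℤ} (hb : b.natAbs.Coprime ℓ) {x : ℂ} (hx : x ∈ RL ℓ) :
    x / (b : ℂ) ∈ RL ℓ := by
  rw [div_eq_mul_inv]; exact (RL ℓ).mul_mem hx (inv_intCast_mem_RL hb)

theorem intCast_mem_RL' (ℓ : ℕ) (z : ℤ) : (z : ℂ) ∈ RL ℓ := intCast_mem (RL ℓ) z

theorem natCast_mem_RL' (ℓ : ℕ) (n : ℕ) : (n : ℂ) ∈ RL ℓ := natCast_mem (RL ℓ) n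

/-- `RL ℓ ∩ ℚ = ℤ_(ℓ)`. -/
theorem ratCast_mem_RL_iff (ℓ : ℕ) (r : ℚ) : (r : ℂ) ∈ RL ℓ ↔ r.den.Coprime ℓ := by
  constructor
  · rintro ⟨b, hb, hint⟩
    have h1 : IsIntegral ℤ (((b : ℚ) * r : ℚ)) := by
      have h2 : IsIntegral ℤ (algebraMap ℚ ℂ ((b : ℚ) * r)) := by
        simpa using hint
      exact (isIntegral_algebraMap_iff (algebraMap ℚ ℂ).injective).mp h2
    obtain ⟨z, hz⟩ := IsIntegrallyClosed.isIntegral_iff.mp h1
    have hz' : (z : ℚ) = (b : ℚ) * r := by simpa using hz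
    by_cases hb0 : b = 0
    · subst hb0
      have : ℓ = 1 := by simpa using hb
      subst this
      exact Nat.coprime_one_right _
    · have hbq : (b : ℚ) ≠ 0 := by exact_mod_cast hb0
      have hr : r = (z : ℚ) / (b : ℚ) := by
        rw [hz']; field_simp
      have hdvd : r.den ∣ b := by
        have h3 : ((r.den : ℕ) : ℤ) ∣ (b : ℤ) := by
          rw [hr]
          have := Rat.den_dvd z (b : ℤ)
          simpa [Rat.divInt_eq_div] using this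
        exact_mod_cast h3
      exact Nat.Coprime.coprime_dvd_left hdvd hb
  · intro h
    rw [Rat.cast_def]
    exact div_natCast_mem_RL h (intCast_mem_RL' ℓ _)


/-- `a / b ∈ RL ℓ` (integers `a`, `b ≠ 0`) forces `v_ℓ(a) ≥ v_ℓ(b)`, multiplicative form. -/
theorem pow_dvd_of_div_mem_RL {ℓ : ℕ} {a b : ℤ} (hb : b ≠ 0)
    (h : (a : ℂ) / (b : ℂ) ∈ RL ℓ) {t : ℕ} (ht : (ℓ : ℤ) ^ t ∣ b) : (ℓ : ℤ) ^ t ∣ a := by
  set r : ℚ := (a : ℚ) / (b : ℚ) with hr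
  have hrc : ((r : ℚ) : ℂ) = (a : ℂ) / (b : ℂ) := by
    rw [hr]; push_cast; rfl
  have hcop : r.den.Coprime ℓ := (ratCast_mem_RL_iff ℓ r).mp (by rw [hrc]; exact h)
  have hbq : (b : ℚ) ≠ 0 := by exact_mod_cast hb
  have hden : (r.den : ℚ) ≠ 0 := by exact_mod_cast r.den_nz
  -- `a * den = num * b`
  have heq : a * (r.den : ℤ) = r.num * b := by
    have h1 : (a : ℚ) = r * b := by rw [hr]; field_simp
    have h3 : (a : ℚ) * (r.den : ℚ) = (r.num : ℚ) * (b : ℚ) := by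
      calc (a : ℚ) * (r.den : ℚ) = (r * (r.den : ℚ)) * (b : ℚ) := by rw [h1]; ring
        _ = (r.num : ℚ) * (b : ℚ) := by rw [Rat.mul_den_eq_num]
    exact_mod_cast h3
  have hdvd : (ℓ : ℤ) ^ t ∣ a * (r.den : ℤ) := by
    rw [heq]; exact Dvd.dvd.mul_left ht _
  have hcop' : IsCoprime ((ℓ : ℤ) ^ t) (r.den : ℤ) := by
    apply IsCoprime.pow_left
    rw [Int.isCoprime_iff_gcd_eq_one]
    simpa [Int.gcd_natCast_natCast] using hcop.symm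
  exact hcop'.dvd_of_dvd_mul_right hdvd

/-- `a / b = ℓ^s * y` with `y ∈ RL ℓ` forces `v_ℓ(a) ≥ v_ℓ(b) + s`, multiplicative form. -/
theorem pow_dvd_of_div_eq_pow_mul {ℓ : ℕ} (hℓ : ℓ.Prime) {a b : ℤ} (hb : b ≠ 0) {s : ℕ} {y : ℂ}
    (hy : y ∈ RL ℓ) (h : (a : ℂ) / (b : ℂ) = (ℓ : ℂ) ^ s * y) {t : ℕ} (ht : (ℓ : ℤ) ^ t ∣ b) :
    (ℓ : ℤ) ^ (t + s) ∣ a := by
  have hl0 : (ℓ : ℂ) ≠ 0 := by exact_mod_cast hℓ.ne_zero
  have hlz : (ℓ : ℤ) ≠ 0 := by exact_mod_cast hℓ.ne_zero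
  have hbc : (b : ℂ) ≠ 0 := by exact_mod_cast hb
  have hb' : b * (ℓ : ℤ) ^ s ≠ 0 := mul_ne_zero hb (pow_ne_zero _ hlz)
  have h' : (a : ℂ) / ((b * (ℓ : ℤ) ^ s : ℤ) : ℂ) ∈ RL ℓ := by
    have : (a : ℂ) / ((b * (ℓ : ℤ) ^ s : ℤ) : ℂ) = y := by
      push_cast
      rw [div_mul_eq_div_div, h]
      field_simp
    rw [this]; exact hy
  have ht' : (ℓ : ℤ) ^ (t + s) ∣ b * (ℓ : ℤ) ^ s := by
    rw [pow_add]; exact mul_dvd_mul_right ht _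
  exact pow_dvd_of_div_mem_RL hb' h' ht'

/-- An integer in `ℓ^s • RL ℓ` is divisible by `ℓ^s`. -/
theorem pow_dvd_of_intCast_eq_pow_mul {ℓ : ℕ} (hℓ : ℓ.Prime) {z : ℤ} {s : ℕ} {y : ℂ}
    (hy : y ∈ RL ℓ) (h : (z : ℂ) = (ℓ : ℂ) ^ s * y) : (ℓ : ℤ) ^ s ∣ z := by
  have := pow_dvd_of_div_eq_pow_mul hℓ (a := z) (b := 1) one_ne_zero (s := s) hy
    (by simpa using h) (t := 0) (by simp)
  simpa using this

/-- An integer in `ℓ • RL ℓ` is divisible by `ℓ`. -/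
theorem dvd_of_intCast_eq_mul {ℓ : ℕ} (hℓ : ℓ.Prime) {z : ℤ} {y : ℂ}
    (hy : y ∈ RL ℓ) (h : (z : ℂ) = (ℓ : ℂ) * y) : (ℓ : ℤ) ∣ z := by
  have := pow_dvd_of_intCast_eq_pow_mul hℓ (s := 1) hy (by simpa using h)
  simpa using this

/-- padic-valuation form of `pow_dvd_of_div_mem_RL`. -/
theorem padicValInt_le_of_div_mem_RL {ℓ : ℕ} (hℓ : ℓ.Prime) {a b : ℤ} (ha : a ≠ 0) (hb : b ≠ 0)
    (h : (a : ℂ) / (b : ℂ) ∈ RL ℓ) : padicValInt ℓ b ≤ padicValInt ℓ a := by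
  have : Fact ℓ.Prime := ⟨hℓ⟩
  have h1 : (ℓ : ℤ) ^ padicValInt ℓ b ∣ b := padicValInt_dvd b
  have h2 := pow_dvd_of_div_mem_RL hb h h1
  exact (padicValInt_dvd_iff _ a).mp h2 |>.resolve_left ha

/-- `ℓ` is not a unit of `RL ℓ`. -/
theorem prime_mul_ne_one {ℓ : ℕ} (hℓ : ℓ.Prime) {y : ℂ} (hy : y ∈ RL ℓ) : (ℓ : ℂ) * y ≠ 1 := by
  intro h
  have h1 : (ℓ : ℤ) ∣ (1 : ℤ) := dvd_of_intCast_eq_mul hℓ hy (by simpa using h.symm)
  have h2 : ℓ ∣ 1 := by exact_mod_cast h1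
  exact hℓ.one_lt.ne' (Nat.dvd_one.mp h2)

theorem prime_inv_not_mem_RL {ℓ : ℕ} (hℓ : ℓ.Prime) : ((ℓ : ℂ))⁻¹ ∉ RL ℓ := by
  intro h
  have hl0 : (ℓ : ℂ) ≠ 0 := by exact_mod_cast hℓ.ne_zero
  exact prime_mul_ne_one hℓ h (mul_inv_cancel₀ hl0)

/-- `exp(2πi/p)` is an algebraic integer (also for `p = 0`, where it is `1`). -/
theorem zetaP_isIntegral (p : ℕ) : IsIntegral ℤ (zetaP p) := by
  rcases Nat.eq_zero_or_pos p with hp | hp
  · subst hp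
    simp [zetaP, isIntegral_one]
  · apply IsIntegral.of_pow hp
    have : zetaP p ^ p = 1 := by
      have hp0 : (p : ℂ) ≠ 0 := by exact_mod_cast hp.ne'
      rw [zetaP, ← Complex.exp_nat_mul]
      have : (p : ℂ) * (2 * Real.pi * Complex.I / p) = 2 * Real.pi * Complex.I := by
        field_simp
      rw [this, Complex.exp_two_pi_mul_I]
    rw [this]; exact isIntegral_one

theorem zetaP_pow_mem_RL (ℓ p j : ℕ) : zetaP p ^ j ∈ RL ℓ :=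
  isIntegral_mem_RL ℓ ((zetaP_isIntegral p).pow j)

/-! ### Ideals of `RL ℓ` -/

/-- Membership in a principal ideal of `RL ℓ`, in terms of complex numbers. -/
theorem mem_span_singleton_iff_exists {ℓ : ℕ} (c x : RL ℓ) :
    x ∈ Ideal.span {c} ↔ ∃ y ∈ RL ℓ, (x : ℂ) = (c : ℂ) * y := by
  rw [Ideal.mem_span_singleton']
  constructor
  · rintro ⟨a, rfl⟩
    exact ⟨a, a.2, by push_cast; ring⟩
  · rintro ⟨y, hy, h⟩
    refine ⟨⟨y, hy⟩, ?_⟩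
    apply Subtype.ext
    push_cast
    rw [h]; ring

/-- There is a maximal ideal of `RL ℓ` containing `ℓ`. -/
theorem exists_maximal {ℓ : ℕ} (hℓ : ℓ.Prime) :
    ∃ 𝔪 : Ideal (RL ℓ), 𝔪.IsMaximal ∧ ((ℓ : ℕ) : RL ℓ) ∈ 𝔪 := by
  have hne : Ideal.span {((ℓ : ℕ) : RL ℓ)} ≠ ⊤ := by
    intro h
    have h1 : (1 : RL ℓ) ∈ Ideal.span {((ℓ : ℕ) : RL ℓ)} := by rw [h]; trivial
    obtain ⟨y, hy, hy'⟩ := (mem_span_singleton_iff_exists _ _).mp h1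
    exact prime_mul_ne_one hℓ hy (by simpa using hy'.symm)
  obtain ⟨𝔪, h𝔪, hle⟩ := Ideal.exists_le_maximal _ hne
  exact ⟨𝔪, h𝔪, hle (Ideal.subset_span rfl)⟩

/-- An integer lying in a proper ideal of `RL ℓ` that contains `ℓ` is divisible by `ℓ`. -/
theorem dvd_of_intCast_mem {ℓ : ℕ} (hℓ : ℓ.Prime) {𝔪 : Ideal (RL ℓ)} (h𝔪 : 𝔪 ≠ ⊤)
    (hl : ((ℓ : ℕ) : RL ℓ) ∈ 𝔪) {z : ℤ} (hz : ((z : ℤ) : RL ℓ) ∈ 𝔪) : (ℓ : ℤ) ∣ z := by
  by_contra hnd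
  have hp : Prime (ℓ : ℤ) := Nat.prime_iff_prime_int.mp hℓ
  have hcop : IsCoprime (ℓ : ℤ) z := (Prime.coprime_iff_not_dvd hp).mpr hnd
  obtain ⟨u, v, huv⟩ := hcop
  apply h𝔪
  rw [Ideal.eq_top_iff_one]
  have h1 : (1 : RL ℓ) = (u : RL ℓ) * ((ℓ : ℕ) : RL ℓ) + (v : RL ℓ) * ((z : ℤ) : RL ℓ) := by
    have := congrArg (fun t : ℤ => (t : RL ℓ)) huv
    simp only [Int.cast_add, Int.cast_mul, Int.cast_natCast, Int.cast_one] at this
    exact this.symm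
  rw [h1]
  exact 𝔪.add_mem (𝔪.mul_mem_left _ hl) (𝔪.mul_mem_left _ hz)

/-- The residue ring of a proper ideal containing `ℓ` has characteristic `ℓ`. -/
theorem charP_quotient {ℓ : ℕ} (hℓ : ℓ.Prime) (𝔪 : Ideal (RL ℓ)) (h𝔪 : 𝔪 ≠ ⊤)
    (hl : ((ℓ : ℕ) : RL ℓ) ∈ 𝔪) : CharP (RL ℓ ⧸ 𝔪) ℓ := by
  refine ⟨fun x => ?_⟩
  have hx : ((x : ℕ) : RL ℓ ⧸ 𝔪) = Ideal.Quotient.mk 𝔪 ((x : ℕ) : RL ℓ) := by simp
  rw [hx, Ideal.Quotient.eq_zero_iff_mem]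
  constructor
  · intro h
    have h1 : (ℓ : ℤ) ∣ (x : ℤ) := dvd_of_intCast_mem hℓ h𝔪 hl (z := (x : ℤ)) (by simpa using h)
    exact_mod_cast h1
  · rintro ⟨k, rfl⟩
    have : ((ℓ * k : ℕ) : RL ℓ) = ((ℓ : ℕ) : RL ℓ) * ((k : ℕ) : RL ℓ) := by push_cast; rfl
    rw [this]
    exact 𝔪.mul_mem_right _ hl


/-! ### `IntPS ℓ`: power series with `ℓ`-integral coefficients -/

/-- Power series all of whose coefficients lie in `RL ℓ`. -/
def IntPS (ℓ : ℕ) : Subring (PowerSeries ℂ) where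
  carrier := {A | ∀ n, coeff n A ∈ RL ℓ}
  mul_mem' := by
    intro A B hA hB n
    rw [coeff_mul]
    exact (RL ℓ).sum_mem fun x _ => (RL ℓ).mul_mem (hA _) (hB _)
  one_mem' := by
    intro n
    rw [coeff_one]
    split_ifs
    · exact (RL ℓ).one_mem
    · exact (RL ℓ).zero_mem
  add_mem' := by
    intro A B hA hB n
    rw [map_add]
    exact (RL ℓ).add_mem (hA n) (hB n)
  zero_mem' := by
    intro n
    rw [map_zero]
    exact (RL ℓ).zero_mem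
  neg_mem' := by
    intro A hA n
    rw [map_neg]
    exact (RL ℓ).neg_mem (hA n)

theorem mem_IntPS {ℓ : ℕ} {A : PowerSeries ℂ} : A ∈ IntPS ℓ ↔ ∀ n, coeff n A ∈ RL ℓ := Iff.rfl

theorem coeff_mem_RL {ℓ : ℕ} {A : PowerSeries ℂ} (hA : A ∈ IntPS ℓ) (n : ℕ) :
    coeff n A ∈ RL ℓ := hA n

/-- Coefficient functions with values in the subring (the shape `SturmStmt`/`SDConstStmt` want). -/
theorem exists_coeff_fun {ℓ : ℕ} {A : PowerSeries ℂ} (hA : A ∈ IntPS ℓ) :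
    ∃ c : ℕ → RL ℓ, ∀ n, coeff n A = (c n : ℂ) :=
  ⟨fun n => ⟨coeff n A, hA n⟩, fun _ => rfl⟩

theorem C_mem_IntPS {ℓ : ℕ} {r : ℂ} (hr : r ∈ RL ℓ) : C r ∈ IntPS ℓ := by
  intro n
  rw [coeff_C]
  split_ifs
  · exact hr
  · exact (RL ℓ).zero_mem

theorem X_mem_IntPS (ℓ : ℕ) : (X : PowerSeries ℂ) ∈ IntPS ℓ := by
  intro n
  rw [coeff_X]
  split_ifs
  · exact (RL ℓ).one_mem
  · exact (RL ℓ).zero_mem

theorem mk_mem_IntPS {ℓ : ℕ} {f : ℕ → ℂ} (hf : ∀ n, f n ∈ RL ℓ) : mk f ∈ IntPS ℓ := by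
  intro n
  rw [coeff_mk]
  exact hf n

theorem mk_intCast_mem_IntPS (ℓ : ℕ) (f : ℕ → ℤ) : mk (fun n => (f n : ℂ)) ∈ IntPS ℓ :=
  mk_mem_IntPS fun n => intCast_mem (RL ℓ) (f n)

theorem mk_natCast_mem_IntPS (ℓ : ℕ) (f : ℕ → ℕ) : mk (fun n => (f n : ℂ)) ∈ IntPS ℓ :=
  mk_mem_IntPS fun n => natCast_mem (RL ℓ) (f n)

theorem Sq_mem_IntPS (ℓ k : ℕ) : Sq k ∈ IntPS ℓ :=
  mk_natCast_mem_IntPS ℓ fun n => ArithmeticFunction.sigma k n

theorem Dq_mem_IntPS (ℓ : ℕ) (l1 : L1Facts) : Dq ∈ IntPS ℓ := by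
  intro n
  obtain ⟨z, hz⟩ := l1.Dq_int n
  rw [hz]
  exact intCast_mem (RL ℓ) z

theorem E4q_mem_IntPS (ℓ : ℕ) (l1 : L1Facts) : E4q ∈ IntPS ℓ := by
  rw [l1.E4q_eq]
  exact (IntPS ℓ).add_mem (IntPS ℓ).one_mem
    ((IntPS ℓ).mul_mem (C_mem_IntPS (by exact_mod_cast natCast_mem (RL ℓ) 240)) (Sq_mem_IntPS ℓ 3))

theorem E6q_mem_IntPS (ℓ : ℕ) (l1 : L1Facts) : E6q ∈ IntPS ℓ := by
  rw [l1.E6q_eq]
  exact (IntPS ℓ).sub_mem (IntPS ℓ).one_mem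
    ((IntPS ℓ).mul_mem (C_mem_IntPS (by exact_mod_cast natCast_mem (RL ℓ) 504)) (Sq_mem_IntPS ℓ 5))

theorem coeff_stretch (p : ℕ) (A : PowerSeries ℂ) (n : ℕ) :
    coeff n (stretch p A) = if p ∣ n then coeff (n / p) A else 0 := by
  rw [stretch, coeff_mk]

theorem coeff_stretch_mul {p : ℕ} (hp : 0 < p) (A : PowerSeries ℂ) (n : ℕ) :
    coeff (p * n) (stretch p A) = coeff n A := by
  rw [coeff_stretch, if_pos (dvd_mul_right p n), Nat.mul_div_cancel_left n hp]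

theorem coeff_Up (p : ℕ) (A : PowerSeries ℂ) (n : ℕ) :
    coeff n (Up p A) = coeff (p * n) A := by
  rw [Up, coeff_mk]

theorem stretch_mem_IntPS {ℓ : ℕ} {A : PowerSeries ℂ} (hA : A ∈ IntPS ℓ) (p : ℕ) :
    stretch p A ∈ IntPS ℓ := by
  intro n
  rw [coeff_stretch]
  split_ifs
  · exact hA _
  · exact (RL ℓ).zero_mem

/-- `stretch p` reflects integrality (`p ≥ 1`). -/
theorem of_stretch_mem_IntPS {ℓ p : ℕ} (hp : 0 < p) {A : PowerSeries ℂ}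
    (hA : stretch p A ∈ IntPS ℓ) : A ∈ IntPS ℓ := by
  intro n
  rw [← coeff_stretch_mul hp]
  exact hA _

theorem Up_mem_IntPS {ℓ : ℕ} {A : PowerSeries ℂ} (hA : A ∈ IntPS ℓ) (p : ℕ) :
    Up p A ∈ IntPS ℓ := by
  intro n
  rw [coeff_Up]
  exact hA _

theorem rescale_mem_IntPS {ℓ : ℕ} {c : ℂ} (hc : c ∈ RL ℓ) {A : PowerSeries ℂ}
    (hA : A ∈ IntPS ℓ) : rescale c A ∈ IntPS ℓ := by
  intro n
  rw [coeff_rescale]
  exact (RL ℓ).mul_mem ((RL ℓ).pow_mem hc n) (hA n)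

theorem rescale_zetaP_mem_IntPS {ℓ : ℕ} {A : PowerSeries ℂ} (hA : A ∈ IntPS ℓ) (p j : ℕ) :
    rescale (zetaP p ^ j) A ∈ IntPS ℓ :=
  rescale_mem_IntPS (zetaP_pow_mem_RL ℓ p j) hA

theorem conjMS_mem_IntPS {ℓ : ℕ} {A B : PowerSeries ℂ} (hA : A ∈ IntPS ℓ) (hB : B ∈ IntPS ℓ)
    (p : ℕ) : ∀ x ∈ conjMS p A B, x ∈ IntPS ℓ := by
  intro x hx
  rw [conjMS, Multiset.mem_cons, Multiset.mem_map] at hx
  rcases hx with rfl | ⟨j, -, rfl⟩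
  · exact stretch_mem_IntPS hA p
  · exact rescale_zetaP_mem_IntPS hB p j

theorem multiset_prod_mem_IntPS {ℓ : ℕ} {M : Multiset (PowerSeries ℂ)}
    (hM : ∀ x ∈ M, x ∈ IntPS ℓ) : M.prod ∈ IntPS ℓ :=
  (IntPS ℓ).multiset_prod_mem M hM

theorem esymm_mem_IntPS {ℓ : ℕ} {M : Multiset (PowerSeries ℂ)} (hM : ∀ x ∈ M, x ∈ IntPS ℓ)
    (i : ℕ) : M.esymm i ∈ IntPS ℓ := by
  rw [Multiset.esymm]
  refine (IntPS ℓ).multiset_sum_mem _ fun y hy => ?_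
  rw [Multiset.mem_map] at hy
  obtain ⟨t, ht, rfl⟩ := hy
  rw [Multiset.mem_powersetCard] at ht
  exact multiset_prod_mem_IntPS fun x hx => hM x (Multiset.mem_of_le ht.1 hx)

/-! ### `MulI ℓ c = c • IntPS ℓ`; the congruence `A ≡ B mod c` is `A - B ∈ MulI ℓ c` -/

/-- The additive group of series `C c * r`, `r ∈ IntPS ℓ`. -/
def MulI (ℓ : ℕ) (c : ℂ) : AddSubgroup (PowerSeries ℂ) where
  carrier := {A | ∃ r ∈ IntPS ℓ, A = C c * r}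
  add_mem' := by
    rintro A B ⟨r, hr, rfl⟩ ⟨r', hr', rfl⟩
    exact ⟨r + r', (IntPS ℓ).add_mem hr hr', by ring⟩
  zero_mem' := ⟨0, (IntPS ℓ).zero_mem, by simp⟩
  neg_mem' := by
    rintro A ⟨r, hr, rfl⟩
    exact ⟨-r, (IntPS ℓ).neg_mem hr, by ring⟩

theorem mem_MulI {ℓ : ℕ} {c : ℂ} {A : PowerSeries ℂ} :
    A ∈ MulI ℓ c ↔ ∃ r ∈ IntPS ℓ, A = C c * r := Iff.rfl

theorem mem_MulI_iff_coeff {ℓ : ℕ} {c : ℂ} {A : PowerSeries ℂ} :
    A ∈ MulI ℓ c ↔ ∀ n, ∃ y ∈ RL ℓ, coeff n A = c * y := by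
  constructor
  · rintro ⟨r, hr, rfl⟩ n
    exact ⟨coeff n r, hr n, by rw [coeff_C_mul]⟩
  · intro h
    choose y hy hy' using h
    refine ⟨mk y, mk_mem_IntPS hy, ?_⟩
    ext n
    rw [coeff_C_mul, coeff_mk, hy']

theorem coeff_of_mem_MulI {ℓ : ℕ} {c : ℂ} {A : PowerSeries ℂ} (hA : A ∈ MulI ℓ c) (n : ℕ) :
    ∃ y ∈ RL ℓ, coeff n A = c * y := mem_MulI_iff_coeff.mp hA n

theorem C_mul_mem_MulI {ℓ : ℕ} (c : ℂ) {r : PowerSeries ℂ} (hr : r ∈ IntPS ℓ) :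
    C c * r ∈ MulI ℓ c := ⟨r, hr, rfl⟩

theorem MulI_one (ℓ : ℕ) {A : PowerSeries ℂ} : A ∈ MulI ℓ 1 ↔ A ∈ IntPS ℓ := by
  constructor
  · rintro ⟨r, hr, rfl⟩
    simpa using hr
  · intro h
    exact ⟨A, h, by simp⟩

theorem mem_IntPS_of_mem_MulI {ℓ : ℕ} {c : ℂ} (hc : c ∈ RL ℓ) {A : PowerSeries ℂ}
    (hA : A ∈ MulI ℓ c) : A ∈ IntPS ℓ := by
  obtain ⟨r, hr, rfl⟩ := hA
  exact (IntPS ℓ).mul_mem (C_mem_IntPS hc) hr

/-- `≡ 0 mod c * d` implies `≡ 0 mod c` (`d ∈ RL ℓ`), e.g. mod `8` implies mod `2`. -/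
theorem MulI_mul_le {ℓ : ℕ} (c : ℂ) {d : ℂ} (hd : d ∈ RL ℓ) : MulI ℓ (c * d) ≤ MulI ℓ c := by
  rintro A ⟨r, hr, rfl⟩
  exact ⟨C d * r, (IntPS ℓ).mul_mem (C_mem_IntPS hd) hr, by rw [map_mul]; ring⟩

theorem MulI_pow_le {ℓ : ℕ} {c : ℂ} (hc : c ∈ RL ℓ) {s t : ℕ} (hst : s ≤ t) :
    MulI ℓ (c ^ t) ≤ MulI ℓ (c ^ s) := by
  obtain ⟨k, rfl⟩ := Nat.exists_eq_add_of_le hst
  rw [pow_add]
  exact MulI_mul_le _ ((RL ℓ).pow_mem hc k)

theorem mul_mem_MulI {ℓ : ℕ} {c : ℂ} {A r : PowerSeries ℂ} (hA : A ∈ MulI ℓ c)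
    (hr : r ∈ IntPS ℓ) : A * r ∈ MulI ℓ c := by
  obtain ⟨r', hr', rfl⟩ := hA
  exact ⟨r' * r, (IntPS ℓ).mul_mem hr' hr, by ring⟩

theorem mul_mem_MulI' {ℓ : ℕ} {c : ℂ} {A r : PowerSeries ℂ} (hr : r ∈ IntPS ℓ)
    (hA : A ∈ MulI ℓ c) : r * A ∈ MulI ℓ c := by
  rw [mul_comm]; exact mul_mem_MulI hA hr

theorem mul_mem_MulI_mul {ℓ : ℕ} {c d : ℂ} {A B : PowerSeries ℂ} (hA : A ∈ MulI ℓ c)
    (hB : B ∈ MulI ℓ d) : A * B ∈ MulI ℓ (c * d) := by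
  obtain ⟨r, hr, rfl⟩ := hA
  obtain ⟨r', hr', rfl⟩ := hB
  exact ⟨r * r', (IntPS ℓ).mul_mem hr hr', by rw [map_mul]; ring⟩

/-- Cancelling a nonzero constant: `C d * A ∈ MulI ℓ (d * c) ↔ A ∈ MulI ℓ c`. -/
theorem C_mul_mem_MulI_mul_iff {ℓ : ℕ} {c d : ℂ} (hd : d ≠ 0) {A : PowerSeries ℂ} :
    C d * A ∈ MulI ℓ (d * c) ↔ A ∈ MulI ℓ c := by
  have hCd : (C d : PowerSeries ℂ) ≠ 0 := by
    intro h
    apply hd
    have := congrArg (coeff 0) h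
    simpa using this
  constructor
  · rintro ⟨r, hr, h⟩
    refine ⟨r, hr, ?_⟩
    apply mul_left_cancel₀ hCd
    rw [h, map_mul]; ring
  · rintro ⟨r, hr, rfl⟩
    exact ⟨r, hr, by rw [map_mul]; ring⟩

theorem stretch_mem_MulI {ℓ : ℕ} {c : ℂ} {A : PowerSeries ℂ} (hA : A ∈ MulI ℓ c) (p : ℕ) :
    stretch p A ∈ MulI ℓ c := by
  rw [mem_MulI_iff_coeff] at hA ⊢
  intro n
  rw [coeff_stretch]
  split_ifs
  · exact hA _
  · exact ⟨0, (RL ℓ).zero_mem, by simp⟩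

/-- `stretch p` reflects congruences (`p ≥ 1`). -/
theorem of_stretch_mem_MulI {ℓ p : ℕ} (hp : 0 < p) {c : ℂ} {A : PowerSeries ℂ}
    (hA : stretch p A ∈ MulI ℓ c) : A ∈ MulI ℓ c := by
  rw [mem_MulI_iff_coeff] at hA ⊢
  intro n
  rw [← coeff_stretch_mul hp]
  exact hA _

theorem Up_mem_MulI {ℓ : ℕ} {c : ℂ} {A : PowerSeries ℂ} (hA : A ∈ MulI ℓ c) (p : ℕ) :
    Up p A ∈ MulI ℓ c := by
  rw [mem_MulI_iff_coeff] at hA ⊢
  intro n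
  rw [coeff_Up]
  exact hA _

theorem rescale_zetaP_mem_MulI {ℓ : ℕ} {c : ℂ} {A : PowerSeries ℂ} (hA : A ∈ MulI ℓ c)
    (p j : ℕ) : rescale (zetaP p ^ j) A ∈ MulI ℓ c := by
  rw [mem_MulI_iff_coeff] at hA ⊢
  intro n
  obtain ⟨y, hy, hy'⟩ := hA n
  refine ⟨(zetaP p ^ j) ^ n * y, (RL ℓ).mul_mem ((RL ℓ).pow_mem (zetaP_pow_mem_RL ℓ p j) n) hy, ?_⟩
  rw [coeff_rescale, hy']; ring

/-- Coefficient extraction: an integer coefficient of a series `≡ 0 mod ℓ^s` is divisible by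
`ℓ^s`. -/
theorem pow_dvd_of_coeff_eq_intCast {ℓ : ℕ} (hℓ : ℓ.Prime) {s : ℕ} {A : PowerSeries ℂ}
    (hA : A ∈ MulI ℓ ((ℓ : ℂ) ^ s)) {n : ℕ} {z : ℤ} (hz : coeff n A = (z : ℂ)) :
    (ℓ : ℤ) ^ s ∣ z := by
  obtain ⟨y, hy, hy'⟩ := coeff_of_mem_MulI hA n
  exact pow_dvd_of_intCast_eq_pow_mul hℓ hy (hz ▸ hy')

theorem dvd_of_coeff_eq_intCast {ℓ : ℕ} (hℓ : ℓ.Prime) {A : PowerSeries ℂ}
    (hA : A ∈ MulI ℓ (ℓ : ℂ)) {n : ℕ} {z : ℤ} (hz : coeff n A = (z : ℂ)) : (ℓ : ℤ) ∣ z := by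
  obtain ⟨y, hy, hy'⟩ := coeff_of_mem_MulI hA n
  exact dvd_of_intCast_eq_mul hℓ hy (hz ▸ hy')

/-- `1 ≢ 0 mod ℓ`. -/
theorem one_not_mem_MulI {ℓ : ℕ} (hℓ : ℓ.Prime) : (1 : PowerSeries ℂ) ∉ MulI ℓ (ℓ : ℂ) := by
  intro h
  obtain ⟨y, hy, hy'⟩ := coeff_of_mem_MulI h 0
  exact prime_mul_ne_one hℓ hy (by simpa using hy'.symm)


/-! ### Congruences of products, powers and elementary symmetric functions -/

theorem mul_sub_mul_mem_MulI {ℓ : ℕ} {c : ℂ} {A A' B B' : PowerSeries ℂ}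
    (hA : A - A' ∈ MulI ℓ c) (hB : B - B' ∈ MulI ℓ c) (hA' : A' ∈ IntPS ℓ) (hB' : B ∈ IntPS ℓ) :
    A * B - A' * B' ∈ MulI ℓ c := by
  have : A * B - A' * B' = (A - A') * B + A' * (B - B') := by ring
  rw [this]
  exact (MulI ℓ c).add_mem (mul_mem_MulI hA hB') (mul_mem_MulI' hA' hB)

/-- `A ≡ B mod c` with `B` integral (and `c ∈ RL ℓ`) makes `A` integral. -/
theorem mem_IntPS_of_sub_mem_MulI {ℓ : ℕ} {c : ℂ} (hc : c ∈ RL ℓ) {A B : PowerSeries ℂ}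
    (hAB : A - B ∈ MulI ℓ c) (hB : B ∈ IntPS ℓ) : A ∈ IntPS ℓ := by
  have : A = (A - B) + B := by ring
  rw [this]
  exact (IntPS ℓ).add_mem (mem_IntPS_of_mem_MulI hc hAB) hB

theorem pow_sub_pow_mem_MulI {ℓ : ℕ} {c : ℂ} (hc : c ∈ RL ℓ) {A B : PowerSeries ℂ}
    (hAB : A - B ∈ MulI ℓ c) (hB : B ∈ IntPS ℓ) (n : ℕ) : A ^ n - B ^ n ∈ MulI ℓ c := by
  induction n with
  | zero => simp
  | succ n ih =>
    rw [pow_succ, pow_succ]
    exact mul_sub_mul_mem_MulI ih hAB ((IntPS ℓ).pow_mem hB n)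
      (mem_IntPS_of_sub_mem_MulI hc hAB hB)

theorem prod_sub_prod_mem_MulI {ℓ : ℕ} {c : ℂ} (hc : c ∈ RL ℓ) {ι : Type*} (s : Multiset ι)
    (f g : ι → PowerSeries ℂ) (hg : ∀ i ∈ s, g i ∈ IntPS ℓ)
    (h : ∀ i ∈ s, f i - g i ∈ MulI ℓ c) : (s.map f).prod - (s.map g).prod ∈ MulI ℓ c := by
  induction s using Multiset.induction_on with
  | empty => simp
  | cons a s ih =>
    rw [Multiset.map_cons, Multiset.map_cons, Multiset.prod_cons, Multiset.prod_cons]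
    have hg' : ∀ i ∈ s, g i ∈ IntPS ℓ := fun i hi => hg i (Multiset.mem_cons_of_mem hi)
    have h' : ∀ i ∈ s, f i - g i ∈ MulI ℓ c := fun i hi => h i (Multiset.mem_cons_of_mem hi)
    have hf' : ∀ x ∈ s.map f, x ∈ IntPS ℓ := by
      intro x hx
      rw [Multiset.mem_map] at hx
      obtain ⟨i, hi, rfl⟩ := hx
      exact mem_IntPS_of_sub_mem_MulI hc (h' i hi) (hg' i hi)
    exact mul_sub_mul_mem_MulI (h a (Multiset.mem_cons_self a s)) (ih hg' h')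
      (hg a (Multiset.mem_cons_self a s)) (multiset_prod_mem_IntPS hf')

theorem esymm_map_eq {ι : Type*} (s : Multiset ι) (f : ι → PowerSeries ℂ) (n : ℕ) :
    (s.map f).esymm n = ((s.powersetCard n).map fun t => (t.map f).prod).sum := by
  rw [Multiset.esymm, Multiset.powersetCard_map, Multiset.map_map]
  rfl

theorem esymm_sub_esymm_mem_MulI {ℓ : ℕ} {c : ℂ} (hc : c ∈ RL ℓ) {ι : Type*} (s : Multiset ι)
    (f g : ι → PowerSeries ℂ) (hg : ∀ i ∈ s, g i ∈ IntPS ℓ)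
    (h : ∀ i ∈ s, f i - g i ∈ MulI ℓ c) (n : ℕ) :
    (s.map f).esymm n - (s.map g).esymm n ∈ MulI ℓ c := by
  rw [esymm_map_eq, esymm_map_eq, ← Multiset.sum_map_sub]
  refine (MulI ℓ c).multiset_sum_mem _ fun y hy => ?_
  rw [Multiset.mem_map] at hy
  obtain ⟨t, ht, rfl⟩ := hy
  rw [Multiset.mem_powersetCard] at ht
  exact prod_sub_prod_mem_MulI hc t f g (fun i hi => hg i (Multiset.mem_of_le ht.1 hi))
    (fun i hi => h i (Multiset.mem_of_le ht.1 hi))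

theorem esymm_map_const {ι : Type*} (s : Multiset ι) (x : PowerSeries ℂ) (n : ℕ) :
    (s.map fun _ => x).esymm n = C (((Multiset.card s).choose n : ℕ) : ℂ) * x ^ n := by
  rw [esymm_map_eq]
  have h1 : ∀ t ∈ s.powersetCard n, (t.map fun _ : ι => x).prod = x ^ n := by
    intro t ht
    rw [Multiset.mem_powersetCard] at ht
    rw [Multiset.map_const', Multiset.prod_replicate, ht.2]
  rw [Multiset.map_congr rfl h1, Multiset.map_const', Multiset.sum_replicate,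
    Multiset.card_powersetCard, nsmul_eq_mul]
  congr 1

/-- If every element of `M` is `≡ a mod c` (`a` a constant in `RL ℓ`), then
`M.esymm i ≡ choose (card M) i * a^i mod c`. -/
theorem esymm_sub_const_mem_MulI {ℓ : ℕ} {c a : ℂ} (hc : c ∈ RL ℓ) (ha : a ∈ RL ℓ)
    {M : Multiset (PowerSeries ℂ)} (hM : ∀ x ∈ M, x - C a ∈ MulI ℓ c) (i : ℕ) :
    M.esymm i - C (((Multiset.card M).choose i : ℕ) * a ^ i) ∈ MulI ℓ c := by
  have h := esymm_sub_esymm_mem_MulI hc M id (fun _ => C a) (fun _ _ => C_mem_IntPS ha) hM i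
  rw [Multiset.map_id, esymm_map_const] at h
  have : C ((((Multiset.card M).choose i : ℕ) : ℂ) * a ^ i)
      = C (((Multiset.card M).choose i : ℕ) : ℂ) * (C a : PowerSeries ℂ) ^ i := by
    rw [map_mul, map_pow]
  rw [this]
  exact h

/-- Blueprint form: every element `= 1 + ℓ * (element of IntPS ℓ)` gives
`esymm i = choose (card) i + ℓ * (element of IntPS ℓ)`. -/
theorem esymm_one_add {ℓ : ℕ} {M : Multiset (PowerSeries ℂ)}
    (hM : ∀ x ∈ M, ∃ r ∈ IntPS ℓ, x = 1 + C (ℓ : ℂ) * r) (i : ℕ) :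
    ∃ r ∈ IntPS ℓ, M.esymm i = C (((Multiset.card M).choose i : ℕ) : ℂ) + C (ℓ : ℂ) * r := by
  have hM' : ∀ x ∈ M, x - C (1 : ℂ) ∈ MulI ℓ (ℓ : ℂ) := by
    intro x hx
    obtain ⟨r, hr, rfl⟩ := hM x hx
    exact ⟨r, hr, by simp⟩
  obtain ⟨r, hr, h⟩ := esymm_sub_const_mem_MulI (natCast_mem (RL ℓ) ℓ) (RL ℓ).one_mem hM' i
  refine ⟨r, hr, ?_⟩
  rw [← h]
  simp

/-! ### `OneMod` -/

theorem oneMod_iff_sub_one_mem {ℓ s : ℕ} {A : PowerSeries ℂ} :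
    OneMod ℓ s (fun m => coeff m A) ↔ coeff 0 A = 1 ∧ A - 1 ∈ MulI ℓ ((ℓ : ℂ) ^ s) := by
  rw [mem_MulI_iff_coeff]
  constructor
  · rintro ⟨h0, h⟩
    refine ⟨h0, fun n => ?_⟩
    have h0' : coeff 0 A = 1 := h0
    rcases Nat.eq_zero_or_pos n with rfl | hn
    · exact ⟨0, (RL ℓ).zero_mem, by
        rw [map_sub, h0', coeff_one, if_pos rfl, sub_self, mul_zero]⟩
    · obtain ⟨y, hy, hy'⟩ := h n hn
      refine ⟨y, hy, ?_⟩
      rw [map_sub, coeff_one, if_neg hn.ne', sub_zero]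
      exact hy'
  · rintro ⟨h0, h⟩
    refine ⟨h0, fun m hm => ?_⟩
    obtain ⟨y, hy, hy'⟩ := h m
    refine ⟨y, hy, ?_⟩
    rw [map_sub, coeff_one, if_neg (by omega), sub_zero] at hy'
    exact hy'

theorem oneMod_iff {ℓ s : ℕ} {A : PowerSeries ℂ} :
    OneMod ℓ s (fun m => coeff m A) ↔
      ∃ h ∈ IntPS ℓ, coeff 0 h = 0 ∧ A = 1 + C ((ℓ : ℂ) ^ s) * h := by
  rw [oneMod_iff_sub_one_mem]
  constructor
  · rintro ⟨h0, r, hr, h⟩
    refine ⟨r - C (coeff 0 r), (IntPS ℓ).sub_mem hr (C_mem_IntPS (hr 0)), by simp, ?_⟩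
    have h1 : (ℓ : ℂ) ^ s * coeff 0 r = 0 := by
      have := congrArg (coeff 0) h
      rw [coeff_C_mul, map_sub, h0] at this
      simpa using this.symm
    have h2 : C ((ℓ : ℂ) ^ s) * (C (coeff 0 r) : PowerSeries ℂ) = 0 := by
      rw [← map_mul, h1, map_zero]
    rw [mul_sub, h2, sub_zero, ← h]; ring
  · rintro ⟨h, hh, h0, rfl⟩
    refine ⟨by rw [map_add, coeff_one, if_pos rfl, coeff_C_mul, h0, mul_zero, add_zero],
      ⟨h, hh, by ring⟩⟩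


/-! ### Frobenius modulo 2 -/

theorem Up_add (p : ℕ) (A B : PowerSeries ℂ) : Up p (A + B) = Up p A + Up p B := by
  ext n; simp [coeff_Up]

theorem Up_sub (p : ℕ) (A B : PowerSeries ℂ) : Up p (A - B) = Up p A - Up p B := by
  ext n; simp [coeff_Up]

theorem Up_C_mul (p : ℕ) (c : ℂ) (A : PowerSeries ℂ) : Up p (C c * A) = C c * Up p A := by
  ext n; simp [coeff_Up]

/-- The coefficients of a square: diagonal term plus twice the sum over `i < j`. -/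
theorem coeff_sq_eq (g : PowerSeries ℂ) (n : ℕ) :
    coeff n (g ^ 2) = (if 2 ∣ n then (coeff (n / 2) g) ^ 2 else 0) +
      2 * ∑ x ∈ (Finset.HasAntidiagonal.antidiagonal n).filter (fun x => x.1 < x.2),
        coeff x.1 g * coeff x.2 g := by
  rw [sq, coeff_mul]
  have hsplit : ∀ F : ℕ × ℕ → ℂ, ∑ x ∈ Finset.HasAntidiagonal.antidiagonal n, F x =
      ∑ x ∈ (Finset.HasAntidiagonal.antidiagonal n).filter (fun x => x.1 < x.2), F x +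
      (∑ x ∈ (Finset.HasAntidiagonal.antidiagonal n).filter (fun x => x.2 < x.1), F x +
      ∑ x ∈ (Finset.HasAntidiagonal.antidiagonal n).filter (fun x => x.1 = x.2), F x) := by
    intro F
    rw [← Finset.sum_filter_add_sum_filter_not (Finset.HasAntidiagonal.antidiagonal n) (fun x => x.1 < x.2)]
    congr 1
    rw [← Finset.sum_filter_add_sum_filter_not
      ((Finset.HasAntidiagonal.antidiagonal n).filter (fun x => ¬ x.1 < x.2)) (fun x => x.2 < x.1)]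
    rw [Finset.filter_filter, Finset.filter_filter]
    congr 1
    · apply Finset.sum_congr _ (fun _ _ => rfl)
      ext x
      simp only [Finset.mem_filter]
      constructor
      · rintro ⟨h1, h2, h3⟩; exact ⟨h1, h3⟩
      · rintro ⟨h1, h3⟩; exact ⟨h1, by omega, h3⟩
    · apply Finset.sum_congr _ (fun _ _ => rfl)
      ext x
      simp only [Finset.mem_filter]
      constructor
      · rintro ⟨h1, h2, h3⟩; exact ⟨h1, by omega⟩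
      · rintro ⟨h1, h3⟩; exact ⟨h1, by omega, by omega⟩
  rw [hsplit]
  have hswap : ∑ x ∈ (Finset.HasAntidiagonal.antidiagonal n).filter (fun x => x.2 < x.1),
        coeff x.1 g * coeff x.2 g
      = ∑ x ∈ (Finset.HasAntidiagonal.antidiagonal n).filter (fun x => x.1 < x.2),
        coeff x.1 g * coeff x.2 g := by
    apply Finset.sum_nbij' (fun x => x.swap) (fun x => x.swap)
    · intro x hx
      simp only [Finset.mem_filter, Finset.HasAntidiagonal.mem_antidiagonal, Prod.fst_swap, Prod.snd_swap] at hx ⊢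
      exact ⟨by omega, hx.2⟩
    · intro x hx
      simp only [Finset.mem_filter, Finset.HasAntidiagonal.mem_antidiagonal, Prod.fst_swap, Prod.snd_swap] at hx ⊢
      exact ⟨by omega, hx.2⟩
    · intro x _; simp
    · intro x _; simp
    · intro x _; simp [mul_comm]
  have hdiag : ∑ x ∈ (Finset.HasAntidiagonal.antidiagonal n).filter (fun x => x.1 = x.2),
        coeff x.1 g * coeff x.2 g
      = if 2 ∣ n then (coeff (n / 2) g) ^ 2 else 0 := by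
    split_ifs with h
    · obtain ⟨m, rfl⟩ := h
      have : (Finset.HasAntidiagonal.antidiagonal (2 * m)).filter (fun x => x.1 = x.2) = {(m, m)} := by
        ext ⟨a, b⟩
        simp only [Finset.mem_filter, Finset.HasAntidiagonal.mem_antidiagonal, Finset.mem_singleton,
          Prod.mk.injEq]
        omega
      rw [this, Finset.sum_singleton]
      simp [sq]
    · have : (Finset.HasAntidiagonal.antidiagonal n).filter (fun x => x.1 = x.2) = ∅ := by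
        ext ⟨a, b⟩
        simp only [Finset.mem_filter, Finset.HasAntidiagonal.mem_antidiagonal, Finset.notMem_empty, iff_false]
        omega
      rw [this, Finset.sum_empty]
  rw [hswap, hdiag]; ring

/-- `g² ≡ Σ gₙ² x^{2n} mod 2`. -/
theorem sq_sub_stretch_mem_MulI {ℓ : ℕ} {g : PowerSeries ℂ} (hg : g ∈ IntPS ℓ) :
    g ^ 2 - stretch 2 (mk fun n => (coeff n g) ^ 2) ∈ MulI ℓ 2 := by
  rw [mem_MulI_iff_coeff]
  intro n
  refine ⟨∑ x ∈ (Finset.HasAntidiagonal.antidiagonal n).filter (fun x => x.1 < x.2), coeff x.1 g * coeff x.2 g,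
    (RL ℓ).sum_mem fun x _ => (RL ℓ).mul_mem (hg _) (hg _), ?_⟩
  rw [map_sub, coeff_sq_eq, coeff_stretch, coeff_mk]
  ring

/-- `U_p (g²) ≡ (U_p g)² mod 2` for odd `p`. -/
theorem Up_sq_sub_sq_Up_mem_MulI {ℓ p : ℕ} (hp : Odd p) {g : PowerSeries ℂ} (hg : g ∈ IntPS ℓ) :
    Up p (g ^ 2) - (Up p g) ^ 2 ∈ MulI ℓ 2 := by
  have h1 := sq_sub_stretch_mem_MulI hg
  have h2 := sq_sub_stretch_mem_MulI (Up_mem_IntPS hg p)
  have h3 := Up_mem_MulI h1 p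
  have hcop : Nat.Coprime 2 p := Nat.coprime_two_left.mpr hp
  have key : Up p (stretch 2 (mk fun n => (coeff n g) ^ 2))
      = stretch 2 (mk fun n => (coeff n (Up p g)) ^ 2) := by
    ext n
    rw [coeff_Up, coeff_stretch, coeff_stretch, coeff_mk, coeff_mk, coeff_Up]
    by_cases h : 2 ∣ n
    · rw [if_pos (Dvd.dvd.mul_left h p), if_pos h, Nat.mul_div_assoc p h]
    · rw [if_neg h, if_neg]
      intro h'
      exact h ((Nat.Coprime.dvd_mul_left hcop).mp h')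
  have : Up p (g ^ 2) - (Up p g) ^ 2
      = Up p (g ^ 2 - stretch 2 (mk fun n => (coeff n g) ^ 2))
        - ((Up p g) ^ 2 - stretch 2 (mk fun n => (coeff n (Up p g)) ^ 2)) := by
    rw [Up_sub, key]; ring
  rw [this]
  exact (MulI ℓ 2).sub_mem h3 h2

/-- Blueprint form of Frobenius mod 2. -/
theorem frobenius_two {p : ℕ} (hp : Odd p) {h : PowerSeries ℂ} (hh : h ∈ IntPS 2)
    (hU : Up p (Up p h) = h) :
    ∃ r ∈ IntPS 2, Up p ((Up p h) ^ 2) = h ^ 2 + C (2 : ℂ) * r := by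
  obtain ⟨r, hr, h1⟩ := Up_sq_sub_sq_Up_mem_MulI hp (Up_mem_IntPS hh p)
  rw [hU] at h1
  exact ⟨r, hr, by rw [← h1]; ring⟩

end

end Fermat.Agent.S16.PSAlg2
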