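/-
S16 / TwoCoreH (helper5): PURE power-series core of the 2-part of the upper bound for `p ≡ 3 mod 4`
("there is no `θ ∈ M₂(Γ₀(p))` with 2-integral q-expansion `θ ≡ 1 mod 8`"), single-norm version.

For `θ = 1 + 4ψ` put `H := (θ⁴ - 6 E₄ θ² + 8 E₆ θ - 3 E₄²)/256` (weight 8).  With
`E₄ = 1 + 240 S`, `E₆ = 1 - 504 (S + 4 D)`, `1728 Δ = E₄³ - E₆²`:
`H = Δ + ψ³ (1 + ψ) mod 2`, so `H ≡ Δ mod 2` for every conjugate with `ψ (1 + ψ) ≡ 0 mod 2`
(i.e. `θ_c ≡ 1` or `5 mod 8`).  Hence the norm is `≡ Δ^(p+1) mod 2`, of q-order `p + 1`, which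
contradicts the level-one Sturm bound (weight `8 (p+1)`, so `8 (p+1)/12 < p + 1`).

No modular forms inside: everything is stated for `PowerSeries ℂ` and a coefficient subring
`R ⊆ ℂ` in which `2` is not invertible.  Mathlib only.
-/
import Mathlib

set_option autoImplicit false

namespace Fermat.Agent.S16.TwoCoreH

open PowerSeries

/-! ### Pure ring identities -/

section Ring

variable {B : Type*} [CommRing B]

/-- The explicit integral formula for `(θ⁴ - 6 E₄ θ² + 8 E₆ θ - 3 E₄²)/256` at `θ = 1 + 4ψ`,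
`E₄ = 1 + 240 S`, `E₆ = 1 - 504 (S + 4 D)`. -/
def Hpoly (ψ S D : B) : B :=
  ψ ^ 3 * (1 + ψ) - 27 * S - 63 * D - (45 * S + 63 * (S + 4 * D)) * ψ - 90 * S * ψ ^ 2
    - 675 * S ^ 2

theorem Hpoly_spec (ψ S D : B) :
    256 * Hpoly ψ S D =
      (1 + 4 * ψ) ^ 4 - 6 * (1 + 240 * S) * (1 + 4 * ψ) ^ 2
        + 8 * (1 - 504 * (S + 4 * D)) * (1 + 4 * ψ) - 3 * (1 + 240 * S) ^ 2 := by
  unfold Hpoly; ring

theorem disc_identity (S D : B) :
    (1 + 240 * S) ^ 3 - (1 - 504 * (S + 4 * D)) ^ 2 =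
      576 * (3 * S + 7 * D + 300 * S ^ 2 - 441 * (S + 4 * D) ^ 2 + 24000 * S ^ 3) := by
  ring

theorem Hpoly_sub (ψ S D Δ : B)
    (h3 : 3 * Δ = 3 * S + 7 * D + 300 * S ^ 2 - 441 * (S + 4 * D) ^ 2 + 24000 * S ^ 3) :
    Hpoly ψ S D =
      Δ + ψ ^ 2 * (ψ * (1 + ψ)) +
        2 * (-15 * S - 35 * D - (54 * S + 126 * D) * ψ - 45 * S * ψ ^ 2 - 267 * S ^ 2
          + 1764 * S * D + 3528 * D ^ 2 - 12000 * S ^ 3 + Δ) := by
  unfold Hpoly; linear_combination (-1 : B) * h3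

end Ring

/-! ### Coefficients of powers of a uniformiser -/

section Order

variable {K : Type*} [CommRing K]

theorem coeff_pow_of_lt (D : K⟦X⟧) (hD0 : coeff 0 D = 0) {i n : ℕ} (hin : i < n) :
    coeff i (D ^ n) = 0 := by
  set V : K⟦X⟧ := PowerSeries.mk fun j => coeff (j + 1) D with hV
  have hDV : D = X * V := by
    have := eq_X_mul_shift_add_const D
    rw [← coeff_zero_eq_constantCoeff_apply, hD0, map_zero, add_zero] at this
    exact this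
  rw [hDV, mul_pow, coeff_X_pow_mul', if_neg (by omega)]

theorem coeff_pow_self (D : K⟦X⟧) (hD0 : coeff 0 D = 0) (hD1 : coeff 1 D = 1) (n : ℕ) :
    coeff n (D ^ n) = 1 := by
  set V : K⟦X⟧ := PowerSeries.mk fun j => coeff (j + 1) D with hV
  have hDV : D = X * V := by
    have := eq_X_mul_shift_add_const D
    rw [← coeff_zero_eq_constantCoeff_apply, hD0, map_zero, add_zero] at this
    exact this
  have hV0 : constantCoeff V = 1 := by
    rw [← coeff_zero_eq_constantCoeff_apply, hV, coeff_mk, zero_add, hD1]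
  rw [hDV, mul_pow, coeff_X_pow_mul', if_pos le_rfl, Nat.sub_self,
    coeff_zero_eq_constantCoeff_apply, map_pow, hV0, one_pow]

end Order

/-! ### The core statement over a subring `R ⊆ ℂ` -/

section Main

/-- `R`-integrality of a complex power series: all coefficients lie in `R`. -/
def IsInt (R : Subring ℂ) (f : ℂ⟦X⟧) : Prop := ∀ n, coeff n f ∈ R

theorem IsInt.exists_lift {R : Subring ℂ} {f : ℂ⟦X⟧} (hf : IsInt R f) :
    ∃ g : (↥R)⟦X⟧, PowerSeries.map R.subtype g = f :=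
  ⟨PowerSeries.mk fun n => ⟨_, hf n⟩, by ext n; simp⟩

theorem isInt_map {R : Subring ℂ} (g : (↥R)⟦X⟧) : IsInt R (PowerSeries.map R.subtype g) := by
  intro n; simp

/-- **Congruence part.**  `S`, `D`, `Dq` are `R`-integral q-series with `E₄ = 1 + 240 S`,
`E₆ = 1 - 504 (S + 4 D)`, `1728 Δ = E₄³ - E₆²`.  A finite family of "conjugates"
`θ_c = 1 + 4 ψ_c` (series in `u = q^(1/m)`), `ψ_c` `R`-integral with `ψ_c (1 + ψ_c) ∈ 2 R[[u]]`,
and `256 H_c = θ_c⁴ - 6 E₄(u^m) θ_c² + 8 E₆(u^m) θ_c - 3 E₄(u^m)²`.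
If `Nq(u^m) = ∏_c H_c`, then `Nq ≡ Δ^(#conjugates) mod 2 R[[q]]`. -/
theorem core_congr (R : Subring ℂ) (m : ℕ) (hm : m ≠ 0)
    (S D E4q E6q Dq : ℂ⟦X⟧) (hS : IsInt R S) (hD : IsInt R D) (hDq : IsInt R Dq)
    (hE4 : E4q = 1 + 240 * S) (hE6 : E6q = 1 - 504 * (S + 4 * D))
    (hrel : 1728 * Dq = E4q ^ 3 - E6q ^ 2)
    {ι : Type*} [Fintype ι]
    (θ ψ W Hc : ι → ℂ⟦X⟧) (hψ : ∀ c, IsInt R (ψ c)) (hW : ∀ c, IsInt R (W c))
    (hθ : ∀ c, θ c = 1 + 4 * ψ c) (hψW : ∀ c, ψ c * (1 + ψ c) = 2 * W c)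
    (hH : ∀ c, 256 * Hc c = θ c ^ 4 - 6 * expand m hm E4q * θ c ^ 2
        + 8 * expand m hm E6q * θ c - 3 * expand m hm E4q ^ 2)
    (Nq : ℂ⟦X⟧) (hN : expand m hm Nq = ∏ c, Hc c) :
    ∀ i, ∃ y ∈ R, coeff i Nq = coeff i (Dq ^ Fintype.card ι) + 2 * y := by
  classical
  obtain ⟨S', rfl⟩ := hS.exists_lift
  obtain ⟨D', rfl⟩ := hD.exists_lift
  obtain ⟨Dq', rfl⟩ := hDq.exists_lift
  choose ψ' hψ' using fun c => (hψ c).exists_lift
  choose W' hW' using fun c => (hW c).exists_lift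
  set φ : (↥R)⟦X⟧ →+* ℂ⟦X⟧ := PowerSeries.map R.subtype with hφ
  have hφinj : Function.Injective φ := PowerSeries.map_injective _ Subtype.val_injective
  have hne : ∀ a : ℕ, a ≠ 0 → ((a : ℂ⟦X⟧)) ≠ 0 := by
    intro a ha h
    have := congrArg constantCoeff h
    rw [map_natCast, map_zero] at this
    exact ha (by exact_mod_cast this)
  -- `3 Δ = ...` over `R`
  have h3 : 3 * Dq' = 3 * S' + 7 * D' + 300 * S' ^ 2 - 441 * (S' + 4 * D') ^ 2
      + 24000 * S' ^ 3 := by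
    apply hφinj
    have h576 : ((576 : ℕ) : ℂ⟦X⟧) ≠ 0 := hne 576 (by norm_num)
    apply mul_left_cancel₀ h576
    simp only [map_mul, map_add, map_sub, map_pow, map_ofNat]
    have := disc_identity (φ S') (φ D')
    rw [← hE4, ← hE6, ← hrel] at this
    push_cast
    linear_combination this
  -- reduction modulo `2`
  let I : Ideal R := Ideal.span {(2 : R)}
  let red : (↥R)⟦X⟧ →+* (R ⧸ I)⟦X⟧ := PowerSeries.map (Ideal.Quotient.mk I)
  have hred2 : red 2 = 0 := by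
    have h20 : (Ideal.Quotient.mk I) 2 = 0 :=
      Ideal.Quotient.eq_zero_iff_mem.mpr (Ideal.subset_span rfl)
    have : (2 : (↥R)⟦X⟧) = C (2 : R) := (map_ofNat (C (R := R)) 2).symm
    rw [this]
    show PowerSeries.map (Ideal.Quotient.mk I) (C (2 : R)) = 0
    rw [PowerSeries.map_C, h20, map_zero]
  -- the conjugates
  set Su : (↥R)⟦X⟧ := expand m hm S' with hSu
  set Du : (↥R)⟦X⟧ := expand m hm D' with hDu
  set Δu : (↥R)⟦X⟧ := expand m hm Dq' with hΔu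
  have h3u : 3 * Δu = 3 * Su + 7 * Du + 300 * Su ^ 2 - 441 * (Su + 4 * Du) ^ 2
      + 24000 * Su ^ 3 := by
    have := congrArg (expand m hm) h3
    simpa only [map_mul, map_add, map_sub, map_pow, map_ofNat] using this
  have hHc : ∀ c, Hc c = φ (Hpoly (ψ' c) Su Du) := by
    intro c
    have h256 : ((256 : ℕ) : ℂ⟦X⟧) ≠ 0 := hne 256 (by norm_num)
    apply mul_left_cancel₀ h256
    have e1 : ((256 : ℕ) : ℂ⟦X⟧) * φ (Hpoly (ψ' c) Su Du) = φ (256 * Hpoly (ψ' c) Su Du) := by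
      rw [map_mul, map_ofNat]; push_cast; rfl
    rw [e1, Hpoly_spec]
    have e2 : ((256 : ℕ) : ℂ⟦X⟧) * Hc c = 256 * Hc c := by push_cast; rfl
    rw [e2, hH c, hθ c, hE4, hE6, ← hψ' c]
    simp only [map_mul, map_add, map_sub, map_pow, map_ofNat, map_one, hSu, hDu, hφ,
      PowerSeries.map_expand]
  have hredH : ∀ c, red (Hpoly (ψ' c) Su Du) = red Δu := by
    intro c
    have hw : ψ' c * (1 + ψ' c) = 2 * W' c := by
      apply hφinj
      simp only [map_mul, map_add, map_one, map_ofNat, hψ', hW']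
      exact hψW c
    rw [Hpoly_sub _ _ _ _ h3u, hw]
    simp only [map_add, map_mul, hred2, zero_mul, mul_zero, add_zero]
  -- the product
  set P' : (↥R)⟦X⟧ := ∏ c, Hpoly (ψ' c) Su Du with hP'
  have hP : expand m hm Nq = φ P' := by
    rw [hN, hP', map_prod]
    exact Finset.prod_congr rfl fun c _ => hHc c
  have hredP : red (P' - Δu ^ Fintype.card ι) = 0 := by
    rw [map_sub, hP', map_prod, map_pow]
    simp only [hredH, Finset.prod_const, Finset.card_univ, sub_self]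
  intro i
  have hmem : coeff (m * i) (P' - Δu ^ Fintype.card ι) ∈ I := by
    have h1 := congrArg (coeff (m * i)) hredP
    have h2 : coeff (m * i) (red (P' - Δu ^ Fintype.card ι)) =
        Ideal.Quotient.mk I (coeff (m * i) (P' - Δu ^ Fintype.card ι)) :=
      PowerSeries.coeff_map _ _ _
    rw [h2, map_zero] at h1
    exact Ideal.Quotient.eq_zero_iff_mem.mp h1
  obtain ⟨y, hy⟩ := Ideal.mem_span_singleton'.mp hmem
  refine ⟨y, y.2, ?_⟩
  have e1 : coeff i Nq = ((coeff (m * i) P' : R) : ℂ) := by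
    rw [← coeff_expand_mul m hm Nq i, hP, hφ, PowerSeries.coeff_map]
    rfl
  have e2 : coeff i (φ Dq' ^ Fintype.card ι) = ((coeff (m * i) (Δu ^ Fintype.card ι) : R) : ℂ) := by
    have h1 : Δu ^ Fintype.card ι = expand m hm (Dq' ^ Fintype.card ι) := by rw [hΔu, map_pow]
    rw [h1, coeff_expand_mul, ← map_pow, hφ, PowerSeries.coeff_map]
    rfl
  rw [e1, e2]
  have h3' : coeff (m * i) P' = coeff (m * i) (Δu ^ Fintype.card ι) + 2 * y := by
    rw [map_sub] at hy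
    linear_combination -hy
  rw [h3']
  push_cast
  rfl

/-- In the situation of `core_congr`, `Nq` is `R`-integral. -/
theorem core_int (R : Subring ℂ) (m : ℕ) (hm : m ≠ 0)
    (S D E4q E6q Dq : ℂ⟦X⟧) (hS : IsInt R S) (hD : IsInt R D) (hDq : IsInt R Dq)
    (hE4 : E4q = 1 + 240 * S) (hE6 : E6q = 1 - 504 * (S + 4 * D))
    (hrel : 1728 * Dq = E4q ^ 3 - E6q ^ 2)
    {ι : Type*} [Fintype ι]
    (θ ψ W Hc : ι → ℂ⟦X⟧) (hψ : ∀ c, IsInt R (ψ c)) (hW : ∀ c, IsInt R (W c))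
    (hθ : ∀ c, θ c = 1 + 4 * ψ c) (hψW : ∀ c, ψ c * (1 + ψ c) = 2 * W c)
    (hH : ∀ c, 256 * Hc c = θ c ^ 4 - 6 * expand m hm E4q * θ c ^ 2
        + 8 * expand m hm E6q * θ c - 3 * expand m hm E4q ^ 2)
    (Nq : ℂ⟦X⟧) (hN : expand m hm Nq = ∏ c, Hc c) : IsInt R Nq := by
  intro i
  obtain ⟨y, hy, h⟩ := core_congr R m hm S D E4q E6q Dq hS hD hDq hE4 hE6 hrel θ ψ W Hc hψ hW hθ
    hψW hH Nq hN i
  rw [h]
  refine R.add_mem ?_ (R.mul_mem (ofNat_mem R 2) hy)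
  obtain ⟨Dq', rfl⟩ := hDq.exists_lift
  rw [← map_pow]
  exact isInt_map _ i

/-- **TwoCoreH.**  In the situation of `core_congr`, assume moreover `1/2 ∉ R`, `Δ = q + ⋯`, and
the Sturm-type property of `Nq` with a bound below the number of conjugates.  Contradiction. -/
theorem two_core (R : Subring ℂ) (h2 : (2 : ℂ)⁻¹ ∉ R) (m : ℕ) (hm : m ≠ 0)
    (S D E4q E6q Dq : ℂ⟦X⟧) (hS : IsInt R S) (hD : IsInt R D) (hDq : IsInt R Dq)
    (hE4 : E4q = 1 + 240 * S) (hE6 : E6q = 1 - 504 * (S + 4 * D))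
    (hrel : 1728 * Dq = E4q ^ 3 - E6q ^ 2)
    (hDq0 : coeff 0 Dq = 0) (hDq1 : coeff 1 Dq = 1)
    {ι : Type*} [Fintype ι]
    (θ ψ W Hc : ι → ℂ⟦X⟧) (hψ : ∀ c, IsInt R (ψ c)) (hW : ∀ c, IsInt R (W c))
    (hθ : ∀ c, θ c = 1 + 4 * ψ c) (hψW : ∀ c, ψ c * (1 + ψ c) = 2 * W c)
    (hH : ∀ c, 256 * Hc c = θ c ^ 4 - 6 * expand m hm E4q * θ c ^ 2
        + 8 * expand m hm E6q * θ c - 3 * expand m hm E4q ^ 2)
    (Nq : ℂ⟦X⟧) (hN : expand m hm Nq = ∏ c, Hc c)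
    (hSt : (∀ i, i < Fintype.card ι → ∃ y ∈ R, coeff i Nq = 2 * y) →
      ∀ i, ∃ y ∈ R, coeff i Nq = 2 * y) : False := by
  have hc := core_congr R m hm S D E4q E6q Dq hS hD hDq hE4 hE6 hrel θ ψ W Hc hψ hW hθ hψW hH
    Nq hN
  have hlow : ∀ i, i < Fintype.card ι → ∃ y ∈ R, coeff i Nq = 2 * y := by
    intro i hi
    obtain ⟨y, hy, h⟩ := hc i
    exact ⟨y, hy, by rw [h, coeff_pow_of_lt Dq hDq0 hi, zero_add]⟩
  obtain ⟨y₂, hy₂, h₂⟩ := hSt hlow (Fintype.card ι)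
  obtain ⟨y₁, hy₁, h₁⟩ := hc (Fintype.card ι)
  rw [coeff_pow_self Dq hDq0 hDq1] at h₁
  apply h2
  have h : (y₂ - y₁) * 2 = 1 := by linear_combination h₁ - h₂
  rw [← eq_inv_of_mul_eq_one_left h]
  exact R.sub_mem hy₂ hy₁

end Main

end Fermat.Agent.S16.TwoCoreH
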