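/-
S16 / K2c (helper5): the 2-part of the upper bound for `p ≡ 3 mod 4`:
no `G ∈ M₂(Γ₀(p))` with 2-integral q-expansion `G ≡ 1 mod 8`.

`H := (G⁴ - 6 E₄ G² + 8 E₆ G - 3 E₄²)/256 ∈ M₈(Γ₀(p))`; all `p + 1` conjugates of `H` are
2-integral and `≡ Δ mod 2` (`TwoCoreH.core_congr`), so the norm is a level one form of weight
`8 (p+1)` which is `≡ Δ^(p+1) mod 2`; this contradicts the level one Sturm bound.

Here the relation `B = -p⁻¹ U_p A` between the two expansions of a weight two form (PSAlg-1,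
(W2)) is taken as a hypothesis `hW2`.
-/
import Fermat.Agent.S16.Defs
import Fermat.Agent.S16.TwoCoreH
import Fermat.Agent.S16.PSAlg2

set_option autoImplicit false

namespace Fermat.Agent.S16.K2cPre

open PowerSeries UpperHalfPlane CongruenceSubgroup
open scoped MatrixGroups ModularForm
open Fermat.Agent.S16

noncomputable section

/-! ### Formal lemmas on `stretch`, `Up`, `rescale` -/

theorem stretch_eq_expand {p : ℕ} (hp : p ≠ 0) (A : ℂ⟦X⟧) : stretch p A = expand p hp A := by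
  ext n
  rw [stretch, coeff_mk, coeff_expand]

theorem zetaP_pow_self {p : ℕ} (hp : p ≠ 0) : zetaP p ^ p = 1 := by
  rw [zetaP, ← Complex.exp_nat_mul]
  have hp' : (p : ℂ) ≠ 0 := Nat.cast_ne_zero.mpr hp
  have : (p : ℂ) * (2 * Real.pi * Complex.I / p) = 2 * Real.pi * Complex.I := by
    field_simp
  rw [this, Complex.exp_two_pi_mul_I]

theorem rescale_zeta_stretch {p : ℕ} (hp : p ≠ 0) (j : ℕ) (A : ℂ⟦X⟧) :
    rescale (zetaP p ^ j) (stretch p A) = stretch p A := by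
  ext n
  rw [coeff_rescale, stretch, coeff_mk]
  split_ifs with h
  · obtain ⟨d, rfl⟩ := h
    have : (zetaP p ^ j) ^ (p * d) = 1 := by
      rw [← pow_mul, show j * (p * d) = p * (j * d) by ring, pow_mul, zetaP_pow_self hp, one_pow]
    rw [this, one_mul]
  · rw [mul_zero]

theorem rescale_C' (a c : ℂ) : rescale a (C c) = C c := by
  ext n
  rw [coeff_rescale, coeff_C]
  split_ifs with h
  · rw [h, pow_zero, one_mul]
  · rw [mul_zero]

theorem Up_one_add_C_mul {p : ℕ} (hp : p ≠ 0) (c : ℂ) (h : ℂ⟦X⟧) :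
    Up p (1 + C c * h) = 1 + C c * Up p h := by
  ext n
  simp only [Up, coeff_mk, map_add, coeff_C_mul, coeff_one, Nat.mul_eq_zero, hp, false_or]

theorem esymm_card {R : Type*} [CommSemiring R] (s : Multiset R) : s.esymm s.card = s.prod := by
  rw [Multiset.esymm, Multiset.powersetCard_self]
  simp

/-! ### `σ₅ ≡ σ₃ mod 4` -/

theorem four_dvd_sigma (n : ℕ) :
    (4 : ℤ) ∣ (ArithmeticFunction.sigma 5 n : ℤ) - (ArithmeticFunction.sigma 3 n : ℤ) := by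
  rw [ArithmeticFunction.sigma_apply, ArithmeticFunction.sigma_apply]
  push_cast
  rw [← Finset.sum_sub_distrib]
  refine Finset.dvd_sum fun d _ => ?_
  have key : ∀ x : ZMod 4, x ^ 5 - x ^ 3 = 0 := by decide
  have h := key ((d : ℤ) : ZMod 4)
  have h2 := (ZMod.intCast_zmod_eq_zero_iff_dvd ((d : ℤ) ^ 5 - (d : ℤ) ^ 3) 4).mp
    (by push_cast; push_cast at h; exact h)
  exact_mod_cast h2

/-- The series `(σ₅ - σ₃)/4`. -/
def Dser : ℂ⟦X⟧ :=
  PowerSeries.mk fun n =>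
    ((((ArithmeticFunction.sigma 5 n : ℤ) - (ArithmeticFunction.sigma 3 n : ℤ)) / 4 : ℤ) : ℂ)

theorem Sq_five : Sq 5 = Sq 3 + 4 * Dser := by
  ext n
  have h4 : (4 : ℂ⟦X⟧) = C (4 : ℂ) := (map_ofNat (C (R := ℂ)) 4).symm
  rw [map_add, h4, coeff_C_mul, Sq, Sq, Dser, coeff_mk, coeff_mk, coeff_mk]
  have h := Int.mul_ediv_cancel' (four_dvd_sigma n)
  have h' : (4 : ℂ) * ((((ArithmeticFunction.sigma 5 n : ℤ) -
      (ArithmeticFunction.sigma 3 n : ℤ)) / 4 : ℤ) : ℂ) =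
      (ArithmeticFunction.sigma 5 n : ℂ) - (ArithmeticFunction.sigma 3 n : ℂ) := by
    exact_mod_cast congrArg (Int.cast : ℤ → ℂ) h
  rw [h']
  ring

theorem Dser_mem : Dser ∈ PSAlg2.IntPS 2 := PSAlg2.mk_intCast_mem_IntPS 2 _

/-! ### The main theorem -/

/-- **K2c (and K2b).**  For a prime `p ≡ 3 mod 4` there is no `G ∈ M₂(Γ₀(p))` whose q-expansion
is `≡ 1 mod 8` (2-integrally).  `hW2` is the relation `B = -p⁻¹ U_p A` of PSAlg-1 (W2). -/
theorem kstmt (p : ℕ) [hpf : Fact p.Prime] (hp4 : p % 4 = 3) (tk : Toolkit p) (l1 : L1Facts)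
    (st : SturmStmt)
    (hW2 : ∀ {A B : ℂ⟦X⟧}, Cusp2 p 2 A B → B = C (-(p : ℂ)⁻¹) * Up p A) : Kstmt p 2 3 := by
  rintro ⟨G, hG⟩
  have hp0 : p ≠ 0 := hpf.out.ne_zero
  have hpC : (p : ℂ) ≠ 0 := Nat.cast_ne_zero.mpr hp0
  set A : ℂ⟦X⟧ := qExpansion 1 G with hA
  set B : ℂ⟦X⟧ := qExpansion (p : ℝ) (⇑G ∣[(2 : ℤ)] ModularGroup.S) with hB
  have hc : Cusp2 p 2 A B := ⟨G, rfl, rfl⟩
  have hBA : B = C (-(p : ℂ)⁻¹) * Up p A := hW2 hc
  obtain ⟨h, hh, hh0, hAh⟩ := PSAlg2.oneMod_iff.mp hG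
  have h8 : C (((2 : ℕ) : ℂ) ^ 3) = C (8 : ℂ) := by
    rw [show (((2 : ℕ) : ℂ) ^ 3) = 8 by norm_num]
  have h8' : C (8 : ℂ) = (8 : ℂ⟦X⟧) := map_ofNat (C (R := ℂ)) 8
  rw [h8] at hAh
  -- arithmetic of `p`
  obtain ⟨a, ha⟩ : ∃ a : ℕ, p = 4 * a + 3 := ⟨p / 4, by omega⟩
  obtain ⟨s, hs⟩ : ∃ s : ℕ, (a + 1) * (3 * a + 2) = 2 * s := by
    rcases Nat.even_or_odd' a with ⟨b, rfl | rfl⟩
    · exact ⟨(2 * b + 1) * (3 * b + 1), by ring⟩
    · exact ⟨(b + 1) * (6 * b + 5), by ring⟩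
  have hpodd : Nat.Coprime p 2 := by
    rw [Nat.coprime_two_right]
    exact ⟨2 * a + 1, by omega⟩
  have hpinv : ((p : ℂ))⁻¹ ∈ RL 2 := PSAlg2.inv_natCast_mem_RL hpodd
  set lam : ℂ := -(p : ℂ)⁻¹ with hlam
  set mu : ℂ := -((a + 1 : ℕ) : ℂ) * (p : ℂ)⁻¹ with hmu
  set nu : ℂ := -((s : ℕ) : ℂ) * ((p : ℂ)⁻¹) ^ 2 with hnu
  have hlam_mem : lam ∈ RL 2 := (RL 2).neg_mem hpinv
  have hmu_mem : mu ∈ RL 2 := (RL 2).mul_mem ((RL 2).neg_mem (natCast_mem _ _)) hpinv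
  have hnu_mem : nu ∈ RL 2 :=
    (RL 2).mul_mem ((RL 2).neg_mem (natCast_mem _ _)) (pow_mem hpinv 2)
  have hpa : (p : ℂ) = 4 * (a : ℂ) + 3 := by rw [ha]; push_cast; ring
  have hlm : lam = 1 + 4 * mu := by
    rw [hlam, hmu]
    field_simp
    rw [hpa]; push_cast; ring
  have hmn : mu * (1 + mu) = 2 * nu := by
    have hs' : ((a : ℂ) + 1) * (3 * (a : ℂ) + 2) = 2 * (s : ℂ) := by exact_mod_cast hs
    rw [hmu, hnu]
    field_simp
    rw [hpa]; push_cast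
    linear_combination (-1 : ℂ) * hs'
  clear_value lam mu nu
  have hClam : C lam = 1 + 4 * C mu := by
    rw [hlm, map_add, map_one, map_mul, map_ofNat]
  have hCmn : C mu * (1 + C mu) = 2 * C nu := by
    have := congrArg (C (R := ℂ)) hmn
    rw [map_mul, map_add, map_one, map_mul, map_ofNat] at this
    exact this
  -- the weight 8 form `H`
  have c4 : Cusp2 p 4 E4q (stretch p E4q) := tk.levelOne ModularForm.E₄
  have c6 : Cusp2 p 6 E6q (stretch p E6q) := tk.levelOne ModularForm.E₆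
  have g2 : Cusp2 p (2 + 2) (A * A) (B * B) := tk.mul hc hc
  have g4 : Cusp2 p 8 (A * A * (A * A)) (B * B * (B * B)) := by
    have := tk.mul g2 g2
    rw [show (2 : ℤ) + 2 + (2 + 2) = 8 by norm_num] at this
    exact this
  have t2 : Cusp2 p 8 (C (-6 : ℂ) * (E4q * (A * A)))
      (C (-6 : ℂ) * (stretch p E4q * (B * B))) := by
    have := tk.smul (-6 : ℂ) (tk.mul c4 g2)
    rw [show (4 : ℤ) + (2 + 2) = 8 by norm_num] at this
    exact this
  have t3 : Cusp2 p 8 (C (8 : ℂ) * (E6q * A)) (C (8 : ℂ) * (stretch p E6q * B)) := by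
    have := tk.smul (8 : ℂ) (tk.mul c6 hc)
    rw [show (6 : ℤ) + 2 = 8 by norm_num] at this
    exact this
  have t4 : Cusp2 p 8 (C (-3 : ℂ) * (E4q * E4q))
      (C (-3 : ℂ) * (stretch p E4q * stretch p E4q)) := by
    have := tk.smul (-3 : ℂ) (tk.mul c4 c4)
    rw [show (4 : ℤ) + 4 = 8 by norm_num] at this
    exact this
  have cH := tk.smul ((256 : ℂ)⁻¹) (tk.add (tk.add (tk.add g4 t2) t3) t4)
  set HA : ℂ⟦X⟧ := C ((256 : ℂ)⁻¹) * (A * A * (A * A) + C (-6 : ℂ) * (E4q * (A * A))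
    + C (8 : ℂ) * (E6q * A) + C (-3 : ℂ) * (E4q * E4q)) with hHA
  set HB : ℂ⟦X⟧ := C ((256 : ℂ)⁻¹) * (B * B * (B * B) + C (-6 : ℂ) * (stretch p E4q * (B * B))
    + C (8 : ℂ) * (stretch p E6q * B) + C (-3 : ℂ) * (stretch p E4q * stretch p E4q)) with hHB
  obtain ⟨e, he⟩ := tk.esymm cH (p + 1)
  clear_value HA HB
  -- the conjugates
  set g : ℕ → ℂ⟦X⟧ := fun j => C lam * rescale (zetaP p ^ j) (Up p h) with hg
  let θ : Option (Fin p) → ℂ⟦X⟧ := fun c =>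
    c.elim (stretch p A) (fun j => rescale (zetaP p ^ (j : ℕ)) B)
  let Hc : Option (Fin p) → ℂ⟦X⟧ := fun c =>
    c.elim (stretch p HA) (fun j => rescale (zetaP p ^ (j : ℕ)) HB)
  let ψ : Option (Fin p) → ℂ⟦X⟧ := fun c =>
    c.elim (2 * stretch p h) (fun j => C mu + 2 * g j)
  let W : Option (Fin p) → ℂ⟦X⟧ := fun c =>
    c.elim (stretch p h * (1 + 2 * stretch p h))
      (fun j => C nu + g j * (1 + 2 * C mu) + 2 * g j ^ 2)
  have h2mem : (2 : ℂ⟦X⟧) ∈ PSAlg2.IntPS 2 := ofNat_mem (PSAlg2.IntPS 2) 2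
  have hsh : stretch p h ∈ PSAlg2.IntPS 2 := PSAlg2.stretch_mem_IntPS hh p
  have hgm : ∀ j, g j ∈ PSAlg2.IntPS 2 := fun j =>
    (PSAlg2.IntPS 2).mul_mem (PSAlg2.C_mem_IntPS hlam_mem)
      (PSAlg2.rescale_zetaP_mem_IntPS (PSAlg2.Up_mem_IntPS hh p) p j)
  have hCmu : C mu ∈ PSAlg2.IntPS 2 := PSAlg2.C_mem_IntPS hmu_mem
  have hCnu : C nu ∈ PSAlg2.IntPS 2 := PSAlg2.C_mem_IntPS hnu_mem
  have hψ : ∀ c, TwoCoreH.IsInt (RL 2) (ψ c) := by
    rintro (_ | j)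
    · exact (PSAlg2.IntPS 2).mul_mem h2mem hsh
    · exact (PSAlg2.IntPS 2).add_mem hCmu ((PSAlg2.IntPS 2).mul_mem h2mem (hgm j))
  have hW : ∀ c, TwoCoreH.IsInt (RL 2) (W c) := by
    rintro (_ | j)
    · exact (PSAlg2.IntPS 2).mul_mem hsh
        ((PSAlg2.IntPS 2).add_mem (PSAlg2.IntPS 2).one_mem ((PSAlg2.IntPS 2).mul_mem h2mem hsh))
    · exact (PSAlg2.IntPS 2).add_mem ((PSAlg2.IntPS 2).add_mem hCnu
        ((PSAlg2.IntPS 2).mul_mem (hgm j)
          ((PSAlg2.IntPS 2).add_mem (PSAlg2.IntPS 2).one_mem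
            ((PSAlg2.IntPS 2).mul_mem h2mem hCmu))))
        ((PSAlg2.IntPS 2).mul_mem h2mem (pow_mem (hgm j) 2))
  have hθ : ∀ c, θ c = 1 + 4 * ψ c := by
    rintro (_ | j)
    · show stretch p A = 1 + 4 * (2 * stretch p h)
      rw [hAh, h8', stretch_eq_expand hp0, stretch_eq_expand hp0]
      simp only [map_add, map_one, map_mul, map_ofNat]
      ring
    · show rescale (zetaP p ^ (j : ℕ)) B = 1 + 4 * (C mu + 2 * g j)
      rw [hBA, hAh, Up_one_add_C_mul hp0, hg]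
      simp only [map_mul, map_add, map_one, rescale_C']
      rw [hClam, h8']
      ring
  have hψW : ∀ c, ψ c * (1 + ψ c) = 2 * W c := by
    rintro (_ | j)
    · show 2 * stretch p h * (1 + 2 * stretch p h) = 2 * (stretch p h * (1 + 2 * stretch p h))
      ring
    · show (C mu + 2 * g j) * (1 + (C mu + 2 * g j)) =
        2 * (C nu + g j * (1 + 2 * C mu) + 2 * g j ^ 2)
      linear_combination hCmn
  have h256 : (256 : ℂ⟦X⟧) * C ((256 : ℂ)⁻¹) = 1 := by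
    rw [← map_ofNat (C (R := ℂ)) 256, ← map_mul, mul_inv_cancel₀ (by norm_num), map_one]
  have hH : ∀ c, 256 * Hc c = θ c ^ 4 - 6 * expand p hp0 E4q * θ c ^ 2
      + 8 * expand p hp0 E6q * θ c - 3 * expand p hp0 E4q ^ 2 := by
    rintro (_ | j)
    · show 256 * stretch p HA = stretch p A ^ 4 - 6 * expand p hp0 E4q * stretch p A ^ 2
        + 8 * expand p hp0 E6q * stretch p A - 3 * expand p hp0 E4q ^ 2
      rw [hHA, stretch_eq_expand hp0, stretch_eq_expand hp0]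
      simp only [map_mul, map_add, expand_C, map_neg]
      rw [← mul_assoc, h256, one_mul]
      simp only [map_ofNat]
      ring
    · show 256 * rescale (zetaP p ^ (j : ℕ)) HB = rescale (zetaP p ^ (j : ℕ)) B ^ 4
        - 6 * expand p hp0 E4q * rescale (zetaP p ^ (j : ℕ)) B ^ 2
        + 8 * expand p hp0 E6q * rescale (zetaP p ^ (j : ℕ)) B - 3 * expand p hp0 E4q ^ 2
      rw [hHB]
      simp only [map_mul, map_add, rescale_C', rescale_zeta_stretch hp0]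
      rw [← mul_assoc, h256, one_mul, stretch_eq_expand hp0, stretch_eq_expand hp0]
      simp only [map_neg, map_ofNat]
      ring
  -- the norm
  have hN : expand p hp0 (qExpansion 1 e) = ∏ c, Hc c := by
    rw [← stretch_eq_expand hp0, he]
    have hcard : (conjMS p HA HB).card = p + 1 := by
      simp [conjMS]
    rw [← hcard, esymm_card, Fintype.prod_option]
    show (conjMS p HA HB).prod =
      stretch p HA * ∏ j : Fin p, rescale (zetaP p ^ (j : ℕ)) HB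
    rw [Fin.prod_univ_eq_prod_range (fun j => rescale (zetaP p ^ j) HB) p, conjMS,
      Multiset.prod_cons]
    rfl
  -- level one data
  have hS : TwoCoreH.IsInt (RL 2) (Sq 3) := PSAlg2.Sq_mem_IntPS 2 3
  have hD : TwoCoreH.IsInt (RL 2) Dser := Dser_mem
  have hDq : TwoCoreH.IsInt (RL 2) Dq := PSAlg2.Dq_mem_IntPS 2 l1
  have hE4 : E4q = 1 + 240 * Sq 3 := by rw [l1.E4q_eq, map_ofNat]
  have hE6 : E6q = 1 - 504 * (Sq 3 + 4 * Dser) := by rw [l1.E6q_eq, Sq_five, map_ofNat]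
  have hrel : 1728 * Dq = E4q ^ 3 - E6q ^ 2 := by rw [← l1.Dq_eq, map_ofNat]
  have h2 : (2 : ℂ)⁻¹ ∉ RL 2 := by
    have := PSAlg2.prime_inv_not_mem_RL Nat.prime_two
    simpa using this
  have hint : TwoCoreH.IsInt (RL 2) (qExpansion 1 e) :=
    TwoCoreH.core_int (RL 2) p hp0 (Sq 3) Dser E4q E6q Dq hS hD hDq hE4 hE6 hrel θ ψ W Hc hψ hW
      hθ hψW hH (qExpansion 1 e) hN
  have hcardι : Fintype.card (Option (Fin p)) = p + 1 := by
    rw [Fintype.card_option, Fintype.card_fin]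
  refine TwoCoreH.two_core (RL 2) h2 p hp0 (Sq 3) Dser E4q E6q Dq hS hD hDq hE4 hE6 hrel
    l1.Dq_zero l1.Dq_one θ ψ W Hc hψ hW hθ hψW hH (qExpansion 1 e) hN ?_
  intro hlow
  have key := st 2 (Ideal.span {(2 : RL 2)}) ((8 : ℤ) * ((p + 1 : ℕ) : ℤ)) e
    (fun n => ⟨coeff n (qExpansion 1 e), hint n⟩) (fun n => rfl) ?_
  · intro i
    obtain ⟨y, hy⟩ := Ideal.mem_span_singleton'.mp (key i)
    refine ⟨y, y.2, ?_⟩
    have h1 := congrArg Subtype.val hy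
    have h3 : ((y : ℂ)) * 2 = coeff i (qExpansion 1 e) := h1
    rw [← h3, mul_comm]
  · intro n hn
    have hn' : n < Fintype.card (Option (Fin p)) := by
      rw [hcardι]
      push_cast at hn
      omega
    obtain ⟨y, hy, h⟩ := hlow n hn'
    refine Ideal.mem_span_singleton'.mpr ⟨⟨y, hy⟩, Subtype.ext ?_⟩
    show y * 2 = coeff n (qExpansion 1 e)
    rw [h, mul_comm]

end

end Fermat.Agent.S16.K2cPre
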