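/-
S16 / PSAlg (helper12, package P10, part 1): formal identities for `stretch`, `Up`, `rescale` by
roots of unity and `conjMS` on `ℂ⟦X⟧`, and the two consequences for weight two forms on `Γ₀(p)`
used by the `K`-cases:

* `wt2`    (W2): `B = -p⁻¹ U_p A`, `U_p U_p A = A`, and `(U_p A, -p⁻¹ A)` is again a `Cusp2` pair;
* `trace4` (T2): `A² + p⁻¹ U_p((U_p A)²) = (1 + p⁻¹) E₄`  when `a₀(A) = 1`.
-/
import Fermat.Agent.S16.Defs

set_option autoImplicit false

namespace Fermat.Agent.S16.PSAlg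

open Fermat.Agent.S16 PowerSeries UpperHalfPlane
open scoped MatrixGroups ModularForm

noncomputable section

variable {p : ℕ}

/-! ### `stretch` -/

@[simp] lemma coeff_stretch (p n : ℕ) (A : PowerSeries ℂ) :
    coeff n (stretch p A) = if p ∣ n then coeff (n / p) A else 0 := by
  simp [stretch]

lemma coeff_stretch_mul (hp : 0 < p) (n : ℕ) (A : PowerSeries ℂ) :
    coeff (p * n) (stretch p A) = coeff n A := by
  rw [coeff_stretch, if_pos (dvd_mul_right p n), Nat.mul_div_cancel_left n hp]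

lemma stretch_eq_expand (hp : p ≠ 0) (A : PowerSeries ℂ) :
    stretch p A = PowerSeries.expand p hp A := by
  ext n
  rw [coeff_stretch, PowerSeries.coeff_expand]

/-- `stretch p` as a ring homomorphism (`p ≠ 0`). -/
def stretchHom (p : ℕ) (hp : 0 < p) : PowerSeries ℂ →+* PowerSeries ℂ :=
  (PowerSeries.expand p hp.ne').toRingHom

@[simp] lemma stretchHom_apply (hp : 0 < p) (A : PowerSeries ℂ) :
    stretchHom p hp A = stretch p A :=
  (stretch_eq_expand hp.ne' A).symm

lemma stretch_zero (hp : 0 < p) : stretch p (0 : PowerSeries ℂ) = 0 := by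
  rw [← stretchHom_apply hp, map_zero]

lemma stretch_one (hp : 0 < p) : stretch p (1 : PowerSeries ℂ) = 1 := by
  rw [← stretchHom_apply hp, map_one]

lemma stretch_add (hp : 0 < p) (A B : PowerSeries ℂ) :
    stretch p (A + B) = stretch p A + stretch p B := by
  simp only [← stretchHom_apply hp, map_add]

lemma stretch_sub (hp : 0 < p) (A B : PowerSeries ℂ) :
    stretch p (A - B) = stretch p A - stretch p B := by
  simp only [← stretchHom_apply hp, map_sub]

lemma stretch_neg (hp : 0 < p) (A : PowerSeries ℂ) : stretch p (-A) = -stretch p A := by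
  simp only [← stretchHom_apply hp, map_neg]

lemma stretch_mul (hp : 0 < p) (A B : PowerSeries ℂ) :
    stretch p (A * B) = stretch p A * stretch p B := by
  simp only [← stretchHom_apply hp, map_mul]

lemma stretch_pow (hp : 0 < p) (A : PowerSeries ℂ) (n : ℕ) :
    stretch p (A ^ n) = stretch p A ^ n := by
  simp only [← stretchHom_apply hp, map_pow]

lemma stretch_C (hp : 0 < p) (c : ℂ) : stretch p (C c) = C c := by
  rw [stretch_eq_expand hp.ne', PowerSeries.expand_C]

lemma stretch_C_mul (hp : 0 < p) (c : ℂ) (A : PowerSeries ℂ) :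
    stretch p (C c * A) = C c * stretch p A := by
  rw [stretch_mul hp, stretch_C hp]

lemma stretch_X (hp : 0 < p) : stretch p (X : PowerSeries ℂ) = X ^ p := by
  rw [stretch_eq_expand hp.ne', PowerSeries.expand_X]

lemma stretch_sum (hp : 0 < p) {ι : Type*} (s : Finset ι) (f : ι → PowerSeries ℂ) :
    stretch p (∑ i ∈ s, f i) = ∑ i ∈ s, stretch p (f i) := by
  simp only [← stretchHom_apply hp, map_sum]

lemma stretch_prod (hp : 0 < p) {ι : Type*} (s : Finset ι) (f : ι → PowerSeries ℂ) :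
    stretch p (∏ i ∈ s, f i) = ∏ i ∈ s, stretch p (f i) := by
  simp only [← stretchHom_apply hp, map_prod]

lemma stretch_injective (hp : 0 < p) : Function.Injective (stretch p) := by
  intro A B h
  ext n
  rw [← coeff_stretch_mul hp n A, ← coeff_stretch_mul hp n B, h]

lemma stretch_inj (hp : 0 < p) {A B : PowerSeries ℂ} : stretch p A = stretch p B ↔ A = B :=
  (stretch_injective hp).eq_iff

lemma stretch_eq_zero (hp : 0 < p) {A : PowerSeries ℂ} : stretch p A = 0 ↔ A = 0 :=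
  ⟨fun h => stretch_injective hp (h.trans (stretch_zero hp).symm),
    fun h => by rw [h, stretch_zero hp]⟩

/-! ### `Up` -/

@[simp] lemma coeff_Up (p n : ℕ) (A : PowerSeries ℂ) : coeff n (Up p A) = coeff (p * n) A := by
  simp [Up]

lemma coeff_zero_Up (p : ℕ) (A : PowerSeries ℂ) : coeff 0 (Up p A) = coeff 0 A := by
  simp

lemma Up_zero (p : ℕ) : Up p (0 : PowerSeries ℂ) = 0 := by
  ext n; simp

lemma Up_add (p : ℕ) (A B : PowerSeries ℂ) : Up p (A + B) = Up p A + Up p B := by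
  ext n; simp

lemma Up_sub (p : ℕ) (A B : PowerSeries ℂ) : Up p (A - B) = Up p A - Up p B := by
  ext n; simp

lemma Up_neg (p : ℕ) (A : PowerSeries ℂ) : Up p (-A) = -Up p A := by
  ext n; simp

lemma Up_C_mul (p : ℕ) (c : ℂ) (A : PowerSeries ℂ) : Up p (C c * A) = C c * Up p A := by
  ext n; simp

lemma Up_C (hp : 0 < p) (c : ℂ) : Up p (C c) = C c := by
  ext n
  rw [coeff_Up, coeff_C, coeff_C]
  simp [hp.ne']

lemma Up_one (hp : 0 < p) : Up p (1 : PowerSeries ℂ) = 1 := by
  rw [← map_one (C (R := ℂ)), Up_C hp]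

lemma Up_sum (p : ℕ) {ι : Type*} (s : Finset ι) (f : ι → PowerSeries ℂ) :
    Up p (∑ i ∈ s, f i) = ∑ i ∈ s, Up p (f i) := by
  ext n; simp

/-- `U_p (A(x^p) B) = A U_p(B)`. -/
lemma Up_stretch_mul (hp : 0 < p) (A B : PowerSeries ℂ) :
    Up p (stretch p A * B) = A * Up p B := by
  classical
  ext n
  rw [coeff_Up, coeff_mul, coeff_mul]
  have hinj : Function.Injective (fun x : ℕ × ℕ => (p * x.1, p * x.2)) := by
    intro x y h
    simp only [Prod.mk.injEq] at h
    exact Prod.ext (Nat.eq_of_mul_eq_mul_left hp h.1) (Nat.eq_of_mul_eq_mul_left hp h.2)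
  rw [← Finset.sum_subset
    (s₁ := (Finset.HasAntidiagonal.antidiagonal n).image
      (fun x : ℕ × ℕ => (p * x.1, p * x.2)))]
  · rw [Finset.sum_image (fun x _ y _ h => hinj h)]
    refine Finset.sum_congr rfl fun x _ => ?_
    rw [coeff_stretch_mul hp, coeff_Up]
  · intro x hx
    obtain ⟨y, hy, rfl⟩ := Finset.mem_image.1 hx
    rw [Finset.HasAntidiagonal.mem_antidiagonal] at hy ⊢
    rw [← mul_add, hy]
  · intro x hx hnot
    rw [coeff_stretch]
    split_ifs with hd
    · exfalso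
      apply hnot
      obtain ⟨a, ha⟩ := hd
      have hx' : x.1 + x.2 = p * n := Finset.HasAntidiagonal.mem_antidiagonal.1 hx
      have hle : a ≤ n := by
        have : p * a ≤ p * n := by rw [← ha, ← hx']; exact Nat.le_add_right _ _
        exact Nat.le_of_mul_le_mul_left this hp
      refine Finset.mem_image.2 ⟨(a, n - a), ?_, ?_⟩
      · rw [Finset.HasAntidiagonal.mem_antidiagonal]; omega
      · apply Prod.ext
        · exact ha.symm
        · show p * (n - a) = x.2
          rw [Nat.mul_sub]; omega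
    · rw [zero_mul]

lemma Up_mul_stretch (hp : 0 < p) (A B : PowerSeries ℂ) :
    Up p (B * stretch p A) = Up p B * A := by
  rw [mul_comm, Up_stretch_mul hp, mul_comm]

lemma Up_stretch (hp : 0 < p) (A : PowerSeries ℂ) : Up p (stretch p A) = A := by
  ext n
  rw [coeff_Up, coeff_stretch_mul hp]

/-! ### `zetaP` and `rescale` -/

lemma zetaP_isPrimitiveRoot (hp : 0 < p) : IsPrimitiveRoot (zetaP p) p :=
  Complex.isPrimitiveRoot_exp p hp.ne'

lemma zetaP_pow_self (hp : 0 < p) : zetaP p ^ p = 1 :=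
  (zetaP_isPrimitiveRoot hp).pow_eq_one

lemma zetaP_ne_zero (p : ℕ) : zetaP p ≠ 0 := Complex.exp_ne_zero _

/-- A series in `x^p` is invariant under `x ↦ ζ^j x`. -/
lemma rescale_zetaP_stretch (hp : 0 < p) (j : ℕ) (A : PowerSeries ℂ) :
    rescale (zetaP p ^ j) (stretch p A) = stretch p A := by
  ext n
  rw [coeff_rescale, coeff_stretch]
  split_ifs with h
  · obtain ⟨m, rfl⟩ := h
    rw [← pow_mul, mul_comm j, mul_assoc, pow_mul, zetaP_pow_self hp, one_pow, one_mul]
  · rw [mul_zero]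

/-- `∑_{j<p} B(ζ^j x) = p (U_p B)(x^p)`. -/
lemma sum_rescale_zetaP (hp : 0 < p) (B : PowerSeries ℂ) :
    ∑ j ∈ Finset.range p, rescale (zetaP p ^ j) B = C (p : ℂ) * stretch p (Up p B) := by
  ext n
  rw [map_sum, coeff_C_mul, coeff_stretch]
  simp_rw [coeff_rescale]
  rw [← Finset.sum_mul]
  have hz := zetaP_isPrimitiveRoot hp
  split_ifs with h
  · obtain ⟨m, rfl⟩ := h
    have h1 : ∀ j ∈ Finset.range p, (zetaP p ^ j) ^ (p * m) = 1 := by
      intro j _
      rw [← pow_mul, mul_comm j, mul_assoc, pow_mul, zetaP_pow_self hp, one_pow]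
    rw [Finset.sum_congr rfl h1, Finset.sum_const, Finset.card_range, nsmul_eq_mul, mul_one,
      coeff_Up, Nat.mul_div_cancel_left m hp]
  · have h1 : ∑ j ∈ Finset.range p, (zetaP p ^ j) ^ n = 0 := by
      have hne : zetaP p ^ n ≠ 1 := fun h1 => h ((hz.pow_eq_one_iff_dvd n).1 h1)
      have h2 : ∑ j ∈ Finset.range p, (zetaP p ^ j) ^ n = ∑ j ∈ Finset.range p, (zetaP p ^ n) ^ j :=
        Finset.sum_congr rfl fun j _ => by rw [← pow_mul, ← pow_mul, mul_comm]
      rw [h2]
      have h3 := geom_sum_mul (zetaP p ^ n) p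
      rw [← pow_mul, mul_comm n, pow_mul, zetaP_pow_self hp, one_pow, sub_self] at h3
      exact (mul_eq_zero.1 h3).resolve_right (sub_ne_zero.2 hne)
    rw [h1, zero_mul, mul_zero]

/-! ### `conjMS` -/

lemma card_conjMS (p : ℕ) (A B : PowerSeries ℂ) : Multiset.card (conjMS p A B) = p + 1 := by
  simp [conjMS]

lemma conjMS_sum (hp : 0 < p) (A B : PowerSeries ℂ) :
    (conjMS p A B).sum = stretch p (A + C (p : ℂ) * Up p B) := by
  rw [conjMS, Multiset.sum_cons, stretch_add hp, stretch_C_mul hp, ← sum_rescale_zetaP hp]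
  rfl

/-- `e₁` of a multiset is its sum. -/
lemma esymm_one_eq_sum (s : Multiset (PowerSeries ℂ)) : s.esymm 1 = s.sum := by
  simp [Multiset.esymm, Multiset.powersetCard_one, Multiset.map_map]

/-- The trace: `e₁` of the conjugates is `(A + p U_p B)(x^p)`. -/
lemma conjMS_esymm_one (hp : 0 < p) (A B : PowerSeries ℂ) :
    (conjMS p A B).esymm 1 = stretch p (A + C (p : ℂ) * Up p B) := by
  rw [esymm_one_eq_sum, conjMS_sum hp]

lemma conjMS_prod (p : ℕ) (A B : PowerSeries ℂ) :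
    (conjMS p A B).prod = stretch p A * ∏ j ∈ Finset.range p, rescale (zetaP p ^ j) B := by
  rw [conjMS, Multiset.prod_cons]
  rfl

/-- The norm: `e_{p+1}` of the conjugates is their product. -/
lemma conjMS_esymm_card (p : ℕ) (A B : PowerSeries ℂ) :
    (conjMS p A B).esymm (p + 1) = (conjMS p A B).prod := by
  rw [← card_conjMS p A B, Multiset.esymm, Multiset.powersetCard_self]
  simp

lemma conjMS_esymm_zero (p : ℕ) (A B : PowerSeries ℂ) : (conjMS p A B).esymm 0 = 1 := by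
  simp [Multiset.esymm]

/-- Conjugates of a pair whose second component is a series in `x^p`. -/
lemma conjMS_stretch' (hp : 0 < p) (A B : PowerSeries ℂ) :
    conjMS p A (stretch p B) = stretch p A ::ₘ Multiset.replicate p (stretch p B) := by
  rw [conjMS]
  congr 1
  have : (fun j => rescale (zetaP p ^ j) (stretch p B)) = fun _ : ℕ => stretch p B :=
    funext fun j => rescale_zetaP_stretch hp j B
  rw [this, Multiset.map_const', Multiset.card_range]

/-- Conjugates of a level one pair `(A, A(x^p))`: all equal to `A(x^p)`. -/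
lemma conjMS_stretch (hp : 0 < p) (A : PowerSeries ℂ) :
    conjMS p A (stretch p A) = Multiset.replicate (p + 1) (stretch p A) := by
  rw [conjMS_stretch' hp, Multiset.replicate_succ]

lemma conjMS_prod_stretch (hp : 0 < p) (A B : PowerSeries ℂ) :
    (conjMS p A (stretch p B)).prod = stretch p (A * B ^ p) := by
  rw [conjMS_stretch' hp, Multiset.prod_cons, Multiset.prod_replicate, stretch_mul hp,
    stretch_pow hp]

/-! ### Weight two forms on `Γ₀(p)`: (W2) and (T2) -/

/-- General trace identity: for a pair `(A, B)` of weight `k`, `A + p U_p B` is the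
`q`-expansion of a level one form of weight `k`. -/
theorem trace_isL1 (p : ℕ) [Fact p.Prime] (tk : Toolkit p) {k : ℤ} {A B : PowerSeries ℂ}
    (h : Cusp2 p k A B) : IsL1 k (A + C (p : ℂ) * Up p B) := by
  have hp : 0 < p := (Fact.out : p.Prime).pos
  obtain ⟨e, he⟩ := tk.esymm h 1
  rw [conjMS_esymm_one hp, stretch_inj hp] at he
  refine ⟨ModularForm.mcast (by simp) e, ?_⟩
  rw [← he]
  rfl

/-- General norm: for a pair `(A, B)` of weight `k` there is a level one form `N` of weight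
`k (p+1)` with `N(x^p) = A(x^p) ∏_{j<p} B(ζ^j x)`. -/
theorem norm_exists (p : ℕ) [Fact p.Prime] (tk : Toolkit p) {k : ℤ} {A B : PowerSeries ℂ}
    (h : Cusp2 p k A B) :
    ∃ N : ModularForm 𝒮ℒ (k * ((p + 1 : ℕ) : ℤ)), stretch p (qExpansion 1 N) =
      stretch p A * ∏ j ∈ Finset.range p, rescale (zetaP p ^ j) B := by
  obtain ⟨e, he⟩ := tk.esymm h (p + 1)
  exact ⟨e, by rw [he, conjMS_esymm_card, conjMS_prod]⟩

/-- For a weight two pair: `A + p U_p B = 0`. -/
lemma trace_wt2 (p : ℕ) [Fact p.Prime] (tk : Toolkit p) (l1 : L1Facts) {A B : PowerSeries ℂ}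
    (h : Cusp2 p 2 A B) : A + C (p : ℂ) * Up p B = 0 := by
  obtain ⟨F, hF⟩ := trace_isL1 p tk h
  rw [← hF, l1.wt2 F]
  exact qExpansion_zero 1

/-- **(W2)** For a weight two pair `(A, B)`: `B = -p⁻¹ U_p A`, `U_p U_p A = A`, and
`(U_p A, -p⁻¹ A)` is again a weight two pair. -/
theorem wt2 (p : ℕ) [Fact p.Prime] (tk : Toolkit p) (l1 : L1Facts) {A B : PowerSeries ℂ}
    (h : Cusp2 p 2 A B) :
    B = C (-(p : ℂ)⁻¹) * Up p A ∧ Up p (Up p A) = A ∧
      Cusp2 p 2 (Up p A) (C (-(p : ℂ)⁻¹) * A) := by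
  have hp : 0 < p := (Fact.out : p.Prime).pos
  have hp0 : (p : ℂ) ≠ 0 := Nat.cast_ne_zero.2 hp.ne'
  have hCC : C ((p : ℂ)⁻¹) * C (p : ℂ) = (1 : PowerSeries ℂ) := by
    rw [← map_mul, inv_mul_cancel₀ hp0, map_one]
  -- trace of `(A, B)`
  have h1 : A + C (p : ℂ) * Up p B = 0 := trace_wt2 p tk l1 h
  -- trace of the swapped pair
  have hs := tk.swap h
  have h2raw : C (p : ℂ) * B + C (p : ℂ) * Up p (C (p : ℂ)⁻¹ * A) = 0 := trace_wt2 p tk l1 hs
  have hCC' : C (p : ℂ) * C ((p : ℂ)⁻¹) = (1 : PowerSeries ℂ) := by rw [mul_comm, hCC]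
  have h2 : C (p : ℂ) * B + Up p A = 0 := by
    rw [Up_C_mul, ← mul_assoc, hCC', one_mul] at h2raw
    exact h2raw
  have hB : B = C (-(p : ℂ)⁻¹) * Up p A := by
    have : B = C ((p : ℂ)⁻¹) * (C (p : ℂ) * B) := by rw [← mul_assoc, hCC, one_mul]
    rw [this, eq_neg_of_add_eq_zero_left h2, map_neg]
    ring
  have hUA : Up p A = -(C (p : ℂ) * B) := eq_neg_of_add_eq_zero_right h2
  refine ⟨hB, ?_, ?_⟩
  · rw [hUA, Up_neg, Up_C_mul]
    exact (eq_neg_of_add_eq_zero_left h1).symm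
  · have h3 := tk.smul (-1) hs
    have e1 : C (-1 : ℂ) * (C (p : ℂ) * B) = Up p A := by
      rw [hUA, map_neg, map_one]; ring
    have e2 : C (-1 : ℂ) * (C (p : ℂ)⁻¹ * A) = C (-(p : ℂ)⁻¹) * A := by
      rw [← mul_assoc, ← map_mul]; congr 2; ring
    rw [e1, e2] at h3
    exact h3

/-- **(T2)** The weight four trace identity: `A² + p⁻¹ U_p((U_p A)²) = (1 + p⁻¹) E₄` for a
weight two pair `(A, B)` with `a₀(A) = 1`. -/
theorem trace4 (p : ℕ) [Fact p.Prime] (tk : Toolkit p) (l1 : L1Facts) {A B : PowerSeries ℂ}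
    (h : Cusp2 p 2 A B) (h0 : coeff 0 A = 1) :
    A ^ 2 + C ((p : ℂ)⁻¹) * Up p ((Up p A) ^ 2) = C (1 + (p : ℂ)⁻¹) * E4q := by
  have hp : 0 < p := (Fact.out : p.Prime).pos
  have hp0 : (p : ℂ) ≠ 0 := Nat.cast_ne_zero.2 hp.ne'
  obtain ⟨hB, -, -⟩ := wt2 p tk l1 h
  obtain ⟨F, hF⟩ := trace_isL1 p tk (tk.mul h h)
  have hF' := l1.wt4 (ModularForm.mcast (by norm_num : (2 : ℤ) + 2 = 4) F)
  have hq : qExpansion 1 (ModularForm.mcast (by norm_num : (2 : ℤ) + 2 = 4) F) =
      qExpansion 1 F := rfl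
  rw [hq, hF] at hF'
  have hBB : C (p : ℂ) * Up p (B * B) = C ((p : ℂ)⁻¹) * Up p ((Up p A) ^ 2) := by
    rw [hB]
    have : C (-(p : ℂ)⁻¹) * Up p A * (C (-(p : ℂ)⁻¹) * Up p A) =
        C ((p : ℂ)⁻¹ * (p : ℂ)⁻¹) * (Up p A) ^ 2 := by
      rw [map_mul, map_neg]; ring
    rw [this, Up_C_mul, ← mul_assoc, ← map_mul]
    congr 2
    field_simp
  have hAA : A * A + C (p : ℂ) * Up p (B * B) =
      A ^ 2 + C ((p : ℂ)⁻¹) * Up p ((Up p A) ^ 2) := by
    rw [hBB]; ring
  rw [hAA] at hF'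
  rw [hF']
  congr 2
  have hc : ∀ Z : PowerSeries ℂ, coeff 0 (Z ^ 2) = (coeff 0 Z) ^ 2 := fun Z => by
    rw [coeff_zero_eq_constantCoeff_apply, map_pow, ← coeff_zero_eq_constantCoeff_apply]
  rw [map_add, coeff_C_mul, coeff_zero_Up, hc, hc, coeff_zero_Up, h0]
  ring

end

end Fermat.Agent.S16.PSAlg
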