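/-
S16 / K2c (helper5): for a prime `p ≡ 7 mod 8` (more generally `p ≡ 3 mod 4`) there is no
`G ∈ M₂(Γ₀(p))` whose q-expansion is 2-integrally `≡ 1 mod 8`.

`K2cPre.kstmt` (one norm of the weight 8 form `(G⁴ - 6 E₄ G² + 8 E₆ G - 3 E₄²)/256` + Sturm bound)
fed with (W2) of PSAlg.
-/
import Fermat.Agent.S16.K2cPre
import Fermat.Agent.S16.PSAlg

set_option autoImplicit false

namespace Fermat.Agent.S16.K2c

open Fermat.Agent.S16

/-- No weight two form of level `p ≡ 3 mod 4` is `≡ 1 mod 8`. -/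
theorem main34 (p : ℕ) [Fact p.Prime] (hp : p % 4 = 3) (tk : Toolkit p) (l1 : L1Facts)
    (st : SturmStmt) : Kstmt p 2 3 :=
  K2cPre.kstmt p hp tk l1 st fun h => (PSAlg.wt2 p tk l1 h).1

/-- **K2c.** No weight two form of level `p ≡ 7 mod 8` is `≡ 1 mod 8`. -/
theorem main (p : ℕ) [Fact p.Prime] (hp : p % 8 = 7) (tk : Toolkit p) (l1 : L1Facts)
    (st : SturmStmt) : Kstmt p 2 3 :=
  main34 p (by omega) tk l1 st

end Fermat.Agent.S16.K2c
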