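/-
S16 project, package K3a (core): `ℓ = 3`, `p ≡ 1 mod 3`, `s = 1`.
There is no `G ∈ M₂(Γ₀(p))` with `3`-integral `q`-expansion `≡ 1 mod 3`.

Core (pure power series): from the weight four trace identity for `A` and for `U_p A`
one gets `80 (p + 1) p³ ∈ 3 RL`, which is absurd for `p ≡ 1 mod 3`.
-/
import Fermat.Agent.S16.Defs

set_option autoImplicit false

namespace Fermat.Agent.S16.K3a

open PowerSeries

/-- Power series all of whose coefficients are `3`-integral algebraic numbers. -/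
def IntP (X : PowerSeries ℂ) : Prop := ∀ n, coeff n X ∈ RL 3

theorem IntP.mul {X Y : PowerSeries ℂ} (hX : IntP X) (hY : IntP Y) : IntP (X * Y) := by
  intro n
  rw [coeff_mul]
  exact Subring.sum_mem _ fun x _ => Subring.mul_mem _ (hX _) (hY _)

/-- `3` is not a unit of `RL 3`. -/
theorem three_mul_ne_one {y : ℂ} (hy : y ∈ RL 3) : (3 : ℂ) * y ≠ 1 := by
  intro h
  obtain ⟨b, hb, hint⟩ := hy
  have hy' : y = 1 / 3 := by
    field_simp
    linear_combination h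
  have h1 : IsIntegral ℤ (algebraMap ℚ ℂ ((b : ℚ) / 3)) := by
    have : algebraMap ℚ ℂ ((b : ℚ) / 3) = (b : ℂ) * y := by
      rw [hy']; simp; ring
    rw [this]; exact hint
  have h2 : IsIntegral ℤ ((b : ℚ) / 3) :=
    (isIntegral_algebraMap_iff (algebraMap ℚ ℂ).injective).mp h1
  obtain ⟨z, hz⟩ := IsIntegrallyClosed.isIntegral_iff.mp h2
  have h3 : (b : ℚ) = 3 * (z : ℚ) := by
    have : ((z : ℤ) : ℚ) = (b : ℚ) / 3 := by simpa using hz
    rw [this]; ring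
  have h4 : (b : ℤ) = 3 * z := by exact_mod_cast h3
  have h5 : (3 : ℤ) ∣ (b : ℤ) := ⟨z, h4⟩
  have h6 : 3 ∣ b := by exact_mod_cast h5
  have h7 : Nat.gcd b 3 = 3 := Nat.gcd_eq_right h6
  rw [Nat.Coprime] at hb
  omega

/-- The square of a series `≡ 1 mod 3` is `≡ 1 + 2 (X - 1) mod 9`. -/
theorem sq_coeff {X : PowerSeries ℂ} (h0 : coeff 0 X = 1)
    (hX : ∀ m, 1 ≤ m → ∃ y ∈ RL 3, coeff m X = 3 * y) {n : ℕ} (hn : 1 ≤ n) :
    ∃ r ∈ RL 3, coeff n (X ^ 2) = 2 * coeff n X + 9 * r := by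
  set H : PowerSeries ℂ := PowerSeries.mk fun m => if m = 0 then 0 else coeff m X / 3 with hH
  have hXH : X = 1 + C (3 : ℂ) * H := by
    ext m
    rw [map_add, coeff_C_mul, coeff_one, hH, coeff_mk]
    by_cases hm : m = 0
    · subst hm; simp [h0]
    · simp only [hm, if_false]; ring
  have hHint : IntP H := by
    intro m
    rw [hH, coeff_mk]
    by_cases hm : m = 0
    · simp only [hm, if_true]; exact Subring.zero_mem _
    · obtain ⟨y, hy, e⟩ := hX m (Nat.one_le_iff_ne_zero.mpr hm)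
      simp only [hm, if_false]
      rw [e]
      have : (3 : ℂ) * y / 3 = y := by ring
      rw [this]; exact hy
  have h3 : (C (3 : ℂ) : PowerSeries ℂ) = 3 := map_ofNat C 3
  have h6 : (C (6 : ℂ) : PowerSeries ℂ) = 6 := map_ofNat C 6
  have h9 : (C (9 : ℂ) : PowerSeries ℂ) = 9 := map_ofNat C 9
  have hsq : X ^ 2 = 1 + C (6 : ℂ) * H + C (9 : ℂ) * (H * H) := by
    rw [hXH, h3, h6, h9]; ring
  refine ⟨coeff n (H * H), hHint.mul hHint n, ?_⟩
  have hn0 : n ≠ 0 := by omega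
  have hHn : coeff n H = coeff n X / 3 := by rw [hH, coeff_mk]; simp [hn0]
  rw [hsq, map_add, map_add, coeff_C_mul, coeff_C_mul, coeff_one, if_neg hn0, hHn]
  ring

theorem coeff_Up (p n : ℕ) (X : PowerSeries ℂ) : coeff n (Up p X) = coeff (p * n) X := by
  rw [Up, coeff_mk]

/-- Pure power series core of K3a. -/
theorem core (p : ℕ) (hp : p.Prime) (hp3 : p % 3 = 1) (A E : PowerSeries ℂ)
    (hA : OneMod 3 1 (fun m => coeff m A))
    (hE : ∀ n, 1 ≤ n → coeff n E = 240 * (ArithmeticFunction.sigma 3 n : ℂ))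
    (hUU : Up p (Up p A) = A)
    (h1 : A ^ 2 + C ((p : ℂ)⁻¹) * Up p ((Up p A) ^ 2) = C (1 + (p : ℂ)⁻¹) * E)
    (h2 : (Up p A) ^ 2 + C ((p : ℂ)⁻¹) * Up p (A ^ 2) = C (1 + (p : ℂ)⁻¹) * E) : False := by
  have hp1 : 1 ≤ p := hp.one_le
  have hp0 : (p : ℂ) ≠ 0 := by exact_mod_cast hp.ne_zero
  have a0 : coeff 0 A = 1 := hA.1
  have aM : ∀ m, 1 ≤ m → ∃ y ∈ RL 3, coeff m A = 3 * y := by
    intro m hm
    obtain ⟨y, hy, e⟩ := hA.2 m hm
    refine ⟨y, hy, ?_⟩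
    have e' : coeff m A = ((3 : ℕ) : ℂ) ^ 1 * y := e
    rw [e']; norm_num
  have u0 : coeff 0 (Up p A) = 1 := by rw [coeff_Up, mul_zero, a0]
  have uM : ∀ m, 1 ≤ m → ∃ y ∈ RL 3, coeff m (Up p A) = 3 * y := by
    intro m hm
    rw [coeff_Up]
    exact aM _ (Nat.one_le_iff_ne_zero.mpr (Nat.mul_ne_zero hp.ne_zero (by omega)))
  have hUU' : coeff (p * (p * p)) A = coeff p A := by
    have := congrArg (coeff p) hUU
    rwa [coeff_Up, coeff_Up] at this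
  -- squares
  obtain ⟨r1, hr1, e1⟩ := sq_coeff a0 aM (n := p) hp1
  obtain ⟨r2, hr2, e2⟩ := sq_coeff u0 uM (n := p * p) (Nat.one_le_iff_ne_zero.mpr
    (Nat.mul_ne_zero hp.ne_zero hp.ne_zero))
  obtain ⟨r3, hr3, e3⟩ := sq_coeff u0 uM (n := 1) le_rfl
  rw [coeff_Up, hUU'] at e2
  rw [coeff_Up, mul_one] at e3
  -- the two identities at the coefficients `p` and `1`
  have E1 := congrArg (coeff p) h1
  rw [map_add, coeff_C_mul, coeff_C_mul, coeff_Up, e1, e2, hE p hp1] at E1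
  have E2 := congrArg (coeff 1) h2
  rw [map_add, coeff_C_mul, coeff_C_mul, coeff_Up, mul_one, e1, e3, hE 1 le_rfl] at E2
  have hs1 : (ArithmeticFunction.sigma 3 1 : ℂ) = 1 := by
    rw [ArithmeticFunction.sigma_one]; simp
  have hsp : (ArithmeticFunction.sigma 3 p : ℂ) = 1 + (p : ℂ) ^ 3 := by
    have := ArithmeticFunction.sigma_apply_prime_pow (k := 3) (i := 1) hp
    rw [pow_one] at this
    rw [this]
    simp [Finset.sum_range_succ]
  rw [hsp] at E1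
  rw [hs1] at E2
  have hPQ : (p : ℂ) * (p : ℂ)⁻¹ = 1 := mul_inv_cancel₀ hp0
  have step1 : 9 * ((p : ℂ) * (r1 - r3) + (r2 - r1)) = 240 * ((p : ℂ) + 1) * (p : ℂ) ^ 3 := by
    linear_combination (p : ℂ) * E1 - (p : ℂ) * E2 - (9 * (r2 - r1) - 240 * (p : ℂ) ^ 3) * hPQ
  obtain ⟨t, ht⟩ : ∃ t : ℕ, p = 3 * t + 1 := ⟨p / 3, by omega⟩
  have hP : (p : ℂ) = 3 * (t : ℂ) + 1 := by rw [ht]; push_cast; ring
  set M : ℂ := 2160 * (t : ℂ) ^ 4 + 3600 * (t : ℂ) ^ 3 + 2160 * (t : ℂ) ^ 2 + 560 * (t : ℂ) + 53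
    with hM
  have hMmem : M ∈ RL 3 := by
    have : M = ((2160 * t ^ 4 + 3600 * t ^ 3 + 2160 * t ^ 2 + 560 * t + 53 : ℕ) : ℂ) := by
      rw [hM]; push_cast; ring
    rw [this]; exact natCast_mem _ _
  have hM' : 80 * ((p : ℂ) + 1) * (p : ℂ) ^ 3 = 3 * M + 1 := by rw [hP, hM]; ring
  have hpmem : (p : ℂ) ∈ RL 3 := natCast_mem _ _
  refine three_mul_ne_one (y := (p : ℂ) * (r1 - r3) + (r2 - r1) - M) ?_ ?_
  · exact Subring.sub_mem _ (Subring.add_mem _ (Subring.mul_mem _ hpmem (Subring.sub_mem _ hr1 hr3))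
      (Subring.sub_mem _ hr2 hr1)) hMmem
  · linear_combination (1 / 3 : ℂ) * step1 + hM'

open UpperHalfPlane CongruenceSubgroup in
open scoped MatrixGroups ModularForm in
/-- K3a from the two consequences (W2), (T2) of the toolkit (PSAlg-1). -/
theorem main_of (p : ℕ) [hpF : Fact p.Prime] (hp3 : p % 3 = 1) (l1 : L1Facts)
    (W2 : ∀ {A B : PowerSeries ℂ}, Cusp2 p 2 A B →
      B = C (-(p : ℂ)⁻¹) * Up p A ∧ Up p (Up p A) = A ∧
        Cusp2 p 2 (Up p A) (C (-(p : ℂ)⁻¹) * A))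
    (T2 : ∀ {A B : PowerSeries ℂ}, Cusp2 p 2 A B → coeff 0 A = 1 →
      A ^ 2 + C ((p : ℂ)⁻¹) * Up p ((Up p A) ^ 2) = C (1 + (p : ℂ)⁻¹) * E4q) :
    Kstmt p 3 1 := by
  rintro ⟨G, hG⟩
  have hp := hpF.out
  have hc : Cusp2 p 2 (qExpansion 1 G)
      (qExpansion (p : ℝ) (⇑G ∣[(2 : ℤ)] ModularGroup.S)) := ⟨G, rfl, rfl⟩
  obtain ⟨-, hUU, hc'⟩ := W2 hc
  have a0 : coeff 0 (qExpansion 1 G) = 1 := hG.1
  have u0 : coeff 0 (Up p (qExpansion 1 G)) = 1 := by rw [coeff_Up, mul_zero, a0]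
  have h1 := T2 hc a0
  have h2 := T2 hc' u0
  rw [hUU] at h2
  refine core p hp hp3 (qExpansion 1 G) E4q hG ?_ hUU h1 h2
  intro n hn
  have hn0 : n ≠ 0 := by omega
  rw [l1.E4q_eq, map_add, coeff_C_mul, coeff_one, if_neg hn0, Sq, coeff_mk, zero_add]

end Fermat.Agent.S16.K3a
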