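/-
S16 project, package K5a: for a prime `ℓ ≥ 5` dividing `p + 1` no `G ∈ M₂(Γ₀(p))` is `≡ 1 mod ℓ`.

Self-contained (consumes only the interfaces `Toolkit p`, `L1Facts`, `SDConstStmt` of `Defs.lean`).
Sketch: `B = -p⁻¹ U_p A` (weight two level one forms vanish), `-p⁻¹ ≡ 1 mod ℓ`, so all `p + 1`
conjugates are `≡ 1 mod ℓ`; their `ℓ^a`-th elementary symmetric function (`ℓ^a ∥ p + 1`) is a level
one form of weight `2 ℓ^a` which is `≡ choose (p+1) (ℓ^a) mod ℓ`, a constant prime to `ℓ` (Lucas).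
-/
import Mathlib
import Fermat.Agent.S16.Defs

set_option autoImplicit false

namespace Fermat.Agent.S16.K5a

open UpperHalfPlane CongruenceSubgroup ModularCurve CuspForm
open scoped MatrixGroups ModularForm

noncomputable section

/-! ### Lucas -/

theorem not_dvd_choose (ℓ : ℕ) (hℓ : ℓ.Prime) (m : ℕ) (hm : ¬ ℓ ∣ m) :
    ∀ a : ℕ, ¬ ℓ ∣ Nat.choose (ℓ ^ a * m) (ℓ ^ a) := by
  have : Fact ℓ.Prime := ⟨hℓ⟩
  intro a
  induction a with
  | zero => simpa using hm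
  | succ a ih =>
    have h := Choose.choose_modEq_choose_mod_mul_choose_div_nat (p := ℓ)
      (n := ℓ ^ (a + 1) * m) (k := ℓ ^ (a + 1))
    have e1 : ℓ ^ (a + 1) * m % ℓ = 0 := by
      rw [pow_succ]; exact Nat.mod_eq_zero_of_dvd ⟨ℓ ^ a * m, by ring⟩
    have e2 : ℓ ^ (a + 1) % ℓ = 0 := by
      rw [pow_succ]; exact Nat.mod_eq_zero_of_dvd ⟨ℓ ^ a, by ring⟩
    have e3 : ℓ ^ (a + 1) * m / ℓ = ℓ ^ a * m := by
      rw [pow_succ]
      exact Nat.div_eq_of_eq_mul_left hℓ.pos (by ring)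
    have e4 : ℓ ^ (a + 1) / ℓ = ℓ ^ a := by
      rw [pow_succ]
      exact Nat.div_eq_of_eq_mul_left hℓ.pos (by ring)
    rw [e1, e2, e3, e4, Nat.choose_self, one_mul] at h
    intro hd
    exact ih ((Nat.modEq_zero_iff_dvd.mp (h.symm.trans (Nat.modEq_zero_iff_dvd.mpr hd))))

/-! ### `ℓ` is not a unit of `RL ℓ` -/

theorem natCast_mem_RL (ℓ : ℕ) (n : ℕ) : (n : ℂ) ∈ RL ℓ := natCast_mem _ n

theorem intCast_mem_RL (ℓ : ℕ) (n : ℤ) : (n : ℂ) ∈ RL ℓ := intCast_mem _ n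

theorem inv_mem_RL (ℓ : ℕ) (b : ℕ) (hb : b.Coprime ℓ) (hb0 : b ≠ 0) : ((b : ℂ))⁻¹ ∈ RL ℓ := by
  refine ⟨b, hb, ?_⟩
  have : (b : ℂ) * ((b : ℂ))⁻¹ = 1 := mul_inv_cancel₀ (by exact_mod_cast hb0)
  rw [this]; exact isIntegral_one

theorem ell_mul_ne_one (ℓ : ℕ) (hℓ : ℓ.Prime) (y : ℂ) (hy : y ∈ RL ℓ) : (ℓ : ℂ) * y ≠ 1 := by
  intro h
  obtain ⟨b, hb, hint⟩ := hy
  have hℓ0 : (ℓ : ℂ) ≠ 0 := by exact_mod_cast hℓ.ne_zero
  have hy' : y = (ℓ : ℂ)⁻¹ := by
    field_simp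
    rw [mul_comm]; exact h
  have e : (b : ℂ) * y = algebraMap ℚ ℂ ((b : ℚ) / (ℓ : ℚ)) := by
    rw [hy']; simp [div_eq_mul_inv]
  rw [e] at hint
  have hint' : IsIntegral ℤ ((b : ℚ) / (ℓ : ℚ)) :=
    (isIntegral_algebraMap_iff (algebraMap ℚ ℂ).injective).mp hint
  obtain ⟨z, hz⟩ := IsIntegrallyClosed.isIntegral_iff.mp hint'
  have hℓq : (ℓ : ℚ) ≠ 0 := by exact_mod_cast hℓ.ne_zero
  have hz' : (z : ℚ) * (ℓ : ℚ) = (b : ℚ) := by
    have : (algebraMap ℤ ℚ z) = (z : ℚ) := rfl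
    rw [this] at hz
    rw [hz]; field_simp
  have hz'' : z * (ℓ : ℤ) = (b : ℤ) := by exact_mod_cast hz'
  have hdvd : (ℓ : ℤ) ∣ (b : ℤ) := ⟨z, by rw [← hz'']; ring⟩
  have hdvd' : ℓ ∣ b := by exact_mod_cast hdvd
  have := Nat.Coprime.eq_one_of_dvd hb.symm hdvd'
  exact hℓ.one_lt.ne' this

theorem exists_maximal (ℓ : ℕ) (hℓ : ℓ.Prime) :
    ∃ 𝔪 : Ideal (RL ℓ), 𝔪.IsMaximal ∧ ((ℓ : ℕ) : RL ℓ) ∈ 𝔪 := by
  have hne : Ideal.span {((ℓ : ℕ) : RL ℓ)} ≠ ⊤ := by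
    rw [Ne, Ideal.span_singleton_eq_top]
    intro hu
    obtain ⟨u, hu⟩ := isUnit_iff_exists_inv.mp hu
    have := congrArg (Subtype.val) hu
    simp only [Subring.coe_mul, Subring.coe_one, Subring.coe_natCast] at this
    exact ell_mul_ne_one ℓ hℓ u.1 u.2 this
  obtain ⟨𝔪, hmax, hle⟩ := Ideal.exists_le_maximal _ hne
  exact ⟨𝔪, hmax, hle (Ideal.subset_span (Set.mem_singleton _))⟩

theorem dvd_of_mem_maximal (ℓ : ℕ) (hℓ : ℓ.Prime) (𝔪 : Ideal (RL ℓ)) (hmax : 𝔪.IsMaximal)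
    (hmem : ((ℓ : ℕ) : RL ℓ) ∈ 𝔪) (z : ℕ) (hz : ((z : ℕ) : RL ℓ) ∈ 𝔪) : ℓ ∣ z := by
  by_contra hnd
  have hcop : Nat.Coprime ℓ z := (Nat.Prime.coprime_iff_not_dvd hℓ).2 hnd
  have hcop' : IsCoprime (ℓ : ℤ) (z : ℤ) := Nat.isCoprime_iff_coprime.mpr hcop
  obtain ⟨u, v, huv⟩ := hcop'
  have h1 : ((u : ℤ) : RL ℓ) * ((ℓ : ℕ) : RL ℓ) + ((v : ℤ) : RL ℓ) * ((z : ℕ) : RL ℓ) = 1 := by
    have := congrArg (fun t : ℤ => (t : RL ℓ)) huv
    simpa using this
  have h2 : (1 : RL ℓ) ∈ 𝔪 := by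
    rw [← h1]
    exact 𝔪.add_mem (𝔪.mul_mem_left _ hmem) (𝔪.mul_mem_left _ hz)
  exact hmax.ne_top ((Ideal.eq_top_iff_one _).mpr h2)

/-! ### series -/

theorem coeff_stretch (p : ℕ) (A : PowerSeries ℂ) (n : ℕ) :
    PowerSeries.coeff n (stretch p A) = if p ∣ n then PowerSeries.coeff (n / p) A else 0 := by
  simp [stretch, PowerSeries.coeff_mk]

theorem coeff_stretch_mul (p : ℕ) (hp : 0 < p) (A : PowerSeries ℂ) (n : ℕ) :
    PowerSeries.coeff (p * n) (stretch p A) = PowerSeries.coeff n A := by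
  rw [coeff_stretch, if_pos (dvd_mul_right p n), Nat.mul_div_cancel_left n hp]

theorem coeff_Up (p : ℕ) (A : PowerSeries ℂ) (n : ℕ) :
    PowerSeries.coeff n (Up p A) = PowerSeries.coeff (p * n) A := by
  simp [Up, PowerSeries.coeff_mk]

theorem zetaP_prim (p : ℕ) (hp : p ≠ 0) : IsPrimitiveRoot (zetaP p) p :=
  Complex.isPrimitiveRoot_exp p hp

theorem zetaP_pow (p : ℕ) (hp : p ≠ 0) : zetaP p ^ p = 1 := (zetaP_prim p hp).pow_eq_one

theorem zetaP_mem_RL (p : ℕ) (hp : p ≠ 0) (ℓ : ℕ) : zetaP p ∈ RL ℓ := by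
  refine ⟨1, Nat.coprime_one_left _, ?_⟩
  have : IsIntegral ℤ (zetaP p) := (zetaP_prim p hp).isIntegral (Nat.pos_of_ne_zero hp)
  simpa using this

/-- coefficientwise form of `Σ_{j<p} rescale (ζ^j) B = C p * stretch p (Up p B)` -/
theorem coeff_sum_rescale (p : ℕ) (hp : p.Prime) (B : PowerSeries ℂ) (n : ℕ) :
    PowerSeries.coeff n (((Multiset.range p).map
      (fun j => PowerSeries.rescale (zetaP p ^ j) B)).sum)
      = if p ∣ n then (p : ℂ) * PowerSeries.coeff n B else 0 := by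
  have hsum : ((Multiset.range p).map (fun j => PowerSeries.rescale (zetaP p ^ j) B)).sum
      = ∑ j ∈ Finset.range p, PowerSeries.rescale (zetaP p ^ j) B := rfl
  rw [hsum, map_sum]
  have h1 : ∀ j ∈ Finset.range p, PowerSeries.coeff n (PowerSeries.rescale (zetaP p ^ j) B)
      = (zetaP p ^ n) ^ j * PowerSeries.coeff n B := by
    intro j _
    rw [PowerSeries.coeff_rescale, ← pow_mul, ← pow_mul, mul_comm j n]
  rw [Finset.sum_congr rfl h1, ← Finset.sum_mul]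
  split_ifs with hd
  · obtain ⟨m, rfl⟩ := hd
    have : zetaP p ^ (p * m) = 1 := by rw [pow_mul, zetaP_pow p hp.ne_zero, one_pow]
    simp [this]
  · have hprim : IsPrimitiveRoot (zetaP p ^ n) p :=
      (zetaP_prim p hp.ne_zero).pow_of_coprime n
        ((Nat.coprime_comm).mp ((Nat.Prime.coprime_iff_not_dvd hp).2 hd))
    rw [hprim.geom_sum_eq_zero hp.one_lt, zero_mul]

theorem esymm_one_eq_sum (s : Multiset (PowerSeries ℂ)) : s.esymm 1 = s.sum := by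
  simp [Multiset.esymm, Multiset.powersetCard_one]

theorem esymm_cons_succ (a : PowerSeries ℂ) (s : Multiset (PowerSeries ℂ)) (i : ℕ) :
    (a ::ₘ s).esymm (i + 1) = s.esymm (i + 1) + a * s.esymm i := by
  simp only [Multiset.esymm, Multiset.powersetCard_cons, Multiset.map_add, Multiset.sum_add,
    Multiset.map_map, Function.comp_def, Multiset.prod_cons, Multiset.sum_map_mul_left]

theorem esymm_zero_right (s : Multiset (PowerSeries ℂ)) : s.esymm 0 = 1 := by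
  simp [Multiset.esymm, Multiset.powersetCard_zero_left]

theorem esymm_zero_left_succ (i : ℕ) : (0 : Multiset (PowerSeries ℂ)).esymm (i + 1) = 0 := by
  simp [Multiset.esymm]

/-- coefficientwise form of `(conjMS p A B).esymm 1 = stretch p (A + C p * Up p B)` -/
theorem coeff_esymm_one (p : ℕ) (hp : p.Prime) (A B : PowerSeries ℂ) (n : ℕ) :
    PowerSeries.coeff (p * n) ((conjMS p A B).esymm 1)
      = PowerSeries.coeff n A + (p : ℂ) * PowerSeries.coeff (p * n) B := by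
  rw [esymm_one_eq_sum, conjMS, Multiset.sum_cons, map_add, coeff_stretch_mul p hp.pos,
    coeff_sum_rescale p hp, if_pos (dvd_mul_right p n)]

/-! ### integral power series -/

/-- power series with coefficients in `RL ℓ` -/
def IntPS (ℓ : ℕ) : Subring (PowerSeries ℂ) where
  carrier := {f | ∀ n, PowerSeries.coeff n f ∈ RL ℓ}
  mul_mem' := by
    intro f g hf hg n
    rw [PowerSeries.coeff_mul]
    exact Subring.sum_mem _ fun x _ => Subring.mul_mem _ (hf _) (hg _)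
  one_mem' := by
    intro n
    rw [PowerSeries.coeff_one]
    split_ifs
    · exact Subring.one_mem _
    · exact Subring.zero_mem _
  add_mem' := by
    intro f g hf hg n
    rw [map_add]
    exact Subring.add_mem _ (hf _) (hg _)
  zero_mem' := by
    intro n
    rw [map_zero]
    exact Subring.zero_mem _
  neg_mem' := by
    intro f hf n
    rw [map_neg]
    exact Subring.neg_mem _ (hf _)

theorem mem_IntPS {ℓ : ℕ} {f : PowerSeries ℂ} :
    f ∈ IntPS ℓ ↔ ∀ n, PowerSeries.coeff n f ∈ RL ℓ := Iff.rfl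

theorem C_mem_IntPS {ℓ : ℕ} {c : ℂ} (hc : c ∈ RL ℓ) : PowerSeries.C c ∈ IntPS ℓ := by
  intro n
  rw [PowerSeries.coeff_C]
  split_ifs
  · exact hc
  · exact Subring.zero_mem _

/-- esymm congruence -/
theorem esymm_cong (ℓ : ℕ) (s : Multiset (PowerSeries ℂ))
    (hs : ∀ x ∈ s, ∃ r ∈ IntPS ℓ, x = 1 + PowerSeries.C (ℓ : ℂ) * r) :
    ∀ i : ℕ, ∃ r ∈ IntPS ℓ,
      s.esymm i = PowerSeries.C ((Nat.choose (Multiset.card s) i : ℕ) : ℂ)
        + PowerSeries.C (ℓ : ℂ) * r := by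
  induction s using Multiset.induction_on with
  | empty =>
    intro i
    refine ⟨0, Subring.zero_mem _, ?_⟩
    cases i with
    | zero => simp [esymm_zero_right]
    | succ i => simp [esymm_zero_left_succ]
  | cons a s ih =>
    intro i
    have ih' := ih (fun x hx => hs x (Multiset.mem_cons_of_mem hx))
    cases i with
    | zero => exact ⟨0, Subring.zero_mem _, by simp [esymm_zero_right]⟩
    | succ i =>
      obtain ⟨ra, hra, ha⟩ := hs a (Multiset.mem_cons_self a s)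
      obtain ⟨r1, hr1, h1⟩ := ih' (i + 1)
      obtain ⟨r0, hr0, h0⟩ := ih' i
      refine ⟨r1 + r0 + ra * PowerSeries.C ((Nat.choose (Multiset.card s) i : ℕ) : ℂ)
        + PowerSeries.C (ℓ : ℂ) * ra * r0, ?_, ?_⟩
      · refine Subring.add_mem _ (Subring.add_mem _ (Subring.add_mem _ hr1 hr0)
          (Subring.mul_mem _ hra (C_mem_IntPS (natCast_mem _ _))))
          (Subring.mul_mem _ (Subring.mul_mem _ (C_mem_IntPS (natCast_mem _ _)) hra) hr0)
      · rw [esymm_cons_succ, h1, h0, ha, Multiset.card_cons, Nat.choose_succ_succ]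
        push_cast
        simp only [map_add]
        ring

/-- generic weight-2 vanishing -/
theorem wt2_zero (l1 : L1Facts) :
    ∀ k : ℤ, k = 2 → ∀ F : ModularForm 𝒮ℒ k, qExpansion 1 F = 0 := by
  rintro k rfl F
  rw [l1.wt2 F]
  exact qExpansion_zero 1

/-- (W2): `B = C (-p⁻¹) * Up p A`, coefficientwise -/
theorem coeff_B (p : ℕ) (hp : p.Prime) (tk : Toolkit p) (l1 : L1Facts) {A B : PowerSeries ℂ}
    (h : Cusp2 p 2 A B) (n : ℕ) :
    PowerSeries.coeff n B = -(p : ℂ)⁻¹ * PowerSeries.coeff (p * n) A := by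
  obtain ⟨e, he⟩ := tk.esymm (tk.swap h) 1
  have he0 : qExpansion 1 e = 0 := wt2_zero l1 _ (by norm_num) e
  rw [he0] at he
  have h2 := congrArg (PowerSeries.coeff (p * n)) he
  rw [coeff_esymm_one p hp, coeff_stretch_mul p hp.pos, map_zero, PowerSeries.coeff_C_mul,
    PowerSeries.coeff_C_mul] at h2
  have hp0 : (p : ℂ) ≠ 0 := by exact_mod_cast hp.ne_zero
  have h3 : (p : ℂ) * (PowerSeries.coeff n B + (p : ℂ)⁻¹ * PowerSeries.coeff (p * n) A) = 0 := by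
    rw [h2]; ring
  have h4 := (mul_eq_zero.mp h3).resolve_left hp0
  linear_combination h4

/-- from a coefficientwise description to `1 + C ℓ * r` -/
theorem exists_IntPS (ℓ : ℕ) (f : PowerSeries ℂ)
    (h : ∀ n, ∃ y ∈ RL ℓ, PowerSeries.coeff n f = (if n = 0 then 1 else 0) + (ℓ : ℂ) * y) :
    ∃ r ∈ IntPS ℓ, f = 1 + PowerSeries.C (ℓ : ℂ) * r := by
  choose y hy hf using h
  refine ⟨PowerSeries.mk y, fun n => by rw [PowerSeries.coeff_mk]; exact hy n, ?_⟩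
  ext n
  rw [hf n, map_add, PowerSeries.coeff_one, PowerSeries.coeff_C_mul, PowerSeries.coeff_mk]

/-- **K5a**: for a prime `ℓ ≥ 5` dividing `p + 1` there is no `G ∈ M₂(Γ₀(p))` which is
`≡ 1 mod ℓ`. -/
theorem main (p : ℕ) [Fact p.Prime] (tk : Toolkit p) (l1 : L1Facts) (sd : SDConstStmt)
    (ℓ : ℕ) (hℓ : ℓ.Prime) (h5 : 5 ≤ ℓ) (hdvd : ℓ ∣ p + 1) : Kstmt p ℓ 1 := by
  rintro ⟨G, hA0, hAm⟩
  have hp : p.Prime := Fact.out
  have hC : Cusp2 p 2 (qExpansion 1 G) (qExpansion (p : ℝ) (⇑G ∣[(2 : ℤ)] ModularGroup.S)) :=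
    ⟨G, rfl, rfl⟩
  generalize qExpansion 1 G = A at hA0 hAm hC
  generalize qExpansion (p : ℝ) (⇑G ∣[(2 : ℤ)] ModularGroup.S) = B at hC
  simp only [pow_one] at hAm
  have hBn := coeff_B p hp tk l1 hC
  have hp0 : (p : ℂ) ≠ 0 := by exact_mod_cast hp.ne_zero
  have hcopr : Nat.Coprime p ℓ :=
    Nat.Coprime.coprime_dvd_right hdvd (by simp)
  have hpinv : (p : ℂ)⁻¹ ∈ RL ℓ := inv_mem_RL ℓ p hcopr hp.ne_zero
  have hlam : ∃ t ∈ RL ℓ, -(p : ℂ)⁻¹ = 1 + (ℓ : ℂ) * t := by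
    obtain ⟨m, hm⟩ := hdvd
    refine ⟨-(m : ℂ) * (p : ℂ)⁻¹, Subring.mul_mem _ (Subring.neg_mem _ (natCast_mem _ _)) hpinv,
      ?_⟩
    have hm' : (p : ℂ) + 1 = (ℓ : ℂ) * (m : ℂ) := by exact_mod_cast hm
    have hpp : (p : ℂ) * (p : ℂ)⁻¹ = 1 := mul_inv_cancel₀ hp0
    linear_combination (-(p : ℂ)⁻¹) * hm' + hpp
  have helts : ∀ x ∈ conjMS p A B, ∃ r ∈ IntPS ℓ, x = 1 + PowerSeries.C (ℓ : ℂ) * r := by
    intro x hx
    rw [conjMS, Multiset.mem_cons, Multiset.mem_map] at hx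
    rcases hx with rfl | ⟨j, -, rfl⟩
    · apply exists_IntPS
      intro n
      rw [coeff_stretch]
      by_cases hn : n = 0
      · subst hn
        exact ⟨0, zero_mem _, by simpa using hA0⟩
      · by_cases hd : p ∣ n
        · rw [if_pos hd, if_neg hn]
          have h1 : 1 ≤ n / p := Nat.div_pos (Nat.le_of_dvd (Nat.pos_of_ne_zero hn) hd) hp.pos
          obtain ⟨y, hy, e⟩ := hAm (n / p) h1
          exact ⟨y, hy, by rw [e]; ring⟩
        · rw [if_neg hd, if_neg hn]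
          exact ⟨0, zero_mem _, by simp⟩
    · apply exists_IntPS
      intro n
      rw [PowerSeries.coeff_rescale, hBn n]
      by_cases hn : n = 0
      · subst hn
        obtain ⟨t, ht, e⟩ := hlam
        refine ⟨t, ht, ?_⟩
        have hA0' : PowerSeries.coeff 0 A = 1 := hA0
        simp only [mul_zero, pow_zero, one_mul, hA0', mul_one, if_true]
        exact e
      · rw [if_neg hn]
        obtain ⟨y, hy, e⟩ := hAm (p * n) (Nat.mul_pos hp.pos (Nat.pos_of_ne_zero hn))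
        refine ⟨(zetaP p ^ j) ^ n * (-(p : ℂ)⁻¹) * y, ?_, ?_⟩
        · exact Subring.mul_mem _ (Subring.mul_mem _ (Subring.pow_mem _
            (Subring.pow_mem _ (zetaP_mem_RL p hp.ne_zero ℓ) _) _)
            (Subring.neg_mem _ hpinv)) hy
        · have e' : PowerSeries.coeff (p * n) A = (ℓ : ℂ) * y := e
          rw [e']; ring
  obtain ⟨a, m, hm, hpm⟩ := Nat.exists_eq_pow_mul_and_not_dvd (Nat.succ_ne_zero p) ℓ hℓ.ne_one
  have hpm' : p + 1 = ℓ ^ a * m := hpm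
  have ha : 1 ≤ a := by
    rcases Nat.eq_zero_or_pos a with h0 | h0
    · subst h0
      rw [pow_zero, one_mul] at hpm'
      exact absurd (hpm' ▸ hdvd) hm
    · exact h0
  obtain ⟨r, hr, hes⟩ := esymm_cong ℓ (conjMS p A B) helts (ℓ ^ a)
  have hcard : Multiset.card (conjMS p A B) = p + 1 := by simp [conjMS]
  rw [hcard] at hes
  obtain ⟨e, he⟩ := tk.esymm hC (ℓ ^ a)
  obtain ⟨𝔪, hmax, hmem⟩ := exists_maximal ℓ hℓ
  have hcoef : ∀ n, (qExpansion 1 e).coeff n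
      = (if n = 0 then ((Nat.choose (p + 1) (ℓ ^ a) : ℕ) : ℂ) else 0)
        + (ℓ : ℂ) * PowerSeries.coeff (p * n) r := by
    intro n
    rw [← coeff_stretch_mul p hp.pos (qExpansion 1 e) n, he, hes, map_add, PowerSeries.coeff_C,
      PowerSeries.coeff_C_mul]
    simp [hp.ne_zero]
  let c : ℕ → RL ℓ := fun n =>
    (if n = 0 then ((Nat.choose (p + 1) (ℓ ^ a) : ℕ) : RL ℓ) else 0)
      + ((ℓ : ℕ) : RL ℓ) * ⟨PowerSeries.coeff (p * n) r, hr (p * n)⟩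
  have hc : ∀ n, (qExpansion 1 e).coeff n = (c n : ℂ) := by
    intro n
    rw [hcoef n]
    simp only [c]
    split_ifs <;> simp
  have hcm : ∀ n, 1 ≤ n → c n ∈ 𝔪 := by
    intro n hn
    simp only [c]
    rw [if_neg (by omega), zero_add]
    exact 𝔪.mul_mem_right _ hmem
  have h0 := sd ℓ hℓ h5 𝔪 hmax hmem a ha _ (by push_cast; rfl) e c hc hcm
  have h0' : ((Nat.choose (p + 1) (ℓ ^ a) : ℕ) : RL ℓ) ∈ 𝔪 := by
    have hc0 : c 0 = ((Nat.choose (p + 1) (ℓ ^ a) : ℕ) : RL ℓ)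
        + ((ℓ : ℕ) : RL ℓ) * ⟨PowerSeries.coeff (p * 0) r, hr (p * 0)⟩ := by
      simp [c]
    rw [hc0] at h0
    exact (Ideal.add_mem_iff_left _ (𝔪.mul_mem_right _ hmem)).mp h0
  have hfin := dvd_of_mem_maximal ℓ hℓ 𝔪 hmax hmem _ h0'
  rw [hpm'] at hfin
  exact not_dvd_choose ℓ hℓ m hm a hfin

end

end Fermat.Agent.S16.K5a
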