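/-
S16 project, package PSAlg-1 (bridge part): the two consequences (W2), (T2) of the toolkit used
by the weight four K-cases (K2a, K2b, K3a, K5c), in the shapes of the blueprint.

* `wt2`   : for a pair `Cusp2 p 2 A B`:  `B = -p⁻¹ U_p A`, `U_p U_p A = A`, and
            `(U_p A, -p⁻¹ A)` is again such a pair;
* `trace4`: `A² + p⁻¹ U_p((U_p A)²) = (1 + p⁻¹) E₄` if `A` has constant term `1`.

Built on the coefficientwise lemmas of `K5a` (`coeff_B`, `coeff_esymm_one`).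
-/
import Fermat.Agent.S16.K5a

set_option autoImplicit false

namespace Fermat.Agent.S16.PSAlgW

open UpperHalfPlane CongruenceSubgroup
open scoped MatrixGroups ModularForm
open PowerSeries

theorem Up_C_mul (p : ℕ) (c : ℂ) (X : PowerSeries ℂ) : Up p (C c * X) = C c * Up p X := by
  ext n
  rw [K5a.coeff_Up, coeff_C_mul, coeff_C_mul, K5a.coeff_Up]

/-- generic weight four: a level one form of weight `4` is a multiple of `E₄`. -/
theorem wt4_eq (l1 : L1Facts) :
    ∀ k : ℤ, k = 4 → ∀ F : ModularForm 𝒮ℒ k,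
      qExpansion 1 F = C ((qExpansion 1 F).coeff 0) * E4q := by
  rintro k rfl F
  exact l1.wt4 F

/-- (W2) of the blueprint. -/
theorem wt2 (p : ℕ) [hpF : Fact p.Prime] (tk : Toolkit p) (l1 : L1Facts) {A B : PowerSeries ℂ}
    (h : Cusp2 p 2 A B) :
    B = C (-(p : ℂ)⁻¹) * Up p A ∧ Up p (Up p A) = A ∧
      Cusp2 p 2 (Up p A) (C (-(p : ℂ)⁻¹) * A) := by
  have hp := hpF.out
  have hp0 : (p : ℂ) ≠ 0 := by exact_mod_cast hp.ne_zero
  have hB : B = C (-(p : ℂ)⁻¹) * Up p A := by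
    ext n
    rw [coeff_C_mul, K5a.coeff_Up, K5a.coeff_B p hp tk l1 h n]
  have hs := tk.swap h
  have hA : ∀ n, coeff n A = -(p : ℂ) * coeff (p * n) B := by
    intro n
    have := K5a.coeff_B p hp tk l1 hs n
    rw [coeff_C_mul, coeff_C_mul] at this
    field_simp at this
    linear_combination this
  have hUU : Up p (Up p A) = A := by
    ext n
    rw [K5a.coeff_Up, K5a.coeff_Up, hA n, K5a.coeff_B p hp tk l1 h (p * n)]
    field_simp
  refine ⟨hB, hUU, ?_⟩
  have h3 := tk.smul (-1) hs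
  have e1 : C (-1 : ℂ) * (C (p : ℂ) * B) = Up p A := by
    ext n
    rw [coeff_C_mul, coeff_C_mul, K5a.coeff_Up, K5a.coeff_B p hp tk l1 h n]
    field_simp
  have e2 : C (-1 : ℂ) * (C ((p : ℂ)⁻¹) * A) = C (-(p : ℂ)⁻¹) * A := by
    rw [← mul_assoc, ← map_mul]
    congr 2
    ring
  rw [e1, e2] at h3
  exact h3

/-- (T2) of the blueprint: the weight four trace identity. -/
theorem trace4 (p : ℕ) [hpF : Fact p.Prime] (tk : Toolkit p) (l1 : L1Facts)
    {A B : PowerSeries ℂ} (h : Cusp2 p 2 A B) (h0 : coeff 0 A = 1) :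
    A ^ 2 + C ((p : ℂ)⁻¹) * Up p ((Up p A) ^ 2) = C (1 + (p : ℂ)⁻¹) * E4q := by
  have hp := hpF.out
  have hp0 : (p : ℂ) ≠ 0 := by exact_mod_cast hp.ne_zero
  obtain ⟨hB, -, -⟩ := wt2 p tk l1 h
  obtain ⟨e, he⟩ := tk.esymm (tk.mul h h) 1
  have hQ4 := wt4_eq l1 _ (by norm_num) e
  -- the `q`-expansion of `e`
  have hQ : qExpansion 1 e = A ^ 2 + C ((p : ℂ)⁻¹) * Up p ((Up p A) ^ 2) := by
    ext n
    have h2 := congrArg (coeff (p * n)) he
    rw [K5a.coeff_esymm_one p hp, K5a.coeff_stretch_mul p hp.pos] at h2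
    rw [h2, map_add, coeff_C_mul, K5a.coeff_Up, sq]
    congr 1
    have hBB : B * B = C (((p : ℂ)⁻¹) ^ 2) * (Up p A) ^ 2 := by
      rw [hB, map_pow]
      have : (C (-(p : ℂ)⁻¹) : PowerSeries ℂ) = - C ((p : ℂ)⁻¹) := map_neg _ _
      rw [this]
      ring
    rw [hBB, coeff_C_mul]
    field_simp
  have hc0 : coeff 0 (qExpansion 1 e) = 1 + (p : ℂ)⁻¹ := by
    have hu0 : coeff 0 (Up p A) = 1 := by rw [K5a.coeff_Up, mul_zero, h0]
    have hsq : ∀ X : PowerSeries ℂ, coeff 0 (X ^ 2) = coeff 0 X ^ 2 := by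
      intro X
      rw [coeff_zero_eq_constantCoeff_apply, coeff_zero_eq_constantCoeff_apply, map_pow]
    rw [hQ, map_add, coeff_C_mul, K5a.coeff_Up, mul_zero, hsq, hsq, h0, hu0]
    ring
  rw [← hQ, ← hc0]
  exact hQ4

end Fermat.Agent.S16.PSAlgW
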