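/-
S16 project, package K3a: `ℓ = 3`, `p ≡ 1 mod 3`, `s = 1`.
There is no `G ∈ M₂(Γ₀(p))` with `3`-integral `q`-expansion `≡ 1 mod 3`.
(`K3aCore.main_of` + the bridge `PSAlgW.wt2`, `PSAlgW.trace4`.)
-/
import Fermat.Agent.S16.K3aCore
import Fermat.Agent.S16.PSAlgW

set_option autoImplicit false

namespace Fermat.Agent.S16.K3a

/-- K3a: for `p ≡ 1 mod 3` no `G ∈ M₂(Γ₀(p))` is `≡ 1 mod 3`. -/
theorem main (p : ℕ) [Fact p.Prime] (tk : Toolkit p) (l1 : L1Facts) (hp3 : p % 3 = 1) :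
    Kstmt p 3 1 :=
  main_of p hp3 l1 (fun h => PSAlgW.wt2 p tk l1 h) (fun h h0 => PSAlgW.trace4 p tk l1 h h0)

end Fermat.Agent.S16.K3a
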