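import Mathlib
import Fermat.Agent.S16.Defs

/-!
# S16, case K3b: no `G ∈ M₂(Γ₀(p))` is `≡ 1 mod 9` (`p ≠ 3`)

`Z := (G² - λ²E₄)/3` with `λ = -1/p` has `q`-expansion `≡ κ + Σσ₃(n)qⁿ mod 3` at `∞` and
`≡ Σσ₃(n)q^n` (in `q`) at the other cusp.  Its norm to level one has weight `4(p+1)` and is
`≡ (κ + s) s^p mod 3`, hence vanishes mod 3 to order `≥ p > (p+1)/3`; by the Sturm bound it
vanishes mod 3 identically, but its coefficients of index `p`, `p+1` are `κ`, `1` mod 3.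
-/

set_option autoImplicit false

open PowerSeries Finset

namespace Fermat.Agent.S16.K3b

section Abstract

variable {K : Type*} [CommRing K]

theorem coeff_pow_of_lt {D : K⟦X⟧} (hD0 : constantCoeff D = 0) {i n : ℕ} (h : n < i) :
    coeff n (D ^ i) = 0 := by
  obtain ⟨D', rfl⟩ := X_dvd_iff.mpr hD0
  rw [mul_pow, coeff_X_pow_mul', if_neg (by omega)]

theorem coeff_pow_self {D : K⟦X⟧} (hD0 : constantCoeff D = 0) (hD1 : coeff 1 D = 1) (i : ℕ) :
    coeff i (D ^ i) = 1 := by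
  obtain ⟨D', rfl⟩ := X_dvd_iff.mpr hD0
  have h1 : constantCoeff D' = 1 := by
    have := hD1
    rwa [show (1 : ℕ) = 0 + 1 from rfl, coeff_succ_X_mul, coeff_zero_eq_constantCoeff_apply] at this
  rw [mul_pow, coeff_X_pow_mul', if_pos le_rfl, Nat.sub_self, coeff_zero_eq_constantCoeff_apply,
    map_pow, h1, one_pow]

theorem expand_injective {p : ℕ} (hp0 : p ≠ 0) {f g : K⟦X⟧}
    (h : expand p hp0 f = expand p hp0 g) : f = g := by
  ext n
  rw [← coeff_expand_mul p hp0 f n, ← coeff_expand_mul p hp0 g n, h]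

/-- **Abstract core.** `N` is the `q`-expansion of the norm; `hnorm` is its factorisation after
`q ↦ q^p` into the `p + 1` conjugate expansions, each given modulo `3`; `hSturm` is the Sturm
bound for `N`. -/
theorem core (h3 : ¬ IsUnit (3 : K)) {p : ℕ} (hp0 : p ≠ 0)
    (S N : K⟦X⟧) (hS0 : constantCoeff S = 0) (hS1 : coeff 1 S = 1)
    (κ : K) (Winf : K⟦X⟧) (W : ℕ → K⟦X⟧)
    (hnorm : expand p hp0 N =
      expand p hp0 (C κ + S + 3 * Winf) * ∏ j ∈ range p, (expand p hp0 S + 3 * W j))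
    (hSturm : (∀ n, n < p → coeff n N ∈ Ideal.span {(3 : K)}) →
      ∀ n, coeff n N ∈ Ideal.span {(3 : K)}) : False := by
  classical
  set I : Ideal K := Ideal.span {(3 : K)} with hI
  have hItop : I ≠ ⊤ := fun h => h3 (Ideal.span_singleton_eq_top.mp h)
  have : Nontrivial (K ⧸ I) := Ideal.Quotient.nontrivial_iff.mpr hItop
  set π : K⟦X⟧ →+* (K ⧸ I)⟦X⟧ := PowerSeries.map (Ideal.Quotient.mk I) with hπ
  have hπ3 : π 3 = 0 := by
    have h1 : (3 : K⟦X⟧) = C (3 : K) := (map_ofNat C 3).symm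
    rw [h1, hπ, PowerSeries.map_C]
    have : Ideal.Quotient.mk I (3 : K) = 0 :=
      Ideal.Quotient.eq_zero_iff_mem.mpr (Ideal.mem_span_singleton_self 3)
    rw [this, map_zero]
  have hπexp : ∀ f : K⟦X⟧, π (expand p hp0 f) = expand p hp0 (π f) := fun f => by
    rw [hπ, PowerSeries.map_expand]
  have hπC : ∀ a : K, π (C a) = C (Ideal.Quotient.mk I a) := fun a => by
    rw [hπ, PowerSeries.map_C]
  set s : (K ⧸ I)⟦X⟧ := π S with hs
  set k : K ⧸ I := Ideal.Quotient.mk I κ with hk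
  have hs0 : constantCoeff s = 0 := by
    rw [hs, ← coeff_zero_eq_constantCoeff_apply, hπ, coeff_map, coeff_zero_eq_constantCoeff_apply,
      hS0, map_zero]
  have hs1 : coeff 1 s = 1 := by
    rw [hs, hπ, coeff_map, hS1, map_one]
  have hred : π N = (C k + s) * s ^ p := by
    apply expand_injective hp0
    have h1 : π (C κ + S + 3 * Winf) = C k + s := by
      rw [map_add, map_add, map_mul, hπ3, zero_mul, add_zero, hπC]
    have hprod : ∏ j ∈ range p, π (expand p hp0 S + 3 * W j) = (expand p hp0 s) ^ p := by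
      rw [Finset.prod_congr rfl (fun j _ => show π (expand p hp0 S + 3 * W j) = expand p hp0 s by
        rw [map_add, map_mul, hπ3, zero_mul, add_zero, hπexp]),
        Finset.prod_const, Finset.card_range]
    rw [← hπexp, hnorm, map_mul, hπexp, h1, map_prod, hprod, map_mul, map_pow]
  have hexp : (C k + s) * s ^ p = C k * s ^ p + s ^ (p + 1) := by ring
  have hlow : ∀ n, n < p → coeff n N ∈ I := by
    intro n hn
    have h1 : coeff n (π N) = 0 := by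
      rw [hred, hexp, map_add, coeff_C_mul, coeff_pow_of_lt hs0 hn,
        coeff_pow_of_lt hs0 (by omega : n < p + 1), mul_zero, add_zero]
    rw [hπ, coeff_map] at h1
    exact Ideal.Quotient.eq_zero_iff_mem.mp h1
  have hall := hSturm hlow
  have hzero : π N = 0 := by
    ext n
    rw [hπ, coeff_map, map_zero]
    exact Ideal.Quotient.eq_zero_iff_mem.mpr (hall n)
  rw [hred, hexp] at hzero
  have hk0 : k = 0 := by
    have h1 := congrArg (coeff p) hzero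
    rwa [map_add, coeff_C_mul, coeff_pow_self hs0 hs1, coeff_pow_of_lt hs0 (by omega : p < p + 1),
      mul_one, add_zero, map_zero] at h1
  have h1 := congrArg (coeff (p + 1)) hzero
  rw [hk0, map_zero, zero_mul, zero_add, coeff_pow_self hs0 hs1, map_zero] at h1
  exact one_ne_zero h1

end Abstract


section RLFacts

/-- `3` is not a unit of `RL 3`. -/
theorem three_not_unit : ¬ IsUnit (3 : RL 3) := by
  rintro ⟨u, hu⟩
  have h1 : (3 : ℂ) * ((u⁻¹ : (RL 3)ˣ) : RL 3) = 1 := by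
    have h2 : (3 : RL 3) * ((u⁻¹ : (RL 3)ˣ) : RL 3) = 1 := by rw [← hu]; exact u.mul_inv
    have h3 := congrArg (RL 3).subtype h2
    rw [map_mul, map_ofNat, map_one] at h3
    exact h3
  obtain ⟨b, hb, hint⟩ := mem_RL.mp ((u⁻¹ : (RL 3)ˣ) : RL 3).2
  set y : ℂ := (((u⁻¹ : (RL 3)ˣ) : RL 3) : ℂ) with hy
  have hy3 : y = (3 : ℂ)⁻¹ := eq_inv_of_mul_eq_one_right h1
  have hq : ((b : ℂ) * y) = (((b : ℚ) / 3 : ℚ) : ℂ) := by
    rw [hy3]; push_cast; ring
  rw [hq] at hint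
  have hint' : IsIntegral ℤ ((b : ℚ) / 3 : ℚ) :=
    (isIntegral_algebraMap_iff (algebraMap ℚ ℂ).injective).mp hint
  obtain ⟨z, hz⟩ := IsIntegrallyClosed.isIntegral_iff.mp hint'
  have hz' : (b : ℚ) = 3 * (z : ℚ) := by
    have : (z : ℚ) = (b : ℚ) / 3 := by simpa using hz
    rw [this]; ring
  have hz'' : (b : ℤ) = 3 * z := by exact_mod_cast hz'
  have h3b : (3 : ℤ) ∣ (b : ℤ) := ⟨z, hz''⟩
  have h3b' : 3 ∣ b := by exact_mod_cast h3b
  have := Nat.Coprime.eq_one_of_dvd hb.symm h3b'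
  omega

theorem zetaP_mem (p : ℕ) (hp0 : p ≠ 0) : zetaP p ∈ RL 3 := by
  refine mem_RL.mpr ⟨1, Nat.coprime_one_left _, ?_⟩
  have h1 : zetaP p ^ p = 1 := (Complex.isPrimitiveRoot_exp p hp0).pow_eq_one
  have : IsIntegral ℤ (zetaP p) :=
    IsIntegral.of_pow (Nat.pos_of_ne_zero hp0) (h1 ▸ isIntegral_one)
  simpa using this

theorem inv_sq_mem {p : ℕ} (hp : p.Coprime 3) : ((p : ℂ)⁻¹) ^ 2 ∈ RL 3 := by
  have hp0 : (p : ℂ) ≠ 0 := by
    rintro h
    have : p = 0 := by exact_mod_cast h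
    subst this
    simp at hp
  refine mem_RL.mpr ⟨p ^ 2, Nat.Coprime.pow_left 2 hp, ?_⟩
  have : ((p ^ 2 : ℕ) : ℂ) * ((p : ℂ)⁻¹) ^ 2 = 1 := by
    push_cast; field_simp
  rw [this]; exact isIntegral_one

end RLFacts


section Series

open UpperHalfPlane CongruenceSubgroup ModularCurve CuspForm
open scoped MatrixGroups ModularForm

theorem coeff_stretch_mul (p : ℕ) (hp0 : p ≠ 0) (f : ℂ⟦X⟧) (n : ℕ) :
    coeff (p * n) (stretch p f) = coeff n f := by
  rw [stretch, coeff_mk, if_pos (dvd_mul_right p n),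
    Nat.mul_div_cancel_left _ (Nat.pos_of_ne_zero hp0)]

theorem stretch_injective (p : ℕ) (hp0 : p ≠ 0) {f g : ℂ⟦X⟧} (h : stretch p f = stretch p g) :
    f = g := by
  ext n
  rw [← coeff_stretch_mul p hp0 f n, ← coeff_stretch_mul p hp0 g n, h]

theorem stretch_eq_expand (p : ℕ) (hp0 : p ≠ 0) (f : ℂ⟦X⟧) : stretch p f = expand p hp0 f := by
  ext n
  rw [stretch, coeff_mk, coeff_expand]

theorem stretch_map (p : ℕ) (hp0 : p ≠ 0) (f : (RL 3)⟦X⟧) :
    stretch p (PowerSeries.map (RL 3).subtype f) =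
      PowerSeries.map (RL 3).subtype (expand p hp0 f) := by
  rw [stretch_eq_expand p hp0, PowerSeries.map_expand]

theorem rescale_C' (a c : ℂ) : rescale a (C c) = C c := by
  ext n
  rw [coeff_rescale, coeff_C]
  split_ifs with h
  · rw [h, pow_zero, one_mul]
  · rw [mul_zero]

theorem rescale_stretch {p : ℕ} (a : ℂ) (ha : a ^ p = 1) (f : ℂ⟦X⟧) :
    rescale a (stretch p f) = stretch p f := by
  ext n
  rw [coeff_rescale, stretch, coeff_mk]
  split_ifs with h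
  · obtain ⟨m, rfl⟩ := h
    rw [pow_mul, ha, one_pow, one_mul]
  · rw [mul_zero]

theorem up_C_mul (p : ℕ) (c : ℂ) (A : ℂ⟦X⟧) : Up p (C c * A) = C c * Up p A := by
  ext n
  rw [Up, coeff_mk, coeff_C_mul, coeff_C_mul, Up, coeff_mk]

theorem sum_rescale (p : ℕ) [Fact p.Prime] (B : ℂ⟦X⟧) :
    ∑ j ∈ range p, rescale (zetaP p ^ j) B = C (p : ℂ) * stretch p (Up p B) := by
  have hpp : p.Prime := Fact.out
  have hp0 : p ≠ 0 := hpp.ne_zero
  have hζ : IsPrimitiveRoot (zetaP p) p := Complex.isPrimitiveRoot_exp p hp0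
  ext n
  rw [map_sum, coeff_C_mul, stretch, coeff_mk]
  simp only [coeff_rescale]
  rw [← Finset.sum_mul]
  have hsum : ∑ j ∈ range p, (zetaP p ^ j) ^ n = ∑ j ∈ range p, (zetaP p ^ n) ^ j := by
    refine Finset.sum_congr rfl fun j _ => ?_
    rw [← pow_mul, ← pow_mul, mul_comm]
  rw [hsum]
  split_ifs with h
  · obtain ⟨m, rfl⟩ := h
    rw [pow_mul, hζ.pow_eq_one, one_pow, Nat.mul_div_cancel_left _ (Nat.pos_of_ne_zero hp0), Up,
      coeff_mk]
    simp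
  · have hprim : IsPrimitiveRoot (zetaP p ^ n) p :=
      hζ.pow_of_coprime n ((Nat.Prime.coprime_iff_not_dvd hpp).mpr h).symm
    rw [hprim.geom_sum_eq_zero hpp.one_lt, zero_mul, mul_zero]

theorem qExp_wt2 (l1 : L1Facts) {k : ℤ} (hk : k = 2) (F : ModularForm 𝒮ℒ k) :
    qExpansion 1 F = 0 := by
  subst hk
  rw [l1.wt2 F]
  exact qExpansion_zero 1

theorem esymm_one (p : ℕ) (A B : ℂ⟦X⟧) :
    (conjMS p A B).esymm 1 = stretch p A + ∑ j ∈ range p, rescale (zetaP p ^ j) B := by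
  simp [conjMS, Multiset.esymm, Multiset.powersetCard_one, Finset.sum, add_comm]

theorem esymm_top (p : ℕ) (A B : ℂ⟦X⟧) :
    (conjMS p A B).esymm (p + 1) = stretch p A * ∏ j ∈ range p, rescale (zetaP p ^ j) B := by
  have hc : Multiset.card (conjMS p A B) = p + 1 := by simp [conjMS]
  rw [← hc, Multiset.esymm, Multiset.powersetCard_self]
  simp [conjMS, Finset.prod]

theorem up_key (p : ℕ) [Fact p.Prime] (tk : Toolkit p) (l1 : L1Facts) {A B : ℂ⟦X⟧}
    (h : Cusp2 p 2 A B) : A + C (p : ℂ) * Up p B = 0 := by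
  have hp0 : p ≠ 0 := (Fact.out : p.Prime).ne_zero
  obtain ⟨e, he⟩ := tk.esymm h 1
  rw [qExp_wt2 l1 (by norm_num) e, esymm_one, sum_rescale] at he
  apply stretch_injective p hp0
  rw [stretch_eq_expand p hp0, stretch_eq_expand p hp0] at he ⊢
  rw [stretch_eq_expand p hp0] at he
  rw [map_add, map_mul, expand_C, ← he, map_zero]

/-- First half of (W2): the expansion at the other cusp is `-p⁻¹ U_p` of the expansion
at `∞`. -/
theorem W2 (p : ℕ) [Fact p.Prime] (tk : Toolkit p) (l1 : L1Facts) {A B : ℂ⟦X⟧}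
    (h : Cusp2 p 2 A B) : B = C (-(p : ℂ)⁻¹) * Up p A := by
  have hp0 : (p : ℂ) ≠ 0 := Nat.cast_ne_zero.mpr (Fact.out : p.Prime).ne_zero
  have h1 := up_key p tk l1 (tk.swap h)
  rw [up_C_mul] at h1
  have hc : C (p : ℂ)⁻¹ * C (p : ℂ) = 1 := by rw [← map_mul, inv_mul_cancel₀ hp0, map_one]
  rw [map_neg]
  linear_combination (C (p : ℂ)⁻¹) * h1 - (B + C (p : ℂ)⁻¹ * Up p A) * hc

end Series


section Main

open UpperHalfPlane CongruenceSubgroup ModularCurve CuspForm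
open scoped MatrixGroups ModularForm

theorem coeff_ofNat_mul' {R : Type*} [CommRing R] (k : ℕ) [k.AtLeastTwo] (f : R⟦X⟧) (n : ℕ) :
    coeff n ((OfNat.ofNat k : R⟦X⟧) * f) = (OfNat.ofNat k : R) * coeff n f := by
  rw [show (OfNat.ofNat k : R⟦X⟧) = C (OfNat.ofNat k : R) from (map_ofNat C k).symm, coeff_C_mul]

/-- **K3b** for every prime `p ≠ 3`. -/
theorem main' (p : ℕ) [Fact p.Prime] (hp3 : p ≠ 3) (tk : Toolkit p) (l1 : L1Facts)
    (st : SturmStmt) : Kstmt p 3 2 := by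
  classical
  rintro ⟨G, hG0, hG⟩
  have hpp : p.Prime := Fact.out
  have hp0 : p ≠ 0 := hpp.ne_zero
  have hpc : (p : ℂ) ≠ 0 := Nat.cast_ne_zero.mpr hp0
  have hcop : p.Coprime 3 := (Nat.coprime_primes hpp Nat.prime_three).mpr hp3
  obtain ⟨ι, hι⟩ : ∃ ι : RL 3 →+* ℂ, ι = (RL 3).subtype := ⟨_, rfl⟩
  have hιinj : Function.Injective (PowerSeries.map ι) := by
    rw [hι]; exact PowerSeries.map_injective _ Subtype.val_injective
  have hstr : ∀ f : (RL 3)⟦X⟧, stretch p (PowerSeries.map ι f) =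
      PowerSeries.map ι (expand p hp0 f) := by
    rw [hι]; exact stretch_map p hp0
  obtain ⟨A, hA⟩ : ∃ A : ℂ⟦X⟧, A = qExpansion 1 G := ⟨_, rfl⟩
  obtain ⟨B, hB⟩ : ∃ B : ℂ⟦X⟧, B = qExpansion (p : ℝ) (⇑G ∣[(2 : ℤ)] ModularGroup.S) :=
    ⟨_, rfl⟩
  have hC : Cusp2 p 2 A B := ⟨G, hA.symm, hB.symm⟩
  have hBA : B = C (-(p : ℂ)⁻¹) * Up p A := W2 p tk l1 hC
  have hG0' : coeff 0 A = 1 := by rw [hA]; exact hG0
  have hG' : ∀ m, 1 ≤ m → ∃ y ∈ RL 3, coeff m A = 9 * y := by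
    intro m hm
    obtain ⟨y, hy, h⟩ := hG m hm
    refine ⟨y, hy, ?_⟩
    rw [hA]
    simp only at h
    rw [h]; norm_num
  -- `A = 1 + 9 h`
  obtain ⟨h', hh0, hAh⟩ : ∃ h' : (RL 3)⟦X⟧, coeff 0 h' = 0 ∧
      A = 1 + 9 * PowerSeries.map ι h' := by
    choose! y hy using hG'
    refine ⟨PowerSeries.mk fun m => if hm : 1 ≤ m then ⟨y m, (hy m hm).1⟩ else 0, by simp, ?_⟩
    ext m
    rcases Nat.eq_zero_or_pos m with rfl | hm
    · rw [map_add, coeff_ofNat_mul', coeff_map, coeff_mk, dif_neg (by omega), map_zero, mul_zero,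
        add_zero, coeff_one, if_pos rfl]
      exact hG0'
    · rw [map_add, coeff_ofNat_mul', coeff_map, coeff_mk, dif_pos (show 1 ≤ m from hm), coeff_one,
        if_neg (by omega), zero_add, hι]
      exact (hy m hm).2
  -- `U_p A = 1 + 9 u`
  obtain ⟨u', hUA⟩ : ∃ u' : (RL 3)⟦X⟧, Up p A = 1 + 9 * PowerSeries.map ι u' := by
    refine ⟨PowerSeries.mk fun n => coeff (p * n) h', ?_⟩
    ext n
    rw [Up, coeff_mk, hAh, map_add, map_add, coeff_ofNat_mul', coeff_ofNat_mul', coeff_map,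
      coeff_map, coeff_mk, coeff_one, coeff_one]
    congr 1
    rcases Nat.eq_zero_or_pos n with rfl | hn
    · simp
    · rw [if_neg (by positivity), if_neg (by omega)]
  -- constants
  obtain ⟨m, hm⟩ : ∃ m : ℕ, p ^ 2 = 3 * m + 1 := by
    have h1 : p % 3 = 1 ∨ p % 3 = 2 := by
      have : ¬ 3 ∣ p := fun h => hp3 ((Nat.prime_dvd_prime_iff_eq Nat.prime_three hpp).mp h).symm
      omega
    refine ⟨p ^ 2 / 3, ?_⟩
    have h2 : p ^ 2 % 3 = 1 := by
      rw [Nat.pow_mod]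
      rcases h1 with h | h <;> rw [h]
    omega
  obtain ⟨lamC, hlamC⟩ : ∃ c : ℂ, c = ((p : ℂ)⁻¹) ^ 2 := ⟨_, rfl⟩
  obtain ⟨lam2, hlam2⟩ : ∃ lam2 : RL 3, ι lam2 = lamC := by
    refine ⟨⟨((p : ℂ)⁻¹) ^ 2, inv_sq_mem hcop⟩, ?_⟩
    rw [hι, hlamC]; rfl
  obtain ⟨κ', hlk⟩ : ∃ κ' : RL 3, lam2 = 1 - 3 * κ' := by
    refine ⟨(m : RL 3) * lam2, ?_⟩
    have hinj : Function.Injective ι := by rw [hι]; exact Subtype.val_injective
    apply hinj
    rw [map_sub, map_one, map_mul, map_ofNat, map_mul, map_natCast, hlam2, hlamC]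
    have h1 : ((p : ℂ)) ^ 2 = 3 * (m : ℂ) + 1 := by exact_mod_cast hm
    have h2 : ((p : ℂ)⁻¹) ^ 2 * (p : ℂ) ^ 2 = 1 := by field_simp
    linear_combination h2 - ((p : ℂ)⁻¹) ^ 2 * h1
  obtain ⟨ζ', hζ'⟩ : ∃ ζ' : RL 3, ι ζ' = zetaP p := by
    refine ⟨⟨zetaP p, zetaP_mem p hp0⟩, ?_⟩
    rw [hι]; rfl
  have hζp : zetaP p ^ p = 1 := (Complex.isPrimitiveRoot_exp p hp0).pow_eq_one
  obtain ⟨S', hS, hS0, hS1⟩ : ∃ S' : (RL 3)⟦X⟧, Sq 3 = PowerSeries.map ι S' ∧
      constantCoeff S' = 0 ∧ coeff 1 S' = 1 := by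
    refine ⟨PowerSeries.mk fun n => ((ArithmeticFunction.sigma 3 n : ℕ) : RL 3), ?_, ?_, ?_⟩
    · ext n
      rw [Sq, coeff_mk, coeff_map, coeff_mk, map_natCast]
    · rw [← coeff_zero_eq_constantCoeff_apply, coeff_mk]
      simp
    · rw [coeff_mk]
      simp
  obtain ⟨Winf, hWinf⟩ : ∃ Winf : (RL 3)⟦X⟧,
      Winf = 2 * h' + 9 * h' ^ 2 + C (-27 + 80 * κ') * S' := ⟨_, rfl⟩
  obtain ⟨W, hW⟩ : ∃ W : ℕ → (RL 3)⟦X⟧, ∀ j, W j =
      C lam2 * (2 * rescale (ζ' ^ j) u' + 9 * (rescale (ζ' ^ j) u') ^ 2) +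
        C (-27 + 80 * κ') * expand p hp0 S' := ⟨fun j => _, fun j => rfl⟩
  -- the form `Z`
  obtain ⟨ZA, hZA⟩ : ∃ ZA : ℂ⟦X⟧, ZA = C (1 / 3 : ℂ) * (A * A + C (-lamC) * E4q) := ⟨_, rfl⟩
  obtain ⟨ZB, hZB⟩ : ∃ ZB : ℂ⟦X⟧, ZB = C (1 / 3 : ℂ) * (B * B + C (-lamC) * stretch p E4q) :=
    ⟨_, rfl⟩
  have hZ : Cusp2 p 4 ZA ZB := by
    have hE : Cusp2 p 4 E4q (stretch p E4q) := tk.levelOne ModularForm.E₄
    have hGG := tk.mul hC hC
    have h4 : (2 : ℤ) + 2 = 4 := by norm_num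
    rw [h4] at hGG
    rw [hZA, hZB]
    exact tk.smul (1 / 3) (tk.add hGG (tk.smul (-lamC) hE))
  -- common constants in `ℂ⟦X⟧`
  have hc3 : C (1 / 3 : ℂ) * 3 = 1 := by
    rw [show (3 : ℂ⟦X⟧) = C (3 : ℂ) from (map_ofNat C 3).symm, ← map_mul]
    norm_num
  have hCL : C lamC = 1 - 3 * C (ι κ') := by
    rw [← hlam2, hlk]
    simp only [map_sub, map_one, map_mul, map_ofNat]
  have hE4 : E4q = 1 + 240 * PowerSeries.map ι S' := by
    rw [l1.E4q_eq, hS, map_ofNat]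
  have hZA' : ZA = PowerSeries.map ι (C κ' + S' + 3 * Winf) := by
    rw [hZA, hAh, hE4, hWinf]
    simp only [map_add, map_mul, map_pow, map_ofNat, PowerSeries.map_C, map_neg]
    rw [hCL]
    linear_combination (6 * PowerSeries.map ι h' + 27 * (PowerSeries.map ι h') ^ 2 + C (ι κ')
      + 240 * C (ι κ') * PowerSeries.map ι S' - 80 * PowerSeries.map ι S') * hc3
  have hstE : stretch p E4q = 1 + 240 * PowerSeries.map ι (expand p hp0 S') := by
    rw [hE4, stretch_eq_expand p hp0, map_add, map_one, map_mul, map_ofNat,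
      ← stretch_eq_expand p hp0, hstr]
  have hZB' : ∀ j, rescale (zetaP p ^ j) ZB =
      PowerSeries.map ι (expand p hp0 S' + 3 * W j) := by
    intro j
    have hζj : (zetaP p ^ j) ^ p = 1 := by rw [← pow_mul, mul_comm, pow_mul, hζp, one_pow]
    have hres : rescale (zetaP p ^ j) (PowerSeries.map ι u') =
        PowerSeries.map ι (rescale (ζ' ^ j) u') := by
      rw [← rescale_map ι (ζ' ^ j) u', map_pow, hζ']
    have hres2 : rescale (zetaP p ^ j) (stretch p E4q) = stretch p E4q :=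
      rescale_stretch _ hζj _
    have hmm : C ((p : ℂ)⁻¹) * C ((p : ℂ)⁻¹) = C lamC := by
      rw [← map_mul, hlamC]; congr 1; ring
    rw [hZB, hBA, hUA]
    simp only [map_add, map_mul, map_one, map_ofNat, rescale_C', hres, hres2]
    rw [hstE, hW]
    simp only [map_add, map_mul, map_pow, map_ofNat, PowerSeries.map_C, map_neg]
    rw [hlam2]
    rw [hCL] at hmm ⊢
    obtain ⟨b, hb⟩ : ∃ b : ℂ⟦X⟧, b = PowerSeries.map ι (rescale (ζ' ^ j) u') := ⟨_, rfl⟩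
    obtain ⟨sp, hsp⟩ : ∃ sp : ℂ⟦X⟧, sp = PowerSeries.map ι (expand p hp0 S') := ⟨_, rfl⟩
    rw [← hb, ← hsp]
    linear_combination (C (1 / 3 : ℂ) * (1 + 9 * b) ^ 2) * hmm +
      ((1 - 3 * C (ι κ')) * (6 * b + 27 * b ^ 2 - 80 * sp)) * hc3
  -- the norm
  obtain ⟨e, he⟩ := tk.esymm hZ (p + 1)
  obtain ⟨P, hP⟩ : ∃ P : (RL 3)⟦X⟧, P = expand p hp0 (C κ' + S' + 3 * Winf) *
    ∏ j ∈ range p, (expand p hp0 S' + 3 * W j) := ⟨_, rfl⟩
  have heP : stretch p (qExpansion 1 e) = PowerSeries.map ι P := by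
    rw [he, esymm_top, hZA', hstr, Finset.prod_congr rfl (fun j _ => hZB' j),
      ← map_prod, ← map_mul, hP]
  obtain ⟨N', hN'⟩ : ∃ N' : (RL 3)⟦X⟧, N' = PowerSeries.mk fun n => coeff (p * n) P :=
    ⟨_, rfl⟩
  have hN : PowerSeries.map ι N' = qExpansion 1 e := by
    ext n
    rw [coeff_map, hN', coeff_mk, ← coeff_stretch_mul p hp0 (qExpansion 1 e) n, heP, coeff_map]
  have hexpN : expand p hp0 N' = P := by
    apply hιinj
    rw [← hstr, hN, heP]
  refine core (K := RL 3) three_not_unit hp0 S' N' hS0 hS1 κ' Winf W (hexpN.trans hP) ?_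
  intro hlow
  refine st 3 (Ideal.span {(3 : RL 3)}) _ e (fun n => coeff n N') ?_ ?_
  · intro n
    rw [← hN, coeff_map, hι]
    rfl
  · intro n hn
    apply hlow
    have h2 : 2 ≤ p := hpp.two_le
    push_cast at hn
    omega

/-- **K3b**: for a prime `p ≡ 2 mod 3` no `G ∈ M₂(Γ₀(p))` is `≡ 1 mod 9`. -/
theorem main (p : ℕ) [Fact p.Prime] (hp : p % 3 = 2) (tk : Toolkit p) (l1 : L1Facts)
    (st : SturmStmt) : Kstmt p 3 2 :=
  main' p (by rintro rfl; omega) tk l1 st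

end Main

end Fermat.Agent.S16.K3b
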