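/-
S16 project, package P7: elementary facts on the level one `q`-expansions (`L1Facts`).
-/
import Fermat.Agent.S16.Defs

set_option autoImplicit false

namespace Fermat.Agent.S16.L1

open UpperHalfPlane ModularForm EisensteinSeries
open scoped MatrixGroups ModularForm

noncomputable section

theorem E4q_eq : E4q = 1 + PowerSeries.C (240 : ℂ) * Sq 3 := by
  ext n
  rw [E4q, E_qExpansion_coeff (by norm_num) ⟨2, rfl⟩ n]
  by_cases hn : n = 0
  · subst hn
    simp [Sq]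
  · simp [Sq, hn, show bernoulli 4 = -1 / 30 by decide +kernel, PowerSeries.coeff_one]
    norm_num

theorem E6q_eq : E6q = 1 - PowerSeries.C (504 : ℂ) * Sq 5 := by
  ext n
  rw [E6q, E_qExpansion_coeff (by norm_num) ⟨3, rfl⟩ n]
  by_cases hn : n = 0
  · subst hn
    simp [Sq]
  · simp [Sq, hn, show bernoulli 6 = 1 / 42 by decide +kernel, PowerSeries.coeff_one]
    norm_num

theorem Dq_eq : PowerSeries.C (1728 : ℂ) * Dq = E4q ^ 3 - E6q ^ 2 := by
  have h1 : (CuspForm.discriminant : ℍ → ℂ) =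
      (1 / 1728 : ℂ) • ((E₄ : ℍ → ℂ) * E₄ * E₄ - (E₆ : ℍ → ℂ) * E₆) := by
    funext z
    have := discriminant_eq_E₄_cube_sub_E₆_sq z
    simp only [Pi.smul_apply, Pi.sub_apply, Pi.mul_apply, smul_eq_mul]
    rw [show (CuspForm.discriminant : ℍ → ℂ) z = ModularForm.discriminant z from rfl, this]
    ring
  have hA4 : AnalyticAt ℂ (cuspFunction 1 (E₄ : ℍ → ℂ)) 0 :=
    ModularFormClass.analyticAt_cuspFunction_zero E₄ one_pos one_mem_strictPeriods_SL
  have hA6 : AnalyticAt ℂ (cuspFunction 1 (E₆ : ℍ → ℂ)) 0 :=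
    ModularFormClass.analyticAt_cuspFunction_zero E₆ one_pos one_mem_strictPeriods_SL
  have hA44 : AnalyticAt ℂ (cuspFunction 1 ((E₄ : ℍ → ℂ) * E₄)) 0 := by
    rw [cuspFunction_mul hA4.continuousAt hA4.continuousAt]
    exact hA4.mul hA4
  have hA444 : AnalyticAt ℂ (cuspFunction 1 ((E₄ : ℍ → ℂ) * E₄ * E₄)) 0 := by
    rw [cuspFunction_mul hA44.continuousAt hA4.continuousAt]
    exact hA44.mul hA4
  have hA66 : AnalyticAt ℂ (cuspFunction 1 ((E₆ : ℍ → ℂ) * E₆)) 0 := by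
    rw [cuspFunction_mul hA6.continuousAt hA6.continuousAt]
    exact hA6.mul hA6
  have hAd : AnalyticAt ℂ (cuspFunction 1 ((E₄ : ℍ → ℂ) * E₄ * E₄ - (E₆ : ℍ → ℂ) * E₆)) 0 := by
    rw [cuspFunction_sub hA444.continuousAt hA66.continuousAt]
    exact hA444.sub hA66
  have h2 : Dq = (1 / 1728 : ℂ) • (E4q * E4q * E4q - E6q * E6q) := by
    rw [Dq, h1, qExpansion_smul hAd, qExpansion_sub hA444 hA66, qExpansion_mul hA44 hA4,
      qExpansion_mul hA4 hA4, qExpansion_mul hA6 hA6, E4q, E6q]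
  rw [h2, PowerSeries.smul_eq_C_mul, ← mul_assoc, ← map_mul]
  norm_num
  ring

theorem dvd_aux (d : ℕ) : 12 ∣ 5 * d ^ 3 + 7 * d ^ 5 := by
  have h : ∀ x : ZMod 12, 5 * x ^ 3 + 7 * x ^ 5 = 0 := by decide
  have := h (d : ZMod 12)
  rw [← ZMod.natCast_eq_zero_iff]
  push_cast
  exact this

theorem dvd_sigma (n : ℕ) :
    12 ∣ 5 * ArithmeticFunction.sigma 3 n + 7 * ArithmeticFunction.sigma 5 n := by
  rw [ArithmeticFunction.sigma_apply, ArithmeticFunction.sigma_apply, Finset.mul_sum,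
    Finset.mul_sum, ← Finset.sum_add_distrib]
  exact Finset.dvd_sum fun d _ => dvd_aux d

/-- integral model of `Σ σ_k(n) q^n` -/
def SqZ (k : ℕ) : PowerSeries ℤ := PowerSeries.mk fun n => (ArithmeticFunction.sigma k n : ℤ)

theorem map_SqZ (k : ℕ) : PowerSeries.map (Int.castRingHom ℂ) (SqZ k) = Sq k := by
  ext n
  simp [SqZ, Sq]

/-- integral model of `(5 Σ σ_3(n) q^n + 7 Σ σ_5(n) q^n) / 12` -/
def LinZ : PowerSeries ℤ := PowerSeries.mk fun n =>
  ((5 * ArithmeticFunction.sigma 3 n + 7 * ArithmeticFunction.sigma 5 n) / 12 : ℕ)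

theorem twelve_mul_LinZ : (12 : PowerSeries ℤ) * LinZ = 5 * SqZ 3 + 7 * SqZ 5 := by
  ext n
  have h12 : ((12 : PowerSeries ℤ)) = PowerSeries.C (12 : ℤ) := by
    simp
  have h5 : ((5 : PowerSeries ℤ)) = PowerSeries.C (5 : ℤ) := by simp
  have h7 : ((7 : PowerSeries ℤ)) = PowerSeries.C (7 : ℤ) := by simp
  rw [h12, h5, h7, map_add, PowerSeries.coeff_C_mul, PowerSeries.coeff_C_mul,
    PowerSeries.coeff_C_mul]
  simp only [LinZ, SqZ, PowerSeries.coeff_mk]
  obtain ⟨c, hc⟩ := dvd_sigma n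
  rw [hc, Nat.mul_div_cancel_left _ (by norm_num : 0 < 12)]
  have : (5 * (ArithmeticFunction.sigma 3 n : ℤ) + 7 * (ArithmeticFunction.sigma 5 n : ℤ)) =
      ((5 * ArithmeticFunction.sigma 3 n + 7 * ArithmeticFunction.sigma 5 n : ℕ) : ℤ) := by
    push_cast; ring
  rw [this, hc]
  push_cast
  ring

/-- integral model of `Δ` -/
def DZ : PowerSeries ℤ := LinZ + 100 * SqZ 3 ^ 2 + 8000 * SqZ 3 ^ 3 - 147 * SqZ 5 ^ 2

theorem map_DZ : PowerSeries.map (Int.castRingHom ℂ) DZ = Dq := by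
  have h1 : (1728 : PowerSeries ℤ) * DZ =
      (1 + 240 * SqZ 3) ^ 3 - (1 - 504 * SqZ 5) ^ 2 := by
    have := twelve_mul_LinZ
    rw [DZ]
    linear_combination (144 : PowerSeries ℤ) * this
  have h2 := congrArg (PowerSeries.map (Int.castRingHom ℂ)) h1
  simp only [map_mul, map_sub, map_add, map_pow, map_one, map_ofNat, map_SqZ] at h2
  have h3 : (1728 : PowerSeries ℂ) * Dq = (1 + 240 * Sq 3) ^ 3 - (1 - 504 * Sq 5) ^ 2 := by
    have := Dq_eq
    rw [E4q_eq, E6q_eq] at this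
    have e1 : (PowerSeries.C (1728 : ℂ)) = (1728 : PowerSeries ℂ) := map_ofNat _ 1728
    have e2 : (PowerSeries.C (240 : ℂ)) = (240 : PowerSeries ℂ) := map_ofNat _ 240
    have e3 : (PowerSeries.C (504 : ℂ)) = (504 : PowerSeries ℂ) := map_ofNat _ 504
    rw [e1, e2, e3] at this
    exact this
  have h4 : (1728 : PowerSeries ℂ) ≠ 0 := by
    intro h
    have := congrArg (PowerSeries.coeff 0) h
    have e1 : (1728 : PowerSeries ℂ) = (PowerSeries.C (1728 : ℂ)) := (map_ofNat _ 1728).symm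
    rw [e1] at this
    simp at this
  exact mul_left_cancel₀ h4 (h2.trans h3.symm)

theorem Dq_int (n : ℕ) : ∃ z : ℤ, PowerSeries.coeff n Dq = (z : ℂ) :=
  ⟨PowerSeries.coeff n DZ, by rw [← map_DZ]; simp⟩

theorem wt2 (F : ModularForm 𝒮ℒ 2) : F = 0 :=
  rank_zero_iff_forall_zero.mp levelOne_weight_two_rank_zero F

theorem wt4 (F : ModularForm 𝒮ℒ 4) :
    qExpansion 1 F = PowerSeries.C ((qExpansion 1 F).coeff 0) * E4q := by
  obtain ⟨c, hc⟩ : ∃ c : ℂ, c • E₄ = F :=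
    (finrank_eq_one_iff_of_nonzero' E₄ (E_ne_zero _ ⟨2, rfl⟩)).mp
      (Module.rank_eq_one_iff_finrank_eq_one.mp levelOne_weight_four_rank_one) _
  have h1 : qExpansion 1 (F : ℍ → ℂ) = c • qExpansion 1 (E₄ : ℍ → ℂ) := by
    rw [← ModularForm.qExpansion_smul one_pos one_mem_strictPeriods_SL c E₄,
      show (c • E₄ : ℍ → ℂ) = F from congrArg DFunLike.coe hc]
  have h0 : (qExpansion 1 (F : ℍ → ℂ)).coeff 0 = c := by
    rw [h1]
    simp [E_qExpansion_coeff_zero _ ⟨2, rfl⟩]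
  rw [h0, E4q, h1, PowerSeries.smul_eq_C_mul]

theorem Dq_zero : PowerSeries.coeff 0 Dq = 0 :=
  CuspFormClass.qExpansion_coeff_zero CuspForm.discriminant one_pos one_mem_strictPeriods_SL

theorem Dq_one : PowerSeries.coeff 1 Dq = 1 :=
  discriminant_qExpansion_coeff_one

/-- **P7**: the elementary facts on the level one `q`-expansions. -/
theorem facts : L1Facts where
  E4q_eq := E4q_eq
  E6q_eq := E6q_eq
  Dq_eq := Dq_eq
  Dq_int := Dq_int
  Dq_zero := Dq_zero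
  Dq_one := Dq_one
  wt2 := wt2
  wt4 := wt4

end

end Fermat.Agent.S16.L1
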