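/-
S16 project, lower bound: the Shimura class of `Γ₀(p)` and the lattice argument.
`LB.main : (∀ ℓ, TransferStmt p ℓ) → LiftStmt p → LBstmt p`.
-/
import Fermat.Agent.S16.Defs
import Fermat.Agent.S16.LiftIface
import Fermat.Agent.S21

set_option autoImplicit false

namespace Fermat.Agent.S16.LB

open UpperHalfPlane CongruenceSubgroup ModularCurve CuspForm ModularCurve.Period
open scoped MatrixGroups ModularForm

noncomputable section

/-! ### An additive character of a cyclic group -/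

theorem exists_addChar {G : Type*} [Group G] [IsCyclic G] [Finite G] (n c : ℕ) [NeZero n]
    (hc : n * Nat.gcd (Nat.card G) c = Nat.card G) :
    ∃ L : Additive G →+ ZMod n, Function.Surjective L ∧
      ∀ x : G, x ^ c = 1 → L (Additive.ofMul x) = 0 := by
  classical
  have hcyc : IsAddCyclic (Additive G) := isAddCyclic_additive_iff.2 inferInstance
  set m := Nat.card (Additive G) with hm
  have hmG : m = Nat.card G := rfl
  have hnm : n ∣ m := ⟨Nat.gcd (Nat.card G) c, by rw [hmG, hc]⟩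
  have hm0 : m ≠ 0 := by rw [hmG]; exact Nat.card_pos.ne'
  haveI : NeZero m := ⟨hm0⟩
  let e : ZMod m ≃+ Additive G := zmodAddCyclicAddEquiv hcyc
  let L : Additive G →+ ZMod n :=
    (ZMod.castHom hnm (ZMod n)).toAddMonoidHom.comp e.symm.toAddMonoidHom
  refine ⟨L, ?_, ?_⟩
  · intro y
    obtain ⟨z, hz⟩ := ZMod.ringHom_surjective (ZMod.castHom hnm (ZMod n)) y
    exact ⟨e z, by simp [L, hz]⟩
  · intro x hx
    set y : ZMod m := e.symm (Additive.ofMul x) with hy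
    have hcy : c • y = 0 := by
      rw [hy, ← map_nsmul, ← ofMul_pow, hx]
      simp
    have hdvd : m ∣ c * y.val := by
      have h1 : ((c * y.val : ℕ) : ZMod m) = 0 := by
        rw [Nat.cast_mul, ZMod.natCast_zmod_val, ← nsmul_eq_mul]; exact hcy
      exact (ZMod.natCast_eq_zero_iff _ _).1 h1
    have hg : 0 < Nat.gcd m c := Nat.gcd_pos_of_pos_left _ (Nat.pos_of_ne_zero hm0)
    have hn_eq : n = m / Nat.gcd m c := by
      rw [hmG]
      exact (Nat.div_eq_of_eq_mul_left (by rw [← hmG]; exact hg) hc.symm).symm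
    have hcop : Nat.Coprime (m / Nat.gcd m c) (c / Nat.gcd m c) := Nat.coprime_div_gcd_div_gcd hg
    have h2 : m / Nat.gcd m c ∣ (c / Nat.gcd m c) * y.val := by
      obtain ⟨t, ht⟩ := hdvd
      refine ⟨t, ?_⟩
      have hm' : m = (m / Nat.gcd m c) * Nat.gcd m c := (Nat.div_mul_cancel (Nat.gcd_dvd_left m c)).symm
      have hc' : c = (c / Nat.gcd m c) * Nat.gcd m c := (Nat.div_mul_cancel (Nat.gcd_dvd_right m c)).symm
      have : Nat.gcd m c * ((c / Nat.gcd m c) * y.val) = Nat.gcd m c * ((m / Nat.gcd m c) * t) := by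
        calc Nat.gcd m c * ((c / Nat.gcd m c) * y.val)
            = ((c / Nat.gcd m c) * Nat.gcd m c) * y.val := by ring
          _ = c * y.val := by rw [← hc']
          _ = m * t := ht
          _ = ((m / Nat.gcd m c) * Nat.gcd m c) * t := by rw [← hm']
          _ = Nat.gcd m c * ((m / Nat.gcd m c) * t) := by ring
      exact Nat.eq_of_mul_eq_mul_left hg this
    have h3 : n ∣ y.val := by
      rw [hn_eq]; exact hcop.dvd_of_dvd_mul_left h2
    show (ZMod.castHom hnm (ZMod n)) y = 0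
    rw [ZMod.castHom_apply, ← ZMod.natCast_val]
    exact (ZMod.natCast_eq_zero_iff _ _).2 h3

/-! ### The Shimura class -/

theorem gamma0Map_pow_twelve (p : ℕ) [Fact p.Prime] (γ : Gamma0 p)
    (hγ : (((γ : SL(2, ℤ)) : Matrix (Fin 2) (Fin 2) ℤ).trace) ^ 2 ≤ 4) :
    Gamma0Map p γ ^ 12 = 1 := by
  have hdet := (γ : SL(2, ℤ)).2
  rw [Matrix.det_fin_two] at hdet
  have hc : (((γ : SL(2, ℤ)) 1 0 : ℤ) : ZMod p) = 0 := Gamma0_mem.1 γ.2
  set t : ℤ := ((γ : SL(2, ℤ)) : Matrix (Fin 2) (Fin 2) ℤ).trace with ht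
  have htr : (γ : SL(2, ℤ)) 0 0 + (γ : SL(2, ℤ)) 1 1 = t := by
    rw [ht, Matrix.trace_fin_two]
  set d : ZMod p := Gamma0Map p γ with hd
  have hd' : d = (((γ : SL(2, ℤ)) 1 1 : ℤ) : ZMod p) := rfl
  have h1 : ((t : ZMod p) - d) * d = 1 := by
    have h2 : (((γ : SL(2, ℤ)) 0 0 : ℤ) : ZMod p) * (((γ : SL(2, ℤ)) 1 1 : ℤ) : ZMod p)
        - (((γ : SL(2, ℤ)) 0 1 : ℤ) : ZMod p) * (((γ : SL(2, ℤ)) 1 0 : ℤ) : ZMod p) = 1 := by
      have := congrArg (Int.cast : ℤ → ZMod p) hdet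
      push_cast at this
      exact this
    have h3 : (t : ZMod p) = (((γ : SL(2, ℤ)) 0 0 : ℤ) : ZMod p)
        + (((γ : SL(2, ℤ)) 1 1 : ℤ) : ZMod p) := by
      rw [← htr]; push_cast; rfl
    rw [hc, mul_zero, sub_zero] at h2
    rw [h3, hd', add_sub_cancel_right]
    exact h2
  have hlo : -2 ≤ t := by nlinarith
  have hhi : t ≤ 2 := by nlinarith
  clear_value t d
  interval_cases t
  · -- t = -2
    have h2 : (d + 1) ^ 2 = 0 := by push_cast at h1; linear_combination -h1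
    have h3 : d = -1 := by
      have := pow_eq_zero_iff (two_ne_zero) |>.1 h2
      linear_combination this
    rw [h3]; norm_num
  · push_cast at h1
    linear_combination (-((d - 1) * (d ^ 3 + 1) * (d ^ 6 + 1))) * h1
  · push_cast at h1
    linear_combination (-(d ^ 10 - d ^ 8 + d ^ 6 - d ^ 4 + d ^ 2 - 1)) * h1
  · push_cast at h1
    linear_combination (-((d ^ 3 - 1) * (d + 1) * (d ^ 6 + 1))) * h1
  · have h2 : (d - 1) ^ 2 = 0 := by push_cast at h1; linear_combination -h1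
    have h3 : d = 1 := by
      have := pow_eq_zero_iff (two_ne_zero) |>.1 h2
      linear_combination this
    rw [h3]; norm_num

theorem exists_gamma0Map_eq (p : ℕ) [Fact p.Prime] (u : (ZMod p)ˣ) :
    ∃ γ : Gamma0 p, Gamma0Map p γ = (u : ZMod p) := by
  have hp : p ≠ 0 := (Fact.out : p.Prime).ne_zero
  haveI : NeZero p := ⟨hp⟩
  have hcop : IsCoprime (((u : ZMod p).val : ℕ) : ℤ) (p : ℤ) :=
    Nat.isCoprime_iff_coprime.2 (ZMod.val_coe_unit_coprime u)
  obtain ⟨a, b, hab⟩ := hcop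
  let M : Matrix (Fin 2) (Fin 2) ℤ := !![a, -b; (p : ℤ), ((u : ZMod p).val : ℤ)]
  have hM : M.det = 1 := by
    rw [Matrix.det_fin_two_of]; linarith
  let g : SL(2, ℤ) := ⟨M, hM⟩
  have hg : g ∈ Gamma0 p := by
    rw [Gamma0_mem]
    show (((p : ℤ)) : ZMod p) = 0
    simp
  refine ⟨⟨g, hg⟩, ?_⟩
  show ((((u : ZMod p).val : ℤ)) : ZMod p) = (u : ZMod p)
  simp

theorem eisensteinNumerator_ne_zero (p : ℕ) [Fact p.Prime] : eisensteinNumerator p ≠ 0 := by
  have hp : 2 ≤ p := (Fact.out : p.Prime).two_le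
  unfold eisensteinNumerator
  have hg : 0 < Nat.gcd (p - 1) 12 := Nat.gcd_pos_of_pos_right _ (by norm_num)
  have hle : Nat.gcd (p - 1) 12 ≤ p - 1 := Nat.le_of_dvd (by omega) (Nat.gcd_dvd_left _ _)
  exact (Nat.div_pos hle hg).ne'

theorem exists_kappa (p : ℕ) [Fact p.Prime] (n : ℕ) [NeZero n] (hn : n = eisensteinNumerator p) :
    ∃ κ : Additive (Gamma0 p) →+ ZMod n,
      (∃ γ₀ : Gamma0 p, κ (Additive.ofMul γ₀) = 1) ∧
      (∀ γ : Gamma0 p, (((γ : SL(2, ℤ)) : Matrix (Fin 2) (Fin 2) ℤ).trace) ^ 2 ≤ 4 →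
        κ (Additive.ofMul γ) = 0) ∧
      (∀ (m : ℕ) (k : Fin m → Gamma0 p) (γ : Gamma0 p) (e : ℕ),
        ∏ i, Gamma0Map p (k i) = Gamma0Map p γ ^ e →
        ∑ i, κ (Additive.ofMul (k i)) = e • κ (Additive.ofMul γ)) := by
  classical
  have hcard : Nat.card (ZMod p)ˣ = p - 1 := by
    rw [Nat.card_eq_fintype_card, ZMod.card_units]
  have hc : n * Nat.gcd (Nat.card (ZMod p)ˣ) 12 = Nat.card (ZMod p)ˣ := by
    rw [hcard, hn]
    exact Nat.div_mul_cancel (Nat.gcd_dvd_left _ _)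
  obtain ⟨L, hLsurj, hLkill⟩ := exists_addChar (G := (ZMod p)ˣ) n 12 hc
  let u : Gamma0 p →* (ZMod p)ˣ := (Gamma0Map p).toHomUnits
  have hu : ∀ γ, ((u γ : (ZMod p)ˣ) : ZMod p) = Gamma0Map p γ := fun γ => rfl
  refine ⟨L.comp (MonoidHom.toAdditive u), ?_, ?_, ?_⟩
  · obtain ⟨x, hx⟩ := hLsurj 1
    obtain ⟨γ₀, hγ₀⟩ := exists_gamma0Map_eq p (Additive.toMul x)
    refine ⟨γ₀, ?_⟩
    have : u γ₀ = Additive.toMul x := Units.ext (by rw [hu, hγ₀])
    show L (Additive.ofMul (u γ₀)) = 1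
    rw [this]; exact hx
  · intro γ hγ
    show L (Additive.ofMul (u γ)) = 0
    apply hLkill
    apply Units.ext
    rw [Units.val_pow_eq_pow_val, hu, gamma0Map_pow_twelve p γ hγ]; rfl
  · intro m k γ e h
    show ∑ i, L (Additive.ofMul (u (k i))) = e • L (Additive.ofMul (u γ))
    have h2 : ∏ i, u (k i) = u γ ^ e := by
      apply Units.ext
      rw [Units.coe_prod, Units.val_pow_eq_pow_val, hu]
      simpa [hu] using h
    rw [← map_sum, ← map_nsmul, ← ofMul_pow, ← h2, ofMul_prod]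

/-! ### The lattice argument -/

/-- The Hecke action `HeckeAlg → End(S₂(Γ₀(p)))`. -/
def Eh (p : ℕ) [NeZero p] : HeckeAlg →+* Module.End ℂ (CuspForm (Gamma0 p) 2) :=
  (heckeAlgebra p 2 ∅).val.toRingHom.comp (heckeEvalForms p 2)

theorem Eh_X (p : ℕ) [NeZero p] (ℓ : Nat.Primes) : Eh p (MvPolynomial.X ℓ) = heckeTop p ℓ := by
  show ((heckeEvalForms p 2 (MvPolynomial.X ℓ) : heckeAlgebra p 2 ∅) :
    Module.End ℂ (CuspForm (Gamma0 p) 2)) = _
  have := heckeEvalForms_heckeGen p 2 ℓ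
  rw [heckeGen] at this
  rw [this]; rfl

/-- The diagonal action on pairs. -/
def Dh (p : ℕ) [NeZero p] (P : HeckeAlg) :
    (CuspForm (Gamma0 p) 2 × CuspForm (Gamma0 p) 2) →ₗ[ℂ]
      (CuspForm (Gamma0 p) 2 × CuspForm (Gamma0 p) 2) :=
  (Eh p P).prodMap (Eh p P)

/-- Pairs with integral periods. -/
def IsInt (p : ℕ) (w : CuspForm (Gamma0 p) 2 × CuspForm (Gamma0 p) 2) : Prop :=
  ∀ γ : Gamma0 p, ∃ z : ℤ, periodHomPair p w (Additive.ofMul γ) = (z : ℂ)

theorem isInt_zero (p : ℕ) : IsInt p 0 := fun γ => ⟨0, by simp⟩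

theorem IsInt.add {p : ℕ} {w w' : CuspForm (Gamma0 p) 2 × CuspForm (Gamma0 p) 2}
    (h : IsInt p w) (h' : IsInt p w') : IsInt p (w + w') := by
  intro γ
  obtain ⟨z, hz⟩ := h γ
  obtain ⟨z', hz'⟩ := h' γ
  exact ⟨z + z', by rw [map_add, AddMonoidHom.add_apply, hz, hz']; push_cast; rfl⟩

theorem IsInt.zsmul {p : ℕ} {w : CuspForm (Gamma0 p) 2 × CuspForm (Gamma0 p) 2}
    (h : IsInt p w) (c : ℤ) : IsInt p (c • w) := by
  intro γ
  obtain ⟨z, hz⟩ := h γ
  exact ⟨c * z, by rw [map_zsmul, AddMonoidHom.zsmul_apply, hz]; push_cast; simp⟩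

theorem isInt_Dh_X {p : ℕ} [NeZero p] (ℓ : Nat.Primes) (hT : TransferStmt p ℓ)
    {w : CuspForm (Gamma0 p) 2 × CuspForm (Gamma0 p) 2} (h : IsInt p w) :
    IsInt p (Dh p (MvPolynomial.X ℓ) w) := by
  obtain ⟨m, k, hk, -⟩ := hT
  intro γ
  choose z hz using fun i => h (k i γ)
  refine ⟨∑ i, z i, ?_⟩
  have : Dh p (MvPolynomial.X ℓ) w = (heckeTop p ℓ w.1, heckeTop p ℓ w.2) := by
    simp [Dh, Eh_X]
  rw [this, hk w.1 w.2 γ]
  push_cast
  exact Finset.sum_congr rfl fun i _ => hz i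

theorem Dh_C (p : ℕ) [NeZero p] (c : ℤ) (w : CuspForm (Gamma0 p) 2 × CuspForm (Gamma0 p) 2) :
    Dh p (MvPolynomial.C c) w = c • w := by
  have h1 : (MvPolynomial.C c : HeckeAlg) = (c : HeckeAlg) := by
    exact eq_intCast (MvPolynomial.C : ℤ →+* HeckeAlg) c
  have h2 : Eh p (MvPolynomial.C c) = (c : Module.End ℂ (CuspForm (Gamma0 p) 2)) := by
    rw [h1, map_intCast]
  rw [Dh, h2]
  ext <;> simp

theorem Dh_add (p : ℕ) [NeZero p] (P Q : HeckeAlg)
    (w : CuspForm (Gamma0 p) 2 × CuspForm (Gamma0 p) 2) :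
    Dh p (P + Q) w = Dh p P w + Dh p Q w := by
  simp [Dh, map_add]

theorem Dh_mul (p : ℕ) [NeZero p] (P Q : HeckeAlg)
    (w : CuspForm (Gamma0 p) 2 × CuspForm (Gamma0 p) 2) :
    Dh p (P * Q) w = Dh p P (Dh p Q w) := by
  simp [Dh, map_mul, Module.End.mul_apply]

theorem isInt_Dh {p : ℕ} [NeZero p] (hT : ∀ ℓ : Nat.Primes, TransferStmt p ℓ) (P : HeckeAlg) :
    ∀ w : CuspForm (Gamma0 p) 2 × CuspForm (Gamma0 p) 2, IsInt p w → IsInt p (Dh p P w) := by
  induction P using MvPolynomial.induction_on with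
  | C c => intro w hw; rw [Dh_C]; exact hw.zsmul c
  | add P Q hP hQ => intro w hw; rw [Dh_add]; exact (hP w hw).add (hQ w hw)
  | mul_X P ℓ hP => intro w hw; rw [Dh_mul]; exact hP _ (isInt_Dh_X ℓ (hT ℓ) hw)

theorem main (p : ℕ) [Fact p.Prime] (hT : ∀ ℓ : Nat.Primes, TransferStmt p ℓ)
    (hL : LiftStmt p) : LBstmt p := by
  intro P hP
  set n := eisensteinNumerator p with hn
  have hn0 : n ≠ 0 := eisensteinNumerator_ne_zero p
  haveI : NeZero n := ⟨hn0⟩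
  have hnC : (n : ℂ) ≠ 0 := Nat.cast_ne_zero.2 hn0
  obtain ⟨κ, ⟨γ₀, hγ₀⟩, hκpar, hκprod⟩ := exists_kappa p n hn
  obtain ⟨ψ, hψpar, hψκ⟩ := hL n κ hκpar
  let χ : Additive (Gamma0 p) →+ ℂ := (Int.castAddHom ℂ).comp ψ
  have hχapp : ∀ γ : Gamma0 p, χ (Additive.ofMul γ) = ((ψ (Additive.ofMul γ) : ℤ) : ℂ) :=
    fun γ => rfl
  have hχ : χ ∈ parabolicHoms ℂ (Gamma0 p) ℂ := by
    intro γ hγ
    rw [hχapp, hψpar γ hγ]; simp
  obtain ⟨-, hrange⟩ := Fermat.Agent.S21.result p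
  obtain ⟨v, hv⟩ : ∃ v, periodHomPair p v = χ := by
    rw [← hrange] at hχ; exact hχ
  have hvint : IsInt p v := fun γ => ⟨ψ (Additive.ofMul γ), by rw [hv, hχapp]⟩
  -- Claim B
  have hB : ∀ ℓ : Nat.Primes, ∃ w', IsInt p w' ∧
      Dh p (MvPolynomial.X ℓ) v - (eisensteinSystem p ℓ) • v = (n : ℤ) • w' := by
    intro ℓ
    obtain ⟨m, k, hk, hprod⟩ := hT ℓ
    set e : ℤ := eisensteinSystem p ℓ with he
    have he0 : 0 ≤ e := by
      rw [he]; unfold eisensteinSystem; split_ifs <;> positivity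
    have hDX : Dh p (MvPolynomial.X ℓ) v = (heckeTop p ℓ v.1, heckeTop p ℓ v.2) := by
      simp [Dh, Eh_X]
    refine ⟨((n : ℂ)⁻¹) • (Dh p (MvPolynomial.X ℓ) v - e • v), ?_, ?_⟩
    · intro γ
      have hmod : (((∑ i, ψ (Additive.ofMul (k i γ)) - e * ψ (Additive.ofMul γ) : ℤ)) : ZMod n)
          = 0 := by
        push_cast
        simp only [hψκ]
        rw [hκprod m (fun i => k i γ) γ e.toNat (hprod γ)]
        rw [← Nat.cast_smul_eq_nsmul ℤ, Int.toNat_of_nonneg he0]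
        simp
      obtain ⟨M, hM⟩ := (ZMod.intCast_zmod_eq_zero_iff_dvd _ _).1 hmod
      refine ⟨M, ?_⟩
      rw [map_smul, map_sub, map_zsmul, hDX]
      show (n : ℂ)⁻¹ * (periodHomPair p (heckeTop p ℓ v.1, heckeTop p ℓ v.2) (Additive.ofMul γ)
        - e • periodHomPair p v (Additive.ofMul γ)) = M
      rw [hk v.1 v.2 γ]
      simp only [Prod.mk.eta, hv, hχapp]
      have : (∑ i, ((ψ (Additive.ofMul (k i γ)) : ℤ) : ℂ)) - e • ((ψ (Additive.ofMul γ) : ℤ) : ℂ)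
          = (((∑ i, ψ (Additive.ofMul (k i γ)) - e * ψ (Additive.ofMul γ) : ℤ)) : ℂ) := by
        push_cast; simp
      rw [this, hM]
      push_cast
      field_simp
    · rw [← Int.cast_smul_eq_zsmul ℂ (n : ℤ), smul_smul]
      simp [hnC]
  -- Claim C
  have hC : ∀ P : HeckeAlg, ∃ w', IsInt p w' ∧ Dh p P v - (eisE p P) • v = (n : ℤ) • w' := by
    intro P
    induction P using MvPolynomial.induction_on with
    | C c =>
      refine ⟨0, isInt_zero p, ?_⟩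
      rw [Dh_C]
      have : eisE p (MvPolynomial.C c) = c := by
        simp [eisE]
      rw [this]; simp
    | add P Q hP hQ =>
      obtain ⟨w₁, hw₁, h₁⟩ := hP
      obtain ⟨w₂, hw₂, h₂⟩ := hQ
      refine ⟨w₁ + w₂, hw₁.add hw₂, ?_⟩
      rw [Dh_add, map_add, add_smul, smul_add, ← h₁, ← h₂]
      abel
    | mul_X P ℓ hP =>
      obtain ⟨w₁, hw₁, h₁⟩ := hP
      obtain ⟨w₂, hw₂, h₂⟩ := hB ℓ
      refine ⟨Dh p P w₂ + (eisensteinSystem p ℓ) • w₁, (isInt_Dh hT P w₂ hw₂).add (hw₁.zsmul _), ?_⟩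
      have hX : eisE p (MvPolynomial.X ℓ) = eisensteinSystem p ℓ := by
        simp [eisE]
      have h3 : Dh p (MvPolynomial.X ℓ) v = (eisensteinSystem p ℓ) • v + (n : ℤ) • w₂ := by
        rw [← h₂]; abel
      have h4 : Dh p P v = (eisE p P) • v + (n : ℤ) • w₁ := by
        rw [← h₁]; abel
      rw [Dh_mul, h3, map_add, map_zsmul, map_zsmul, h4, map_mul, hX]
      simp only [smul_add, mul_smul]
      rw [smul_comm (eisensteinSystem p ℓ) (n : ℤ) w₁, smul_comm (eisensteinSystem p ℓ) (eisE p P) v]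
      abel
  obtain ⟨w', hw', h'⟩ := hC P
  have hD0 : Dh p P v = 0 := by
    have hE : Eh p P = 0 := hP
    simp [Dh, hE]
  rw [hD0, zero_sub] at h'
  obtain ⟨z, hz⟩ := hw' γ₀
  have h5 := congrArg (fun w => periodHomPair p w (Additive.ofMul γ₀)) h'
  simp only [map_neg, map_zsmul, AddMonoidHom.neg_apply, AddMonoidHom.zsmul_apply, hv, hz,
    hχapp] at h5
  have h6 : -(eisE p P * ψ (Additive.ofMul γ₀)) = (n : ℤ) * z := by
    have : ((-(eisE p P * ψ (Additive.ofMul γ₀)) : ℤ) : ℂ) = (((n : ℤ) * z : ℤ) : ℂ) := by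
      push_cast
      simpa using h5
    exact_mod_cast this
  have h7 := congrArg (Int.cast : ℤ → ZMod n) h6
  push_cast at h7
  rw [hψκ, hγ₀] at h7
  simp at h7
  exact (ZMod.intCast_zmod_eq_zero_iff_dvd _ _).1 h7

end

end Fermat.Agent.S16.LB

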