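/-
S16 / EisVSC (helper18): `ℓ`-integral rationals, reduction mod `ℓ`, and the von Staudt–Clausen
congruence `E_{ℓ-1} ≡ 1 mod ℓ` for the `q`-expansion of the normalised Eisenstein series of
weight `ℓ - 1` (`ℓ ≥ 5` prime).

* `QInt ℓ : Subring ℚ`   — rationals with denominator prime to `ℓ` (`mem_QInt_iff`);
* `redQ ℓ : QInt ℓ →+* ZMod ℓ` — reduction mod `ℓ` (`redQ_eq_zero_iff`, `redQ_surjective`);
* `ZLoc ℓ : Subring ℂ`   — the same ring inside `ℂ` (`mem_ZLoc_iff`);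
* `red ℓ : ZLoc ℓ →+* ZMod ℓ` (`red_ratCast`, `red_eq_zero_iff`, `red_eq_zero_iff'`,
  `red_surjective`, `red_intCast'`, `red_eq_red_iff`);
* `E_coeff_eq`, `E_coeff_zero`, `E_coeff_mem_ZLoc`, `red_E_coeff` — the `q`-expansion of
  `E_{ℓ-1}` has coefficients in `ZLoc ℓ` and reduces to `1`.
-/
import Mathlib

namespace Fermat.Agent.S16.EisVSC

open Finset UpperHalfPlane ModularForm

variable {ℓ : ℕ} [Fact ℓ.Prime]

/-- The `ℓ`-integral rationals (denominator prime to `ℓ`), as a subring of `ℚ`. -/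
abbrev QInt (ℓ : ℕ) [Fact ℓ.Prime] : Subring ℚ := (Rat.padicValuation ℓ).integer

lemma mem_QInt_iff {x : ℚ} : x ∈ QInt ℓ ↔ ¬ ℓ ∣ x.den := by
  rw [Valuation.mem_integer_iff, Rat.padicValuation_le_one_iff]

lemma intCast_mem_QInt (z : ℤ) : (z : ℚ) ∈ QInt ℓ := intCast_mem _ z

lemma natCast_mem_QInt (z : ℕ) : (z : ℚ) ∈ QInt ℓ := natCast_mem _ z

lemma one_div_prime_mem_QInt {p : ℕ} (hp : p.Prime) (hne : p ≠ ℓ) : (1 : ℚ) / p ∈ QInt ℓ := by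
  rw [mem_QInt_iff]
  have : ((1 : ℚ) / p).den = p := by simp [hp.ne_zero]
  rw [this]
  intro h
  exact hne ((Nat.prime_dvd_prime_iff_eq Fact.out hp).mp h).symm

/-- von Staudt–Clausen at the prime `ℓ`: `ℓ * B_{ℓ-1} = ℓ * x - 1` with `x` an `ℓ`-integral
rational. -/
lemma exists_mul_bernoulli (h2 : ℓ ≠ 2) :
    ∃ x ∈ QInt ℓ, (ℓ : ℚ) * bernoulli (ℓ - 1) = ℓ * x - 1 := by
  have hℓ : ℓ.Prime := Fact.out
  obtain ⟨k, hk⟩ : ∃ k, ℓ - 1 = 2 * k := by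
    have := hℓ.eq_one_or_self_of_dvd 2
    have hodd : ℓ % 2 = 1 := by
      rcases Nat.mod_two_eq_zero_or_one ℓ with h | h
      · exact absurd (hℓ.eq_one_or_self_of_dvd 2 (Nat.dvd_of_mod_eq_zero h)) (by omega)
      · exact h
    exact ⟨(ℓ - 1) / 2, by omega⟩
  obtain ⟨N, hN⟩ := Bernoulli.vonStaudt_clausen k
  have hmem : ℓ ∈ (range (2 * k + 2)).filter (fun p => p.Prime ∧ (p - 1) ∣ 2 * k) := by
    simp only [mem_filter, mem_range]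
    refine ⟨by have := hℓ.two_le; omega, hℓ, by rw [hk]⟩
  rw [← add_sum_erase _ _ hmem] at hN
  refine ⟨N - ∑ p ∈ ((range (2 * k + 2)).filter (fun p => p.Prime ∧ (p - 1) ∣ 2 * k)).erase ℓ,
    (1 : ℚ) / p, ?_, ?_⟩
  · refine sub_mem (intCast_mem_QInt N) (Subring.sum_mem _ fun p hp => ?_)
    simp only [mem_erase, mem_filter, mem_range] at hp
    exact one_div_prime_mem_QInt hp.2.2.1 hp.1
  · have hℓ0 : (ℓ : ℚ) ≠ 0 := by exact_mod_cast hℓ.ne_zero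
    rw [hk]
    have : bernoulli (2 * k) = (N : ℚ) - (1 / (ℓ : ℚ) +
        ∑ p ∈ ((range (2 * k + 2)).filter (fun p => p.Prime ∧ (p - 1) ∣ 2 * k)).erase ℓ,
          (1 : ℚ) / p) := by
      rw [hN]; ring
    rw [this]
    field_simp
    ring

/-- `-(2 (ℓ-1) / B_{ℓ-1}) * m = ℓ * u` with `u` an `ℓ`-integral rational. -/
lemma exists_two_mul_div_bernoulli (h2 : ℓ ≠ 2) (m : ℤ) :
    ∃ u ∈ QInt ℓ, -(2 * ((ℓ - 1 : ℕ) : ℚ) / bernoulli (ℓ - 1)) * m = ℓ * u := by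
  have hℓ : ℓ.Prime := Fact.out
  have hℓ0 : (ℓ : ℚ) ≠ 0 := by exact_mod_cast hℓ.ne_zero
  obtain ⟨x, hx, hB⟩ := exists_mul_bernoulli (ℓ := ℓ) h2
  set v := Rat.padicValuation ℓ with hv
  have hw : v (ℓ * x - 1) = 1 := by
    have h1 : v ((ℓ : ℚ) * x) < v 1 := by
      rw [map_mul, map_one, hv, Rat.padicValuation_self]
      have hx1 : Rat.padicValuation ℓ x ≤ 1 := (Valuation.mem_integer_iff _ _).mp hx
      calc WithZero.exp (-1 : ℤ) * Rat.padicValuation ℓ x ≤ WithZero.exp (-1 : ℤ) * 1 := by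
            gcongr
        _ < 1 := by
            rw [mul_one, ← WithZero.exp_zero, WithZero.exp_lt_exp]; norm_num
    rw [Valuation.map_sub_eq_of_lt_right _ h1, map_one]
  have hw0 : (ℓ : ℚ) * x - 1 ≠ 0 := by
    intro h0
    rw [h0, map_zero] at hw
    exact zero_ne_one hw
  have hB0 : bernoulli (ℓ - 1) = (ℓ * x - 1) / ℓ := by
    rw [← hB]; field_simp
  refine ⟨-(2 * ((ℓ - 1 : ℕ) : ℚ) * m) / (ℓ * x - 1), ?_, ?_⟩
  · rw [Valuation.mem_integer_iff, map_div₀, hw, div_one]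
    have : (-(2 * ((ℓ - 1 : ℕ) : ℚ) * m)) = ((-(2 * ((ℓ - 1 : ℕ) : ℤ) * m) : ℤ) : ℚ) := by
      push_cast; ring
    rw [this]
    exact (Valuation.mem_integer_iff _ _).mp (intCast_mem_QInt _)
  · rw [hB0]
    field_simp

lemma den_ne_zero_of_mem {x : ℚ} (hx : x ∈ QInt ℓ) : ((x.den : ℕ) : ZMod ℓ) ≠ 0 := by
  rw [Ne, ZMod.natCast_eq_zero_iff]
  exact mem_QInt_iff.mp hx

/-- Reduction mod `ℓ` of `ℓ`-integral rationals. -/
noncomputable def redQ (ℓ : ℕ) [Fact ℓ.Prime] : QInt ℓ →+* ZMod ℓ where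
  toFun r := ((r : ℚ) : ZMod ℓ)
  map_one' := by simp
  map_mul' r s := by
    simpa using Rat.cast_mul_of_ne_zero (den_ne_zero_of_mem r.2) (den_ne_zero_of_mem s.2)
  map_zero' := by simp
  map_add' r s := by
    simpa using Rat.cast_add_of_ne_zero (den_ne_zero_of_mem r.2) (den_ne_zero_of_mem s.2)

lemma redQ_apply (r : QInt ℓ) : redQ ℓ r = ((r : ℚ) : ZMod ℓ) := rfl

lemma redQ_eq_zero_iff (r : QInt ℓ) : redQ ℓ r = 0 ↔ (ℓ : ℤ) ∣ (r : ℚ).num := by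
  rw [redQ_apply, Rat.cast_def, div_eq_zero_iff, or_iff_left (den_ne_zero_of_mem r.2),
    ZMod.intCast_zmod_eq_zero_iff_dvd]

lemma redQ_eq_zero_iff_exists (r : QInt ℓ) : redQ ℓ r = 0 ↔ ∃ s : QInt ℓ, r = ℓ * s := by
  constructor
  · intro h
    obtain ⟨c, hc⟩ := (redQ_eq_zero_iff r).mp h
    have hden : ((r : ℚ).den : ℚ) ≠ 0 := by exact_mod_cast (r : ℚ).den_ne_zero
    have hmem : (c : ℚ) / (r : ℚ).den ∈ QInt ℓ := by
      rw [Valuation.mem_integer_iff, map_div₀]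
      have h1 : Rat.padicValuation ℓ ((r : ℚ).den : ℚ) = 1 := by
        have := mem_QInt_iff.mp r.2
        rw [← Int.cast_natCast, Rat.padicValuation_cast, Int.padicValuation_eq_one_iff]
        exact_mod_cast this
      rw [h1, div_one]
      exact (Valuation.mem_integer_iff _ _).mp (intCast_mem_QInt c)
    refine ⟨⟨_, hmem⟩, Subtype.ext ?_⟩
    push_cast
    rw [← mul_div_assoc]
    have : ((ℓ : ℚ) * c) = (r : ℚ).num := by rw [hc]; push_cast; ring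
    rw [this, Rat.num_div_den]
  · rintro ⟨s, rfl⟩
    rw [map_mul, map_natCast]
    simp

lemma redQ_surjective : Function.Surjective (redQ ℓ) := by
  intro a
  obtain ⟨n, rfl⟩ := ZMod.natCast_zmod_surjective a
  exact ⟨(n : QInt ℓ), map_natCast _ n⟩

/-- The `ℓ`-integral rationals as a subring of `ℂ`. -/
noncomputable def ZLoc (ℓ : ℕ) [Fact ℓ.Prime] : Subring ℂ := (QInt ℓ).map (Rat.castHom ℂ)

lemma mem_ZLoc_iff {x : ℂ} : x ∈ ZLoc ℓ ↔ ∃ r : ℚ, ¬ ℓ ∣ r.den ∧ (r : ℂ) = x := by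
  rw [ZLoc, Subring.mem_map]
  simp only [mem_QInt_iff, Rat.coe_castHom]

lemma ratCast_mem_ZLoc {r : ℚ} (hr : ¬ ℓ ∣ r.den) : (r : ℂ) ∈ ZLoc ℓ :=
  mem_ZLoc_iff.mpr ⟨r, hr, rfl⟩

/-- `ZLoc ℓ ≃ QInt ℓ`. -/
noncomputable def equivQ (ℓ : ℕ) [Fact ℓ.Prime] : QInt ℓ ≃+* ZLoc ℓ :=
  (QInt ℓ).equivMapOfInjective (Rat.castHom ℂ) (Rat.castHom ℂ).injective

lemma coe_equivQ (r : QInt ℓ) : ((equivQ ℓ r : ZLoc ℓ) : ℂ) = ((r : ℚ) : ℂ) := rfl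

/-- Reduction mod `ℓ` on `ZLoc ℓ`. -/
noncomputable def red (ℓ : ℕ) [Fact ℓ.Prime] : ZLoc ℓ →+* ZMod ℓ :=
  (redQ ℓ).comp (equivQ ℓ).symm.toRingHom

lemma red_ratCast {r : ℚ} (hr : ¬ ℓ ∣ r.den) :
    red ℓ ⟨(r : ℂ), ratCast_mem_ZLoc hr⟩ = (r : ZMod ℓ) := by
  have : (equivQ ℓ).symm ⟨(r : ℂ), ratCast_mem_ZLoc hr⟩ = ⟨r, mem_QInt_iff.mpr hr⟩ := by
    rw [RingEquiv.symm_apply_eq]
    exact Subtype.ext rfl
  simp only [red, RingHom.coe_comp, Function.comp_apply, RingEquiv.toRingHom_eq_coe,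
    RingHom.coe_coe, this, redQ_apply]

lemma red_surjective : Function.Surjective (red ℓ) :=
  redQ_surjective.comp (equivQ ℓ).symm.surjective

lemma red_eq_zero_iff (x : ZLoc ℓ) : red ℓ x = 0 ↔ ∃ y : ZLoc ℓ, x = ℓ * y := by
  obtain ⟨r, rfl⟩ := (equivQ ℓ).surjective x
  have hred : red ℓ (equivQ ℓ r) = redQ ℓ r := by
    simp [red]
  rw [hred, redQ_eq_zero_iff_exists]
  constructor
  · rintro ⟨s, rfl⟩
    exact ⟨equivQ ℓ s, by simp⟩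
  · rintro ⟨y, hy⟩
    obtain ⟨s, rfl⟩ := (equivQ ℓ).surjective y
    refine ⟨s, (equivQ ℓ).injective ?_⟩
    rw [hy]; simp

/-- `x ∈ ZLoc ℓ` reduces to `0` iff `x = ℓ * y` with `y ∈ ZLoc ℓ` (statement in `ℂ`). -/
lemma red_eq_zero_iff' (x : ZLoc ℓ) : red ℓ x = 0 ↔ ∃ y ∈ ZLoc ℓ, (x : ℂ) = ℓ * y := by
  rw [red_eq_zero_iff]
  constructor
  · rintro ⟨y, rfl⟩
    exact ⟨y, y.2, by simp⟩
  · rintro ⟨y, hy, h⟩
    exact ⟨⟨y, hy⟩, Subtype.ext (by simpa using h)⟩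

lemma inv_natCast_mem_ZLoc {n : ℕ} (hn : ¬ ℓ ∣ n) : ((n : ℂ))⁻¹ ∈ ZLoc ℓ := by
  have hn0 : n ≠ 0 := by rintro rfl; exact hn (dvd_zero _)
  have : ((n : ℂ))⁻¹ = (((n : ℚ)⁻¹ : ℚ) : ℂ) := by push_cast; rfl
  rw [this]
  refine ratCast_mem_ZLoc ?_
  rw [Rat.inv_natCast_den, if_neg hn0]
  exact hn

lemma intCast_mem_ZLoc (z : ℤ) : (z : ℂ) ∈ ZLoc ℓ := intCast_mem _ z

lemma natCast_mem_ZLoc (z : ℕ) : (z : ℂ) ∈ ZLoc ℓ := natCast_mem _ z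

lemma red_intCast' (z : ℤ) : red ℓ ⟨(z : ℂ), intCast_mem_ZLoc z⟩ = (z : ZMod ℓ) := by
  have : (⟨(z : ℂ), intCast_mem_ZLoc z⟩ : ZLoc ℓ) = (z : ZLoc ℓ) := Subtype.ext (by simp)
  rw [this, map_intCast]

lemma red_natCast' (z : ℕ) : red ℓ ⟨(z : ℂ), natCast_mem_ZLoc z⟩ = (z : ZMod ℓ) := by
  have : (⟨(z : ℂ), natCast_mem_ZLoc z⟩ : ZLoc ℓ) = (z : ZLoc ℓ) := Subtype.ext (by simp)
  rw [this, map_natCast]

/-- Two elements of `ZLoc ℓ` have the same reduction iff their difference is `ℓ * y` with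
`y ∈ ZLoc ℓ`. -/
lemma red_eq_red_iff (x y : ZLoc ℓ) :
    red ℓ x = red ℓ y ↔ ∃ z ∈ ZLoc ℓ, (x : ℂ) - y = ℓ * z := by
  rw [← sub_eq_zero, ← map_sub, red_eq_zero_iff']
  simp

/-- `1/6` is `ℓ`-integral for a prime `ℓ ≥ 5`. -/
lemma inv_six_mem_ZLoc (h5 : 5 ≤ ℓ) : (6 : ℂ)⁻¹ ∈ ZLoc ℓ := by
  have hℓ : ℓ.Prime := Fact.out
  have h6 : ¬ ℓ ∣ 6 := by
    intro h
    have h23 : ℓ ∣ 2 * 3 := h
    rcases (Nat.Prime.dvd_mul hℓ).mp h23 with h | h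
    · have := Nat.le_of_dvd (by norm_num) h; omega
    · have := Nat.le_of_dvd (by norm_num) h; omega
  simpa using inv_natCast_mem_ZLoc (ℓ := ℓ) h6

lemma one_div_six_mem_ZLoc (h5 : 5 ≤ ℓ) : (1 / 6 : ℂ) ∈ ZLoc ℓ := by
  rw [one_div]; exact inv_six_mem_ZLoc h5

lemma even_sub_one_of_three_le (hk : 3 ≤ ℓ - 1) : Even (ℓ - 1) ∧ ℓ ≠ 2 := by
  have hℓ : ℓ.Prime := Fact.out
  have hodd : ℓ % 2 = 1 := by
    rcases Nat.mod_two_eq_zero_or_one ℓ with h | h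
    · exact absurd (hℓ.eq_one_or_self_of_dvd 2 (Nat.dvd_of_mod_eq_zero h)) (by omega)
    · exact h
  exact ⟨⟨(ℓ - 1) / 2, by omega⟩, by omega⟩

/-- **von Staudt–Clausen for `E_{ℓ-1}`**: for `n ≠ 0` the `n`-th `q`-expansion coefficient of
the normalised Eisenstein series of weight `ℓ - 1` is `ℓ * u` with `u` an `ℓ`-integral
rational number. -/
theorem E_coeff_eq (hk : 3 ≤ ℓ - 1) {n : ℕ} (hn : n ≠ 0) :
    ∃ u : ℚ, ¬ ℓ ∣ u.den ∧ (qExpansion 1 (E hk)).coeff n = (((ℓ : ℚ) * u : ℚ) : ℂ) := by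
  obtain ⟨hev, h2⟩ := even_sub_one_of_three_le hk
  obtain ⟨u, hu, h⟩ := exists_two_mul_div_bernoulli (ℓ := ℓ) h2
    ((ArithmeticFunction.sigma (ℓ - 1 - 1) n : ℕ) : ℤ)
  refine ⟨u, mem_QInt_iff.mp hu, ?_⟩
  rw [EisensteinSeries.E_qExpansion_coeff hk hev n, if_neg hn, ← h]
  push_cast
  ring

theorem E_coeff_zero (hk : 3 ≤ ℓ - 1) : (qExpansion 1 (E hk)).coeff 0 = 1 :=
  EisensteinSeries.E_qExpansion_coeff_zero hk (even_sub_one_of_three_le hk).1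

/-- The `q`-expansion coefficients of `E_{ℓ-1}` are `ℓ`-integral rational numbers. -/
theorem E_coeff_mem_ZLoc (hk : 3 ≤ ℓ - 1) (n : ℕ) : (qExpansion 1 (E hk)).coeff n ∈ ZLoc ℓ := by
  rcases eq_or_ne n 0 with rfl | hn
  · rw [E_coeff_zero hk]; exact one_mem _
  · obtain ⟨u, hu, h⟩ := E_coeff_eq hk hn
    rw [h]; push_cast
    exact mul_mem (natCast_mem _ ℓ) (ratCast_mem_ZLoc hu)

/-- **`E_{ℓ-1} ≡ 1 mod ℓ`**. -/
theorem red_E_coeff (hk : 3 ≤ ℓ - 1) (n : ℕ) :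
    red ℓ ⟨(qExpansion 1 (E hk)).coeff n, E_coeff_mem_ZLoc hk n⟩ = if n = 0 then 1 else 0 := by
  rcases eq_or_ne n 0 with rfl | hn
  · rw [if_pos rfl]
    have : (⟨(qExpansion 1 (E hk)).coeff 0, E_coeff_mem_ZLoc hk 0⟩ : ZLoc ℓ) = 1 :=
      Subtype.ext (E_coeff_zero hk)
    rw [this, map_one]
  · rw [if_neg hn, red_eq_zero_iff']
    obtain ⟨u, hu, h⟩ := E_coeff_eq hk hn
    exact ⟨(u : ℂ), ratCast_mem_ZLoc hu, h.trans (by push_cast; rfl)⟩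

end Fermat.Agent.S16.EisVSC
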