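/-
S16 helper (helper18): weights of isobaric polynomials in `Q = E₄`, `R = E₆` are well defined
"modulo small differences" after any specialisation in which some isobaric `A` of positive
weight becomes `1` (application: `A = E_{ℓ-1} ≡ 1 mod ℓ`, so two level-one forms of weights
`k`, `k + 2` cannot have the same nonzero reduction mod `ℓ ≥ 5`).  Pure algebra, Mathlib only.
-/
import Mathlib

set_option autoImplicit false

namespace Fermat.Agent.S16.WtFilt

open MvPolynomial

variable {k : Type*} [Field k]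

/-- The weights `(4, 6)` of the two variables `Q = E₄`, `R = E₆`. -/
def wt : Fin 2 → ℕ := ![4, 6]

theorem weight_eq (d : Fin 2 →₀ ℕ) : Finsupp.weight wt d = 4 * d 0 + 6 * d 1 := by
  rw [Finsupp.weight_apply, Finsupp.sum_fintype _ _ (by simp)]
  simp [wt, Fin.sum_univ_two, mul_comm]

/-- The diagonal specialisation `P ↦ P(x, x)`. -/
noncomputable def diag : MvPolynomial (Fin 2) k →ₐ[k] Polynomial k :=
  aeval ![Polynomial.X, Polynomial.X]

theorem diag_eq_sum (P : MvPolynomial (Fin 2) k) :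
    diag P = ∑ d ∈ P.support, Polynomial.C (coeff d P) * Polynomial.X ^ (d 0 + d 1) := by
  rw [diag, aeval_def, eval₂_eq']
  refine Finset.sum_congr rfl fun d _ => ?_
  simp [Fin.prod_univ_two, pow_add]

theorem aeval_eq_sum {L : Type*} [CommRing L] [Algebra k L] (x y : L)
    (P : MvPolynomial (Fin 2) k) :
    aeval ![x, y] P = ∑ d ∈ P.support, algebraMap k L (coeff d P) * (x ^ d 0 * y ^ d 1) := by
  rw [aeval_def, eval₂_eq']
  refine Finset.sum_congr rfl fun d _ => ?_
  simp [Fin.prod_univ_two]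

theorem aeval_diag {L : Type*} [CommRing L] [Algebra k L] (j : L)
    (P : MvPolynomial (Fin 2) k) :
    Polynomial.aeval j (diag P) =
      ∑ d ∈ P.support, algebraMap k L (coeff d P) * j ^ (d 0 + d 1) := by
  rw [diag_eq_sum, map_sum]
  refine Finset.sum_congr rfl fun d _ => ?_
  simp

/-- Key identity: an isobaric polynomial of weight `w` evaluated at `(j ρ², j ρ³)`. -/
theorem aeval_of_isWeightedHomogeneous {L : Type*} [CommRing L] [Algebra k L] (j ρ : L)
    {P : MvPolynomial (Fin 2) k} {w : ℕ} (hP : IsWeightedHomogeneous wt P w) :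
    aeval ![j * ρ ^ 2, j * ρ ^ 3] P = ρ ^ (w / 2) * Polynomial.aeval j (diag P) := by
  rw [aeval_eq_sum, aeval_diag, Finset.mul_sum]
  refine Finset.sum_congr rfl fun d hd => ?_
  have hw : 4 * d 0 + 6 * d 1 = w := by
    rw [← weight_eq]; exact hP (mem_support_iff.mp hd)
  have hw2 : w / 2 = 2 * d 0 + 3 * d 1 := by omega
  rw [hw2]
  ring

theorem natDegree_diag_le {P : MvPolynomial (Fin 2) k} {w : ℕ}
    (hP : IsWeightedHomogeneous wt P w) : (diag P).natDegree ≤ w / 4 := by
  rw [diag_eq_sum]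
  refine Polynomial.natDegree_sum_le_of_forall_le _ _ fun d hd => ?_
  have hw : 4 * d 0 + 6 * d 1 = w := by
    rw [← weight_eq]; exact hP (mem_support_iff.mp hd)
  refine (Polynomial.natDegree_C_mul_X_pow_le _ _).trans ?_
  omega

theorem coeff_zero_diag {P : MvPolynomial (Fin 2) k} {w : ℕ}
    (hP : IsWeightedHomogeneous wt P w) (hw : 0 < w) : (diag P).coeff 0 = 0 := by
  rw [diag_eq_sum, Polynomial.finsetSum_coeff]
  refine Finset.sum_eq_zero fun d hd => ?_
  have hw' : 4 * d 0 + 6 * d 1 = w := by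
    rw [← weight_eq]; exact hP (mem_support_iff.mp hd)
  rw [Polynomial.coeff_C_mul, Polynomial.coeff_X_pow, if_neg (by omega), mul_zero]


theorem exists_mem_support_of_aeval_ne_zero {L : Type*} [CommRing L] [Algebra k L] (x y : L)
    {P : MvPolynomial (Fin 2) k} (h : aeval ![x, y] P ≠ 0) : ∃ d, d ∈ P.support := by
  by_contra hne
  have : P = 0 := by
    rw [← support_eq_empty]; exact Finset.eq_empty_of_forall_notMem fun d hd => hne ⟨d, hd⟩
  exact h (by rw [this, map_zero])

theorem six_dvd_of_aeval_zero_left_ne_zero {L : Type*} [CommRing L] [Algebra k L] (y : L)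
    {P : MvPolynomial (Fin 2) k} {w : ℕ} (hP : IsWeightedHomogeneous wt P w)
    (h : aeval ![0, y] P ≠ 0) : 6 ∣ w := by
  by_contra hw
  refine h ?_
  rw [aeval_eq_sum]
  refine Finset.sum_eq_zero fun d hd => ?_
  have hw' : 4 * d 0 + 6 * d 1 = w := by
    rw [← weight_eq]; exact hP (mem_support_iff.mp hd)
  have hd0 : d 0 ≠ 0 := fun h0 => hw ⟨d 1, by omega⟩
  rw [zero_pow hd0, zero_mul, mul_zero]

theorem four_dvd_of_aeval_zero_right_ne_zero {L : Type*} [CommRing L] [Algebra k L] (x : L)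
    {P : MvPolynomial (Fin 2) k} {w : ℕ} (hP : IsWeightedHomogeneous wt P w)
    (h : aeval ![x, 0] P ≠ 0) : 4 ∣ w := by
  by_contra hw
  refine h ?_
  rw [aeval_eq_sum]
  refine Finset.sum_eq_zero fun d hd => ?_
  have hw' : 4 * d 0 + 6 * d 1 = w := by
    rw [← weight_eq]; exact hP (mem_support_iff.mp hd)
  have hd1 : d 1 ≠ 0 := fun h1 => hw ⟨d 0, by omega⟩
  rw [zero_pow hd1, mul_zero, mul_zero]

/-- Field version of `aeval_eq_zero_of_aeval_eq`. -/
theorem aeval_eq_zero_of_aeval_eq_field {L : Type*} [Field L] [Algebra k L] (x y : L)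
    (hxy : ¬ (IsAlgebraic k x ∧ IsAlgebraic k y))
    {A P₀ P₁ : MvPolynomial (Fin 2) k} {a n : ℕ} (ha : 0 < a)
    (hA : IsWeightedHomogeneous wt A a) (hA1 : aeval ![x, y] A = 1)
    (h₀ : IsWeightedHomogeneous wt P₀ n) (h₁ : IsWeightedHomogeneous wt P₁ (n + 2))
    (h : aeval ![x, y] P₀ = aeval ![x, y] P₁) : aeval ![x, y] P₀ = 0 := by
  by_contra hne
  have hne1 : aeval ![x, y] P₁ ≠ 0 := h ▸ hne
  -- `x ≠ 0` and `y ≠ 0`
  have hx0 : x ≠ 0 := by
    rintro rfl
    have h6 := six_dvd_of_aeval_zero_left_ne_zero y h₀ hne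
    have h6' := six_dvd_of_aeval_zero_left_ne_zero y h₁ hne1
    omega
  have hy0 : y ≠ 0 := by
    rintro rfl
    have h4 := four_dvd_of_aeval_zero_right_ne_zero x h₀ hne
    have h4' := four_dvd_of_aeval_zero_right_ne_zero x h₁ hne1
    omega
  obtain ⟨ρ, hρ⟩ : ∃ ρ : L, ρ = y / x := ⟨_, rfl⟩
  obtain ⟨j, hj⟩ : ∃ j : L, j = x ^ 3 / y ^ 2 := ⟨_, rfl⟩
  have hρ0 : ρ ≠ 0 := by rw [hρ]; exact div_ne_zero hy0 hx0
  have hxj : x = j * ρ ^ 2 := by rw [hj, hρ]; field_simp
  have hyj : y = j * ρ ^ 3 := by rw [hj, hρ]; field_simp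
  have hval : ∀ {P : MvPolynomial (Fin 2) k} {w : ℕ}, IsWeightedHomogeneous wt P w →
      aeval ![x, y] P = ρ ^ (w / 2) * Polynomial.aeval j (diag P) := by
    intro P w hP
    rw [← aeval_of_isWeightedHomogeneous j ρ hP, ← hxj, ← hyj]
  have e0 := hval h₀
  have e1 := hval h₁
  have eA := hval hA
  rw [hA1] at eA
  -- parity of the weights
  obtain ⟨d, hd⟩ := exists_mem_support_of_aeval_ne_zero x y hne
  have hn : 4 * d 0 + 6 * d 1 = n := by
    rw [← weight_eq]; exact h₀ (mem_support_iff.mp hd)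
  have hA0 : aeval ![x, y] A ≠ 0 := by rw [hA1]; exact one_ne_zero
  obtain ⟨dA, hdA⟩ := exists_mem_support_of_aeval_ne_zero x y hA0
  have haA : 4 * dA 0 + 6 * dA 1 = a := by
    rw [← weight_eq]; exact hA (mem_support_iff.mp hdA)
  have hn2 : (n + 2) / 2 = n / 2 + 1 := by omega
  rw [hn2, pow_succ] at e1
  -- `p₀(j) = ρ * p₁(j)`
  have hp0j : Polynomial.aeval j (diag P₀) ≠ 0 := by
    intro h0; rw [e0, h0, mul_zero] at hne; exact hne rfl
  have hrel : Polynomial.aeval j (diag P₀) = ρ * Polynomial.aeval j (diag P₁) := by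
    have := e0.symm.trans (h.trans e1)
    rw [mul_assoc] at this
    exact mul_left_cancel₀ (pow_ne_zero _ hρ0) this
  have hp1j : Polynomial.aeval j (diag P₁) ≠ 0 := by
    intro h0; rw [h0, mul_zero] at hrel; exact hp0j hrel
  -- the polynomial identity at `j`
  have hαj : Polynomial.aeval j (diag A) ≠ 0 := by
    intro h0; rw [h0, mul_zero] at eA; exact one_ne_zero eA
  have hid : Polynomial.aeval j (diag P₀ ^ (a / 2) * diag A - diag P₁ ^ (a / 2)) = 0 := by
    rw [map_sub, map_mul, map_pow, map_pow, hrel, mul_pow, mul_right_comm, ← eA, one_mul,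
      sub_self]
  -- `j` is transcendental
  have htr : Transcendental k j := by
    intro halg
    have hjΩ : j ∈ Subalgebra.algebraicClosure k L := halg
    have hmem : ∀ p : Polynomial k, Polynomial.aeval j p ∈ Subalgebra.algebraicClosure k L :=
      fun p => (Algebra.adjoin_le (Set.singleton_subset_iff.mpr hjΩ))
        (Polynomial.aeval_mem_adjoin_singleton k j)
    have hρΩ : ρ ∈ Subalgebra.algebraicClosure k L := by
      have : ρ = Polynomial.aeval j (diag P₀) * (Polynomial.aeval j (diag P₁))⁻¹ := by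
        rw [hrel, mul_assoc, mul_inv_cancel₀ hp1j, mul_one]
      rw [this]
      exact Subalgebra.mul_mem _ (hmem _) (IsAlgebraic.inv (hmem _))
    have hxΩ : x ∈ Subalgebra.algebraicClosure k L := by
      rw [hxj]; exact Subalgebra.mul_mem _ hjΩ (Subalgebra.pow_mem _ hρΩ 2)
    have hyΩ : y ∈ Subalgebra.algebraicClosure k L := by
      rw [hyj]; exact Subalgebra.mul_mem _ hjΩ (Subalgebra.pow_mem _ hρΩ 3)
    exact hxy ⟨hxΩ, hyΩ⟩
  have hpoly : diag P₀ ^ (a / 2) * diag A = diag P₁ ^ (a / 2) :=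
    sub_eq_zero.mp ((transcendental_iff.mp htr) _ hid)
  -- degrees
  have hp0 : diag P₀ ≠ 0 := fun h0 => hp0j (by rw [h0, map_zero])
  have hp1 : diag P₁ ≠ 0 := fun h0 => hp1j (by rw [h0, map_zero])
  have hα0 : diag A ≠ 0 := fun h0 => hαj (by rw [h0, map_zero])
  have hdeg := congrArg Polynomial.natDegree hpoly
  rw [Polynomial.natDegree_mul (pow_ne_zero _ hp0) hα0, Polynomial.natDegree_pow,
    Polynomial.natDegree_pow] at hdeg
  have hαdeg : (diag A).natDegree ≤ a / 4 := natDegree_diag_le hA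
  have hαm : (diag A).natDegree < a / 2 := by omega
  have hdvd : a / 2 ∣ (diag A).natDegree := by
    have h1 : a / 2 ∣ a / 2 * (diag P₁).natDegree := dvd_mul_right _ _
    rw [← hdeg] at h1
    exact (Nat.dvd_add_right (dvd_mul_right _ _)).mp h1
  have hα00 : (diag A).natDegree = 0 := Nat.eq_zero_of_dvd_of_lt hdvd hαm
  have hαC := Polynomial.eq_C_of_natDegree_eq_zero hα00
  rw [coeff_zero_diag hA ha, map_zero] at hαC
  exact hα0 hαC

/-- **Weights are well defined modulo small differences.**  Let `q, r` be elements of a domain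
`B` over a field `k`, not both algebraic over `k`.  Suppose some isobaric polynomial `A` of
positive weight (weights `4, 6`) takes the value `1` at `(q, r)`.  If two isobaric polynomials
`P₀, P₁` of weights `n` and `n + 2` take the same value at `(q, r)`, that value is `0`. -/
theorem aeval_eq_zero_of_aeval_eq {B : Type*} [CommRing B] [IsDomain B] [Algebra k B] (q r : B)
    (hqr : ¬ (IsAlgebraic k q ∧ IsAlgebraic k r))
    {A P₀ P₁ : MvPolynomial (Fin 2) k} {a n : ℕ} (ha : 0 < a)
    (hA : IsWeightedHomogeneous wt A a) (hA1 : aeval ![q, r] A = 1)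
    (h₀ : IsWeightedHomogeneous wt P₀ n) (h₁ : IsWeightedHomogeneous wt P₁ (n + 2))
    (h : aeval ![q, r] P₀ = aeval ![q, r] P₁) : aeval ![q, r] P₀ = 0 := by
  have hinj : Function.Injective (algebraMap B (FractionRing B)) :=
    IsFractionRing.injective B (FractionRing B)
  have hfun : (algebraMap B (FractionRing B) ∘ ![q, r]) =
      ![algebraMap B (FractionRing B) q, algebraMap B (FractionRing B) r] := by
    funext i; fin_cases i <;> rfl
  have hcomp : ∀ P : MvPolynomial (Fin 2) k,
      aeval ![algebraMap B (FractionRing B) q, algebraMap B (FractionRing B) r] P =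
        algebraMap B (FractionRing B) (aeval ![q, r] P) := by
    intro P
    rw [← hfun, aeval_algebraMap_apply]
  have key := aeval_eq_zero_of_aeval_eq_field (k := k)
    (algebraMap B (FractionRing B) q) (algebraMap B (FractionRing B) r)
    (fun hh => hqr ⟨(isAlgebraic_algebraMap_iff hinj).mp hh.1,
      (isAlgebraic_algebraMap_iff hinj).mp hh.2⟩)
    ha hA (by rw [hcomp, hA1, map_one]) h₀ h₁ (by rw [hcomp, hcomp, h])
  rw [hcomp] at key
  exact hinj (by rw [key, map_zero])

end Fermat.Agent.S16.WtFilt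

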