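/-
S16 package (helper9): structure of level one modular forms with `q`-expansion coefficients in a
subring `R ⊆ ℂ`.

* `exists_repr` : a level one form `F` of weight `k` whose `q`-expansion has coefficients in `R`
  is an `R`-combination of the forms `E₄ ^ a * E₆ ^ b * Δ ^ j`, `j ≤ k / 12`
  (`4 a + 6 b + 12 j = k`).
* `exists_delta_poly_mod` : for `m ∣ 24` such an `F` is, modulo `m`, a polynomial in `Δ` of
  degree `≤ k / 12` with coefficients in `R`.
* `coeff_mem_of_sum_discriminant_pow` : the powers of `Δ` are independent modulo any `ℓ ∈ R`.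
* `exists_isobaric` : if `6⁻¹ ∈ R`, then `F` is an isobaric polynomial in `E₄`, `E₆` over `R`.
-/
import Mathlib
import Fermat.Agent.S16.WtFilt
import Fermat.Agent.S24.QExpDelta

set_option autoImplicit false

noncomputable section

namespace Fermat.Agent.S16.LevelOneStruct

open UpperHalfPlane ModularForm ModularFormClass MatrixGroups EisensteinSeries

/-- Power series over `ℂ` all of whose coefficients lie in the subring `R`. -/
def coeffRing (R : Subring ℂ) : Subring (PowerSeries ℂ) where
  carrier := {f | ∀ n, PowerSeries.coeff n f ∈ R}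
  mul_mem' := by
    intro f g hf hg n
    rw [PowerSeries.coeff_mul]
    exact R.sum_mem fun x _ => R.mul_mem (hf _) (hg _)
  one_mem' := by
    intro n
    rw [PowerSeries.coeff_one]
    split_ifs
    · exact R.one_mem
    · exact R.zero_mem
  add_mem' := by
    intro f g hf hg n
    rw [map_add]
    exact R.add_mem (hf n) (hg n)
  zero_mem' := by
    intro n
    rw [map_zero]
    exact R.zero_mem
  neg_mem' := by
    intro f hf n
    rw [map_neg]
    exact R.neg_mem (hf n)

theorem mem_coeffRing {R : Subring ℂ} {f : PowerSeries ℂ} :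
    f ∈ coeffRing R ↔ ∀ n, PowerSeries.coeff n f ∈ R := Iff.rfl

theorem C_mem_coeffRing {R : Subring ℂ} {a : ℂ} (ha : a ∈ R) :
    PowerSeries.C a ∈ coeffRing R := by
  intro n
  rw [PowerSeries.coeff_C]
  split_ifs
  · exact ha
  · exact R.zero_mem

theorem intCast_C_mem_coeffRing (R : Subring ℂ) (m : ℤ) :
    PowerSeries.C (m : ℂ) ∈ coeffRing R :=
  C_mem_coeffRing (intCast_mem R m)

theorem map_int_mem_coeffRing (R : Subring ℂ) (f : PowerSeries ℤ) :
    f.map (Int.castRingHom ℂ) ∈ coeffRing R := by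
  intro n
  rw [PowerSeries.coeff_map, eq_intCast]
  exact intCast_mem R _

/-- The formal series `∑_{n ≥ 1} σ_j(n) qⁿ` over `ℤ`. -/
def sigmaSeries (j : ℕ) : PowerSeries ℤ :=
  PowerSeries.mk fun n => if n = 0 then 0 else (ArithmeticFunction.sigma j n : ℤ)

theorem bernoulli_four : bernoulli 4 = -1 / 30 := by decide +kernel

theorem bernoulli_six : bernoulli 6 = 1 / 42 := by decide +kernel

/-- `E₄ = 1 + 240 ∑ σ₃(n) qⁿ`. -/
theorem qExpansion_E4_eq :
    qExpansion 1 E₄ = 1 + PowerSeries.C (240 : ℂ) * (sigmaSeries 3).map (Int.castRingHom ℂ) := by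
  ext m
  rw [E_qExpansion_coeff (by norm_num) ⟨2, rfl⟩ m, map_add, PowerSeries.coeff_C_mul,
    PowerSeries.coeff_map, PowerSeries.coeff_one]
  simp only [sigmaSeries, PowerSeries.coeff_mk]
  split_ifs with h
  · simp
  · rw [bernoulli_four]
    simp only [eq_intCast]
    push_cast
    ring

/-- `E₆ = 1 - 504 ∑ σ₅(n) qⁿ`. -/
theorem qExpansion_E6_eq :
    qExpansion 1 E₆ = 1 - PowerSeries.C (504 : ℂ) * (sigmaSeries 5).map (Int.castRingHom ℂ) := by
  ext m
  rw [E_qExpansion_coeff (by norm_num) ⟨3, rfl⟩ m, map_sub, PowerSeries.coeff_C_mul,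
    PowerSeries.coeff_map, PowerSeries.coeff_one]
  simp only [sigmaSeries, PowerSeries.coeff_mk]
  split_ifs with h
  · simp
  · rw [bernoulli_six]
    simp only [eq_intCast]
    push_cast
    ring

theorem qExpansion_E4_mem (R : Subring ℂ) : qExpansion 1 E₄ ∈ coeffRing R := by
  rw [qExpansion_E4_eq]
  exact (coeffRing R).add_mem (coeffRing R).one_mem
    ((coeffRing R).mul_mem (by exact_mod_cast intCast_C_mem_coeffRing R 240)
      (map_int_mem_coeffRing R _))

theorem qExpansion_E6_mem (R : Subring ℂ) : qExpansion 1 E₆ ∈ coeffRing R := by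
  rw [qExpansion_E6_eq]
  exact (coeffRing R).sub_mem (coeffRing R).one_mem
    ((coeffRing R).mul_mem (by exact_mod_cast intCast_C_mem_coeffRing R 504)
      (map_int_mem_coeffRing R _))

theorem qExpansion_discriminant_eq :
    qExpansion 1 discriminant =
      PowerSeries.X * ModularCurve.dedekindEtaUnit.map (Int.castRingHom ℂ) := by
  rw [Fermat.Agent.S24.qExpansion_discriminant, map_mul, PowerSeries.map_X]

theorem qExpansion_discriminant_mem (R : Subring ℂ) :
    qExpansion 1 discriminant ∈ coeffRing R := by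
  rw [Fermat.Agent.S24.qExpansion_discriminant]
  exact map_int_mem_coeffRing R _

/-- Division by `Δ` preserves `R`-integrality of `q`-expansions. -/
theorem mem_coeffRing_of_discriminant_mul {R : Subring ℂ} {g : PowerSeries ℂ}
    (h : qExpansion 1 discriminant * g ∈ coeffRing R) : g ∈ coeffRing R := by
  set u : PowerSeries ℂ := ModularCurve.dedekindEtaUnit.map (Int.castRingHom ℂ) with hu
  set v : PowerSeries ℂ := ModularCurve.dedekindEtaUnitInv.map (Int.castRingHom ℂ) with hv
  have huv : v * u = 1 := by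
    rw [hu, hv, ← map_mul, mul_comm, ModularCurve.dedekindEtaUnit_mul_inv, map_one]
  have h1 : u * g ∈ coeffRing R := by
    intro n
    have h2 := h (n + 1)
    rwa [qExpansion_discriminant_eq, mul_assoc, PowerSeries.coeff_succ_X_mul] at h2
  have h3 : g = v * (u * g) := by rw [← mul_assoc, huv, one_mul]
  rw [h3]
  exact (coeffRing R).mul_mem (map_int_mem_coeffRing R _) h1

/-! ### The monomials `E₄ ^ a * E₆ ^ b` -/

/-- Exponent of `E₄` in the chosen monomial of weight `k`. -/
def expA (k : ℤ) : ℕ := if k % 4 = 0 then (k / 4).toNat else ((k - 6) / 4).toNat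

/-- Exponent of `E₆` in the chosen monomial of weight `k`. -/
def expB (k : ℤ) : ℕ := if k % 4 = 0 then 0 else 1

theorem expA_expB {k : ℤ} (hk : 4 ≤ k) (hk2 : Even k) :
    (expA k : ℤ) * 4 + (expB k : ℤ) * 6 = k := by
  obtain ⟨r, rfl⟩ := hk2
  unfold expA expB
  split_ifs with h <;> omega

theorem expA_expB_zero : (expA 0 : ℤ) * 4 + (expB 0 : ℤ) * 6 = 0 := by
  simp [expA, expB]

/-- The `q`-expansion of the chosen monomial of weight `k`. -/
def monoQ (k : ℤ) : PowerSeries ℂ := qExpansion 1 E₄ ^ expA k * qExpansion 1 E₆ ^ expB k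

theorem monoQ_zero : monoQ 0 = 1 := by
  simp [monoQ, expA, expB]

theorem monoQ_mem (R : Subring ℂ) (k : ℤ) : monoQ k ∈ coeffRing R :=
  (coeffRing R).mul_mem ((coeffRing R).pow_mem (qExpansion_E4_mem R) _)
    ((coeffRing R).pow_mem (qExpansion_E6_mem R) _)

theorem coeff_zero_monoQ (k : ℤ) : PowerSeries.coeff 0 (monoQ k) = 1 := by
  rw [PowerSeries.coeff_zero_eq_constantCoeff_apply, monoQ, map_mul, map_pow, map_pow,
    ← PowerSeries.coeff_zero_eq_constantCoeff_apply, ← PowerSeries.coeff_zero_eq_constantCoeff_apply,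
    E_qExpansion_coeff_zero _ ⟨2, rfl⟩, E_qExpansion_coeff_zero _ ⟨3, rfl⟩, one_pow, one_pow, one_mul]

/-- The chosen monomial of weight `k` as a modular form. -/
def monoForm {k : ℤ} (hk : 4 ≤ k) (hk2 : Even k) : ModularForm 𝒮ℒ k :=
  ModularForm.mcast (expA_expB hk hk2) ((E₄.pow (expA k)).mul (E₆.pow (expB k)))

theorem qExpansion_monoForm {k : ℤ} (hk : 4 ≤ k) (hk2 : Even k) :
    qExpansion 1 (monoForm hk hk2) = monoQ k := by
  unfold monoForm monoQ
  rw [ModularForm.qExpansion_mcast, ModularForm.qExpansion_mul one_pos one_mem_strictPeriods_SL,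
    ModularForm.qExpansion_pow one_pos one_mem_strictPeriods_SL,
    ModularForm.qExpansion_pow one_pos one_mem_strictPeriods_SL]

/-! ### The structure theorem -/

/-- The statement of the structure theorem in weight `k`. -/
def HasRepr (R : Subring ℂ) (k : ℤ) : Prop :=
  ∀ F : ModularForm 𝒮ℒ k, qExpansion 1 F ∈ coeffRing R →
    ∃ c : ℕ → ℂ, (∀ j, c j ∈ R) ∧
      (∀ j, c j ≠ 0 →
        (expA (k - 12 * j) : ℤ) * 4 + (expB (k - 12 * j) : ℤ) * 6 = k - 12 * j) ∧
      qExpansion 1 F = ∑ j ∈ Finset.range (k.toNat / 12 + 1),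
        PowerSeries.C (c j) * (monoQ (k - 12 * j) * qExpansion 1 discriminant ^ j)

theorem hasRepr_of_forall_eq_zero (R : Subring ℂ) {k : ℤ}
    (h : ∀ e : ModularForm 𝒮ℒ k, (e : ℍ → ℂ) = 0) : HasRepr R k := by
  intro F _
  refine ⟨fun _ => 0, fun _ => R.zero_mem, fun j hj => absurd rfl hj, ?_⟩
  rw [h F, qExpansion_zero]
  simp

theorem hasRepr_zero (R : Subring ℂ) : HasRepr R 0 := by
  intro F hF
  obtain ⟨c, hc⟩ := levelOne_weight_zero_const F
  have hq : qExpansion 1 F = PowerSeries.C c := by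
    have he : (F : ℍ → ℂ) = ⇑(c • (1 : ModularForm 𝒮ℒ 0)) := by
      rw [hc]
      funext z
      simp
    rw [he, FunLike.coe_smul, ModularForm.qExpansion_smul one_pos one_mem_strictPeriods_SL,
      ModularForm.qExpansion_one, PowerSeries.smul_eq_C_mul, mul_one]
  have hcR : c ∈ R := by
    have h0 := hF 0
    rwa [hq, PowerSeries.coeff_C, if_pos rfl] at h0
  refine ⟨fun j => if j = 0 then c else 0, fun j => ?_, fun j hj => ?_, ?_⟩
  · show (if j = 0 then c else 0) ∈ R
    split_ifs
    exacts [hcR, R.zero_mem]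
  · have hj0 : j = 0 := by
      by_contra h
      simp [h] at hj
    subst hj0
    simp [expA, expB]
  · rw [hq]
    simp [monoQ_zero]

/-- The inductive step at an even weight `k ≥ 4`. -/
theorem hasRepr_of_sub_twelve (R : Subring ℂ) {k : ℤ} (hk : 4 ≤ k) (hk2 : Even k)
    (h : HasRepr R (k - 12)) : HasRepr R k := by
  intro F hF
  set a₀ : ℂ := PowerSeries.coeff 0 (qExpansion 1 F) with ha₀
  have ha₀R : a₀ ∈ R := hF 0
  let F₁ : ModularForm 𝒮ℒ k := F - a₀ • monoForm hk hk2
  have hq₁ : qExpansion 1 F₁ = qExpansion 1 F - PowerSeries.C a₀ * monoQ k := by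
    show qExpansion 1 (⇑(F - a₀ • monoForm hk hk2)) = _
    rw [FunLike.coe_sub, ModularForm.qExpansion_sub one_pos one_mem_strictPeriods_SL,
      FunLike.coe_smul, ModularForm.qExpansion_smul one_pos one_mem_strictPeriods_SL,
      qExpansion_monoForm, PowerSeries.smul_eq_C_mul]
  have hcusp : PowerSeries.coeff 0 (qExpansion 1 F₁) = 0 := by
    rw [hq₁, map_sub, PowerSeries.coeff_C_mul, coeff_zero_monoQ, mul_one, sub_self]
  have hfac := qExpansion_eq_qExpansion_discriminant_mul F₁ hcusp
  set G : ModularForm 𝒮ℒ (k - 12) := CuspForm.discriminantEquiv (toCuspForm F₁ hcusp) with hG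
  have hF₁R : qExpansion 1 F₁ ∈ coeffRing R := by
    rw [hq₁]
    exact (coeffRing R).sub_mem hF
      ((coeffRing R).mul_mem (C_mem_coeffRing ha₀R) (monoQ_mem R k))
  have hGR : qExpansion 1 G ∈ coeffRing R :=
    mem_coeffRing_of_discriminant_mul (by rw [← hfac]; exact hF₁R)
  have hqF : qExpansion 1 F =
      PowerSeries.C a₀ * monoQ k + qExpansion 1 discriminant * qExpansion 1 G := by
    rw [← hfac, hq₁]
    ring
  rcases lt_or_ge k 12 with hlt | hge
  · have hG0 : qExpansion 1 G = 0 := by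
      rw [levelOne_neg_weight_eq_zero (by omega) G, qExpansion_zero]
    refine ⟨fun j => if j = 0 then a₀ else 0, fun j => ?_, fun j hj => ?_, ?_⟩
    · show (if j = 0 then a₀ else 0) ∈ R
      split_ifs
      exacts [ha₀R, R.zero_mem]
    · have hj0 : j = 0 := by
        by_contra h
        simp [h] at hj
      subst hj0
      simpa using expA_expB hk hk2
    · have hn : k.toNat / 12 = 0 := by omega
      rw [hqF, hG0, hn]
      simp
  · obtain ⟨c', hc'R, hc'W, hc'⟩ := h G hGR
    refine ⟨fun j => Nat.casesOn j a₀ c', fun j => ?_, fun j hj => ?_, ?_⟩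
    · cases j with
      | zero => exact ha₀R
      | succ j => exact hc'R j
    · cases j with
      | zero => simpa using expA_expB hk hk2
      | succ j =>
        have e : k - 12 * ((j + 1 : ℕ) : ℤ) = k - 12 - 12 * (j : ℤ) := by
          push_cast
          ring
        rw [e]
        exact hc'W j hj
    · have hn : k.toNat / 12 + 1 = ((k - 12).toNat / 12 + 1) + 1 := by omega
      rw [hn, Finset.sum_range_succ', hqF, hc', Finset.mul_sum, add_comm]
      congr 1
      · refine Finset.sum_congr rfl fun j _ => ?_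
        have e : k - 12 * ((j + 1 : ℕ) : ℤ) = k - 12 - 12 * (j : ℤ) := by
          push_cast
          ring
        rw [e]
        show _ = PowerSeries.C (c' j) * _
        ring
      · simp

/-- All weights `≤ m` satisfy the structure theorem. -/
theorem hasRepr_of_le (R : Subring ℂ) (m : ℕ) : ∀ k : ℤ, k ≤ m → HasRepr R k := by
  induction m with
  | zero =>
    intro k hk
    rcases lt_or_eq_of_le hk with hk | hk
    · exact hasRepr_of_forall_eq_zero R fun e =>
        levelOne_neg_weight_eq_zero (by simpa using hk) e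
    · have hk0 : k = 0 := by simpa using hk
      rw [hk0]
      exact hasRepr_zero R
  | succ m ih =>
    intro k hk
    rcases lt_or_eq_of_le hk with hk | hk
    · exact ih k (by push_cast at hk; omega)
    · rcases Int.even_or_odd k with hev | hodd
      · have hk2 : (2 : ℤ) ≤ k := by
          obtain ⟨r, hr⟩ := hev
          push_cast at hk
          omega
        rcases eq_or_lt_of_le hk2 with h2 | h2
        · rw [← h2]
          exact hasRepr_of_forall_eq_zero R fun e => by
            rw [rank_zero_iff_forall_zero.mp levelOne_weight_two_rank_zero e]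
            rfl
        · have hk4 : (4 : ℤ) ≤ k := by
            obtain ⟨r, hr⟩ := hev
            omega
          exact hasRepr_of_sub_twelve R hk4 hev (ih _ (by push_cast at hk ⊢; omega))
      · exact hasRepr_of_forall_eq_zero R fun e => by
          rw [levelOne_odd_weight_eq_zero hodd e]
          rfl

/-- **Structure theorem.** A level one modular form `F` of weight `k` whose `q`-expansion has
coefficients in the subring `R ⊆ ℂ` is an `R`-linear combination of the forms
`E₄ ^ a * E₆ ^ b * Δ ^ j` with `j ≤ k / 12` (on the level of `q`-expansions). -/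
theorem exists_repr (R : Subring ℂ) {k : ℤ} (F : ModularForm 𝒮ℒ k)
    (hF : qExpansion 1 F ∈ coeffRing R) :
    ∃ c : ℕ → ℂ, (∀ j, c j ∈ R) ∧
      (∀ j, c j ≠ 0 →
        (expA (k - 12 * j) : ℤ) * 4 + (expB (k - 12 * j) : ℤ) * 6 = k - 12 * j) ∧
      qExpansion 1 F = ∑ j ∈ Finset.range (k.toNat / 12 + 1),
        PowerSeries.C (c j) * (monoQ (k - 12 * j) * qExpansion 1 discriminant ^ j) :=
  hasRepr_of_le R k.toNat k (Int.self_le_toNat k) F hF

/-! ### Reduction modulo `m ∣ 24` -/

/-- `x ≡ 1` modulo `m`, in the ring of power series with coefficients in `R`. -/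
def IsOneMod (R : Subring ℂ) (m : ℤ) (x : PowerSeries ℂ) : Prop :=
  ∃ H ∈ coeffRing R, x = 1 + PowerSeries.C (m : ℂ) * H

theorem isOneMod_one (R : Subring ℂ) (m : ℤ) : IsOneMod R m 1 :=
  ⟨0, (coeffRing R).zero_mem, by simp⟩

theorem IsOneMod.mul {R : Subring ℂ} {m : ℤ} {x y : PowerSeries ℂ} (hx : IsOneMod R m x)
    (hy : IsOneMod R m y) : IsOneMod R m (x * y) := by
  obtain ⟨a, ha, rfl⟩ := hx
  obtain ⟨b, hb, rfl⟩ := hy
  refine ⟨a + b + PowerSeries.C (m : ℂ) * (a * b), ?_, by ring⟩
  exact (coeffRing R).add_mem ((coeffRing R).add_mem ha hb)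
    ((coeffRing R).mul_mem (intCast_C_mem_coeffRing R m) ((coeffRing R).mul_mem ha hb))

theorem IsOneMod.pow {R : Subring ℂ} {m : ℤ} {x : PowerSeries ℂ} (hx : IsOneMod R m x)
    (n : ℕ) : IsOneMod R m (x ^ n) := by
  induction n with
  | zero =>
    rw [pow_zero]
    exact isOneMod_one R m
  | succ n ih =>
    rw [pow_succ]
    exact ih.mul hx

theorem isOneMod_E4 (R : Subring ℂ) {m : ℤ} (hm : m ∣ 24) : IsOneMod R m (qExpansion 1 E₄) := by
  obtain ⟨t, ht⟩ := hm
  refine ⟨PowerSeries.C ((10 * t : ℤ) : ℂ) * (sigmaSeries 3).map (Int.castRingHom ℂ),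
    (coeffRing R).mul_mem (intCast_C_mem_coeffRing R _) (map_int_mem_coeffRing R _), ?_⟩
  have h240 : (240 : ℂ) = (m : ℂ) * ((10 * t : ℤ) : ℂ) := by
    have h : (240 : ℤ) = m * (10 * t) := by
      rw [← mul_assoc, mul_comm m 10, mul_assoc, ← ht]
      norm_num
    exact_mod_cast h
  rw [qExpansion_E4_eq, ← mul_assoc, ← map_mul, ← h240]

theorem isOneMod_E6 (R : Subring ℂ) {m : ℤ} (hm : m ∣ 24) : IsOneMod R m (qExpansion 1 E₆) := by
  obtain ⟨t, ht⟩ := hm
  refine ⟨PowerSeries.C ((-(21 * t) : ℤ) : ℂ) * (sigmaSeries 5).map (Int.castRingHom ℂ),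
    (coeffRing R).mul_mem (intCast_C_mem_coeffRing R _) (map_int_mem_coeffRing R _), ?_⟩
  have h504 : -(504 : ℂ) = (m : ℂ) * ((-(21 * t) : ℤ) : ℂ) := by
    have h : -(504 : ℤ) = m * (-(21 * t)) := by
      rw [mul_neg, ← mul_assoc, mul_comm m 21, mul_assoc, ← ht]
      norm_num
    exact_mod_cast h
  rw [qExpansion_E6_eq, ← mul_assoc, ← map_mul, ← h504, map_neg, neg_mul, sub_eq_add_neg]

theorem isOneMod_monoQ (R : Subring ℂ) {m : ℤ} (hm : m ∣ 24) (k : ℤ) :
    IsOneMod R m (monoQ k) :=
  ((isOneMod_E4 R hm).pow _).mul ((isOneMod_E6 R hm).pow _)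

/-- **Level one forms modulo `m ∣ 24`.** A level one modular form of weight `k` whose
`q`-expansion has coefficients in `R` is, modulo `m`, a polynomial in `Δ` of degree `≤ k / 12`
with coefficients in `R`. -/
theorem exists_delta_poly_mod (R : Subring ℂ) {m : ℤ} (hm : m ∣ 24) {k : ℤ}
    (F : ModularForm 𝒮ℒ k) (hF : qExpansion 1 F ∈ coeffRing R) :
    ∃ (c : ℕ → ℂ) (G : PowerSeries ℂ), (∀ j, c j ∈ R) ∧ G ∈ coeffRing R ∧
      qExpansion 1 F = ∑ j ∈ Finset.range (k.toNat / 12 + 1),
        PowerSeries.C (c j) * qExpansion 1 discriminant ^ j + PowerSeries.C (m : ℂ) * G := by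
  obtain ⟨c, hcR, -, hc⟩ := exists_repr R F hF
  choose H hHR hH using fun w : ℤ => isOneMod_monoQ R hm w
  refine ⟨c, ∑ j ∈ Finset.range (k.toNat / 12 + 1),
    PowerSeries.C (c j) * (H (k - 12 * j) * qExpansion 1 discriminant ^ j), hcR, ?_, ?_⟩
  · exact (coeffRing R).sum_mem fun j _ => (coeffRing R).mul_mem (C_mem_coeffRing (hcR j))
      ((coeffRing R).mul_mem (hHR _) ((coeffRing R).pow_mem (qExpansion_discriminant_mem R) _))
  · rw [hc, Finset.mul_sum, ← Finset.sum_add_distrib]
    refine Finset.sum_congr rfl fun j _ => ?_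
    rw [hH (k - 12 * j)]
    ring

/-! ### Independence of the powers of `Δ` -/

theorem coeff_discriminant_pow (i j : ℕ) :
    PowerSeries.coeff j (qExpansion 1 discriminant ^ i) =
      if i ≤ j then PowerSeries.coeff (j - i)
        ((ModularCurve.dedekindEtaUnit.map (Int.castRingHom ℂ)) ^ i) else 0 := by
  rw [qExpansion_discriminant_eq, mul_pow, PowerSeries.coeff_X_pow_mul']

theorem coeff_discriminant_pow_of_lt {i j : ℕ} (h : j < i) :
    PowerSeries.coeff j (qExpansion 1 discriminant ^ i) = 0 := by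
  rw [coeff_discriminant_pow, if_neg (by omega)]

theorem coeff_discriminant_pow_self (i : ℕ) :
    PowerSeries.coeff i (qExpansion 1 discriminant ^ i) = 1 := by
  rw [coeff_discriminant_pow, if_pos le_rfl, Nat.sub_self,
    PowerSeries.coeff_zero_eq_constantCoeff_apply, map_pow,
    ← PowerSeries.coeff_zero_eq_constantCoeff_apply, PowerSeries.coeff_map,
    PowerSeries.coeff_zero_eq_constantCoeff_apply, ModularCurve.constantCoeff_dedekindEtaUnit]
  simp

/-- The powers of `Δ` are linearly independent modulo `ℓ`: if an `R`-polynomial in `Δ` is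
divisible by `ℓ` (in power series with coefficients in `R`), then so are its coefficients. -/
theorem coeff_mem_of_sum_discriminant_pow (R : Subring ℂ) (ℓ : ℂ) (n : ℕ) (a : ℕ → ℂ)
    {G : PowerSeries ℂ} (hG : G ∈ coeffRing R)
    (h : ∑ j ∈ Finset.range n, PowerSeries.C (a j) * qExpansion 1 discriminant ^ j =
      PowerSeries.C ℓ * G) :
    ∀ j < n, ∃ b ∈ R, a j = ℓ * b := by
  intro j
  induction j using Nat.strong_induction_on with
  | _ j ih =>
    intro hj
    have hb : ∀ i, ∃ b ∈ R, i < j → a i = ℓ * b := by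
      intro i
      by_cases hi : i < j
      · obtain ⟨b, hb, e⟩ := ih i hi (hi.trans hj)
        exact ⟨b, hb, fun _ => e⟩
      · exact ⟨0, R.zero_mem, fun h => absurd h hi⟩
    choose b hbR hb using hb
    have hcoef := congrArg (PowerSeries.coeff j) h
    rw [map_sum, PowerSeries.coeff_C_mul] at hcoef
    simp only [PowerSeries.coeff_C_mul] at hcoef
    rw [← Finset.sum_range_add_sum_Ico _ (Nat.succ_le_of_lt hj), Finset.sum_range_succ,
      coeff_discriminant_pow_self, mul_one,
      Finset.sum_eq_zero (s := Finset.Ico (j + 1) n) (fun i hi => by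
        rw [coeff_discriminant_pow_of_lt (by have := (Finset.mem_Ico.mp hi).1; omega),
          mul_zero]), add_zero] at hcoef
    refine ⟨PowerSeries.coeff j G - ∑ i ∈ Finset.range j,
      b i * PowerSeries.coeff j (qExpansion 1 discriminant ^ i), ?_, ?_⟩
    · exact R.sub_mem (hG j) (R.sum_mem fun i _ => R.mul_mem (hbR i)
        ((coeffRing R).pow_mem (qExpansion_discriminant_mem R) i j))
    · have e : ∑ i ∈ Finset.range j, a i * PowerSeries.coeff j (qExpansion 1 discriminant ^ i) =
          ℓ * ∑ i ∈ Finset.range j, b i * PowerSeries.coeff j (qExpansion 1 discriminant ^ i) := by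
        rw [Finset.mul_sum]
        refine Finset.sum_congr rfl fun i hi => ?_
        rw [hb i (Finset.mem_range.mp hi), mul_assoc]
      rw [e] at hcoef
      rw [mul_sub, ← hcoef]
      ring

/-! ### Isobaric polynomials in `E₄`, `E₆` when `6` is invertible -/

/-- `Δ = (E₄³ - E₆²) / 1728` on `q`-expansions. -/
theorem qExpansion_discriminant_eq_E4_E6 :
    qExpansion 1 discriminant =
      PowerSeries.C ((1728 : ℂ)⁻¹) * (qExpansion 1 E₄ ^ 3 - qExpansion 1 E₆ ^ 2) := by
  let F : ModularForm 𝒮ℒ 12 :=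
    ModularForm.mcast (by decide) (E₄.pow 3) - ModularForm.mcast (by decide) (E₆.pow 2)
  have hF : qExpansion 1 F = qExpansion 1 E₄ ^ 3 - qExpansion 1 E₆ ^ 2 := by
    simp only [F, FunLike.coe_sub, ModularForm.qExpansion_sub one_pos one_mem_strictPeriods_SL,
      ModularForm.qExpansion_mcast, ModularForm.qExpansion_pow one_pos one_mem_strictPeriods_SL]
  have hΔ : (ModularForm.discriminant : ℍ → ℂ) = ⇑((1728 : ℂ)⁻¹ • F) := by
    funext z
    rw [discriminant_eq_E₄_cube_sub_E₆_sq z]
    simp only [F, smul_apply, sub_apply, coe_mcast, coe_pow, Pi.pow_apply, smul_eq_mul]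
    ring
  rw [hΔ, FunLike.coe_smul, ModularForm.qExpansion_smul one_pos one_mem_strictPeriods_SL, hF,
    PowerSeries.smul_eq_C_mul]

theorem algebraMap_subring_powerSeries (R : Subring ℂ) (r : R) :
    algebraMap R (PowerSeries ℂ) r = PowerSeries.C (r : ℂ) := by
  rw [PowerSeries.algebraMap_apply]
  rfl

/-- **Level one forms over a ring in which `6` is invertible.** If `6⁻¹ ∈ R`, a level one modular
form of weight `k` whose `q`-expansion has coefficients in `R` is an isobaric polynomial of
weight `k` in `E₄` and `E₆` with coefficients in `R`. -/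
theorem exists_isobaric (R : Subring ℂ) (h6 : (6 : ℂ)⁻¹ ∈ R) {k : ℤ} (F : ModularForm 𝒮ℒ k)
    (hF : qExpansion 1 F ∈ coeffRing R) :
    ∃ P : MvPolynomial (Fin 2) R, MvPolynomial.IsWeightedHomogeneous WtFilt.wt P k.toNat ∧
      MvPolynomial.aeval ![qExpansion 1 E₄, qExpansion 1 E₆] P = qExpansion 1 F := by
  obtain ⟨c, hcR, hcW, hc⟩ := exists_repr R F hF
  have h1728 : (1728 : ℂ)⁻¹ ∈ R := by
    have e : (1728 : ℂ)⁻¹ = ((27 : ℕ) : ℂ) * (6 : ℂ)⁻¹ ^ 6 := by norm_num
    rw [e]
    exact R.mul_mem (natCast_mem R 27) (R.pow_mem h6 6)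
  let D : MvPolynomial (Fin 2) R :=
    MvPolynomial.C ⟨(1728 : ℂ)⁻¹, h1728⟩ * (MvPolynomial.X 0 ^ 3 - MvPolynomial.X 1 ^ 2)
  have hD : MvPolynomial.IsWeightedHomogeneous WtFilt.wt D 12 := by
    have h0 : MvPolynomial.IsWeightedHomogeneous WtFilt.wt
        ((MvPolynomial.X 0 : MvPolynomial (Fin 2) R) ^ 3) 12 :=
      (MvPolynomial.isWeightedHomogeneous_X R WtFilt.wt 0).pow 3
    have h1 : MvPolynomial.IsWeightedHomogeneous WtFilt.wt
        ((MvPolynomial.X 1 : MvPolynomial (Fin 2) R) ^ 2) 12 :=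
      (MvPolynomial.isWeightedHomogeneous_X R WtFilt.wt 1).pow 2
    have h2 := (MvPolynomial.isWeightedHomogeneous_C WtFilt.wt
      (⟨(1728 : ℂ)⁻¹, h1728⟩ : R)).mul (h0.sub h1)
    rwa [zero_add] at h2
  let T : ℕ → MvPolynomial (Fin 2) R := fun j =>
    MvPolynomial.C ⟨c j, hcR j⟩ * (MvPolynomial.X 0 ^ expA (k - 12 * j) *
      MvPolynomial.X 1 ^ expB (k - 12 * j) * D ^ j)
  refine ⟨∑ j ∈ Finset.range (k.toNat / 12 + 1), T j, ?_, ?_⟩
  · refine MvPolynomial.IsWeightedHomogeneous.sum _ _ _ fun j _ => ?_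
    by_cases hj : c j = 0
    · have hT : T j = 0 := by
        have h0 : (⟨c j, hcR j⟩ : R) = 0 := Subtype.ext hj
        simp only [T, h0, map_zero, zero_mul]
      rw [hT]
      exact MvPolynomial.isWeightedHomogeneous_zero _ _ _
    · have hw := hcW j hj
      have h0 : MvPolynomial.IsWeightedHomogeneous WtFilt.wt
          ((MvPolynomial.X 0 : MvPolynomial (Fin 2) R) ^ expA (k - 12 * j))
          (expA (k - 12 * j) * 4) :=
        (MvPolynomial.isWeightedHomogeneous_X R WtFilt.wt 0).pow _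
      have h1 : MvPolynomial.IsWeightedHomogeneous WtFilt.wt
          ((MvPolynomial.X 1 : MvPolynomial (Fin 2) R) ^ expB (k - 12 * j))
          (expB (k - 12 * j) * 6) :=
        (MvPolynomial.isWeightedHomogeneous_X R WtFilt.wt 1).pow _
      have h2 := (MvPolynomial.isWeightedHomogeneous_C WtFilt.wt
        (⟨c j, hcR j⟩ : R)).mul ((h0.mul h1).mul (hD.pow j))
      have e : 0 + (expA (k - 12 * j) * 4 + expB (k - 12 * j) * 6 + j • 12) = k.toNat := by
        rw [smul_eq_mul]
        omega
      rwa [e] at h2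
  · rw [map_sum, hc]
    refine Finset.sum_congr rfl fun j _ => ?_
    simp only [T, D, map_mul, map_pow, map_sub, MvPolynomial.aeval_C, MvPolynomial.aeval_X,
      algebraMap_subring_powerSeries, Matrix.cons_val_zero, Matrix.cons_val_one, monoQ,
      qExpansion_discriminant_eq_E4_E6]

end Fermat.Agent.S16.LevelOneStruct

end
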