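/-
S16 / SDConst (helper18, blueprint package P9): `theorem main : SDConstStmt`.

No level one form of weight `2 ℓ^a` (`ℓ ≥ 5` prime, `a ≥ 1`) with `ℓ`-integral `q`-expansion is
congruent to a nonzero constant modulo a maximal ideal `𝔪 ∋ ℓ` of `RL ℓ`.

Proof.  Let `κ = RL ℓ ⧸ 𝔪` (a field).  By `LevelOneStruct.exists_isobaric` (`6⁻¹ ∈ RL ℓ`) the
forms `e` (weight `2 ℓ^a`) and `E_{ℓ-1}` are isobaric polynomials `P₁`, `A` in `E₄`, `E₆` over
`RL ℓ`; by von Staudt–Clausen (`EisVSC.E_coeff_eq`) `A(E₄, E₆) ≡ 1 mod 𝔪`.  With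
`j (ℓ - 1) = 2 ℓ^a - 2` the polynomial `P₀ = c₀ A^j` is isobaric of weight `2 ℓ^a - 2` and
`P₀(E₄, E₆) ≡ c₀ ≡ P₁(E₄, E₆) mod 𝔪`.  The pure-algebra lemma
`WtFilt.aeval_eq_zero_of_aeval_eq` (weights `n`, `n + 2`) gives `c₀ ≡ 0`.
-/
import Fermat.Agent.S16.Defs
import Fermat.Agent.S16.WtFilt
import Fermat.Agent.S16.EisVSC
import Fermat.Agent.S16.LevelOneStruct

namespace Fermat.Agent.S16.SDConst

open Fermat.Agent.S16 UpperHalfPlane ModularForm MatrixGroups



section PowerSeriesAlg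

variable {κ : Type*} [Field κ]

/-- A power series over a field `κ` which is algebraic over `κ` is constant. -/
lemma eq_C_of_isAlgebraic {f : PowerSeries κ} (hf : IsAlgebraic κ f) :
    f = PowerSeries.C (PowerSeries.constantCoeff f) := by
  set g := f - PowerSeries.C (PowerSeries.constantCoeff f) with hg
  have hgalg : IsAlgebraic κ g := hf.sub (isAlgebraic_algebraMap (PowerSeries.constantCoeff f))
  have hint : IsIntegral κ g := hgalg.isIntegral
  have hg0 : PowerSeries.constantCoeff g = 0 := by simp [hg]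
  have h0 : (minpoly κ g).coeff 0 = 0 := by
    have h1 := minpoly.aeval κ g
    have h2 := congrArg PowerSeries.constantCoeff h1
    rw [Polynomial.aeval_def, Polynomial.hom_eval₂, map_zero, hg0] at h2
    have h3 : (PowerSeries.constantCoeff).comp (algebraMap κ (PowerSeries κ)) = RingHom.id κ := by
      ext x; simp
    rw [h3, Polynomial.eval₂_id] at h2
    rw [Polynomial.coeff_zero_eq_eval_zero]; exact h2
  have := (minpoly.coeff_zero_eq_zero hint).mp h0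
  exact sub_eq_zero.mp this

lemma not_isAlgebraic_of_coeff_one_ne_zero {f : PowerSeries κ}
    (hf : PowerSeries.coeff 1 f ≠ 0) : ¬ IsAlgebraic κ f := by
  intro h
  apply hf
  rw [eq_C_of_isAlgebraic h, PowerSeries.coeff_C]
  simp

end PowerSeriesAlg

section Generic

variable {R : Type*} [CommRing R] {κ : Type*} [Field κ]

lemma isWeightedHomogeneous_map (φ : R →+* κ) {P : MvPolynomial (Fin 2) R} {n : ℕ}
    (hP : MvPolynomial.IsWeightedHomogeneous WtFilt.wt P n) :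
    MvPolynomial.IsWeightedHomogeneous WtFilt.wt (MvPolynomial.map φ P) n := by
  intro d hd
  apply hP
  intro h0
  apply hd
  rw [MvPolynomial.coeff_map, h0, map_zero]

lemma map_aeval_map (φ : R →+* κ) (x y : PowerSeries R) (P : MvPolynomial (Fin 2) R) :
    PowerSeries.map φ (MvPolynomial.aeval ![x, y] P) =
      MvPolynomial.aeval ![PowerSeries.map φ x, PowerSeries.map φ y] (MvPolynomial.map φ P) := by
  rw [MvPolynomial.aeval_def, MvPolynomial.aeval_def, MvPolynomial.eval₂_comp_left,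
    MvPolynomial.eval₂_map]
  congr 1
  · ext r n
    simp [PowerSeries.coeff_C]
  · funext i
    fin_cases i <;> simp

/-- **Generic weight-congruence lemma.** `R` a commutative ring, `φ : R →+* κ` a ring
homomorphism to a field, `E4 E6 : R⟦q⟧` two series one of which has non-constant reduction, `A`
an isobaric polynomial of positive weight with `A(E4, E6) ≡ 1 mod φ`. If `P₀`, `P₁` are isobaric
of weights `n`, `n + 2` and `P₀(E4, E6) ≡ P₁(E4, E6) mod φ`, then `P₀(E4, E6) ≡ 0 mod φ`. -/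
theorem map_aeval_eq_zero (φ : R →+* κ) (E4 E6 : PowerSeries R)
    (hnc : φ (PowerSeries.coeff 1 E4) ≠ 0 ∨ φ (PowerSeries.coeff 1 E6) ≠ 0)
    {A P₀ P₁ : MvPolynomial (Fin 2) R} {a n : ℕ} (ha : 0 < a)
    (hA : MvPolynomial.IsWeightedHomogeneous WtFilt.wt A a)
    (hA1 : PowerSeries.map φ (MvPolynomial.aeval ![E4, E6] A) = 1)
    (h₀ : MvPolynomial.IsWeightedHomogeneous WtFilt.wt P₀ n)
    (h₁ : MvPolynomial.IsWeightedHomogeneous WtFilt.wt P₁ (n + 2))
    (h : PowerSeries.map φ (MvPolynomial.aeval ![E4, E6] P₀) =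
      PowerSeries.map φ (MvPolynomial.aeval ![E4, E6] P₁)) :
    PowerSeries.map φ (MvPolynomial.aeval ![E4, E6] P₀) = 0 := by
  rw [map_aeval_map] at hA1 h ⊢
  rw [map_aeval_map] at h
  refine WtFilt.aeval_eq_zero_of_aeval_eq (k := κ) (B := PowerSeries κ) _ _ ?_ ha
    (isWeightedHomogeneous_map φ hA) hA1 (isWeightedHomogeneous_map φ h₀)
    (isWeightedHomogeneous_map φ h₁) h
  rintro ⟨h4, h6⟩
  rcases hnc with hnc | hnc
  · exact not_isAlgebraic_of_coeff_one_ne_zero (by simpa using hnc) h4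
  · exact not_isAlgebraic_of_coeff_one_ne_zero (by simpa using hnc) h6

end Generic



section Subring

variable (R : Subring ℂ)

/-- A complex power series with coefficients in the subring `R`, as a power series over `R`. -/
noncomputable def toR (s : PowerSeries ℂ) (hs : ∀ n, PowerSeries.coeff n s ∈ R) :
    PowerSeries R :=
  PowerSeries.mk fun n => ⟨PowerSeries.coeff n s, hs n⟩

@[simp] lemma coeff_toR (s : PowerSeries ℂ) (hs : ∀ n, PowerSeries.coeff n s ∈ R) (n : ℕ) :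
    PowerSeries.coeff n (toR R s hs) = ⟨PowerSeries.coeff n s, hs n⟩ := by
  simp [toR]

lemma map_subtype_toR (s : PowerSeries ℂ) (hs : ∀ n, PowerSeries.coeff n s ∈ R) :
    PowerSeries.map R.subtype (toR R s hs) = s := by
  ext n; simp

lemma map_subtype_injective : Function.Injective (PowerSeries.map R.subtype) := by
  intro a b h
  ext n
  have := congrArg (PowerSeries.coeff n) h
  simpa using this

lemma map_subtype_aeval (x y : PowerSeries R) (P : MvPolynomial (Fin 2) R) :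
    PowerSeries.map R.subtype (MvPolynomial.aeval ![x, y] P) =
      MvPolynomial.aeval ![PowerSeries.map R.subtype x, PowerSeries.map R.subtype y] P := by
  rw [MvPolynomial.aeval_def, MvPolynomial.aeval_def, MvPolynomial.eval₂_comp_left]
  have h1 : (PowerSeries.map R.subtype).comp (algebraMap R (PowerSeries R)) =
      algebraMap R (PowerSeries ℂ) := by
    ext r n
    simp [PowerSeries.algebraMap_apply, PowerSeries.coeff_C]
    rfl
  have h2 : (PowerSeries.map R.subtype) ∘ ![x, y] =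
      ![PowerSeries.map R.subtype x, PowerSeries.map R.subtype y] := by
    funext i
    fin_cases i <;> simp
  rw [h1, h2]

/-- If `P(E4, E6) = s` in `ℂ⟦q⟧` with `P` over `R` and `E4`, `E6`, `s` having coefficients in
`R`, then the same identity holds in `R⟦q⟧`. -/
lemma aeval_toR {x y s : PowerSeries ℂ} (hx : ∀ n, PowerSeries.coeff n x ∈ R)
    (hy : ∀ n, PowerSeries.coeff n y ∈ R) (hs : ∀ n, PowerSeries.coeff n s ∈ R)
    {P : MvPolynomial (Fin 2) R} (hP : MvPolynomial.aeval ![x, y] P = s) :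
    MvPolynomial.aeval ![toR R x hx, toR R y hy] P = toR R s hs := by
  apply map_subtype_injective R
  rw [map_subtype_aeval, map_subtype_toR, map_subtype_toR, map_subtype_toR, hP]

end Subring

variable {ℓ : ℕ}

lemma ratCast_mem_RL {r : ℚ} (hℓ : ℓ.Prime) (hr : ¬ ℓ ∣ r.den) : (r : ℂ) ∈ RL ℓ := by
  refine ⟨r.den, ((Nat.Prime.coprime_iff_not_dvd hℓ).mpr hr).symm, ?_⟩
  have : ((r.den : ℕ) : ℂ) * (r : ℂ) = ((r.num : ℤ) : ℂ) := by
    have h := Rat.mul_den_eq_num r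
    have h2 : ((r * (r.den : ℚ) : ℚ) : ℂ) = ((r.num : ℚ) : ℂ) := by rw [h]
    push_cast at h2
    rw [mul_comm]; exact h2
  rw [this]
  exact isIntegral_algebraMap (R := ℤ) (A := ℂ) (x := r.num)

lemma inv_six_mem_RL (hℓ : ℓ.Prime) (h5 : 5 ≤ ℓ) : (6 : ℂ)⁻¹ ∈ RL ℓ := by
  have h6 : ¬ ℓ ∣ 6 := by
    intro h
    have h23 : ℓ ∣ 2 * 3 := h
    rcases (Nat.Prime.dvd_mul hℓ).mp h23 with h | h
    · have := Nat.le_of_dvd (by norm_num) h; omega
    · have := Nat.le_of_dvd (by norm_num) h; omega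
  have hr : ((6 : ℂ))⁻¹ = (((6 : ℚ)⁻¹ : ℚ) : ℂ) := by push_cast; rfl
  rw [hr]
  refine ratCast_mem_RL hℓ ?_
  have : ((6 : ℚ)⁻¹).den = 6 := by norm_num
  rw [this]; exact h6

/-- The `q`-expansion coefficients of `E_{ℓ-1}` lie in `RL ℓ`, and those of positive index are
multiples of `ℓ` there. -/
lemma E_coeff_mem_RL (hℓ : ℓ.Prime) (hk : 3 ≤ ℓ - 1) (n : ℕ) :
    (qExpansion 1 (E hk)).coeff n ∈ RL ℓ ∧
      (n ≠ 0 → ∃ y ∈ RL ℓ, (qExpansion 1 (E hk)).coeff n = (ℓ : ℂ) * y) := by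
  have : Fact ℓ.Prime := ⟨hℓ⟩
  rcases eq_or_ne n 0 with rfl | hn
  · rw [EisVSC.E_coeff_zero hk]
    exact ⟨one_mem _, fun h => absurd rfl h⟩
  · obtain ⟨u, hu, h⟩ := EisVSC.E_coeff_eq hk hn
    have hu' : (u : ℂ) ∈ RL ℓ := ratCast_mem_RL hℓ hu
    have h' : (qExpansion 1 (E hk)).coeff n = (ℓ : ℂ) * (u : ℂ) := h.trans (by push_cast; rfl)
    exact ⟨h' ▸ mul_mem (natCast_mem _ ℓ) hu', fun _ => ⟨u, hu', h'⟩⟩

lemma exists_mul_sub_one (ℓ a : ℕ) (hℓ : 2 ≤ ℓ) :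
    ∃ j : ℕ, j * (ℓ - 1) + 2 = 2 * ℓ ^ a := by
  obtain ⟨t, ht⟩ : ℓ - 1 ∣ ℓ ^ a - 1 := by
    simpa only [one_pow] using Nat.sub_dvd_pow_sub_pow ℓ 1 a
  have hpos : 1 ≤ ℓ ^ a := Nat.one_le_pow _ _ (by omega)
  refine ⟨2 * t, ?_⟩
  have : 2 * t * (ℓ - 1) = 2 * (ℓ ^ a - 1) := by rw [ht]; ring
  omega

/-- **P9.** No level one form of weight `2 ℓ^a` (`ℓ ≥ 5`) with `ℓ`-integral coefficients is
congruent to a nonzero constant modulo a maximal ideal above `ℓ`. -/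
theorem main : SDConstStmt := by
  intro ℓ hℓ h5 𝔪 h𝔪 hℓ𝔪 a _ha k hk e c hc hc𝔪
  subst hk
  have hfact : Fact ℓ.Prime := ⟨hℓ⟩
  let _ : Field (RL ℓ ⧸ 𝔪) := Ideal.Quotient.field 𝔪
  set φ : RL ℓ →+* RL ℓ ⧸ 𝔪 := Ideal.Quotient.mk 𝔪 with hφ
  have hφ0 : ∀ x : RL ℓ, φ x = 0 ↔ x ∈ 𝔪 := fun x => Ideal.Quotient.eq_zero_iff_mem
  have h6 := inv_six_mem_RL hℓ h5
  have hk3 : 3 ≤ ℓ - 1 := by omega
  -- the three polynomials
  have hEmem : ∀ n, (qExpansion 1 (E hk3)).coeff n ∈ RL ℓ := fun n => (E_coeff_mem_RL hℓ hk3 n).1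
  have hemem : ∀ n, (qExpansion 1 e).coeff n ∈ RL ℓ := fun n => by
    rw [hc n]; exact (c n).2
  obtain ⟨A, hA, hAE⟩ := LevelOneStruct.exists_isobaric (RL ℓ) h6 (E hk3) hEmem
  obtain ⟨P₁, h₁, hP₁⟩ := LevelOneStruct.exists_isobaric (RL ℓ) h6 e hemem
  rw [Int.toNat_natCast] at hA
  have hk2 : (2 * (ℓ : ℤ) ^ a).toNat = 2 * ℓ ^ a := by
    have : (2 * (ℓ : ℤ) ^ a) = ((2 * ℓ ^ a : ℕ) : ℤ) := by push_cast; ring
    rw [this, Int.toNat_natCast]
  rw [hk2] at h₁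
  obtain ⟨j, hj⟩ := exists_mul_sub_one ℓ a (by omega)
  have hE4 : ∀ n, (qExpansion 1 E₄).coeff n ∈ RL ℓ := LevelOneStruct.qExpansion_E4_mem (RL ℓ)
  have hE6 : ∀ n, (qExpansion 1 E₆).coeff n ∈ RL ℓ := LevelOneStruct.qExpansion_E6_mem (RL ℓ)
  set E4 := toR (RL ℓ) (qExpansion 1 E₄) hE4 with hE4def
  set E6 := toR (RL ℓ) (qExpansion 1 E₆) hE6 with hE6def
  have eA := aeval_toR (RL ℓ) hE4 hE6 hEmem hAE
  have e₁ := aeval_toR (RL ℓ) hE4 hE6 hemem hP₁
  -- `E₄` or `E₆` is non-constant modulo `𝔪`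
  have hnc : φ (PowerSeries.coeff 1 E4) ≠ 0 ∨ φ (PowerSeries.coeff 1 E6) ≠ 0 := by
    have c4 : PowerSeries.coeff 1 E4 = ((240 : ℕ) : RL ℓ) := by
      rw [hE4def, coeff_toR]
      exact Subtype.ext (E₄_qExpansion_coeff_one.trans
        (by rw [Subring.coe_natCast]; norm_num))
    have c6 : PowerSeries.coeff 1 E6 = -((504 : ℕ) : RL ℓ) := by
      rw [hE6def, coeff_toR]
      exact Subtype.ext (E₆_qExpansion_coeff_one.trans
        (by rw [Subring.coe_neg, Subring.coe_natCast]; norm_num))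
    rw [c4, c6, map_neg, neg_ne_zero]
    by_contra hcon
    push Not at hcon
    obtain ⟨h240, h504⟩ := hcon
    rw [hφ0] at h240 h504
    have h24 : ((24 : ℕ) : RL ℓ) ∈ 𝔪 := by
      have : ((24 : ℕ) : RL ℓ) = ((504 : ℕ) : RL ℓ) - 2 * ((240 : ℕ) : RL ℓ) := by
        push_cast; norm_num
      rw [this]
      exact 𝔪.sub_mem h504 (𝔪.mul_mem_left _ h240)
    have hcop : Nat.Coprime 24 ℓ := by
      rw [Nat.coprime_comm, Nat.Prime.coprime_iff_not_dvd hℓ]
      intro h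
      have h23 : ℓ ∣ 2 ^ 3 * 3 := h
      rcases (Nat.Prime.dvd_mul hℓ).mp h23 with h | h
      · have := Nat.le_of_dvd (by norm_num) (hℓ.dvd_of_dvd_pow h); omega
      · have := Nat.le_of_dvd (by norm_num) h; omega
    have hone : (1 : RL ℓ) ∈ 𝔪 := by
      have hb : ((24 : ℕ) : ℤ) * Nat.gcdA 24 ℓ + (ℓ : ℤ) * Nat.gcdB 24 ℓ = 1 := by
        have := Nat.gcd_eq_gcd_ab 24 ℓ
        rw [hcop] at this
        exact_mod_cast this.symm
      have hb' : ((24 : ℕ) : RL ℓ) * ((Nat.gcdA 24 ℓ : ℤ) : RL ℓ) +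
          ((ℓ : ℕ) : RL ℓ) * ((Nat.gcdB 24 ℓ : ℤ) : RL ℓ) = 1 := by
        exact_mod_cast congrArg (Int.cast : ℤ → RL ℓ) hb
      rw [← hb']
      exact 𝔪.add_mem (𝔪.mul_mem_right _ h24) (𝔪.mul_mem_right _ hℓ𝔪)
    exact h𝔪.ne_top ((Ideal.eq_top_iff_one 𝔪).mpr hone)
  -- `E_{ℓ-1} ≡ 1`
  have hA1 : PowerSeries.map φ (MvPolynomial.aeval ![E4, E6] A) = 1 := by
    rw [eA]
    ext n
    rw [PowerSeries.coeff_map, coeff_toR, PowerSeries.coeff_one]
    split_ifs with hn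
    · subst hn
      have : (⟨(qExpansion 1 (E hk3)).coeff 0, hEmem 0⟩ : RL ℓ) = 1 :=
        Subtype.ext (EisVSC.E_coeff_zero hk3)
      rw [this, map_one]
    · rw [hφ0]
      obtain ⟨y, hy, hy'⟩ := (E_coeff_mem_RL hℓ hk3 n).2 hn
      have : (⟨(qExpansion 1 (E hk3)).coeff n, hEmem n⟩ : RL ℓ) = ((ℓ : ℕ) : RL ℓ) * ⟨y, hy⟩ :=
        Subtype.ext (hy'.trans (by simp))
      rw [this]
      exact 𝔪.mul_mem_right _ hℓ𝔪
  -- the two polynomials of weights `n`, `n + 2`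
  have h₀ : MvPolynomial.IsWeightedHomogeneous WtFilt.wt (MvPolynomial.C (c 0) * A ^ j)
      (j * (ℓ - 1)) := by
    have := (MvPolynomial.isWeightedHomogeneous_C WtFilt.wt (c 0)).mul (hA.pow j)
    simpa using this
  have h₁' : MvPolynomial.IsWeightedHomogeneous WtFilt.wt P₁ (j * (ℓ - 1) + 2) := by
    rw [hj]; exact h₁
  have hP₀ : PowerSeries.map φ (MvPolynomial.aeval ![E4, E6] (MvPolynomial.C (c 0) * A ^ j)) =
      PowerSeries.C (φ (c 0)) := by
    rw [map_mul, map_pow, map_mul, map_pow, hA1, one_pow, mul_one, MvPolynomial.aeval_C,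
      PowerSeries.algebraMap_apply, Algebra.algebraMap_self, RingHom.id_apply, PowerSeries.map_C]
  have heq : PowerSeries.map φ (MvPolynomial.aeval ![E4, E6] (MvPolynomial.C (c 0) * A ^ j)) =
      PowerSeries.map φ (MvPolynomial.aeval ![E4, E6] P₁) := by
    rw [hP₀, e₁]
    ext n
    rw [PowerSeries.coeff_map, coeff_toR, PowerSeries.coeff_C]
    have hcn : (⟨(qExpansion 1 e).coeff n, hemem n⟩ : RL ℓ) = c n := Subtype.ext (hc n)
    rw [hcn]
    split_ifs with hn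
    · rw [hn]
    · exact ((hφ0 _).mpr (hc𝔪 n (Nat.one_le_iff_ne_zero.mpr hn))).symm
  have hz := map_aeval_eq_zero φ E4 E6 hnc (by omega : 0 < ℓ - 1) hA hA1 h₀ h₁' heq
  rw [hP₀] at hz
  have := congrArg (PowerSeries.coeff 0) hz
  rw [PowerSeries.coeff_C, if_pos rfl, map_zero] at this
  exact (hφ0 _).mp this

end Fermat.Agent.S16.SDConst
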