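/-
S16 package P8 (helper9): the level one "Sturm bound modulo an ideal" `SturmStmt`,
from the structure theorem `LevelOneStruct.exists_repr` with `R := RL ℓ`.
-/
import Mathlib
import Fermat.Agent.S16.Defs
import Fermat.Agent.S16.LevelOneStruct

set_option autoImplicit false

noncomputable section

namespace Fermat.Agent.S16.SturmL1

open UpperHalfPlane ModularForm ModularFormClass MatrixGroups EisensteinSeries
open Fermat.Agent.S16.LevelOneStruct

/-- Coefficients of `f * Δ ^ j` below `j` vanish. -/
theorem coeff_mul_discriminant_pow_of_lt (f : PowerSeries ℂ) {j n : ℕ} (h : n < j) :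
    PowerSeries.coeff n (f * qExpansion 1 discriminant ^ j) = 0 := by
  rw [PowerSeries.coeff_mul]
  refine Finset.sum_eq_zero fun x hx => ?_
  have hx2 : x.2 ≤ n := by
    have := Finset.HasAntidiagonal.mem_antidiagonal.mp hx
    omega
  rw [coeff_discriminant_pow_of_lt (lt_of_le_of_lt hx2 h), mul_zero]

/-- The `j`-th coefficient of `f * Δ ^ j` is the constant coefficient of `f`. -/
theorem coeff_mul_discriminant_pow_self (f : PowerSeries ℂ) (j : ℕ) :
    PowerSeries.coeff j (f * qExpansion 1 discriminant ^ j) = PowerSeries.coeff 0 f := by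
  rw [PowerSeries.coeff_mul, Finset.sum_eq_single (0, j)]
  · rw [coeff_discriminant_pow_self, mul_one]
  · intro x hx hne
    have hsum := Finset.HasAntidiagonal.mem_antidiagonal.mp hx
    have hx2 : x.2 < j := by
      rcases Nat.lt_or_ge x.2 j with h | h
      · exact h
      · exfalso
        apply hne
        ext
        · show x.1 = 0
          omega
        · show x.2 = j
          omega
    rw [coeff_discriminant_pow_of_lt hx2, mul_zero]
  · intro h
    exact absurd (Finset.HasAntidiagonal.mem_antidiagonal.mpr (zero_add j)) h

/-- **P8.** The level one Sturm bound modulo an ideal of `RL ℓ`. -/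
theorem main : SturmStmt := by
  intro ℓ I k F c hc hI
  rcases lt_or_ge k 0 with hk | hk
  · -- negative weight: `F = 0`
    intro n
    have h0 : (c n : ℂ) = 0 := by
      rw [← hc n, levelOne_neg_weight_eq_zero hk F, qExpansion_zero, map_zero]
    have h1 : c n = 0 := Subtype.ext h0
    rw [h1]
    exact I.zero_mem
  · have hF : qExpansion 1 F ∈ coeffRing (RL ℓ) := fun n => by
      rw [hc n]
      exact (c n).2
    obtain ⟨r, hr, -, hrepr⟩ := exists_repr (RL ℓ) F hF
    set N : ℕ := k.toNat / 12 with hN
    -- the basis series
    set M : ℕ → PowerSeries ℂ := fun j => monoQ (k - 12 * j) * qExpansion 1 discriminant ^ j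
      with hM
    have hMR : ∀ j, M j ∈ coeffRing (RL ℓ) := fun j =>
      (coeffRing (RL ℓ)).mul_mem (monoQ_mem _ _)
        ((coeffRing (RL ℓ)).pow_mem (qExpansion_discriminant_mem _) _)
    have hMlt : ∀ j n, n < j → PowerSeries.coeff n (M j) = 0 := fun j n h =>
      coeff_mul_discriminant_pow_of_lt _ h
    have hMself : ∀ j, PowerSeries.coeff j (M j) = 1 := fun j => by
      rw [hM]
      show PowerSeries.coeff j (monoQ (k - 12 * j) * qExpansion 1 discriminant ^ j) = 1
      rw [coeff_mul_discriminant_pow_self, coeff_zero_monoQ]
    -- everything inside `RL ℓ`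
    set r' : ℕ → RL ℓ := fun j => ⟨r j, hr j⟩ with hr'
    set m' : ℕ → ℕ → RL ℓ := fun j n => ⟨PowerSeries.coeff n (M j), hMR j n⟩ with hm'
    have hcn : ∀ n, c n = ∑ j ∈ Finset.range (N + 1), r' j * m' j n := by
      intro n
      apply Subtype.ext
      rw [← hc n, hrepr, map_sum]
      push_cast
      refine Finset.sum_congr rfl fun j _ => ?_
      rw [PowerSeries.coeff_C_mul]
    -- the coefficients `r j`, `j ≤ N`, lie in `I`
    have hrI : ∀ j, j ≤ N → r' j ∈ I := by
      intro j
      induction j using Nat.strong_induction_on with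
      | _ j ih =>
        intro hj
        have hcj : c j ∈ I := hI j (by omega)
        have hsplit : c j = ∑ i ∈ Finset.range j, r' i * m' i j + r' j := by
          rw [hcn j, ← Finset.sum_range_add_sum_Ico _ (Nat.succ_le_succ hj),
            Finset.sum_range_succ,
            Finset.sum_eq_zero (s := Finset.Ico (j + 1) (N + 1)) (fun i hi => by
              have hi1 := (Finset.mem_Ico.mp hi).1
              have h0 : m' i j = 0 := Subtype.ext (hMlt i j (by omega))
              rw [h0, mul_zero]), add_zero]
          have h1 : m' j j = 1 := Subtype.ext (hMself j)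
          rw [h1, mul_one]
        have hsum : ∑ i ∈ Finset.range j, r' i * m' i j ∈ I :=
          I.sum_mem fun i hi =>
            I.mul_mem_right _ (ih i (Finset.mem_range.mp hi)
              (le_trans (le_of_lt (Finset.mem_range.mp hi)) hj))
        have hrj : r' j = c j - ∑ i ∈ Finset.range j, r' i * m' i j := by
          rw [hsplit]
          ring
        rw [hrj]
        exact I.sub_mem hcj hsum
    intro n
    rw [hcn n]
    exact I.sum_mem fun j hj =>
      I.mul_mem_right _ (hrI j (Nat.lt_succ_iff.mp (Finset.mem_range.mp hj)))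

end Fermat.Agent.S16.SturmL1

end
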