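/-
S16 project, package P4 `TkAlg`: the algebraic fields `mul`, `add`, `smul`, `levelOne` of the
analytic toolkit (`Toolkit p` of `S16/Defs.lean`).

For `Θ : ModularForm (Gamma0 p) k` the translate `Θ ∣[k] S` is a modular form on the conjugate
group `S⁻¹ Γ₀(p) S`, which contains `[1, p; 0, 1]`; hence its cusp function of period `p` is
analytic at `0` and the `q^{1/p}`-expansion is compatible with sums, products and scalars.  A level
one form is fixed by `S`, and its `q^{1/p}`-expansion is the stretched `q`-expansion.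
-/
import Mathlib
import Fermat.Agent.S16.Defs

set_option autoImplicit false

namespace Fermat.Agent.S16.TkAlg

open UpperHalfPlane CongruenceSubgroup ModularForm Matrix.SpecialLinearGroup
open scoped MatrixGroups ModularForm Pointwise

noncomputable section

variable {p : ℕ} {k : ℤ}

/-- The conjugate `S⁻¹ Γ₀(p) S` of `Γ₀(p)` (inside `GL(2, ℝ)`). -/
abbrev conjS (p : ℕ) : Subgroup (GL (Fin 2) ℝ) :=
  ConjAct.toConjAct (mapGL ℝ ModularGroup.S)⁻¹ • ((Gamma0 p).map (mapGL ℝ))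

/-- The `S`-translate of a modular form on `Γ₀(p)`, a modular form on `S⁻¹ Γ₀(p) S`. -/
def trS (Θ : ModularForm (Gamma0 p) k) : ModularForm (conjS p) k :=
  ModularForm.translate Θ (mapGL ℝ ModularGroup.S)

theorem coe_trS (Θ : ModularForm (Gamma0 p) k) : ⇑(trS Θ) = ⇑Θ ∣[k] ModularGroup.S := rfl

/-- The matrix `[1, 0; -p, 1] = S [1, p; 0, 1] S⁻¹`. -/
def lowerMat (p : ℕ) : SL(2, ℤ) := ⟨!![1, 0; -(p : ℤ), 1], by simp [Matrix.det_fin_two]⟩

theorem lowerMat_mem (p : ℕ) : lowerMat p ∈ Gamma0 p := by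
  rw [Gamma0_mem]
  simp [lowerMat]

/-- `p` is a strict period of `S⁻¹ Γ₀(p) S`. -/
theorem natCast_mem_strictPeriods_conjS (p : ℕ) : (p : ℝ) ∈ (conjS p).strictPeriods := by
  rw [Subgroup.mem_strictPeriods_iff, Subgroup.mem_pointwise_smul_iff_inv_smul_mem]
  refine ⟨lowerMat p, lowerMat_mem p, ?_⟩
  simp only [map_inv, inv_inv, ConjAct.smul_def, ConjAct.ofConjAct_toConjAct]
  rw [eq_mul_inv_iff_mul_eq, Units.ext_iff]
  simp only [Units.val_mul, mapGL_coe_matrix, map_apply_coe]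
  ext i j
  fin_cases i <;> fin_cases j <;>
    simp [lowerMat, ModularGroup.S, Matrix.GeneralLinearGroup.upperRightHom, Matrix.mul_apply,
      Fin.sum_univ_two]

/-- The cusp function (period `p`) of the `S`-translate of a form on `Γ₀(p)` is analytic at `0`. -/
theorem analyticAt_cuspFunction_slashS [NeZero p] (Θ : ModularForm (Gamma0 p) k) :
    AnalyticAt ℂ (cuspFunction (p : ℝ) (⇑Θ ∣[k] ModularGroup.S)) 0 :=
  ModularFormClass.analyticAt_cuspFunction_zero (trS Θ)
    (Nat.cast_pos.mpr (NeZero.pos p)) (natCast_mem_strictPeriods_conjS p)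

/-- The `S`-translate of a form on `Γ₀(p)` is the sum of its `q^{1/p}`-expansion. -/
theorem hasSum_slashS [NeZero p] (Θ : ModularForm (Gamma0 p) k) (τ : ℍ) :
    HasSum (fun m : ℕ => (qExpansion (p : ℝ) (⇑Θ ∣[k] ModularGroup.S)).coeff m *
      Function.Periodic.qParam (p : ℝ) τ ^ m) ((⇑Θ ∣[k] ModularGroup.S) τ) := by
  have hh : (0 : ℝ) < p := Nat.cast_pos.mpr (NeZero.pos p)
  have : Fact (IsCusp OnePoint.infty (conjS p)) :=
    ⟨(conjS p).isCusp_of_mem_strictPeriods hh (natCast_mem_strictPeriods_conjS p)⟩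
  exact ModularForm.hasSum_qExpansion (trS Θ) hh (natCast_mem_strictPeriods_conjS p) τ

theorem one_mem_strictPeriods_Gamma0 (p : ℕ) :
    (1 : ℝ) ∈ ((Gamma0 p).map (mapGL ℝ)).strictPeriods := by
  rw [strictPeriods_Gamma0]
  exact AddSubgroup.mem_zmultiples 1

/-- Field `mul` of the toolkit. -/
theorem mul [NeZero p] {k k' : ℤ} {A B A' B' : PowerSeries ℂ} (h : Cusp2 p k A B)
    (h' : Cusp2 p k' A' B') : Cusp2 p (k + k') (A * A') (B * B') := by
  obtain ⟨Θ, rfl, rfl⟩ := h
  obtain ⟨Θ', rfl, rfl⟩ := h'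
  refine ⟨Θ.mul Θ', ?_, ?_⟩
  · exact ModularForm.qExpansion_mul one_pos (one_mem_strictPeriods_Gamma0 p) Θ Θ'
  · rw [ModularForm.coe_mul, ModularForm.mul_slash_SL2]
    exact qExpansion_mul (analyticAt_cuspFunction_slashS Θ) (analyticAt_cuspFunction_slashS Θ')

/-- Field `add` of the toolkit. -/
theorem add [NeZero p] {k : ℤ} {A B A' B' : PowerSeries ℂ} (h : Cusp2 p k A B)
    (h' : Cusp2 p k A' B') : Cusp2 p k (A + A') (B + B') := by
  obtain ⟨Θ, rfl, rfl⟩ := h
  obtain ⟨Θ', rfl, rfl⟩ := h'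
  refine ⟨Θ + Θ', ?_, ?_⟩
  · exact ModularForm.qExpansion_add one_pos (one_mem_strictPeriods_Gamma0 p) Θ Θ'
  · rw [FunLike.coe_add, SlashAction.add_slash]
    exact qExpansion_add (analyticAt_cuspFunction_slashS Θ) (analyticAt_cuspFunction_slashS Θ')

/-- Field `smul` of the toolkit. -/
theorem smul [NeZero p] {k : ℤ} {A B : PowerSeries ℂ} (c : ℂ) (h : Cusp2 p k A B) :
    Cusp2 p k (PowerSeries.C c * A) (PowerSeries.C c * B) := by
  obtain ⟨Θ, rfl, rfl⟩ := h
  refine ⟨c • Θ, ?_, ?_⟩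
  · rw [← PowerSeries.smul_eq_C_mul]
    exact ModularForm.qExpansion_smul one_pos (one_mem_strictPeriods_Gamma0 p) c Θ
  · rw [← PowerSeries.smul_eq_C_mul, FunLike.coe_smul, ModularForm.SL_smul_slash]
    exact qExpansion_smul (analyticAt_cuspFunction_slashS Θ) c

/-- Restriction of a level one form to `Γ₀(p)`. -/
def restr (p : ℕ) (F : ModularForm 𝒮ℒ k) : ModularForm (Gamma0 p) k where
  toFun := F
  slash_action_eq' := by
    rintro _ ⟨γ, -, rfl⟩
    exact F.slash_action_eq' _ ⟨γ, rfl⟩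
  holo' := F.holo'
  bdd_at_cusps' := fun {c} hc =>
    F.bdd_at_cusps' (hc.mono (by rintro _ ⟨g, -, rfl⟩; exact ⟨g, rfl⟩))

@[simp] theorem coe_restr (p : ℕ) (F : ModularForm 𝒮ℒ k) : ⇑(restr p F) = ⇑F := rfl

theorem natCast_mem_strictPeriods_SL (p : ℕ) : (p : ℝ) ∈ (𝒮ℒ).strictPeriods := by
  rw [Subgroup.strictPeriods_SL2Z]
  exact ⟨(p : ℤ), by simp⟩

/-- The `q^{1/p}`-expansion of a level one form is its stretched `q`-expansion. -/
theorem qExpansion_natCast_levelOne [NeZero p] (F : ModularForm 𝒮ℒ k) :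
    qExpansion (p : ℝ) F = stretch p (qExpansion 1 F) := by
  have hp : 0 < p := NeZero.pos p
  have hh : (0 : ℝ) < p := Nat.cast_pos.mpr hp
  ext m
  symm
  refine ModularFormClass.qExpansion_coeff_unique
    (c := fun m => (stretch p (qExpansion 1 F)).coeff m) hh (natCast_mem_strictPeriods_SL p)
    (f := F) ?_ m
  intro τ
  have h1 := ModularForm.hasSum_qExpansion F one_pos (by simp) τ
  have hq : Function.Periodic.qParam 1 τ = Function.Periodic.qParam p τ ^ p := by
    have hpc : (p : ℂ) ≠ 0 := Nat.cast_ne_zero.mpr hp.ne'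
    simp only [Function.Periodic.qParam, ← Complex.exp_nat_mul]
    congr 1
    push_cast
    field_simp
  rw [← (Function.Injective.hasSum_iff (g := fun m : ℕ => p * m)
    (mul_right_injective₀ hp.ne') ?_)]
  · convert h1 using 2 with m
    simp [stretch, pow_mul, hq, Nat.mul_div_cancel_left _ hp]
  · intro n hn
    have : ¬ p ∣ n := fun ⟨m, hm⟩ => hn ⟨m, hm.symm⟩
    simp [stretch, this]

/-- Field `levelOne` of the toolkit. -/
theorem levelOne [NeZero p] {k : ℤ} (F : ModularForm 𝒮ℒ k) :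
    Cusp2 p k (qExpansion 1 F) (stretch p (qExpansion 1 F)) := by
  refine ⟨restr p F, rfl, ?_⟩
  rw [coe_restr, ← qExpansion_natCast_levelOne]
  congr 1
  exact SlashInvariantForm.slash_action_eqn F _ ⟨ModularGroup.S, rfl⟩

end
end Fermat.Agent.S16.TkAlg
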