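/-
S16 project, package P6 (C1): coset representatives of `Γ₀(p)` in `SL(2, ℤ)`.
The translates `quotientFunc Θ q`, `q ∈ SL(2, ℤ) / Γ₀(p)`, of a modular form `Θ` on `Γ₀(p)` are
`Θ` and `z ↦ (Θ ∣[k] S)(z + j)`, `j < p`.
-/
import Fermat.Agent.S23.Coset

set_option autoImplicit false

namespace Fermat.Agent.S16.TkCosetReps

open UpperHalfPlane ModularForm SlashInvariantForm CongruenceSubgroup Matrix.SpecialLinearGroup
open Fermat.Agent.S23
open scoped MatrixGroups Manifold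

/-- The representatives `1` and `S T^j`, `j < p`. -/
noncomputable def rep (p : ℕ) : Option (Fin p) → SL(2, ℤ)
  | none => 1
  | some j => ModularGroup.S * ModularGroup.T ^ ((j : ℕ) : ℤ)

theorem rep_some_coe (p : ℕ) (j : Fin p) :
    ((rep p (some j) : SL(2, ℤ)) : Matrix (Fin 2) (Fin 2) ℤ) = !![0, -1; 1, ((j : ℕ) : ℤ)] := by
  rw [rep, Matrix.SpecialLinearGroup.coe_mul, ModularGroup.coe_T_zpow, ModularGroup.coe_S]
  ext a b
  fin_cases a <;> fin_cases b <;> simp [Matrix.mul_apply, Fin.sum_univ_two]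

theorem rep_some_inv_coe (p : ℕ) (j : Fin p) :
    (((rep p (some j))⁻¹ : SL(2, ℤ)) : Matrix (Fin 2) (Fin 2) ℤ) = !![((j : ℕ) : ℤ), 1; -1, 0] := by
  rw [Matrix.SpecialLinearGroup.SL2_inv_expl]
  ext a b
  fin_cases a <;> fin_cases b <;> simp [rep_some_coe]

/-- Every element of `SL(2, ℤ)` lies in `Γ₀(p) · rep o` for some `o`. -/
theorem exists_mul_rep_inv_mem (p : ℕ) [Fact p.Prime] (g : SL(2, ℤ)) :
    ∃ o : Option (Fin p), g * (rep p o)⁻¹ ∈ Gamma0 p := by
  by_cases hc : ((g 1 0 : ℤ) : ZMod p) = 0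
  · exact ⟨none, by simpa [rep, Gamma0_mem] using hc⟩
  · have : NeZero p := ⟨(Fact.out : p.Prime).ne_zero⟩
    let x : ZMod p := ((g 1 1 : ℤ) : ZMod p) * ((g 1 0 : ℤ) : ZMod p)⁻¹
    refine ⟨some ⟨x.val, ZMod.val_lt x⟩, ?_⟩
    rw [Gamma0_mem]
    have h1 : ((g * (rep p (some ⟨x.val, ZMod.val_lt x⟩))⁻¹ : SL(2, ℤ)) 1 0 : ℤ) =
        g 1 0 * ((x.val : ℕ) : ℤ) - g 1 1 := by
      rw [Matrix.SpecialLinearGroup.coe_mul, rep_some_inv_coe]
      simp [Matrix.mul_apply, Fin.sum_univ_two]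
      ring
    rw [h1]
    push_cast
    rw [ZMod.natCast_zmod_val]
    show ((g 1 0 : ℤ) : ZMod p) * (((g 1 1 : ℤ) : ZMod p) * ((g 1 0 : ℤ) : ZMod p)⁻¹) - _ = 0
    field_simp
    ring

/-- The representatives are pairwise inequivalent. -/
theorem rep_injective (p : ℕ) [Fact p.Prime] {o o' : Option (Fin p)}
    (h : rep p o * (rep p o')⁻¹ ∈ Gamma0 p) : o = o' := by
  have : Fact (1 < p) := ⟨(Fact.out : p.Prime).one_lt⟩
  rw [Gamma0_mem] at h
  rcases o with _ | j <;> rcases o' with _ | j'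
  · rfl
  · exfalso
    have h1 : ((rep p none * (rep p (some j'))⁻¹ : SL(2, ℤ)) 1 0 : ℤ) = -1 := by
      rw [Matrix.SpecialLinearGroup.coe_mul, rep_some_inv_coe]
      simp [rep, Matrix.mul_apply, Fin.sum_univ_two]
    rw [h1] at h
    simp at h
  · exfalso
    have h1 : ((rep p (some j) * (rep p none)⁻¹ : SL(2, ℤ)) 1 0 : ℤ) = 1 := by
      have : (rep p none)⁻¹ = 1 := by simp [rep]
      rw [this, mul_one, rep_some_coe]
      simp
    rw [h1] at h
    simp at h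
  · have h1 : ((rep p (some j) * (rep p (some j'))⁻¹ : SL(2, ℤ)) 1 0 : ℤ) =
        ((j' : ℕ) : ℤ) - ((j : ℕ) : ℤ) := by
      rw [Matrix.SpecialLinearGroup.coe_mul, rep_some_coe, rep_some_inv_coe]
      simp [Matrix.mul_apply, Fin.sum_univ_two]
      ring
    rw [h1] at h
    push_cast at h
    rw [sub_eq_zero] at h
    have h2 := congrArg ZMod.val h
    rw [ZMod.val_natCast, ZMod.val_natCast, Nat.mod_eq_of_lt j'.2, Nat.mod_eq_of_lt j.2] at h2
    exact congrArg some (Fin.ext h2.symm)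

/-! ### The coset space -/

section Quot

variable (p : ℕ)

local notation "Γ" => (Gamma0 p : Subgroup (GL (Fin 2) ℝ))

theorem mk_toSL_eq_iff (a b : SL(2, ℤ)) :
    ((Coset.toSL a : 𝒮ℒ) : Coset.Q p) = ((Coset.toSL b : 𝒮ℒ) : Coset.Q p) ↔
      a⁻¹ * b ∈ Gamma0 p := by
  rw [QuotientGroup.eq, Subgroup.mem_subgroupOf, Subgroup.mem_map]
  have hval : (((Coset.toSL a)⁻¹ * Coset.toSL b : 𝒮ℒ) : GL (Fin 2) ℝ) = mapGL ℝ (a⁻¹ * b) := by
    simp [Coset.toSL]
  rw [hval]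
  constructor
  · rintro ⟨x, hx, hxr⟩
    have : x = a⁻¹ * b := mapGL_injective (R := ℤ) (S := ℝ) (n := Fin 2) hxr
    rwa [← this]
  · intro h
    exact ⟨_, h, rfl⟩

theorem exists_mk_toSL (q : Coset.Q p) : ∃ g : SL(2, ℤ), q = ((Coset.toSL g : 𝒮ℒ) : Coset.Q p) := by
  induction q using Quotient.inductionOn with
  | h r =>
    obtain ⟨g, hg⟩ : ∃ g : SL(2, ℤ), mapGL ℝ g = r.val := r.2
    refine ⟨g, ?_⟩
    have : Coset.toSL g = r := Subtype.ext hg
    rw [this]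

/-- The class of `(rep o)⁻¹` in `SL(2, ℤ) / Γ₀(p)`. -/
noncomputable def cls (o : Option (Fin p)) : Coset.Q p :=
  ((Coset.toSL (rep p o)⁻¹ : 𝒮ℒ) : Coset.Q p)

theorem cls_bijective (hp : p.Prime) : Function.Bijective (cls p) := by
  have : Fact p.Prime := ⟨hp⟩
  constructor
  · intro o o' h
    rw [cls, cls, mk_toSL_eq_iff, inv_inv] at h
    exact rep_injective p h
  · intro q
    obtain ⟨g, rfl⟩ := exists_mk_toSL p q
    obtain ⟨o, ho⟩ := exists_mul_rep_inv_mem p g⁻¹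
    refine ⟨o, ?_⟩
    rw [cls, mk_toSL_eq_iff, inv_inv]
    have := inv_mem ho
    simpa [mul_inv_rev] using this

variable {p}

theorem quotientFunc_cls {k : ℤ} (Θ : ModularForm (Gamma0 p) k) (o : Option (Fin p)) :
    quotientFunc Θ (cls p o) = ⇑Θ ∣[k] (rep p o) := by
  rw [cls, show ((Coset.toSL (rep p o)⁻¹ : 𝒮ℒ) : Coset.Q p) = ⟦Coset.toSL (rep p o)⁻¹⟧ from rfl,
    quotientFunc_mk]
  simp [Coset.toSL]
  rfl

theorem quotientFunc_cls_none {k : ℤ} (Θ : ModularForm (Gamma0 p) k) (z : ℍ) :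
    quotientFunc Θ (cls p none) z = Θ z := by
  rw [quotientFunc_cls]
  simp [rep]

theorem quotientFunc_cls_some {k : ℤ} (Θ : ModularForm (Gamma0 p) k) (j : Fin p) (z : ℍ) :
    quotientFunc Θ (cls p (some j)) z = (⇑Θ ∣[k] ModularGroup.S) (((j : ℕ) : ℝ) +ᵥ z) := by
  rw [quotientFunc_cls, rep, SlashAction.slash_mul, SL_slash_apply,
    UpperHalfPlane.modular_T_zpow_smul]
  have hd : denom ((ModularGroup.T ^ ((j : ℕ) : ℤ) : SL(2, ℤ)) : GL (Fin 2) ℝ) z = 1 := by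
    rw [ModularGroup.denom_apply, ModularGroup.coe_T_zpow]
    simp
  rw [hd]
  simp

/-- **Coset representatives.** The translates of `Θ` are `Θ` and `z ↦ (Θ ∣[k] S)(z + j)`,
`j < p`. -/
theorem map_quotientFunc (hp : p.Prime) {k : ℤ} (Θ : ModularForm (Gamma0 p) k)
    [Fintype (Coset.Q p)] (z : ℍ) :
    (Finset.univ : Finset (Coset.Q p)).val.map (fun q => quotientFunc Θ q z) =
      Θ z ::ₘ (Multiset.range p).map
        (fun j : ℕ => (⇑Θ ∣[k] ModularGroup.S) ((j : ℝ) +ᵥ z)) := by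
  classical
  let e : Option (Fin p) ≃ Coset.Q p := Equiv.ofBijective (cls p) (cls_bijective p hp)
  rw [← Multiset.map_univ_val_equiv e, Multiset.map_map, univ_option]
  have hval : (Finset.insertNone (Finset.univ : Finset (Fin p))).val =
      none ::ₘ (Finset.univ : Finset (Fin p)).val.map some := rfl
  have he : ∀ o, e o = cls p o := fun o => rfl
  rw [hval, Multiset.map_cons, Function.comp_apply, he, quotientFunc_cls_none, Multiset.map_map]
  congr 1
  have hfun : ((fun q => quotientFunc Θ q z) ∘ ⇑e) ∘ some =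
      (fun j : ℕ => (⇑Θ ∣[k] ModularGroup.S) ((j : ℝ) +ᵥ z)) ∘ (fun j : Fin p => (j : ℕ)) := by
    funext j
    simp only [Function.comp_apply, he, quotientFunc_cls_some]
  rw [hfun, ← Multiset.map_map, Fin.univ_val_map, ← Multiset.coe_range, Multiset.map_coe,
    List.ofFn_eq_map]
  congr 2
  exact List.map_coe_finRange_eq_range

end Quot

end Fermat.Agent.S16.TkCosetReps
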