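/-
S16 project, package P6 (TkEsymm), part (C2): the elementary symmetric functions of the
translates of a modular form on `Γ₀(N)` under `SL(2, ℤ)` are level one modular forms.
-/
import Mathlib
import Fermat.Agent.S23.Coset

set_option autoImplicit false

namespace Fermat.Agent.S16.TkEsymmL1

open UpperHalfPlane ModularForm SlashInvariantForm CongruenceSubgroup Matrix.SpecialLinearGroup
open scoped MatrixGroups Manifold Topology
open Fermat.Agent.S23 Fermat.Agent.S23.Coset

/-- A ring homomorphism commutes with the elementary symmetric functions of a finite family. -/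
theorem map_esymm_univ {ι : Type*} [Fintype ι] {R S : Type*} [CommSemiring R] [CommSemiring S]
    (φ : R →+* S) (a : ι → R) (i : ℕ) :
    φ (((Finset.univ : Finset ι).val.map a).esymm i) =
      ((Finset.univ : Finset ι).val.map (fun q => φ (a q))).esymm i := by
  rw [Finset.esymm_map_val, Finset.esymm_map_val, map_sum]
  exact Finset.sum_congr rfl fun t _ => map_prod φ a t

/-- Elementary symmetric functions are invariant under reindexing by a permutation and
homogeneous. -/
theorem esymm_univ_mul_comp {ι : Type*} [Fintype ι] {R : Type*} [CommSemiring R]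
    (c : R) (a : ι → R) (σ : ι ≃ ι) (i : ℕ) :
    ((Finset.univ : Finset ι).val.map (fun q => c * a (σ q))).esymm i =
      c ^ i * ((Finset.univ : Finset ι).val.map a).esymm i := by
  have h1 : (Finset.univ : Finset ι).val.map (fun q => c * a (σ q)) =
      (((Finset.univ : Finset ι).val.map a).map (fun x => c • x)) := by
    calc (Finset.univ : Finset ι).val.map (fun q => c * a (σ q))
        = ((Finset.univ : Finset ι).val.map σ).map (fun q => c * a q) := by
          rw [Multiset.map_map]; rfl
      _ = (Finset.univ : Finset ι).val.map (fun q => c * a q) := by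
          rw [Multiset.map_univ_val_equiv]
      _ = (((Finset.univ : Finset ι).val.map a).map (fun x => c • x)) := by
          rw [Multiset.map_map]; rfl
  rw [h1, ← Multiset.pow_smul_esymm, smul_eq_mul]

/-- **(C2)** The `i`-th elementary symmetric function of the translates of a modular form of
weight `k` on `Γ₀(N)` is a level one modular form of weight `k * i`. -/
theorem exists_levelOne_esymm {N : ℕ} [NeZero N] {k : ℤ} (Θ : ModularForm (Gamma0 N) k)
    [Fintype (Coset.Q N)] (i : ℕ) :
    ∃ e : ModularForm 𝒮ℒ (k * i), ∀ z, e z =
      ((Finset.univ : Finset (Coset.Q N)).val.map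
        (fun q => SlashInvariantForm.quotientFunc Θ q z)).esymm i := by
  set E : HB := ((Finset.univ : Finset (Coset.Q N)).val.map (trHB (N := N) Θ)).esymm i with hE
  have hval : ∀ z, (E : ℍ → ℂ) z = ((Finset.univ : Finset (Coset.Q N)).val.map
      (fun q => SlashInvariantForm.quotientFunc Θ q z)).esymm i := by
    intro z
    rw [← evAt_apply, hE, map_esymm_univ]
    rfl
  have hinv : ∀ γ : SL(2, ℤ), (E : ℍ → ℂ) ∣[k * i] γ = (E : ℍ → ℂ) := by
    intro γ
    ext z
    have hd : denom γ z ≠ 0 := denom_ne_zero _ z
    have hfam := isFam_trHB (N := N) Θ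
    have e1 : (fun q : Coset.Q N => SlashInvariantForm.quotientFunc Θ q (γ • z)) =
        fun q => denom γ z ^ k *
          (fun q' => SlashInvariantForm.quotientFunc Θ q' z) (MulAction.toPerm (toSL γ)⁻¹ q) :=
      funext fun q => hfam γ q z
    rw [SL_slash_apply, hval, hval, e1,
      esymm_univ_mul_comp (denom γ z ^ k)
        (fun q' => SlashInvariantForm.quotientFunc Θ q' z) (MulAction.toPerm (toSL γ)⁻¹) i,
      ← zpow_natCast, ← zpow_mul, mul_right_comm, ← zpow_add₀ hd, add_neg_cancel, zpow_zero,
      one_mul]
  exact ⟨mkLevelOne (k * i) (E : ℍ → ℂ) E.2.1 hinv E.2.2, fun z => by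
    rw [mkLevelOne_apply, hval]⟩

end Fermat.Agent.S16.TkEsymmL1
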