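/-
S16 project, package P6 (TkEsymm): the pointwise form of the level one elementary symmetric
functions of the conjugates `Θ`, `(Θ ∣ S)(z + j)` of a modular form on `Γ₀(p)`, and the
regularity facts (holomorphy, periodicity, boundedness) needed for their `q`-expansions.
-/
import Fermat.Agent.S16.TkCosetReps
import Fermat.Agent.S16.TkEsymmL1
import Fermat.Prelude.Thm_CongruenceSubgroup_one_mem_strictPeriods_Gamma0

set_option autoImplicit false

namespace Fermat.Agent.S16.TkEsymmPt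

open UpperHalfPlane ModularForm SlashInvariantForm CongruenceSubgroup Matrix.SpecialLinearGroup
open Fermat.Agent.S23
open scoped MatrixGroups Manifold

/-- **(P0)** The `i`-th elementary symmetric function of the `p + 1` conjugates `Θ`,
`z ↦ (Θ ∣[k] S)(z + j)` (`j < p`) is a level one modular form of weight `k * i`. -/
theorem pointwise (p : ℕ) [Fact p.Prime] {k : ℤ} (Θ : ModularForm (Gamma0 p) k) (i : ℕ) :
    ∃ e : ModularForm 𝒮ℒ (k * i), ∀ z, e z =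
      ((Θ z ::ₘ (Multiset.range p).map
        (fun j : ℕ => (⇑Θ ∣[k] ModularGroup.S) ((j : ℝ) +ᵥ z))).esymm i) := by
  have : NeZero p := ⟨(Fact.out : p.Prime).ne_zero⟩
  let _ : Fintype (Coset.Q p) := Fintype.ofFinite _
  obtain ⟨e, he⟩ := TkEsymmL1.exists_levelOne_esymm Θ i
  refine ⟨e, fun z => ?_⟩
  rw [he z, TkCosetReps.map_quotientFunc (Fact.out : p.Prime) Θ z]

/-! ### Regularity of `Θ` -/

theorem mdiff_coe {N : ℕ} {k : ℤ} (Θ : ModularForm (Gamma0 N) k) : MDiff (⇑Θ) :=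
  ModularFormClass.holo Θ

theorem vadd_one {N : ℕ} {k : ℤ} (Θ : ModularForm (Gamma0 N) k) (z : ℍ) :
    Θ ((1 : ℝ) +ᵥ z) = Θ z :=
  SlashInvariantForm.vAdd_apply_of_mem_strictPeriods Θ z
    (CongruenceSubgroup.one_mem_strictPeriods_Gamma0 N)

theorem bdd_coe {N : ℕ} [NeZero N] {k : ℤ} (Θ : ModularForm (Gamma0 N) k) :
    IsBoundedAtImInfty (⇑Θ) := by
  have := ModularFormClass.bdd_at_infty_slash (k := k) Θ (1 : SL(2, ℤ))
  simpa using this

/-! ### Regularity of `Θ ∣ S` -/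

theorem mdiff_slash_S {N : ℕ} {k : ℤ} (Θ : ModularForm (Gamma0 N) k) :
    MDiff (⇑Θ ∣[k] ModularGroup.S) :=
  (ModularFormClass.holo Θ).slash k _

theorem bdd_slash_S {N : ℕ} [NeZero N] {k : ℤ} (Θ : ModularForm (Gamma0 N) k) :
    IsBoundedAtImInfty (⇑Θ ∣[k] ModularGroup.S) :=
  ModularFormClass.bdd_at_infty_slash Θ ModularGroup.S

/-- `S T^N S⁻¹ ∈ Γ₀(N)`. -/
theorem S_mul_T_pow_mul_S_inv_mem (N : ℕ) :
    ModularGroup.S * ModularGroup.T ^ ((N : ℕ) : ℤ) * ModularGroup.S⁻¹ ∈ Gamma0 N := by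
  rw [Gamma0_mem]
  have hS : ((ModularGroup.S⁻¹ : SL(2, ℤ)) : Matrix (Fin 2) (Fin 2) ℤ) = !![0, 1; -1, 0] := by
    rw [Matrix.SpecialLinearGroup.SL2_inv_expl]
    ext a b
    fin_cases a <;> fin_cases b <;> simp [ModularGroup.S]
  have h1 : ((ModularGroup.S * ModularGroup.T ^ ((N : ℕ) : ℤ) * ModularGroup.S⁻¹ : SL(2, ℤ)) 1 0 :
      ℤ) = -(N : ℤ) := by
    rw [Matrix.SpecialLinearGroup.coe_mul, Matrix.SpecialLinearGroup.coe_mul,
      ModularGroup.coe_T_zpow, hS, ModularGroup.coe_S]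
    simp [Matrix.mul_apply, Fin.sum_univ_two]
  rw [h1]
  simp

theorem slash_S_vadd {N : ℕ} {k : ℤ} (Θ : ModularForm (Gamma0 N) k) (z : ℍ) :
    (⇑Θ ∣[k] ModularGroup.S) (((N : ℕ) : ℝ) +ᵥ z) = (⇑Θ ∣[k] ModularGroup.S) z := by
  have hinv : ⇑Θ ∣[k] (ModularGroup.S * ModularGroup.T ^ ((N : ℕ) : ℤ) * ModularGroup.S⁻¹) = ⇑Θ :=
    SlashInvariantFormClass.slash_action_eq Θ _ ⟨_, S_mul_T_pow_mul_S_inv_mem N, rfl⟩
  have h2 : (⇑Θ ∣[k] ModularGroup.S) ∣[k] (ModularGroup.T ^ ((N : ℕ) : ℤ)) =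
      ⇑Θ ∣[k] ModularGroup.S := by
    conv_rhs => rw [← hinv]
    rw [← SlashAction.slash_mul, ← SlashAction.slash_mul]
    congr 1
    group
  have h3 := congrFun h2 z
  rw [SL_slash_apply, UpperHalfPlane.modular_T_zpow_smul] at h3
  have hd : denom ((ModularGroup.T ^ ((N : ℕ) : ℤ) : SL(2, ℤ)) : GL (Fin 2) ℝ) z = 1 := by
    rw [ModularGroup.denom_apply, ModularGroup.coe_T_zpow]
    simp
  rw [hd] at h3
  simpa using h3

/-! ### Regularity of level one forms -/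

theorem mdiff_levelOne {k : ℤ} (e : ModularForm 𝒮ℒ k) : MDiff (⇑e) :=
  ModularFormClass.holo e

theorem vadd_one_levelOne {k : ℤ} (e : ModularForm 𝒮ℒ k) (z : ℍ) :
    e ((1 : ℝ) +ᵥ z) = e z :=
  SlashInvariantForm.vAdd_apply_of_mem_strictPeriods e z one_mem_strictPeriods_SL

theorem bdd_levelOne {k : ℤ} (e : ModularForm 𝒮ℒ k) : IsBoundedAtImInfty (⇑e) :=
  ModularFormClass.bdd_at_infty e

end Fermat.Agent.S16.TkEsymmPt
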