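/-
S16 project, package P6 (TkEsymm), q-expansion half.

Pure analysis on functions `ℍ → ℂ`.  `NiceAlg h` is the algebra of holomorphic functions on the
upper half plane which are `h`-periodic and bounded at `i∞`; on it the `q`-expansion (in the
parameter `exp (2πiz/h)`) is a ring homomorphism.  Consequences:

* (Q1) `qExpansion_esymm`: the expansion of an elementary symmetric function of nice functions
  is the elementary symmetric function of the expansions;
* (Q2) `qExpansion_stretch`: for a `1`-periodic nice function the expansion in `q^{1/p}` is the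
  stretched `q`-expansion;
* (Q3) `qExpansion_vadd`: translating by `j` rescales the `q^{1/p}`-expansion by `ζ_p^j`.
-/
import Mathlib
import Fermat.Agent.S16.Defs

set_option autoImplicit false

namespace Fermat.Agent.S16.TkEsymmQ

open UpperHalfPlane Function Filter
open scoped MatrixGroups Manifold Topology ModularForm

noncomputable section

local notation "𝕢" => Periodic.qParam


/-- Holomorphic functions on `ℍ`, `h`-periodic and bounded at `i∞`. -/
def NiceAlg (h : ℝ) : Subalgebra ℂ (ℍ → ℂ) where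
  carrier := {f | Periodic (f ∘ ofComplex) h ∧ MDiff f ∧ IsBoundedAtImInfty f}
  mul_mem' := by
    rintro f g ⟨hf1, hf2, hf3⟩ ⟨hg1, hg2, hg3⟩
    exact ⟨hf1.mul hg1, hf2.mul hg2, hf3.mul hg3⟩
  add_mem' := by
    rintro f g ⟨hf1, hf2, hf3⟩ ⟨hg1, hg2, hg3⟩
    exact ⟨hf1.add hg1, hf2.add hg2, hf3.add hg3⟩
  algebraMap_mem' := fun c =>
    ⟨fun _ => rfl, mdifferentiable_const, Filter.const_boundedAtFilter _ c⟩

theorem mem_NiceAlg {h : ℝ} {f : ℍ → ℂ} :
    f ∈ NiceAlg h ↔ Periodic (f ∘ ofComplex) h ∧ MDiff f ∧ IsBoundedAtImInfty f := Iff.rfl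

theorem analyticAt_of_mem {h : ℝ} (hh : 0 < h) {f : ℍ → ℂ} (hf : f ∈ NiceAlg h) :
    AnalyticAt ℂ (cuspFunction h f) 0 :=
  analyticAt_cuspFunction_zero hh hf.1 hf.2.1 hf.2.2

/-- The `q`-expansion as a ring homomorphism on nice functions. -/
def qHom (h : ℝ) (hh : 0 < h) : NiceAlg h →+* PowerSeries ℂ where
  toFun f := qExpansion h (f : ℍ → ℂ)
  map_one' := qExpansion_one h
  map_mul' f g := qExpansion_mul (analyticAt_of_mem hh f.2) (analyticAt_of_mem hh g.2)
  map_zero' := qExpansion_zero h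
  map_add' f g := qExpansion_add (analyticAt_of_mem hh f.2) (analyticAt_of_mem hh g.2)

@[simp] theorem qHom_apply (h : ℝ) (hh : 0 < h) (f : NiceAlg h) :
    qHom h hh f = qExpansion h (f : ℍ → ℂ) := rfl

theorem esymm_map_ringHom {R S : Type*} [CommSemiring R] [CommSemiring S] (φ : R →+* S)
    (s : Multiset R) (n : ℕ) : (s.map φ).esymm n = φ (s.esymm n) := by
  simp only [Multiset.esymm, Multiset.powersetCard_map, Multiset.map_map, map_multiset_sum]
  congr 1
  refine Multiset.map_congr rfl fun t _ => ?_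
  simp [map_multiset_prod]

/-- Evaluation at a point, as a ring hom on nice functions. -/
def evN (h : ℝ) (z : ℍ) : NiceAlg h →+* ℂ :=
  (Pi.evalRingHom (fun _ : ℍ => ℂ) z).comp (NiceAlg h).val.toRingHom

@[simp] theorem evN_apply (h : ℝ) (z : ℍ) (f : NiceAlg h) : evN h z f = (f : ℍ → ℂ) z := rfl

/-- (Q1) The `q`-expansion of an elementary symmetric function of nice functions. -/
theorem qExpansion_esymm (h : ℝ) (hh : 0 < h) (s : Multiset (NiceAlg h)) (i : ℕ)
    (e : ℍ → ℂ) (he : ∀ z, e z = (s.map (fun f : NiceAlg h => (f : ℍ → ℂ) z)).esymm i) :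
    qExpansion h e = (s.map (fun f : NiceAlg h => qExpansion h (f : ℍ → ℂ))).esymm i := by
  have h1 : e = ((s.esymm i : NiceAlg h) : ℍ → ℂ) := by
    funext z
    rw [he z, ← evN_apply h z (s.esymm i), ← esymm_map_ringHom (evN h z)]
    rfl
  rw [h1, ← qHom_apply h hh, ← esymm_map_ringHom (qHom h hh)]
  rfl


theorem periodic_of_vadd {h : ℝ} {f : ℍ → ℂ} (hf : ∀ τ : ℍ, f (h +ᵥ τ) = f τ) :
    Periodic (f ∘ ofComplex) h := by
  intro w
  by_cases hw : 0 < Complex.im w
  · have hw' : 0 < Complex.im (w + h) := by simpa using hw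
    simp only [comp_apply, ofComplex_apply_of_im_pos hw', ofComplex_apply_of_im_pos hw]
    rw [← hf ⟨w, hw⟩]
    congr 1
    ext
    simp [add_comm]
  · have hw0 : Complex.im w ≤ 0 := not_lt.mp hw
    have hw' : Complex.im (w + h) ≤ 0 := by simpa using hw0
    simp [ofComplex_apply_of_im_nonpos hw', ofComplex_apply_of_im_nonpos hw0]

theorem vadd_of_periodic {h : ℝ} {f : ℍ → ℂ} (hf : Periodic (f ∘ ofComplex) h) (τ : ℍ) :
    f (h +ᵥ τ) = f τ := by
  have h1 := hf (τ : ℂ)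
  simp only [comp_apply] at h1
  have hw' : 0 < Complex.im ((τ : ℂ) + h) := by simpa using τ.im_pos
  rw [ofComplex_apply_of_im_pos hw', ofComplex_apply] at h1
  rw [← h1]
  congr 1
  ext
  simp [add_comm]

theorem qParam_pow_nat (p : ℕ) [NeZero p] (z : ℂ) : 𝕢 (p : ℝ) z ^ p = 𝕢 1 z := by
  have hp : (p : ℂ) ≠ 0 := Nat.cast_ne_zero.mpr (NeZero.ne p)
  simp only [Periodic.qParam]
  rw [← Complex.exp_nat_mul]
  congr 1
  push_cast
  field_simp

theorem qParam_vadd (p : ℕ) [NeZero p] (j : ℕ) (τ : ℍ) :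
    𝕢 (p : ℝ) (((j : ℝ) +ᵥ τ : ℍ) : ℂ) = zetaP p ^ j * 𝕢 (p : ℝ) (τ : ℂ) := by
  have hp : (p : ℂ) ≠ 0 := Nat.cast_ne_zero.mpr (NeZero.ne p)
  simp only [Periodic.qParam, zetaP]
  rw [← Complex.exp_nat_mul, ← Complex.exp_add]
  congr 1
  simp only [UpperHalfPlane.coe_vadd]
  push_cast
  field_simp


/-- `qExpansion_coeff_unique` for plain functions. -/
theorem coeff_unique {h : ℝ} {f : ℍ → ℂ} {c : ℕ → ℂ} (hh : 0 < h)
    (hfanalytic : AnalyticAt ℂ (cuspFunction h f) 0)
    (hf : ∀ τ : ℍ, HasSum (fun m => c m • 𝕢 h τ ^ m) (f τ)) (m : ℕ) :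
    c m = (qExpansion h f).coeff m :=
  @qExpansion_coeff_unique (ℍ → ℂ) ⟨fun f => f, fun _ _ h => h⟩ h f c hh hfanalytic hf m

theorem mem_NiceAlg_natCast_of_one (p : ℕ) {f : ℍ → ℂ} (hf : f ∈ NiceAlg 1) :
    f ∈ NiceAlg (p : ℝ) := by
  refine ⟨?_, hf.2.1, hf.2.2⟩
  have := hf.1.nat_mul p
  simpa using this

/-- (Q2) For a `1`-periodic nice function, the `q^{1/p}`-expansion is the stretched
`q`-expansion. -/
theorem qExpansion_stretch (p : ℕ) [NeZero p] {f : ℍ → ℂ} (hf : f ∈ NiceAlg 1) :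
    qExpansion (p : ℝ) f = stretch p (qExpansion 1 f) := by
  have hp0 : 0 < p := Nat.pos_of_ne_zero (NeZero.ne p)
  have hp : (0 : ℝ) < p := by exact_mod_cast hp0
  have hfp := mem_NiceAlg_natCast_of_one p hf
  ext m
  symm
  refine coeff_unique (f := f) (c := fun m => (stretch p (qExpansion 1 f)).coeff m)
    hp (analyticAt_of_mem hp hfp) (fun τ => ?_) m
  have h1 := hasSum_qExpansion (h := 1) one_pos hf.1 hf.2.1 hf.2.2 τ
  have hinj : Function.Injective (fun n : ℕ => p * n) := fun a b hab =>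
    Nat.eq_of_mul_eq_mul_left hp0 hab
  rw [← hinj.hasSum_iff]
  · convert h1 using 1
    funext n
    simp only [comp_apply, stretch, PowerSeries.coeff_mk, dvd_mul_right, if_true,
      Nat.mul_div_cancel_left _ hp0]
    rw [pow_mul, ← qParam_pow_nat p (τ : ℂ)]
  · intro m hm
    have : ¬ p ∣ m := fun ⟨n, hn⟩ => hm ⟨n, hn.symm⟩
    simp [stretch, this]

theorem tendsto_vadd_atImInfty (x : ℝ) : Tendsto (fun z : ℍ => x +ᵥ z) atImInfty atImInfty := by
  rw [atImInfty, tendsto_comap_iff]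
  have : (im ∘ fun z : ℍ => x +ᵥ z) = im := by
    funext z
    simp
  rw [this]
  exact tendsto_comap

theorem mdiff_vadd (x : ℝ) {f : ℍ → ℂ} (hf : MDiff f) : MDiff (fun z : ℍ => f (x +ᵥ z)) := by
  rw [UpperHalfPlane.mdifferentiable_iff] at hf ⊢
  have hmap : Set.MapsTo (fun w : ℂ => w + x) {z : ℂ | 0 < z.im} {z : ℂ | 0 < z.im} := by
    intro w hw
    simpa using hw
  have h1 : DifferentiableOn ℂ ((f ∘ ofComplex) ∘ fun w : ℂ => w + x) {z : ℂ | 0 < z.im} :=
    hf.comp (by fun_prop) hmap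
  refine h1.congr fun w hw => ?_
  have hw' : 0 < Complex.im (w + x) := by simpa using hw
  simp only [comp_apply, ofComplex_apply_of_im_pos hw', ofComplex_apply_of_im_pos hw]
  congr 1
  ext
  simp [add_comm]

theorem vadd_mem_NiceAlg {h : ℝ} (x : ℝ) {f : ℍ → ℂ} (hf : f ∈ NiceAlg h) :
    (fun z : ℍ => f (x +ᵥ z)) ∈ NiceAlg h := by
  refine ⟨periodic_of_vadd fun τ => ?_, mdiff_vadd x hf.2.1, ?_⟩
  · show f (x +ᵥ (h +ᵥ τ)) = f (x +ᵥ τ)
    rw [vadd_comm, vadd_of_periodic hf.1]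
  · exact hf.2.2.comp_tendsto (tendsto_vadd_atImInfty x)

/-- (Q3) Translation by `j` multiplies the `n`-th coefficient of the `q^{1/p}`-expansion by
`ζ_p^{jn}`. -/
theorem qExpansion_vadd (p : ℕ) [NeZero p] {f : ℍ → ℂ} (hf : f ∈ NiceAlg (p : ℝ)) (j : ℕ) :
    qExpansion (p : ℝ) (fun z : ℍ => f ((j : ℝ) +ᵥ z)) =
      PowerSeries.rescale (zetaP p ^ j) (qExpansion (p : ℝ) f) := by
  have hp0 : 0 < p := Nat.pos_of_ne_zero (NeZero.ne p)
  have hp : (0 : ℝ) < p := by exact_mod_cast hp0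
  have hg := vadd_mem_NiceAlg (j : ℝ) hf
  ext m
  symm
  refine coeff_unique (f := fun z : ℍ => f ((j : ℝ) +ᵥ z))
    (c := fun m => (PowerSeries.rescale (zetaP p ^ j) (qExpansion (p : ℝ) f)).coeff m)
    hp (analyticAt_of_mem hp hg) (fun τ => ?_) m
  have h1 := hasSum_qExpansion (h := (p : ℝ)) hp hf.1 hf.2.1 hf.2.2 ((j : ℝ) +ᵥ τ)
  convert h1 using 1
  funext n
  rw [qParam_vadd p j τ, PowerSeries.coeff_rescale]
  simp only [smul_eq_mul]
  ring


end

end Fermat.Agent.S16.TkEsymmQ
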