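/-
S16 project, package P6 (TkEsymm): final assembly of the `esymm` field of the toolkit.

For `Θ ∈ M_k(Γ₀(p))` with `q`-expansion `A` and `q^{1/p}`-expansion `B` of `Θ ∣ S`, the `i`-th
elementary symmetric function of the `p + 1` conjugates `Θ`, `(Θ ∣ S)(z + j)` is a level one form
`e` of weight `k * i` (`TkEsymmPt.pointwise`), and its `q`-expansion, stretched by `p`, is the
`i`-th elementary symmetric function of the multiset `conjMS p A B` of formal conjugates
(`TkEsymmQ`: the `q^{1/p}`-expansion is a ring homomorphism on nice functions, turns period one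
functions into stretched series and translation by `j` into rescaling by `ζ_p^j`).
-/
import Mathlib
import Fermat.Agent.S16.Defs
import Fermat.Agent.S16.TkEsymmQ
import Fermat.Agent.S16.TkEsymmPt
import Fermat.Prelude.Thm_CongruenceSubgroup_one_mem_strictPeriods_Gamma0

set_option autoImplicit false

namespace Fermat.Agent.S16.TkEsymm

open UpperHalfPlane Function Filter CongruenceSubgroup Matrix.SpecialLinearGroup
open scoped MatrixGroups Manifold Topology ModularForm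

open Fermat.Agent.S16.TkEsymmQ

noncomputable section


/-- The element `S T^n S⁻¹ = [1, 0; -n, 1]`. -/
theorem S_mul_T_zpow_mul_S_inv_mem (p : ℕ) :
    ModularGroup.S * ModularGroup.T ^ (p : ℤ) * ModularGroup.S⁻¹ ∈ Gamma0 p := by
  rw [Gamma0_mem]
  have h1 : ((ModularGroup.S * ModularGroup.T ^ (p : ℤ) * ModularGroup.S⁻¹ : SL(2, ℤ)) :
      Matrix (Fin 2) (Fin 2) ℤ) = !![1, 0; -(p : ℤ), 1] := by
    rw [Matrix.SpecialLinearGroup.coe_mul, Matrix.SpecialLinearGroup.coe_mul,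
      ModularGroup.coe_T_zpow, Matrix.SpecialLinearGroup.coe_inv, ModularGroup.coe_S,
      Matrix.adjugate_fin_two_of, Matrix.mul_fin_two, Matrix.mul_fin_two]
    simp
  rw [h1]
  simp

theorem slash_T_zpow_apply {k : ℤ} (f : ℍ → ℂ) (n : ℤ) (z : ℍ) :
    (f ∣[k] (ModularGroup.T ^ n)) z = f ((n : ℝ) +ᵥ z) := by
  rw [ModularForm.SL_slash_apply, UpperHalfPlane.modular_T_zpow_smul]
  have : denom ((ModularGroup.T ^ n : SL(2, ℤ))) z = 1 := by
    rw [ModularGroup.denom_apply, ModularGroup.coe_T_zpow]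
    simp
  rw [this]
  simp

/-- `Θ|S` has period `p` for `Θ` on `Γ₀(p)`. -/
theorem slash_S_vadd (p : ℕ) {k : ℤ} (Θ : ModularForm (Gamma0 p) k) (z : ℍ) :
    (⇑Θ ∣[k] ModularGroup.S) ((p : ℝ) +ᵥ z) = (⇑Θ ∣[k] ModularGroup.S) z := by
  have h1 := slash_T_zpow_apply (k := k) (⇑Θ ∣[k] ModularGroup.S) (p : ℤ) z
  have h2 : (⇑Θ ∣[k] ModularGroup.S) ∣[k] (ModularGroup.T ^ (p : ℤ)) = ⇑Θ ∣[k] ModularGroup.S := by
    rw [← SlashAction.slash_mul]
    have h3 : ModularGroup.S * ModularGroup.T ^ (p : ℤ) =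
        (ModularGroup.S * ModularGroup.T ^ (p : ℤ) * ModularGroup.S⁻¹) * ModularGroup.S := by
      group
    rw [h3, SlashAction.slash_mul]
    congr 1
    exact SlashInvariantFormClass.slash_action_eq Θ _
      ⟨_, S_mul_T_zpow_mul_S_inv_mem p, rfl⟩
  rw [h2] at h1
  rw [h1]
  simp

theorem coe_mem_NiceAlg_one (p : ℕ) [NeZero p] {k : ℤ} (Θ : ModularForm (Gamma0 p) k) :
    (⇑Θ : ℍ → ℂ) ∈ NiceAlg 1 :=
  ⟨SlashInvariantFormClass.periodic_comp_ofComplex Θ
      (CongruenceSubgroup.one_mem_strictPeriods_Gamma0 p),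
    ModularFormClass.holo Θ, ModularFormClass.bdd_at_infty Θ⟩

theorem levelOne_mem_NiceAlg_one {k : ℤ} (e : ModularForm 𝒮ℒ k) : (⇑e : ℍ → ℂ) ∈ NiceAlg 1 :=
  ⟨SlashInvariantFormClass.periodic_comp_ofComplex e one_mem_strictPeriods_SL,
    ModularFormClass.holo e, ModularFormClass.bdd_at_infty e⟩

theorem slash_S_mem_NiceAlg (p : ℕ) [NeZero p] {k : ℤ} (Θ : ModularForm (Gamma0 p) k) :
    (⇑Θ ∣[k] ModularGroup.S) ∈ NiceAlg (p : ℝ) :=
  ⟨periodic_of_vadd (slash_S_vadd p Θ), (ModularFormClass.holo Θ).slash k _,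
    ModularFormClass.bdd_at_infty_slash Θ _⟩

/-- Final assembly of the `esymm` field of the toolkit, from the pointwise description of the
elementary symmetric functions of the conjugates as level one forms. -/
theorem main_of (p : ℕ) [NeZero p]
    (hC : ∀ {k : ℤ} (Θ : ModularForm (Gamma0 p) k) (i : ℕ), ∃ e : ModularForm 𝒮ℒ (k * i),
      ∀ z, e z = (Θ z ::ₘ (Multiset.range p).map
        (fun j : ℕ => (⇑Θ ∣[k] ModularGroup.S) ((j : ℝ) +ᵥ z))).esymm i)
    {k : ℤ} {A B : PowerSeries ℂ} (h : Cusp2 p k A B) (i : ℕ) :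
    ∃ e : ModularForm 𝒮ℒ (k * i), stretch p (qExpansion 1 e) = (conjMS p A B).esymm i := by
  obtain ⟨Θ, rfl, rfl⟩ := h
  obtain ⟨e, he⟩ := hC Θ i
  refine ⟨e, ?_⟩
  have hp : (0 : ℝ) < p := by exact_mod_cast Nat.pos_of_ne_zero (NeZero.ne p)
  have hΘ := mem_NiceAlg_natCast_of_one p (coe_mem_NiceAlg_one p Θ)
  have hg := slash_S_mem_NiceAlg p Θ
  rw [← qExpansion_stretch p (levelOne_mem_NiceAlg_one e)]
  rw [qExpansion_esymm (p : ℝ) hp
    ((⟨⇑Θ, hΘ⟩ : NiceAlg (p : ℝ)) ::ₘ (Multiset.range p).map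
      (fun j : ℕ => (⟨fun z => (⇑Θ ∣[k] ModularGroup.S) ((j : ℝ) +ᵥ z),
        vadd_mem_NiceAlg (j : ℝ) hg⟩ : NiceAlg (p : ℝ)))) i ⇑e
    (fun z => by rw [he z]; simp [Multiset.map_map])]
  simp only [Multiset.map_cons, Multiset.map_map, Function.comp_def, conjMS]
  rw [qExpansion_stretch p (coe_mem_NiceAlg_one p Θ)]
  congr 2
  refine Multiset.map_congr rfl fun j _ => ?_
  exact qExpansion_vadd p hg j

/-- **P6.** The `esymm` field of the toolkit. -/
theorem main (p : ℕ) [Fact p.Prime] {k : ℤ} {A B : PowerSeries ℂ} (h : Cusp2 p k A B) (i : ℕ) :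
    ∃ e : ModularForm 𝒮ℒ (k * i), stretch p (qExpansion 1 e) = (conjMS p A B).esymm i :=
  haveI : NeZero p := ⟨(Fact.out : p.Prime).ne_zero⟩
  main_of p (fun Θ i => TkEsymmPt.pointwise p Θ i) h i

end

end Fermat.Agent.S16.TkEsymm
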