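/-
S16 project, package P5 (TkSwap): the `swap` field of the analytic toolkit (Fricke involution).

For `Θ ∈ M_k(Γ₀(p))` with `q`-expansion `A` and with `Θ|S` having `q^{1/p}`-expansion `B`, the form
`H := Θ ∣[k] W`, `W = S * diag(p, 1) = !![0, -1; p, 0]`, lies in `M_k(Γ₀(p))`, has `q`-expansion
`p^(k-1) * B`, and `H|S` has `q^{1/p}`-expansion `p⁻¹ * A`.
-/
import Mathlib
import Fermat.Agent.S16.Defs
import Fermat.Prelude.Def_ModularForm_HeckeOperator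
import Fermat.Prelude.Thm_CongruenceSubgroup_one_mem_strictPeriods_Gamma0

set_option autoImplicit false

open UpperHalfPlane ModularForm Matrix.SpecialLinearGroup CongruenceSubgroup
open scoped MatrixGroups ModularForm

namespace Fermat.Agent.S16.TkSwap

noncomputable section

theorem dvd_of_mem_Gamma0 {p : ℕ} {γ : SL(2, ℤ)} (hγ : γ ∈ Gamma0 p) : (p : ℤ) ∣ γ 1 0 := by
  rw [Gamma0_mem] at hγ
  exact (ZMod.intCast_zmod_eq_zero_iff_dvd _ _).mp hγ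

/-- For `γ = !![a, b; c, d] ∈ Γ₀(p)`, the matrix `!![d, -(c / p); -(p b), a]`
(`= W γ W⁻¹` for the Fricke matrix `W = !![0, -1; p, 0]`). -/
def frickeConj (p : ℕ) [NeZero p] (γ : SL(2, ℤ)) (hγ : γ ∈ Gamma0 p) : SL(2, ℤ) :=
  ⟨!![γ 1 1, -(γ 1 0 / p); -(p * γ 0 1), γ 0 0], by
    have hN : (p : ℤ) ≠ 0 := by exact_mod_cast NeZero.ne p
    obtain ⟨c, hc⟩ := dvd_of_mem_Gamma0 hγ
    have hdet := γ.det_coe
    rw [Matrix.det_fin_two] at hdet
    rw [Matrix.det_fin_two_of, hc, Int.mul_ediv_cancel_left _ hN]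
    rw [hc] at hdet
    linear_combination hdet⟩

theorem frickeConj_zero_zero (p : ℕ) [NeZero p] (γ : SL(2, ℤ)) (hγ : γ ∈ Gamma0 p) :
    (frickeConj p γ hγ) 0 0 = γ 1 1 := rfl

theorem frickeConj_zero_one (p : ℕ) [NeZero p] (γ : SL(2, ℤ)) (hγ : γ ∈ Gamma0 p) :
    (frickeConj p γ hγ) 0 1 = -(γ 1 0 / p) := rfl

theorem frickeConj_one_zero (p : ℕ) [NeZero p] (γ : SL(2, ℤ)) (hγ : γ ∈ Gamma0 p) :
    (frickeConj p γ hγ) 1 0 = -(p * γ 0 1) := rfl

theorem frickeConj_one_one (p : ℕ) [NeZero p] (γ : SL(2, ℤ)) (hγ : γ ∈ Gamma0 p) :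
    (frickeConj p γ hγ) 1 1 = γ 0 0 := rfl

theorem frickeConj_mem (p : ℕ) [NeZero p] (γ : SL(2, ℤ)) (hγ : γ ∈ Gamma0 p) :
    frickeConj p γ hγ ∈ Gamma0 p := by
  rw [Gamma0_mem, frickeConj_one_zero]
  simp

/-- The Fricke matrix `W = S * diag(p, 1) = !![0, -1; p, 0]`. -/
def wMat (p : ℕ) : GL (Fin 2) ℝ := mapGL ℝ ModularGroup.S * heckeDiagMatrix p

theorem mapGL_apply (g : SL(2, ℤ)) (i j : Fin 2) :
    (mapGL ℝ g : GL (Fin 2) ℝ) i j = ((g i j : ℤ) : ℝ) := rfl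

theorem val_mapGL_S :
    ((mapGL ℝ ModularGroup.S : GL (Fin 2) ℝ) : Matrix (Fin 2) (Fin 2) ℝ) = !![0, -1; 1, 0] := by
  ext i j
  rw [mapGL_apply]
  fin_cases i <;> fin_cases j <;> simp [ModularGroup.S]

theorem val_wMat (p : ℕ) [NeZero p] :
    ((wMat p : GL (Fin 2) ℝ) : Matrix (Fin 2) (Fin 2) ℝ) = !![0, -1; (p : ℝ), 0] := by
  rw [wMat, Units.val_mul, val_heckeDiagMatrix (NeZero.ne p), val_mapGL_S]
  ext i j
  fin_cases i <;> fin_cases j <;>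
    simp [Matrix.mul_apply, Fin.sum_univ_two]

theorem wMat_mul_mapGL (p : ℕ) [NeZero p] (γ : SL(2, ℤ)) (hγ : γ ∈ Gamma0 p) :
    wMat p * mapGL ℝ γ = mapGL ℝ (frickeConj p γ hγ) * wMat p := by
  have hN : (p : ℤ) ≠ 0 := by exact_mod_cast NeZero.ne p
  obtain ⟨c, hc⟩ := dvd_of_mem_Gamma0 hγ
  have h01 : (frickeConj p γ hγ) 0 1 = -c := by
    rw [frickeConj_zero_one, hc, Int.mul_ediv_cancel_left _ hN]
  apply Units.ext
  rw [Units.val_mul, Units.val_mul, val_wMat]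
  ext i j
  fin_cases i <;> fin_cases j
  · have h : -((γ 1 0 : ℤ) : ℝ) = (((frickeConj p γ hγ) 0 1 : ℤ) : ℝ) * (p : ℝ) := by
      rw [h01, hc]; push_cast; ring
    simpa [Matrix.mul_apply, Fin.sum_univ_two] using h
  · simp [Matrix.mul_apply, Fin.sum_univ_two, frickeConj_zero_zero]
  · simp [Matrix.mul_apply, Fin.sum_univ_two, frickeConj_one_one, mul_comm]
  · simp [Matrix.mul_apply, Fin.sum_univ_two, frickeConj_one_zero]

open ConjAct Pointwise in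
theorem gamma0_le_conj (p : ℕ) [NeZero p] :
    ((Gamma0 p : Subgroup SL(2, ℤ)) : Subgroup (GL (Fin 2) ℝ)) ≤
      toConjAct (wMat p)⁻¹ • ((Gamma0 p : Subgroup SL(2, ℤ)) : Subgroup (GL (Fin 2) ℝ)) := by
  rintro _ ⟨γ, hγ, rfl⟩
  rw [Subgroup.mem_pointwise_smul_iff_inv_smul_mem]
  refine ⟨frickeConj p γ hγ, frickeConj_mem p γ hγ, ?_⟩
  rw [← map_inv, ConjAct.toConjAct_smul, inv_inv, wMat_mul_mapGL p γ hγ]
  group

/-- The Fricke translate `Θ ∣[k] W` as a modular form on `Γ₀(p)`. -/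
def fricke (p : ℕ) [NeZero p] {k : ℤ} (Θ : ModularForm (Gamma0 p) k) :
    ModularForm (Gamma0 p) k where
  toFun := ⇑Θ ∣[k] wMat p
  slash_action_eq' := by
    rintro _ ⟨γ, hγ, rfl⟩
    rw [← SlashAction.slash_mul, wMat_mul_mapGL p γ hγ, SlashAction.slash_mul]
    congr 1
    exact SlashInvariantFormClass.slash_action_eq Θ _
      ⟨frickeConj p γ hγ, frickeConj_mem p γ hγ, rfl⟩
  holo' := (ModularForm.translate Θ (wMat p)).holo'
  bdd_at_cusps' hc :=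
    (ModularForm.translate Θ (wMat p)).bdd_at_cusps' (hc.mono (gamma0_le_conj p))

theorem coe_fricke (p : ℕ) [NeZero p] {k : ℤ} (Θ : ModularForm (Gamma0 p) k) :
    ⇑(fricke p Θ) = ⇑Θ ∣[k] wMat p := rfl

/-! ### `q`-expansions -/

open ConjAct Pointwise in
/-- The level `S⁻¹ Γ₀(p) S` of the `S`-translates. -/
abbrev gammaS (p : ℕ) : Subgroup (GL (Fin 2) ℝ) :=
  toConjAct (mapGL ℝ ModularGroup.S)⁻¹ •
    ((Gamma0 p : Subgroup SL(2, ℤ)) : Subgroup (GL (Fin 2) ℝ))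

/-- The matrix `!![1, 0; -p, 1]`. -/
def lowP (p : ℕ) : SL(2, ℤ) := ⟨!![1, 0; -(p : ℤ), 1], by simp [Matrix.det_fin_two_of]⟩

theorem lowP_mem (p : ℕ) : lowP p ∈ Gamma0 p := by
  rw [Gamma0_mem]
  change (((-(p : ℤ) : ℤ)) : ZMod p) = 0
  simp

theorem val_mapGL_lowP (p : ℕ) :
    ((mapGL ℝ (lowP p) : GL (Fin 2) ℝ) : Matrix (Fin 2) (Fin 2) ℝ) = !![1, 0; -(p : ℝ), 1] := by
  ext i j
  rw [mapGL_apply]
  fin_cases i <;> fin_cases j <;> simp [lowP]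

open ConjAct Pointwise in
theorem natCast_mem_strictPeriods (p : ℕ) : (p : ℝ) ∈ (gammaS p).strictPeriods := by
  rw [Subgroup.mem_strictPeriods_iff, Subgroup.mem_pointwise_smul_iff_inv_smul_mem]
  refine ⟨lowP p, lowP_mem p, ?_⟩
  rw [← map_inv, ConjAct.toConjAct_smul, inv_inv, eq_mul_inv_iff_mul_eq]
  apply Units.ext
  rw [Units.val_mul, Units.val_mul, val_mapGL_S, val_mapGL_lowP]
  ext i j
  fin_cases i <;> fin_cases j <;>
    simp [Matrix.mul_apply, Fin.sum_univ_two]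

theorem hasSum_slash_S (p : ℕ) [NeZero p] {k : ℤ} (Θ : ModularForm (Gamma0 p) k) (τ : ℍ) :
    HasSum (fun m => (qExpansion (p : ℝ) (⇑Θ ∣[k] ModularGroup.S)).coeff m *
      Function.Periodic.qParam (p : ℝ) τ ^ m) ((⇑Θ ∣[k] ModularGroup.S) τ) := by
  have hp : (0 : ℝ) < p := by exact_mod_cast Nat.pos_of_ne_zero (NeZero.ne p)
  have : Fact (IsCusp OnePoint.infty (gammaS p)) :=
    ⟨(gammaS p).isCusp_of_mem_strictPeriods hp (natCast_mem_strictPeriods p)⟩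
  exact ModularForm.hasSum_qExpansion (f := ModularForm.translate Θ (mapGL ℝ ModularGroup.S)) hp
    (natCast_mem_strictPeriods p) τ

theorem qParam_diag (p : ℕ) [NeZero p] (τ : ℍ) :
    Function.Periodic.qParam (p : ℝ) ((heckeDiagMatrix p • τ : ℍ) : ℂ) =
      Function.Periodic.qParam 1 (τ : ℂ) := by
  have hp : (p : ℂ) ≠ 0 := by exact_mod_cast NeZero.ne p
  rw [coe_heckeDiagMatrix_smul (NeZero.ne p), Function.Periodic.qParam, Function.Periodic.qParam]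
  congr 1
  push_cast
  field_simp

theorem qParam_hecke_zero (p : ℕ) [NeZero p] (τ : ℍ) :
    Function.Periodic.qParam 1 ((heckeMatrix p 0 • τ : ℍ) : ℂ) =
      Function.Periodic.qParam (p : ℝ) (τ : ℂ) := by
  have hp : (p : ℂ) ≠ 0 := by exact_mod_cast NeZero.ne p
  rw [coe_heckeMatrix_smul (NeZero.ne p), Function.Periodic.qParam, Function.Periodic.qParam]
  congr 1
  push_cast
  field_simp
  ring

theorem fricke_apply (p : ℕ) [NeZero p] {k : ℤ} (Θ : ModularForm (Gamma0 p) k) (τ : ℍ) :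
    fricke p Θ τ = (p : ℂ) ^ (k - 1) * (⇑Θ ∣[k] ModularGroup.S) (heckeDiagMatrix p • τ) := by
  change (⇑Θ ∣[k] wMat p) τ = _
  rw [wMat, SlashAction.slash_mul, slash_heckeDiagMatrix_apply k (NeZero.ne p)]
  rfl

theorem hasSum_fricke (p : ℕ) [NeZero p] {k : ℤ} (Θ : ModularForm (Gamma0 p) k) (τ : ℍ) :
    HasSum (fun m => ((p : ℂ) ^ (k - 1) *
        (qExpansion (p : ℝ) (⇑Θ ∣[k] ModularGroup.S)).coeff m) •
      Function.Periodic.qParam 1 (τ : ℂ) ^ m) (fricke p Θ τ) := by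
  have h1 := hasSum_slash_S p Θ (heckeDiagMatrix p • τ)
  rw [qParam_diag] at h1
  have h2 := h1.mul_left ((p : ℂ) ^ (k - 1))
  rw [← fricke_apply] at h2
  simpa only [smul_eq_mul, mul_assoc] using h2

theorem qExpansion_fricke (p : ℕ) [NeZero p] {k : ℤ} (Θ : ModularForm (Gamma0 p) k) :
    qExpansion 1 (fricke p Θ) =
      PowerSeries.C ((p : ℂ) ^ (k - 1)) * qExpansion (p : ℝ) (⇑Θ ∣[k] ModularGroup.S) := by
  ext m
  rw [PowerSeries.coeff_C_mul]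
  exact (ModularFormClass.qExpansion_coeff_unique one_pos
    (CongruenceSubgroup.one_mem_strictPeriods_Gamma0 p) (hasSum_fricke p Θ) m).symm

theorem neg_one_mem_Gamma0 (p : ℕ) : (-1 : SL(2, ℤ)) ∈ Gamma0 p := by
  rw [Gamma0_mem]
  simp

theorem val_mapGL_neg_one :
    ((mapGL ℝ (-1 : SL(2, ℤ)) : GL (Fin 2) ℝ) : Matrix (Fin 2) (Fin 2) ℝ) = !![-1, 0; 0, -1] := by
  ext i j
  rw [mapGL_apply]
  fin_cases i <;> fin_cases j <;> simp

theorem wMat_mul_S (p : ℕ) [NeZero p] :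
    wMat p * mapGL ℝ ModularGroup.S = mapGL ℝ (-1 : SL(2, ℤ)) * heckeMatrix p 0 := by
  apply Units.ext
  rw [Units.val_mul, Units.val_mul, val_wMat, val_mapGL_S, val_heckeMatrix (NeZero.ne p),
    val_mapGL_neg_one]
  ext i j
  fin_cases i <;> fin_cases j <;>
    simp [Matrix.mul_apply, Fin.sum_univ_two]

theorem fricke_slash_S (p : ℕ) [NeZero p] {k : ℤ} (Θ : ModularForm (Gamma0 p) k) :
    ⇑(fricke p Θ) ∣[k] ModularGroup.S = ⇑Θ ∣[k] heckeMatrix p 0 := by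
  change (⇑Θ ∣[k] wMat p) ∣[k] mapGL ℝ ModularGroup.S = _
  rw [← SlashAction.slash_mul, wMat_mul_S, SlashAction.slash_mul]
  congr 1
  exact SlashInvariantFormClass.slash_action_eq Θ _ ⟨-1, neg_one_mem_Gamma0 p, rfl⟩

theorem fricke_slash_S_apply (p : ℕ) [NeZero p] {k : ℤ} (Θ : ModularForm (Gamma0 p) k) (τ : ℍ) :
    (⇑(fricke p Θ) ∣[k] ModularGroup.S) τ = (p : ℂ)⁻¹ * Θ (heckeMatrix p 0 • τ) := by
  rw [fricke_slash_S, slash_heckeMatrix_apply k (NeZero.ne p)]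

theorem hasSum_fricke_slash_S (p : ℕ) [NeZero p] {k : ℤ} (Θ : ModularForm (Gamma0 p) k)
    (τ : ℍ) :
    HasSum (fun m => ((p : ℂ)⁻¹ * (qExpansion 1 Θ).coeff m) •
      Function.Periodic.qParam (p : ℝ) (τ : ℂ) ^ m)
      ((⇑(fricke p Θ) ∣[k] ModularGroup.S) τ) := by
  have h1 := ModularForm.hasSum_qExpansion (f := Θ) one_pos
    (CongruenceSubgroup.one_mem_strictPeriods_Gamma0 p) (heckeMatrix p 0 • τ)
  rw [qParam_hecke_zero] at h1
  have h2 := h1.mul_left ((p : ℂ)⁻¹)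
  rw [← fricke_slash_S_apply] at h2
  simpa only [smul_eq_mul, mul_assoc] using h2

theorem qExpansion_fricke_slash_S (p : ℕ) [NeZero p] {k : ℤ} (Θ : ModularForm (Gamma0 p) k) :
    qExpansion (p : ℝ) (⇑(fricke p Θ) ∣[k] ModularGroup.S) =
      PowerSeries.C ((p : ℂ)⁻¹) * qExpansion 1 Θ := by
  have hp : (0 : ℝ) < p := by exact_mod_cast Nat.pos_of_ne_zero (NeZero.ne p)
  ext m
  rw [PowerSeries.coeff_C_mul]
  exact (ModularFormClass.qExpansion_coeff_unique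
    (f := ModularForm.translate (fricke p Θ) (mapGL ℝ ModularGroup.S)) hp
    (natCast_mem_strictPeriods p) (hasSum_fricke_slash_S p Θ) m).symm

/-- General weight version of the swap: the Fricke involution exchanges the two expansions. -/
theorem cusp2_swap (p : ℕ) [NeZero p] {k : ℤ} {A B : PowerSeries ℂ} (h : Cusp2 p k A B) :
    Cusp2 p k (PowerSeries.C ((p : ℂ) ^ (k - 1)) * B) (PowerSeries.C ((p : ℂ)⁻¹) * A) := by
  obtain ⟨Θ, rfl, rfl⟩ := h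
  exact ⟨fricke p Θ, qExpansion_fricke p Θ, qExpansion_fricke_slash_S p Θ⟩

/-- The `swap` field of `Toolkit p`. -/
theorem swap (p : ℕ) [NeZero p] {A B : PowerSeries ℂ} (h : Cusp2 p 2 A B) :
    Cusp2 p 2 (PowerSeries.C (p : ℂ) * B) (PowerSeries.C (p : ℂ)⁻¹ * A) := by
  simpa using cusp2_swap p h

end

end Fermat.Agent.S16.TkSwap
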