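/-
S16 project: final assembly of the analytic toolkit `Toolkit p` (`S16/Defs.lean`) from the
packages `TkAlg` (fields `mul`, `add`, `smul`, `levelOne`), `TkSwap` (field `swap`) and
`TkEsymm` (field `esymm`).
-/
import Fermat.Agent.S16.TkAlg
import Fermat.Agent.S16.TkSwap
import Fermat.Agent.S16.TkEsymm

set_option autoImplicit false

namespace Fermat.Agent.S16.TkMain

/-- The analytic toolkit for `Γ₀(p)`, `p` prime. -/
theorem main (p : ℕ) [Fact p.Prime] : Toolkit p :=
  have : NeZero p := ⟨(Fact.out : p.Prime).ne_zero⟩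
  ⟨TkAlg.mul, TkAlg.add, TkAlg.smul, TkAlg.levelOne, fun h => TkSwap.swap p h,
    fun h i => TkEsymm.main p h i⟩

end Fermat.Agent.S16.TkMain
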