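/-
S16 project, package TransferComb (helper28): pure combinatorics of the Hecke correspondence
`T_ℓ` (`ℓ` prime, `ℓ ∤ p`) on `Γ₀(p)`: coset representatives `delta ℓ i` (`i : Fin (ℓ+1)`),
the transfer elements `k i γ` and the permutation `σ γ` with
`delta ℓ i * γ = k i γ * delta ℓ (σ γ i)`, the product of the lower right entries of the `k i γ`,
and the compatibility with the involution `jConjGamma0`.
-/
import Mathlib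
import Fermat.Prelude.Def_ModularForm_HeckeOperator
import Fermat.Prelude.Def_ModularCurve_PeriodHomPair

set_option autoImplicit false

namespace Fermat.Agent.S16.TransferComb

open CongruenceSubgroup ModularForm ModularCurve.Period Matrix
open scoped MatrixGroups

/-! ### The integer matrices -/

/-- The integer matrices `[1 j; 0 ℓ]` (`j < ℓ`) and `[ℓ 0; 0 1]` (index `ℓ`). -/
def dI (ℓ : ℕ) (i : Fin (ℓ + 1)) : Matrix (Fin 2) (Fin 2) ℤ :=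
  if (i : ℕ) < ℓ then !![1, ((i : ℕ) : ℤ); 0, (ℓ : ℤ)] else !![(ℓ : ℤ), 0; 0, 1]

theorem dI_of_lt {ℓ : ℕ} {i : Fin (ℓ + 1)} (h : (i : ℕ) < ℓ) :
    dI ℓ i = !![1, ((i : ℕ) : ℤ); 0, (ℓ : ℤ)] := if_pos h

theorem dI_of_not_lt {ℓ : ℕ} {i : Fin (ℓ + 1)} (h : ¬ (i : ℕ) < ℓ) :
    dI ℓ i = !![(ℓ : ℤ), 0; 0, 1] := if_neg h

theorem dI_one_zero (ℓ : ℕ) (i : Fin (ℓ + 1)) : dI ℓ i 1 0 = 0 := by
  unfold dI; split_ifs <;> simp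

theorem dI_det (ℓ : ℕ) (i : Fin (ℓ + 1)) : (dI ℓ i).det = ℓ := by
  unfold dI; split_ifs <;> simp [Matrix.det_fin_two]

/-- Upper left entry: `1` or `ℓ`. -/
theorem dI_zero_zero (ℓ : ℕ) (i : Fin (ℓ + 1)) : dI ℓ i 0 0 = 1 ∨ dI ℓ i 0 0 = ℓ := by
  unfold dI; split_ifs <;> simp

/-- Lower right entry: `ℓ` or `1`. -/
theorem dI_one_one (ℓ : ℕ) (i : Fin (ℓ + 1)) : dI ℓ i 1 1 = ℓ ∨ dI ℓ i 1 1 = 1 := by
  unfold dI; split_ifs <;> simp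

/-- Hermite normal form for determinant `ℓ`. -/
theorem exists_decomp {ℓ : ℕ} (hℓ : ℓ.Prime) (M : Matrix (Fin 2) (Fin 2) ℤ)
    (hM : M.det = ℓ) :
    ∃ (i : Fin (ℓ + 1)) (k : Matrix (Fin 2) (Fin 2) ℤ), k.det = 1 ∧ M = k * dI ℓ i := by
  have : Fact ℓ.Prime := ⟨hℓ⟩
  have hℓ0 : (ℓ : ℤ) ≠ 0 := by exact_mod_cast hℓ.ne_zero
  rw [Matrix.det_fin_two] at hM
  by_cases hc : (ℓ : ℤ) ∣ M 0 0 ∧ (ℓ : ℤ) ∣ M 1 0
  · obtain ⟨⟨x', hx⟩, ⟨z', hz⟩⟩ := hc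
    refine ⟨Fin.last ℓ, !![x', M 0 1; z', M 1 1], ?_, ?_⟩
    · rw [Matrix.det_fin_two_of]
      have : (ℓ : ℤ) * (x' * M 1 1 - M 0 1 * z') = ℓ * 1 := by
        rw [hx, hz] at hM; linear_combination hM
      exact mul_left_cancel₀ hℓ0 this
    · rw [dI_of_not_lt (by simp)]
      ext a b
      fin_cases a <;> fin_cases b <;> simp [Matrix.mul_apply, Fin.sum_univ_two, hx, hz, mul_comm]
  · -- some entry of the first column is a unit mod ℓ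
    have hzm : ∀ n : ℤ, ((n : ZMod ℓ) = 0 ↔ (ℓ : ℤ) ∣ n) := fun n =>
      ZMod.intCast_zmod_eq_zero_iff_dvd n ℓ
    have hdet : ((M 0 0 : ℤ) : ZMod ℓ) * (M 1 1 : ℤ) - (M 0 1 : ℤ) * (M 1 0 : ℤ) = 0 := by
      have := congrArg (Int.cast : ℤ → ZMod ℓ) hM
      push_cast at this
      simpa using this
    obtain ⟨J, hJ1, hJ2⟩ : ∃ J : ZMod ℓ, ((M 0 1 : ℤ) : ZMod ℓ) = (M 0 0 : ℤ) * J ∧
        ((M 1 1 : ℤ) : ZMod ℓ) = (M 1 0 : ℤ) * J := by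
      by_cases hx : ((M 0 0 : ℤ) : ZMod ℓ) = 0
      · have hz : ((M 1 0 : ℤ) : ZMod ℓ) ≠ 0 := fun hz => hc ⟨(hzm _).mp hx, (hzm _).mp hz⟩
        refine ⟨(M 1 1 : ℤ) / (M 1 0 : ℤ), ?_, ?_⟩
        · rw [hx, zero_mul] at hdet ⊢
          have : ((M 0 1 : ℤ) : ZMod ℓ) * (M 1 0 : ℤ) = 0 := by linear_combination -hdet
          rcases mul_eq_zero.mp this with h | h
          · exact h
          · exact absurd h hz
        · field_simp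
      · refine ⟨(M 0 1 : ℤ) / (M 0 0 : ℤ), ?_, ?_⟩
        · field_simp
        · field_simp
          linear_combination hdet
    obtain ⟨j, hjlt, hjc⟩ : ∃ j : ℕ, j < ℓ ∧ ((j : ℕ) : ZMod ℓ) = J :=
      ⟨J.val, ZMod.val_lt J, ZMod.natCast_zmod_val J⟩
    obtain ⟨u, hu⟩ : (ℓ : ℤ) ∣ M 0 1 - M 0 0 * j := by
      rw [← hzm]; push_cast; rw [hjc, hJ1]; ring
    obtain ⟨v, hv⟩ : (ℓ : ℤ) ∣ M 1 1 - M 1 0 * j := by
      rw [← hzm]; push_cast; rw [hjc, hJ2]; ring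
    refine ⟨⟨j, by omega⟩, !![M 0 0, u; M 1 0, v], ?_, ?_⟩
    · rw [Matrix.det_fin_two_of]
      have : (ℓ : ℤ) * (M 0 0 * v - u * M 1 0) = ℓ * 1 := by
        linear_combination hM - (M 0 0) * hv + (M 1 0) * hu
      exact mul_left_cancel₀ hℓ0 this
    · rw [dI_of_lt (by simpa using hjlt)]
      ext a b
      fin_cases a <;> fin_cases b <;>
        simp [Matrix.mul_apply, Fin.sum_univ_two] <;> linarith

/-- The matrices `dI ℓ i` lie in distinct left cosets of integer matrices. -/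
theorem dI_index_unique {ℓ : ℕ} (hℓ : 2 ≤ ℓ) (i i' : Fin (ℓ + 1))
    (k : Matrix (Fin 2) (Fin 2) ℤ) (h : dI ℓ i = k * dI ℓ i') : i = i' := by
  have h00 := congrFun (congrFun h 0) 0
  have h01 := congrFun (congrFun h 0) 1
  have h10 := congrFun (congrFun h 1) 0
  have h11 := congrFun (congrFun h 1) 1
  by_cases hi : (i : ℕ) < ℓ <;> by_cases hi' : (i' : ℕ) < ℓ
  · rw [dI_of_lt hi, dI_of_lt hi'] at h00 h01
    simp [Matrix.mul_apply, Fin.sum_univ_two] at h00 h01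
    rw [← h00] at h01
    have hdvd : (ℓ : ℤ) ∣ (i : ℕ) - (i' : ℕ) := ⟨k 0 1, by linarith⟩
    have h1 : |((i : ℕ) : ℤ) - (i' : ℕ)| < ℓ := by
      rw [abs_lt]; constructor <;> omega
    have := Int.eq_zero_of_abs_lt_dvd hdvd h1
    exact Fin.ext (by omega)
  · rw [dI_of_lt hi, dI_of_not_lt hi'] at h00
    simp [Matrix.mul_apply, Fin.sum_univ_two] at h00
    have hdvd : (ℓ : ℤ) ∣ 1 := ⟨k 0 0, by linarith⟩
    have := Int.le_of_dvd one_pos hdvd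
    omega
  · rw [dI_of_not_lt hi, dI_of_lt hi'] at h10 h11
    simp [Matrix.mul_apply, Fin.sum_univ_two] at h10 h11
    rw [← h10] at h11
    have hdvd : (ℓ : ℤ) ∣ 1 := ⟨k 1 1, by linarith⟩
    have := Int.le_of_dvd one_pos hdvd
    omega
  · have := i.isLt
    have := i'.isLt
    exact Fin.ext (by omega)

/-! ### The relation `dI i * g = k * dI i'` on `SL(2, ℤ)` -/

/-- `dI ℓ i * g = k * dI ℓ i'`. -/
def Rel (ℓ : ℕ) (i : Fin (ℓ + 1)) (g k : SL(2, ℤ)) (i' : Fin (ℓ + 1)) : Prop :=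
  dI ℓ i * (g : Matrix (Fin 2) (Fin 2) ℤ) = (k : Matrix (Fin 2) (Fin 2) ℤ) * dI ℓ i'

theorem rel_exists {ℓ : ℕ} (hℓ : ℓ.Prime) (i : Fin (ℓ + 1)) (g : SL(2, ℤ)) :
    ∃ (i' : Fin (ℓ + 1)) (k : SL(2, ℤ)), Rel ℓ i g k i' := by
  obtain ⟨i', k, hk, h⟩ := exists_decomp hℓ (dI ℓ i * (g : Matrix (Fin 2) (Fin 2) ℤ))
    (by rw [Matrix.det_mul, dI_det, g.det_coe, mul_one])
  exact ⟨i', ⟨k, hk⟩, h⟩

private theorem coe_mul_inv (g : SL(2, ℤ)) :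
    (g : Matrix (Fin 2) (Fin 2) ℤ) * ((g⁻¹ : SL(2, ℤ)) : Matrix (Fin 2) (Fin 2) ℤ) = 1 := by
  rw [← Matrix.SpecialLinearGroup.coe_mul, mul_inv_cancel, Matrix.SpecialLinearGroup.coe_one]

private theorem coe_inv_mul (g : SL(2, ℤ)) :
    ((g⁻¹ : SL(2, ℤ)) : Matrix (Fin 2) (Fin 2) ℤ) * (g : Matrix (Fin 2) (Fin 2) ℤ) = 1 := by
  rw [← Matrix.SpecialLinearGroup.coe_mul, inv_mul_cancel, Matrix.SpecialLinearGroup.coe_one]

theorem rel_index_inj {ℓ : ℕ} (hℓ : ℓ.Prime) {i₁ i₂ i' : Fin (ℓ + 1)} {g k₁ k₂ : SL(2, ℤ)}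
    (h₁ : Rel ℓ i₁ g k₁ i') (h₂ : Rel ℓ i₂ g k₂ i') : i₁ = i₂ := by
  apply dI_index_unique hℓ.two_le i₁ i₂ ((k₁ * k₂⁻¹ : SL(2, ℤ)) : Matrix (Fin 2) (Fin 2) ℤ)
  unfold Rel at h₁ h₂
  calc dI ℓ i₁ = dI ℓ i₁ * ((g : Matrix (Fin 2) (Fin 2) ℤ) *
          ((g⁻¹ : SL(2, ℤ)) : Matrix (Fin 2) (Fin 2) ℤ)) := by rw [coe_mul_inv, mul_one]
    _ = (k₁ : Matrix (Fin 2) (Fin 2) ℤ) * dI ℓ i' *
          ((g⁻¹ : SL(2, ℤ)) : Matrix (Fin 2) (Fin 2) ℤ) := by rw [← mul_assoc, h₁]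
    _ = (k₁ : Matrix (Fin 2) (Fin 2) ℤ) * (((k₂⁻¹ : SL(2, ℤ)) : Matrix (Fin 2) (Fin 2) ℤ) *
          (k₂ : Matrix (Fin 2) (Fin 2) ℤ)) * dI ℓ i' *
          ((g⁻¹ : SL(2, ℤ)) : Matrix (Fin 2) (Fin 2) ℤ) := by rw [coe_inv_mul, mul_one]
    _ = (k₁ : Matrix (Fin 2) (Fin 2) ℤ) * ((k₂⁻¹ : SL(2, ℤ)) : Matrix (Fin 2) (Fin 2) ℤ) *
          ((k₂ : Matrix (Fin 2) (Fin 2) ℤ) * dI ℓ i') *
          ((g⁻¹ : SL(2, ℤ)) : Matrix (Fin 2) (Fin 2) ℤ) := by simp only [mul_assoc]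
    _ = (k₁ : Matrix (Fin 2) (Fin 2) ℤ) * ((k₂⁻¹ : SL(2, ℤ)) : Matrix (Fin 2) (Fin 2) ℤ) *
          (dI ℓ i₂ * (g : Matrix (Fin 2) (Fin 2) ℤ)) *
          ((g⁻¹ : SL(2, ℤ)) : Matrix (Fin 2) (Fin 2) ℤ) := by rw [h₂]
    _ = (k₁ : Matrix (Fin 2) (Fin 2) ℤ) * ((k₂⁻¹ : SL(2, ℤ)) : Matrix (Fin 2) (Fin 2) ℤ) *
          dI ℓ i₂ * ((g : Matrix (Fin 2) (Fin 2) ℤ) *
          ((g⁻¹ : SL(2, ℤ)) : Matrix (Fin 2) (Fin 2) ℤ)) := by simp only [mul_assoc]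
    _ = ((k₁ * k₂⁻¹ : SL(2, ℤ)) : Matrix (Fin 2) (Fin 2) ℤ) * dI ℓ i₂ := by
        rw [coe_mul_inv, mul_one, Matrix.SpecialLinearGroup.coe_mul]

theorem rel_unique {ℓ : ℕ} (hℓ : ℓ.Prime) {i i₁ i₂ : Fin (ℓ + 1)} {g k₁ k₂ : SL(2, ℤ)}
    (h₁ : Rel ℓ i g k₁ i₁) (h₂ : Rel ℓ i g k₂ i₂) : i₁ = i₂ ∧ k₁ = k₂ := by
  have h : (k₁ : Matrix (Fin 2) (Fin 2) ℤ) * dI ℓ i₁ = (k₂ : Matrix (Fin 2) (Fin 2) ℤ) * dI ℓ i₂ :=
    h₁.symm.trans h₂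
  have hi : i₁ = i₂ := by
    apply dI_index_unique hℓ.two_le i₁ i₂ ((k₁⁻¹ * k₂ : SL(2, ℤ)) : Matrix (Fin 2) (Fin 2) ℤ)
    calc dI ℓ i₁ = (((k₁⁻¹ : SL(2, ℤ)) : Matrix (Fin 2) (Fin 2) ℤ) *
            (k₁ : Matrix (Fin 2) (Fin 2) ℤ)) * dI ℓ i₁ := by rw [coe_inv_mul, one_mul]
      _ = ((k₁⁻¹ : SL(2, ℤ)) : Matrix (Fin 2) (Fin 2) ℤ) *
            ((k₂ : Matrix (Fin 2) (Fin 2) ℤ) * dI ℓ i₂) := by rw [mul_assoc, h]
      _ = ((k₁⁻¹ * k₂ : SL(2, ℤ)) : Matrix (Fin 2) (Fin 2) ℤ) * dI ℓ i₂ := by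
          rw [Matrix.SpecialLinearGroup.coe_mul, mul_assoc]
  subst hi
  refine ⟨rfl, Subtype.ext ?_⟩
  have hℓ0 : (ℓ : ℤ) ≠ 0 := by exact_mod_cast hℓ.ne_zero
  have h2 := congrArg (· * (dI ℓ i₁).adjugate) h
  simp only [mul_assoc, Matrix.mul_adjugate, dI_det, Matrix.mul_smul, mul_one] at h2
  exact smul_right_injective _ hℓ0 h2

/-- Membership in `Γ₀(p)` and the lower right entries. -/
theorem rel_gamma0 {ℓ p : ℕ} (hℓ : ℓ.Prime) (hℓp : ¬ ℓ ∣ p) {i i' : Fin (ℓ + 1)}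
    {g k : SL(2, ℤ)} (hg : g ∈ Gamma0 p) (h : Rel ℓ i g k i') :
    k ∈ Gamma0 p ∧
      (((k : Matrix (Fin 2) (Fin 2) ℤ) 1 1 : ℤ) : ZMod p) * ((dI ℓ i' 1 1 : ℤ) : ZMod p) =
        ((dI ℓ i 1 1 : ℤ) : ZMod p) * (((g : Matrix (Fin 2) (Fin 2) ℤ) 1 1 : ℤ) : ZMod p) := by
  have hcop : Nat.Coprime ℓ p := (Nat.Prime.coprime_iff_not_dvd hℓ).mpr hℓp
  have hu : IsUnit ((ℓ : ℕ) : ZMod p) := (ZMod.isUnit_iff_coprime ℓ p).mpr hcop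
  have hg0 : (((g : Matrix (Fin 2) (Fin 2) ℤ) 1 0 : ℤ) : ZMod p) = 0 := Gamma0_mem.mp hg
  have h10 := congrArg (Int.cast : ℤ → ZMod p) (congrFun (congrFun h 1) 0)
  have h11 := congrArg (Int.cast : ℤ → ZMod p) (congrFun (congrFun h 1) 1)
  simp only [Matrix.mul_apply, Fin.sum_univ_two, dI_one_zero, zero_mul, zero_add, mul_zero,
    add_zero] at h10 h11
  push_cast at h10 h11
  rw [hg0, mul_zero] at h10
  have hk0 : (((k : Matrix (Fin 2) (Fin 2) ℤ) 1 0 : ℤ) : ZMod p) = 0 := by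
    rcases dI_zero_zero ℓ i' with h00 | h00
    · rw [h00] at h10; simpa using h10.symm
    · rw [h00] at h10
      have : (((k : Matrix (Fin 2) (Fin 2) ℤ) 1 0 : ℤ) : ZMod p) * ((ℓ : ℕ) : ZMod p) = 0 := by
        simpa using h10.symm
      exact (hu.mul_left_eq_zero).mp this
  refine ⟨Gamma0_mem.mpr hk0, ?_⟩
  rw [hk0, zero_mul, zero_add] at h11
  exact h11.symm

/-! ### The real matrices -/

/-- The coset representatives of `T_ℓ`: `heckeMatrix ℓ j` (`j < ℓ`) and `heckeDiagMatrix ℓ`. -/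
noncomputable def delta (ℓ : ℕ) (i : Fin (ℓ + 1)) : GL (Fin 2) ℝ :=
  if (i : ℕ) < ℓ then heckeMatrix ℓ i else heckeDiagMatrix ℓ

theorem val_delta {ℓ : ℕ} (hℓ : ℓ ≠ 0) (i : Fin (ℓ + 1)) :
    ((delta ℓ i : GL (Fin 2) ℝ) : Matrix (Fin 2) (Fin 2) ℝ) =
      (dI ℓ i).map (Int.castRingHom ℝ) := by
  unfold delta dI
  split_ifs
  · rw [val_heckeMatrix hℓ]; ext a b; fin_cases a <;> fin_cases b <;> simp
  · rw [val_heckeDiagMatrix hℓ]; ext a b; fin_cases a <;> fin_cases b <;> simp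

theorem delta_upper {ℓ : ℕ} (hℓ : ℓ ≠ 0) (i : Fin (ℓ + 1)) :
    ∃ a b d : ℤ, 0 < a ∧ 0 < d ∧
      ((delta ℓ i : GL (Fin 2) ℝ) : Matrix (Fin 2) (Fin 2) ℝ) = !![(a : ℝ), (b : ℝ); 0, (d : ℝ)] := by
  have hpos : (0 : ℤ) < ℓ := by exact_mod_cast Nat.pos_of_ne_zero hℓ
  unfold delta
  split_ifs
  · exact ⟨1, (i : ℕ), ℓ, one_pos, hpos, by rw [val_heckeMatrix hℓ]; simp⟩
  · exact ⟨ℓ, 0, 1, hpos, one_pos, by rw [val_heckeDiagMatrix hℓ]; simp⟩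

theorem rel_iff_gl {ℓ : ℕ} (hℓ : ℓ ≠ 0) (i i' : Fin (ℓ + 1)) (g k : SL(2, ℤ)) :
    Rel ℓ i g k i' ↔
      delta ℓ i * Matrix.SpecialLinearGroup.mapGL ℝ g =
        Matrix.SpecialLinearGroup.mapGL ℝ k * delta ℓ i' := by
  have key : ∀ (A B : GL (Fin 2) ℝ), A = B ↔
      (A : Matrix (Fin 2) (Fin 2) ℝ) = (B : Matrix (Fin 2) (Fin 2) ℝ) :=
    fun A B => ⟨fun h => by rw [h], fun h => Units.ext h⟩
  rw [key, Units.val_mul, Units.val_mul, val_delta hℓ, val_delta hℓ,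
    Matrix.SpecialLinearGroup.mapGL_coe_matrix, Matrix.SpecialLinearGroup.mapGL_coe_matrix,
    algebraMap_int_eq, Matrix.SpecialLinearGroup.map_apply_coe,
    Matrix.SpecialLinearGroup.map_apply_coe, RingHom.mapMatrix_apply, RingHom.mapMatrix_apply,
    ← Matrix.map_mul, ← Matrix.map_mul]
  unfold Rel
  exact ⟨fun h => by rw [h], fun h => Matrix.map_injective (Int.cast_injective) h⟩

/-! ### Conjugation by `diag(1, -1)` -/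

/-- The involution `j ↦ ℓ - j` (`0 < j < ℓ`) on the index set, fixing `0` and `ℓ`. -/
def tau (ℓ : ℕ) (i : Fin (ℓ + 1)) : Fin (ℓ + 1) :=
  if h : 0 < (i : ℕ) ∧ (i : ℕ) < ℓ then ⟨ℓ - i, by omega⟩ else i

theorem tau_of_mid {ℓ : ℕ} {i : Fin (ℓ + 1)} (h : 0 < (i : ℕ) ∧ (i : ℕ) < ℓ) :
    ((tau ℓ i : Fin (ℓ + 1)) : ℕ) = ℓ - i := by
  rw [tau, dif_pos h]

theorem tau_of_not_mid {ℓ : ℕ} {i : Fin (ℓ + 1)} (h : ¬ (0 < (i : ℕ) ∧ (i : ℕ) < ℓ)) :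
    tau ℓ i = i := by
  rw [tau, dif_neg h]

theorem tau_tau (ℓ : ℕ) (i : Fin (ℓ + 1)) : tau ℓ (tau ℓ i) = i := by
  by_cases h : 0 < (i : ℕ) ∧ (i : ℕ) < ℓ
  · have h1 := tau_of_mid h
    have h2 : 0 < ((tau ℓ i : Fin (ℓ + 1)) : ℕ) ∧ ((tau ℓ i : Fin (ℓ + 1)) : ℕ) < ℓ := by
      rw [h1]; omega
    have h3 := tau_of_mid h2
    exact Fin.ext (by rw [h3, h1]; omega)
  · rw [tau_of_not_mid h, tau_of_not_mid h]

/-- `tau` as a permutation. -/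
def tauPerm (ℓ : ℕ) : Equiv.Perm (Fin (ℓ + 1)) :=
  Function.Involutive.toPerm (tau ℓ) (tau_tau ℓ)

@[simp] theorem tauPerm_apply (ℓ : ℕ) (i : Fin (ℓ + 1)) : tauPerm ℓ i = tau ℓ i := rfl

/-- `T⁻¹ = [1 -1; 0 1]`. -/
def Tinv : SL(2, ℤ) := ⟨!![1, -1; 0, 1], by simp [Matrix.det_fin_two]⟩

theorem coe_Tinv : (Tinv : Matrix (Fin 2) (Fin 2) ℤ) = !![1, -1; 0, 1] := rfl

/-- `T⁻¹ = [1 -1; 0 1]` for `0 < i < ℓ`, and `1` otherwise. -/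
def tmat (ℓ : ℕ) (i : Fin (ℓ + 1)) : SL(2, ℤ) :=
  if 0 < (i : ℕ) ∧ (i : ℕ) < ℓ then Tinv else 1

theorem tmat_of_mid {ℓ : ℕ} {i : Fin (ℓ + 1)} (h : 0 < (i : ℕ) ∧ (i : ℕ) < ℓ) :
    tmat ℓ i = Tinv := if_pos h

theorem tmat_of_not_mid {ℓ : ℕ} {i : Fin (ℓ + 1)} (h : ¬ (0 < (i : ℕ) ∧ (i : ℕ) < ℓ)) :
    tmat ℓ i = 1 := if_neg h

theorem tmat_mem_Gamma0 (ℓ p : ℕ) (i : Fin (ℓ + 1)) : tmat ℓ i ∈ Gamma0 p := by
  by_cases h : 0 < (i : ℕ) ∧ (i : ℕ) < ℓ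
  · rw [tmat_of_mid h, Gamma0_mem]
    show (((Tinv : Matrix (Fin 2) (Fin 2) ℤ) 1 0 : ℤ) : ZMod p) = 0
    rw [coe_Tinv]; simp
  · rw [tmat_of_not_mid h]; exact one_mem _

theorem jConjMat_dI (ℓ : ℕ) (i : Fin (ℓ + 1)) :
    jConjMat (dI ℓ i) = (tmat ℓ i : Matrix (Fin 2) (Fin 2) ℤ) * dI ℓ (tau ℓ i) := by
  by_cases h : 0 < (i : ℕ) ∧ (i : ℕ) < ℓ
  · have ht := tau_of_mid h
    rw [dI_of_lt h.2, dI_of_lt (by rw [ht]; omega), ht, tmat_of_mid h, coe_Tinv]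
    ext a b
    fin_cases a <;> fin_cases b <;>
      simp [jConjMat, Matrix.mul_apply, Fin.sum_univ_two, Nat.cast_sub h.2.le]
    ring
  · rw [tau_of_not_mid h, tmat_of_not_mid h, Matrix.SpecialLinearGroup.coe_one, one_mul]
    by_cases h2 : (i : ℕ) < ℓ
    · have h0 : (i : ℕ) = 0 := by omega
      rw [dI_of_lt h2]
      ext a b
      fin_cases a <;> fin_cases b <;> simp [jConjMat, h0]
    · rw [dI_of_not_lt h2]
      ext a b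
      fin_cases a <;> fin_cases b <;> simp [jConjMat]

theorem rel_jconj {ℓ : ℕ} {i i' : Fin (ℓ + 1)} {g k : SL(2, ℤ)} (h : Rel ℓ i g k i') :
    Rel ℓ (tau ℓ i) (jConjSL g) ((tmat ℓ i)⁻¹ * jConjSL k * tmat ℓ i') (tau ℓ i') := by
  unfold Rel at h ⊢
  have h' := congrArg jConjMat h
  rw [jConjMat_mul, jConjMat_mul, jConjMat_dI, jConjMat_dI] at h'
  simp only [Matrix.SpecialLinearGroup.coe_mul, jConjSL_coe]
  calc dI ℓ (tau ℓ i) * jConjMat (g : Matrix (Fin 2) (Fin 2) ℤ)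
      = ((((tmat ℓ i)⁻¹ : SL(2, ℤ)) : Matrix (Fin 2) (Fin 2) ℤ) *
          (tmat ℓ i : Matrix (Fin 2) (Fin 2) ℤ)) * dI ℓ (tau ℓ i) *
          jConjMat (g : Matrix (Fin 2) (Fin 2) ℤ) := by rw [coe_inv_mul, one_mul]
    _ = (((tmat ℓ i)⁻¹ : SL(2, ℤ)) : Matrix (Fin 2) (Fin 2) ℤ) *
          ((tmat ℓ i : Matrix (Fin 2) (Fin 2) ℤ) * dI ℓ (tau ℓ i) *
          jConjMat (g : Matrix (Fin 2) (Fin 2) ℤ)) := by simp only [mul_assoc]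
    _ = (((tmat ℓ i)⁻¹ : SL(2, ℤ)) : Matrix (Fin 2) (Fin 2) ℤ) *
          (jConjMat (k : Matrix (Fin 2) (Fin 2) ℤ) *
          ((tmat ℓ i' : Matrix (Fin 2) (Fin 2) ℤ) * dI ℓ (tau ℓ i'))) := by rw [h']
    _ = _ := by simp only [mul_assoc]

/-! ### The transfer elements on `Γ₀(p)` -/

section Transfer

variable (p : ℕ) {ℓ : ℕ} (hℓ : ℓ.Prime) (hℓp : ¬ ℓ ∣ p)

/-- The index `σ_γ(i)`, as a function. -/
noncomputable def sigFun (hℓ : ℓ.Prime) (g : SL(2, ℤ)) (i : Fin (ℓ + 1)) : Fin (ℓ + 1) :=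
  (rel_exists hℓ i g).choose

/-- The transfer element in `SL(2, ℤ)`. -/
noncomputable def kSL (hℓ : ℓ.Prime) (g : SL(2, ℤ)) (i : Fin (ℓ + 1)) : SL(2, ℤ) :=
  (rel_exists hℓ i g).choose_spec.choose

theorem rel_spec (g : SL(2, ℤ)) (i : Fin (ℓ + 1)) :
    Rel ℓ i g (kSL hℓ g i) (sigFun hℓ g i) :=
  (rel_exists hℓ i g).choose_spec.choose_spec

theorem sigFun_injective (g : SL(2, ℤ)) : Function.Injective (sigFun hℓ g) := by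
  intro i₁ i₂ h
  have h₁ := rel_spec hℓ g i₁
  have h₂ := rel_spec hℓ g i₂
  rw [h] at h₁
  exact rel_index_inj hℓ h₁ h₂

/-- The permutation `σ_γ` of the index set. -/
noncomputable def sig (hℓ : ℓ.Prime) (γ : Gamma0 p) : Equiv.Perm (Fin (ℓ + 1)) :=
  Equiv.ofBijective (sigFun hℓ (γ : SL(2, ℤ)))
    (Finite.injective_iff_bijective.mp (sigFun_injective hℓ _))

/-- The transfer elements `k_i(γ) ∈ Γ₀(p)`: `δ_i γ = k_i(γ) δ_{σ_γ(i)}`. -/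
noncomputable def kT (hℓ : ℓ.Prime) (hℓp : ¬ ℓ ∣ p) (i : Fin (ℓ + 1)) (γ : Gamma0 p) : Gamma0 p :=
  ⟨kSL hℓ (γ : SL(2, ℤ)) i, (rel_gamma0 hℓ hℓp γ.2 (rel_spec hℓ _ i)).1⟩

theorem rel_kT (i : Fin (ℓ + 1)) (γ : Gamma0 p) :
    Rel ℓ i (γ : SL(2, ℤ)) ((kT p hℓ hℓp i γ : Gamma0 p) : SL(2, ℤ)) (sig p hℓ γ i) :=
  rel_spec hℓ _ i

/-- The defining matrix identity `δ_i γ = k_i(γ) δ_{σ_γ(i)}` in `GL₂(ℝ)`. -/
theorem delta_mul (i : Fin (ℓ + 1)) (γ : Gamma0 p) :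
    delta ℓ i * Matrix.SpecialLinearGroup.mapGL ℝ (γ : SL(2, ℤ)) =
      Matrix.SpecialLinearGroup.mapGL ℝ ((kT p hℓ hℓp i γ : Gamma0 p) : SL(2, ℤ)) *
        delta ℓ (sig p hℓ γ i) :=
  (rel_iff_gl hℓ.ne_zero _ _ _ _).mp (rel_kT p hℓ hℓp i γ)

/-- The product of the lower right entries of the transfer elements. -/
theorem prod_Gamma0Map (γ : Gamma0 p) :
    ∏ i, Gamma0Map p (kT p hℓ hℓp i γ) = Gamma0Map p γ ^ (ℓ + 1) := by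
  have hcop : Nat.Coprime ℓ p := (Nat.Prime.coprime_iff_not_dvd hℓ).mpr hℓp
  have hu : IsUnit ((ℓ : ℕ) : ZMod p) := (ZMod.isUnit_iff_coprime ℓ p).mpr hcop
  set w : Fin (ℓ + 1) → ZMod p := fun i => ((dI ℓ i 1 1 : ℤ) : ZMod p) with hw
  have hwu : ∀ i, IsUnit (w i) := by
    intro i
    rcases dI_one_one ℓ i with h | h
    · simp only [hw, h]; simpa using hu
    · simp only [hw, h]; simp
  have hrel : ∀ i, Gamma0Map p (kT p hℓ hℓp i γ) * w (sig p hℓ γ i) = w i * Gamma0Map p γ :=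
    fun i => (rel_gamma0 hℓ hℓp γ.2 (rel_kT p hℓ hℓp i γ)).2
  have hprod : (∏ i, Gamma0Map p (kT p hℓ hℓp i γ)) * ∏ i, w i =
      Gamma0Map p γ ^ (ℓ + 1) * ∏ i, w i := by
    calc (∏ i, Gamma0Map p (kT p hℓ hℓp i γ)) * ∏ i, w i
        = (∏ i, Gamma0Map p (kT p hℓ hℓp i γ)) * ∏ i, w (sig p hℓ γ i) := by
          rw [Equiv.prod_comp (sig p hℓ γ) w]
      _ = ∏ i, (w i * Gamma0Map p γ) := by
          rw [← Finset.prod_mul_distrib]; exact Finset.prod_congr rfl fun i _ => hrel i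
      _ = Gamma0Map p γ ^ (ℓ + 1) * ∏ i, w i := by
          rw [Finset.prod_mul_distrib, Finset.prod_const, Finset.card_univ, Fintype.card_fin,
            mul_comm]
  have hunit : IsUnit (∏ i, w i) :=
    Finset.prod_induction w IsUnit (fun a b ha hb => ha.mul hb) isUnit_one (fun i _ => hwu i)
  exact hunit.mul_right_cancel hprod

/-- Behaviour of the transfer elements under `jConjGamma0` (conjugation by `diag(1, -1)`). -/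
theorem kT_jConj (i : Fin (ℓ + 1)) (γ : Gamma0 p) :
    kT p hℓ hℓp (tau ℓ i) (jConjGamma0 p γ) =
      (⟨tmat ℓ i, tmat_mem_Gamma0 ℓ p i⟩ : Gamma0 p)⁻¹ * jConjGamma0 p (kT p hℓ hℓp i γ) *
        ⟨tmat ℓ (sig p hℓ γ i), tmat_mem_Gamma0 ℓ p _⟩ := by
  apply Subtype.ext
  have h1 := rel_jconj (rel_kT p hℓ hℓp i γ)
  have h2 := rel_kT p hℓ hℓp (tau ℓ i) (jConjGamma0 p γ)
  rw [jConjGamma0_coe] at h2
  exact (rel_unique hℓ h2 h1).2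

/-- The `ι`-compatibility: the transfer commutes with `jConjGamma0` on homomorphisms. -/
theorem sum_jConj {A : Type*} [AddCommGroup A] (ψ : Additive (Gamma0 p) →+ A) (γ : Gamma0 p) :
    ∑ i, ψ (Additive.ofMul (kT p hℓ hℓp i (jConjGamma0 p γ))) =
      ∑ i, ψ (Additive.ofMul (jConjGamma0 p (kT p hℓ hℓp i γ))) := by
  set t : Fin (ℓ + 1) → Gamma0 p := fun i => ⟨tmat ℓ i, tmat_mem_Gamma0 ℓ p i⟩ with ht
  have h1 : ∀ i, ψ (Additive.ofMul (kT p hℓ hℓp (tau ℓ i) (jConjGamma0 p γ))) =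
      -ψ (Additive.ofMul (t i)) + ψ (Additive.ofMul (jConjGamma0 p (kT p hℓ hℓp i γ))) +
        ψ (Additive.ofMul (t (sig p hℓ γ i))) := by
    intro i
    rw [kT_jConj, ofMul_mul, ofMul_mul, ofMul_inv, map_add, map_add, map_neg]
  calc ∑ i, ψ (Additive.ofMul (kT p hℓ hℓp i (jConjGamma0 p γ)))
      = ∑ i, ψ (Additive.ofMul (kT p hℓ hℓp (tauPerm ℓ i) (jConjGamma0 p γ))) :=
        (Equiv.sum_comp (tauPerm ℓ)
          (fun i => ψ (Additive.ofMul (kT p hℓ hℓp i (jConjGamma0 p γ))))).symm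
    _ = ∑ i, (-ψ (Additive.ofMul (t i)) +
          ψ (Additive.ofMul (jConjGamma0 p (kT p hℓ hℓp i γ))) +
          ψ (Additive.ofMul (t (sig p hℓ γ i)))) := Finset.sum_congr rfl fun i _ => h1 i
    _ = _ := by
        rw [Finset.sum_add_distrib, Finset.sum_add_distrib, Finset.sum_neg_distrib,
          Equiv.sum_comp (sig p hℓ γ) (fun i => ψ (Additive.ofMul (t i)))]
        abel

end Transfer

/-! ### Summary -/

open scoped ModularForm in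
/-- `T_ℓ` is the sum of the slashes by the `delta ℓ i`. -/
theorem sum_slash_delta (k : ℤ) (ℓ : ℕ) (f : UpperHalfPlane → ℂ) :
    ∑ i : Fin (ℓ + 1), f ∣[k] delta ℓ i = heckeT k ℓ f := by
  rw [Fin.sum_univ_castSucc, heckeT_def, Finset.sum_range]
  congr 1
  · refine Finset.sum_congr rfl fun i _ => ?_
    simp [delta]
  · simp [delta]

/-- The transfer data of `T_ℓ` (`ℓ` prime, `ℓ ∤ p`) on `Γ₀(p)`. -/
theorem exists_transfer (p : ℕ) {ℓ : ℕ} (hℓ : ℓ.Prime) (hℓp : ¬ ℓ ∣ p) :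
    ∃ (k : Fin (ℓ + 1) → Gamma0 p → Gamma0 p) (σ : Gamma0 p → Equiv.Perm (Fin (ℓ + 1))),
      (∀ (i : Fin (ℓ + 1)) (γ : Gamma0 p),
        delta ℓ i * Matrix.SpecialLinearGroup.mapGL ℝ (γ : SL(2, ℤ)) =
          Matrix.SpecialLinearGroup.mapGL ℝ ((k i γ : Gamma0 p) : SL(2, ℤ)) * delta ℓ (σ γ i)) ∧
      (∀ γ : Gamma0 p, ∏ i, Gamma0Map p (k i γ) = Gamma0Map p γ ^ (ℓ + 1)) ∧
      (∀ (ψ : Additive (Gamma0 p) →+ ℂ) (γ : Gamma0 p),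
        ∑ i, ψ (Additive.ofMul (k i (jConjGamma0 p γ))) =
          ∑ i, ψ (Additive.ofMul (jConjGamma0 p (k i γ)))) :=
  ⟨kT p hℓ hℓp, sig p hℓ, delta_mul p hℓ hℓp, prod_Gamma0Map p hℓ hℓp,
    fun ψ γ => sum_jConj p hℓ hℓp ψ γ⟩

end Fermat.Agent.S16.TransferComb

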