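import Mathlib

/-!
# S16 / HomHecke (H1): abstract transfer-type Hecke operators on `Hom(Γ, A)`

`Γ` a group, `ι : Γ →* 𝔾` an injective homomorphism into an ambient group, `δ : I → 𝔾` a finite
family of elements such that the right cosets `ι(Γ) δ_i` are pairwise distinct and their union is
stable under right multiplication by `ι(Γ)`.  Then for `γ : Γ` and `i : I` there are unique
`perm γ i : I` and `cocEl γ i : Γ` with `δ i * ι γ = ι (cocEl γ i) * δ (perm γ i)`, and

  `(transfer ψ)(γ) = ∑ i, ψ (cocEl γ i)`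

is an additive endomorphism of `Hom(Γ, A)` for every abelian group `A`, natural in `A`,
independent of the choice of the representatives `δ i`, and compatible with conjugation.
-/

set_option autoImplicit false

namespace Fermat.Agent.S16.HomHecke

variable {Γ 𝔾 : Type*} [Group Γ] [Group 𝔾] {I : Type*}

/-- A family `δ : I → 𝔾` of representatives of pairwise distinct right cosets `ι(Γ) δ_i` whose
union is stable under right multiplication by `ι(Γ)`. -/
structure HeckeFamily (ι : Γ →* 𝔾) (δ : I → 𝔾) : Prop where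
  inj : Function.Injective ι
  ex : ∀ (γ : Γ) (i : I), ∃ (i' : I) (γ' : Γ), δ i * ι γ = ι γ' * δ i'
  uniq : ∀ (i i' : I) (γ : Γ), δ i = ι γ * δ i' → i = i'

namespace HeckeFamily

variable {ι : Γ →* 𝔾} {δ : I → 𝔾} (h : HeckeFamily ι δ)

/-- the index of the coset of `δ i * ι γ`. -/
noncomputable def permFun (γ : Γ) (i : I) : I := (h.ex γ i).choose

/-- the element `γ' ∈ Γ` with `δ i * ι γ = ι γ' * δ (permFun γ i)`. -/
noncomputable def cocEl (γ : Γ) (i : I) : Γ := (h.ex γ i).choose_spec.choose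

theorem spec (γ : Γ) (i : I) : δ i * ι γ = ι (h.cocEl γ i) * δ (h.permFun γ i) :=
  (h.ex γ i).choose_spec.choose_spec

include h in
theorem unique_aux {i₁ i₂ : I} {γ₁ γ₂ : Γ} (e : ι γ₁ * δ i₁ = ι γ₂ * δ i₂) :
    i₁ = i₂ ∧ γ₁ = γ₂ := by
  have h1 : δ i₁ = ι (γ₁⁻¹ * γ₂) * δ i₂ := by
    rw [map_mul, map_inv, mul_assoc, ← e, ← mul_assoc, inv_mul_cancel, one_mul]
  have hi : i₁ = i₂ := h.uniq _ _ _ h1
  subst hi
  refine ⟨rfl, h.inj ?_⟩
  exact mul_right_cancel e

theorem eq_of_eq {γ : Γ} {i i' : I} {γ' : Γ} (e : δ i * ι γ = ι γ' * δ i') :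
    h.permFun γ i = i' ∧ h.cocEl γ i = γ' := by
  have := h.spec γ i
  rw [e] at this
  obtain ⟨h1, h2⟩ := h.unique_aux this
  exact ⟨h1.symm, h2.symm⟩

theorem permFun_eq {γ : Γ} {i i' : I} {γ' : Γ} (e : δ i * ι γ = ι γ' * δ i') :
    h.permFun γ i = i' := (h.eq_of_eq e).1

theorem cocEl_eq {γ : Γ} {i i' : I} {γ' : Γ} (e : δ i * ι γ = ι γ' * δ i') :
    h.cocEl γ i = γ' := (h.eq_of_eq e).2

@[simp] theorem permFun_one (i : I) : h.permFun 1 i = i :=
  h.permFun_eq (γ' := 1) (by simp)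

@[simp] theorem cocEl_one (i : I) : h.cocEl 1 i = 1 :=
  h.cocEl_eq (i' := i) (by simp)

theorem mul_aux (γ γ' : Γ) (i : I) :
    δ i * ι (γ * γ') =
      ι (h.cocEl γ i * h.cocEl γ' (h.permFun γ i)) * δ (h.permFun γ' (h.permFun γ i)) := by
  rw [map_mul, ← mul_assoc, h.spec γ i, mul_assoc, h.spec γ' (h.permFun γ i), ← mul_assoc,
    ← map_mul]

theorem permFun_mul (γ γ' : Γ) (i : I) :
    h.permFun (γ * γ') i = h.permFun γ' (h.permFun γ i) :=
  h.permFun_eq (h.mul_aux γ γ' i)

theorem cocEl_mul (γ γ' : Γ) (i : I) :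
    h.cocEl (γ * γ') i = h.cocEl γ i * h.cocEl γ' (h.permFun γ i) :=
  h.cocEl_eq (h.mul_aux γ γ' i)

/-- the permutation of the index set induced by right multiplication by `γ`. -/
noncomputable def perm (γ : Γ) : Equiv.Perm I where
  toFun := h.permFun γ
  invFun := h.permFun γ⁻¹
  left_inv i := by rw [← h.permFun_mul, mul_inv_cancel, h.permFun_one]
  right_inv i := by rw [← h.permFun_mul, inv_mul_cancel, h.permFun_one]

@[simp] theorem perm_apply (γ : Γ) (i : I) : h.perm γ i = h.permFun γ i := rfl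

section Transfer

variable [Fintype I] (A : Type*) [AddCommGroup A]

/-- The transfer-type Hecke operator on `Hom(Γ, A)` attached to the family `δ`. -/
noncomputable def transfer : (Additive Γ →+ A) →+ (Additive Γ →+ A) where
  toFun ψ :=
    { toFun := fun γ => ∑ i, ψ (Additive.ofMul (h.cocEl (Additive.toMul γ) i))
      map_zero' := by
        simp only [toMul_zero, cocEl_one, ofMul_one, map_zero, Finset.sum_const_zero]
      map_add' := fun γ γ' => by
        simp only [toMul_add, cocEl_mul, ofMul_mul, map_add, Finset.sum_add_distrib]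
        congr 1
        exact Equiv.sum_comp (h.perm (Additive.toMul γ))
          (fun i => ψ (Additive.ofMul (h.cocEl (Additive.toMul γ') i))) }
  map_zero' := by
    ext γ
    simp
  map_add' ψ ψ' := by
    ext γ
    simp [Finset.sum_add_distrib]

variable {A}

theorem transfer_apply (ψ : Additive Γ →+ A) (γ : Γ) :
    h.transfer A ψ (Additive.ofMul γ) = ∑ i, ψ (Additive.ofMul (h.cocEl γ i)) := rfl

theorem transfer_apply' (ψ : Additive Γ →+ A) (γ : Additive Γ) :
    h.transfer A ψ γ = ∑ i, ψ (Additive.ofMul (h.cocEl (Additive.toMul γ) i)) := rfl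

/-- naturality in the coefficient group. -/
theorem transfer_comp {B : Type*} [AddCommGroup B] (g : A →+ B) (ψ : Additive Γ →+ A) :
    h.transfer B (g.comp ψ) = g.comp (h.transfer A ψ) := by
  ext γ
  simp [transfer_apply']

theorem transfer_smul_nat (n : ℕ) (ψ : Additive Γ →+ A) :
    h.transfer A (n • ψ) = n • h.transfer A ψ := map_nsmul _ _ _

theorem transfer_smul_int (n : ℤ) (ψ : Additive Γ →+ A) :
    h.transfer A (n • ψ) = n • h.transfer A ψ := map_zsmul _ _ _

/-- independence of the choice of the representatives. -/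
theorem transfer_eq_of_reps {δ' : I → 𝔾} (h' : HeckeFamily ι δ') (e : Equiv.Perm I) (ε : I → Γ)
    (hδ : ∀ i, δ' i = ι (ε i) * δ (e i)) : h'.transfer A = h.transfer A := by
  refine AddMonoidHom.ext fun ψ => AddMonoidHom.ext fun γ => ?_
  obtain ⟨γ, rfl⟩ := Additive.ofMul.surjective γ
  rw [transfer_apply, transfer_apply]
  -- the data for the family `δ'` in terms of the data for `δ`
  have key : ∀ i, h'.permFun γ i = e.symm (h.permFun γ (e i)) ∧
      h'.cocEl γ i = ε i * h.cocEl γ (e i) * (ε (e.symm (h.permFun γ (e i))))⁻¹ := by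
    intro i
    apply h'.eq_of_eq
    rw [hδ i, hδ (e.symm (h.permFun γ (e i))), Equiv.apply_symm_apply, mul_assoc, h.spec γ (e i)]
    simp only [map_mul, map_inv, mul_assoc, inv_mul_cancel_left]
  have h1 : ∀ i, ψ (Additive.ofMul (h'.cocEl γ i)) =
      ψ (Additive.ofMul (ε i)) + ψ (Additive.ofMul (h.cocEl γ (e i)))
        - ψ (Additive.ofMul (ε (e.symm (h.permFun γ (e i))))) := by
    intro i
    rw [(key i).2, ofMul_mul, ofMul_mul, ofMul_inv, map_add, map_add, map_neg, sub_eq_add_neg]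
  simp only [h1, Finset.sum_sub_distrib, Finset.sum_add_distrib]
  have h2 : ∑ i, ψ (Additive.ofMul (ε (e.symm (h.permFun γ (e i))))) =
      ∑ i, ψ (Additive.ofMul (ε i)) :=
    Equiv.sum_comp ((e.trans (h.perm γ)).trans e.symm) (fun i => ψ (Additive.ofMul (ε i)))
  have h3 : ∑ i, ψ (Additive.ofMul (h.cocEl γ (e i))) = ∑ i, ψ (Additive.ofMul (h.cocEl γ i)) :=
    Equiv.sum_comp e (fun i => ψ (Additive.ofMul (h.cocEl γ i)))
  rw [h2, h3]
  abel

end Transfer

section Conj

include h in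
/-- conjugating the family by an element `J` that normalises `ι(Γ)` (inducing `j` on `Γ`). -/
theorem conj (J : 𝔾) (j : Γ →* Γ) (hsurj : Function.Surjective j)
    (hj : ∀ γ, ι (j γ) = J * ι γ * J⁻¹) : HeckeFamily ι (fun i => J * δ i * J⁻¹) where
  inj := h.inj
  ex γ i := by
    obtain ⟨γ₀, rfl⟩ := hsurj γ
    refine ⟨h.permFun γ₀ i, j (h.cocEl γ₀ i), ?_⟩
    rw [hj, hj]
    have := h.spec γ₀ i
    calc J * δ i * J⁻¹ * (J * ι γ₀ * J⁻¹) = J * (δ i * ι γ₀) * J⁻¹ := by group
      _ = J * (ι (h.cocEl γ₀ i) * δ (h.permFun γ₀ i)) * J⁻¹ := by rw [this]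
      _ = _ := by group
  uniq i i' γ e := by
    obtain ⟨γ₀, rfl⟩ := hsurj γ
    rw [hj] at e
    refine h.uniq i i' γ₀ ?_
    have : J * δ i * J⁻¹ = J * (ι γ₀ * δ i') * J⁻¹ := by rw [e]; group
    exact mul_left_cancel (mul_right_cancel this)

theorem cocEl_conj (J : 𝔾) (j : Γ →* Γ) (hsurj : Function.Surjective j)
    (hj : ∀ γ, ι (j γ) = J * ι γ * J⁻¹) (γ : Γ) (i : I) :
    (h.conj J j hsurj hj).permFun (j γ) i = h.permFun γ i ∧
      (h.conj J j hsurj hj).cocEl (j γ) i = j (h.cocEl γ i) := by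
  apply (h.conj J j hsurj hj).eq_of_eq
  rw [hj, hj]
  have := h.spec γ i
  calc J * δ i * J⁻¹ * (J * ι γ * J⁻¹) = J * (δ i * ι γ) * J⁻¹ := by group
    _ = J * (ι (h.cocEl γ i) * δ (h.permFun γ i)) * J⁻¹ := by rw [this]
    _ = _ := by group

theorem transfer_conj [Fintype I] {A : Type*} [AddCommGroup A] (J : 𝔾) (j : Γ →* Γ)
    (hsurj : Function.Surjective j) (hj : ∀ γ, ι (j γ) = J * ι γ * J⁻¹)
    (ψ : Additive Γ →+ A) (γ : Γ) :
    (h.conj J j hsurj hj).transfer A ψ (Additive.ofMul (j γ)) =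
      h.transfer A (ψ.comp (MonoidHom.toAdditive j)) (Additive.ofMul γ) := by
  rw [transfer_apply, transfer_apply]
  refine Finset.sum_congr rfl fun i _ => ?_
  rw [(h.cocEl_conj J j hsurj hj γ i).2]
  rfl

/-- If the conjugated family `J δ_i J⁻¹` is another system of representatives of the same cosets,
the transfer commutes with precomposition by `j`. -/
theorem transfer_comp_conj [Fintype I] {A : Type*} [AddCommGroup A] (J : 𝔾) (j : Γ →* Γ)
    (hsurj : Function.Surjective j) (hj : ∀ γ, ι (j γ) = J * ι γ * J⁻¹)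
    (e : Equiv.Perm I) (ε : I → Γ) (hδ : ∀ i, J * δ i * J⁻¹ = ι (ε i) * δ (e i))
    (ψ : Additive Γ →+ A) (γ : Γ) :
    h.transfer A (ψ.comp (MonoidHom.toAdditive j)) (Additive.ofMul γ) =
      h.transfer A ψ (Additive.ofMul (j γ)) := by
  rw [← h.transfer_conj J j hsurj hj ψ γ,
    h.transfer_eq_of_reps (h.conj J j hsurj hj) e ε hδ]

end Conj

end HeckeFamily

end Fermat.Agent.S16.HomHecke
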