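import Mathlib
import Fermat.Agent.ES.Prim

/-!
# S16, package P12 (PeriodHecke): periods of `∑ i, f ∣[2] δ i`

Generic transfer formula for the period map: if `g = ∑ i, f ∣[2] δ i` for upper triangular
`δ i` with positive integral diagonal, and `δ i * γ = k i γ * δ (σ γ i)` with `k i γ ∈ Γ₀(p)`,
then `periodMap p g γ = ∑ i, periodMap p f (k i γ)`.
-/

set_option autoImplicit false

namespace Fermat.Agent.S16.PeriodHecke

open UpperHalfPlane CongruenceSubgroup ModularCurve ModularCurve.Period Filter Topology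
open scoped MatrixGroups ModularForm Manifold
open Fermat.Agent.S22 (HasDerivH Dec prim)

/-- Chain rule: `F ∘ δ` is a primitive of `f ∣[2] δ`, for `δ ∈ GL₂(ℝ)` of positive determinant. -/
theorem hasDerivH_comp_GL {F f : ℍ → ℂ} (h : HasDerivH F f) (δ : GL (Fin 2) ℝ)
    (hδ : 0 < δ.det.val) :
    HasDerivH (fun τ => F (δ • τ)) (f ∣[(2 : ℤ)] δ) := by
  have h1 := h.comp_smul δ hδ
  intro τ
  refine (h1 τ).congr_deriv ?_
  rw [ModularForm.slash_apply]
  have hσ : UpperHalfPlane.σ δ = ContinuousAlgEquiv.refl ℝ ℂ := by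
    simp only [UpperHalfPlane.σ, if_pos hδ]
  have hdet : (δ : Matrix (Fin 2) (Fin 2) ℝ).det = δ.det.val := rfl
  beta_reduce
  rw [hσ, hdet, abs_of_pos hδ]
  simp only [ContinuousAlgEquiv.refl_apply, Int.reduceSub, zpow_one, Int.reduceNeg]
  rw [zpow_neg, div_eq_mul_inv, mul_assoc]
  norm_cast

theorem det_pos_of_upper {δ : GL (Fin 2) ℝ} {a b d : ℤ} (ha : 0 < a) (hd : 0 < d)
    (h : (δ : Matrix (Fin 2) (Fin 2) ℝ) = !![(a : ℝ), (b : ℝ); 0, (d : ℝ)]) :
    0 < δ.det.val := by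
  have hdet : δ.det.val = (δ : Matrix (Fin 2) (Fin 2) ℝ).det := rfl
  rw [hdet, h, Matrix.det_fin_two_of]
  have ha' : (0 : ℝ) < a := by exact_mod_cast ha
  have hd' : (0 : ℝ) < d := by exact_mod_cast hd
  nlinarith [mul_pos ha' hd']

theorem apply_one_zero_of_upper {δ : GL (Fin 2) ℝ} {a b d : ℤ}
    (h : (δ : Matrix (Fin 2) (Fin 2) ℝ) = !![(a : ℝ), (b : ℝ); 0, (d : ℝ)]) :
    δ 1 0 = 0 := by
  have : (δ : Matrix (Fin 2) (Fin 2) ℝ) 1 0 = 0 := by rw [h]; rfl
  exact this

/-- **P12.** The transfer formula for the period map. -/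
theorem periodMap_sum (p : ℕ) [NeZero p] (m : ℕ) (delta : Fin m → GL (Fin 2) ℝ)
    (hdelta : ∀ i, ∃ a b d : ℤ, 0 < a ∧ 0 < d ∧
      ((delta i : GL (Fin 2) ℝ) : Matrix (Fin 2) (Fin 2) ℝ) = !![(a : ℝ), (b : ℝ); 0, (d : ℝ)])
    (k : Fin m → Gamma0 p → Gamma0 p) (sigma : Gamma0 p → Equiv.Perm (Fin m))
    (hk : ∀ (i : Fin m) (gamma : Gamma0 p),
      delta i * Matrix.SpecialLinearGroup.mapGL ℝ (gamma : SL(2, ℤ)) =
      Matrix.SpecialLinearGroup.mapGL ℝ ((k i gamma : Gamma0 p) : SL(2, ℤ)) * delta (sigma gamma i))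
    (f g : CuspForm (Gamma0 p) 2)
    (hg : ∀ z : ℍ, g z = ∑ i, ((f : ℍ → ℂ) ∣[(2 : ℤ)] delta i) z) (gamma : Gamma0 p) :
    periodMap p g (Additive.ofMul gamma) = ∑ i, periodMap p f (Additive.ofMul (k i gamma)) := by
  have hF : HasDerivH (prim f) f := (Fermat.Agent.ES.dec_coe f).hasDerivH_prim
  have hF0 : Tendsto (prim f) atImInfty (𝓝 0) := (Fermat.Agent.ES.dec_coe f).dec_prim.zero
  have hpos : ∀ i, 0 < (delta i).det.val := fun i => by
    obtain ⟨a, b, d, ha, hd, h⟩ := hdelta i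
    exact det_pos_of_upper ha hd h
  have h10 : ∀ i, delta i 1 0 = 0 := fun i => by
    obtain ⟨a, b, d, ha, hd, h⟩ := hdelta i
    exact apply_one_zero_of_upper h
  -- the candidate primitive of `g`
  have hFT : HasDerivH (fun z => ∑ i, prim f (delta i • z)) g := by
    intro τ
    have h1 : ∀ i ∈ (Finset.univ : Finset (Fin m)),
        HasDerivAt ((fun τ => prim f (delta i • τ)) ∘ ofComplex)
          (((f : ℍ → ℂ) ∣[(2 : ℤ)] delta i) τ) (τ : ℂ) :=
      fun i _ => hasDerivH_comp_GL hF (delta i) (hpos i) τ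
    have h2 := HasDerivAt.fun_sum h1
    rw [hg τ]
    exact h2
  have hFT0 : IsZeroAtImInfty (fun z => ∑ i, prim f (delta i • z)) := by
    have h1 : ∀ i ∈ (Finset.univ : Finset (Fin m)),
        Tendsto (fun z : ℍ => prim f (delta i • z)) atImInfty (𝓝 0) :=
      fun i _ => hF0.comp (tendsto_smul_atImInfty (h10 i))
    have h2 := tendsto_finsetSum (Finset.univ : Finset (Fin m)) h1
    simpa [IsZeroAtImInfty, ZeroAtFilter] using h2
  have hprim : (fun z => ∑ i, prim f (delta i • z)) = prim g :=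
    Fermat.Agent.S22.prim_unique (Fermat.Agent.ES.dec_coe g) hFT hFT0
  have hval : ∀ z : ℍ, prim g z = ∑ i, prim f (delta i • z) := fun z => (congrFun hprim z).symm
  rw [Fermat.Agent.ES.periodMap_apply p g gamma UpperHalfPlane.I, hval, hval,
    ← Finset.sum_sub_distrib]
  have hterm : ∀ i, prim f (delta i • ((gamma : SL(2, ℤ)) • UpperHalfPlane.I))
      = periodMap p f (Additive.ofMul (k i gamma))
        + prim f (delta (sigma gamma i) • UpperHalfPlane.I) := by
    intro i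
    have e1 : delta i • ((gamma : SL(2, ℤ)) • UpperHalfPlane.I)
        = ((k i gamma : Gamma0 p) : SL(2, ℤ)) • (delta (sigma gamma i) • UpperHalfPlane.I) := by
      have e2 : (gamma : SL(2, ℤ)) • UpperHalfPlane.I
          = Matrix.SpecialLinearGroup.mapGL ℝ (gamma : SL(2, ℤ)) • UpperHalfPlane.I := rfl
      have e3 : ((k i gamma : Gamma0 p) : SL(2, ℤ)) • (delta (sigma gamma i) • UpperHalfPlane.I)
          = Matrix.SpecialLinearGroup.mapGL ℝ ((k i gamma : Gamma0 p) : SL(2, ℤ)) •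
            (delta (sigma gamma i) • UpperHalfPlane.I) := rfl
      rw [e2, e3, ← mul_smul, ← mul_smul, hk]
    rw [e1, Fermat.Agent.ES.periodMap_apply p f (k i gamma)
      (delta (sigma gamma i) • UpperHalfPlane.I)]
    ring
  simp_rw [hterm]
  rw [Finset.sum_sub_distrib, Finset.sum_add_distrib,
    Equiv.sum_comp (sigma gamma) (fun i => prim f (delta i • UpperHalfPlane.I))]
  ring

end Fermat.Agent.S16.PeriodHecke
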