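import Mathlib
import Fermat.Agent.S16.Defs
import Fermat.Agent.S16.HomHecke
import Fermat.Agent.S16.PeriodHecke

/-!
# S16 / TransferGen: generic period assembly for `TransferStmt`

* `main` (G1): from the coset data of `PeriodHecke.periodMap_sum` for an operator
  `T f = ∑ i, f ∣[2] δ i` on `S₂(Γ₀(p))`, plus the relation
  `ε δ_i ε = t_i δ_{e(i)}` (`ε = diag(1,-1)`, `t_i ∈ Γ₀(p)`, `e` a permutation), the transfer
  relation for `periodHomPair`.
* `prod_Gamma0Map` (G2): the product of the lower right entries of the transfer elements, when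
  the lower right entries of the `δ i` are prime to `p`.
* `transferStmt_of_family` (G3): `TransferStmt p ℓ` from a `HomHecke.HeckeFamily`.
-/

set_option autoImplicit false

namespace Fermat.Agent.S16.TransferGen

open UpperHalfPlane CongruenceSubgroup ModularCurve ModularCurve.Period CuspForm
open scoped MatrixGroups ModularForm

noncomputable section

/-- The inclusion `Γ₀(p) → GL₂(ℝ)`. -/
def iotaG (p : ℕ) : Gamma0 p →* GL (Fin 2) ℝ :=
  (Matrix.SpecialLinearGroup.mapGL ℝ).comp (Gamma0 p).subtype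

theorem iotaG_apply (p : ℕ) (γ : Gamma0 p) :
    iotaG p γ = Matrix.SpecialLinearGroup.mapGL ℝ (γ : SL(2, ℤ)) := rfl

theorem mapGL_injective : Function.Injective (Matrix.SpecialLinearGroup.mapGL (n := Fin 2) (R := ℤ) ℝ) := by
  intro A B h
  apply Matrix.SpecialLinearGroup.ext
  intro i j
  have h1 : ((Matrix.SpecialLinearGroup.mapGL ℝ A : GL (Fin 2) ℝ) : Matrix (Fin 2) (Fin 2) ℝ) i j =
      ((Matrix.SpecialLinearGroup.mapGL ℝ B : GL (Fin 2) ℝ) : Matrix (Fin 2) (Fin 2) ℝ) i j := by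
    rw [h]
  simpa using h1

theorem iotaG_injective (p : ℕ) : Function.Injective (iotaG p) := by
  intro γ γ' h
  exact Subtype.ext (mapGL_injective h)

/-- `ε = diag(1, -1)`. -/
def epsJ : GL (Fin 2) ℝ :=
  Matrix.GeneralLinearGroup.mkOfDetNeZero !![1, 0; 0, -1] (by simp [Matrix.det_fin_two_of])

@[simp] theorem val_epsJ :
    ((epsJ : GL (Fin 2) ℝ) : Matrix (Fin 2) (Fin 2) ℝ) = !![1, 0; 0, -1] := rfl

theorem gl_mul_apply (A B : GL (Fin 2) ℝ) (i j : Fin 2) :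
    ((A * B : GL (Fin 2) ℝ) : Matrix (Fin 2) (Fin 2) ℝ) i j =
      (A : Matrix (Fin 2) (Fin 2) ℝ) i 0 * (B : Matrix (Fin 2) (Fin 2) ℝ) 0 j +
      (A : Matrix (Fin 2) (Fin 2) ℝ) i 1 * (B : Matrix (Fin 2) (Fin 2) ℝ) 1 j := by
  rw [Units.val_mul, Matrix.mul_apply, Fin.sum_univ_two]

theorem mapGL_val_apply (A : SL(2, ℤ)) (i j : Fin 2) :
    ((Matrix.SpecialLinearGroup.mapGL ℝ A : GL (Fin 2) ℝ) : Matrix (Fin 2) (Fin 2) ℝ) i j =
      ((A i j : ℤ) : ℝ) := by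
  simp

theorem iotaG_val_apply (p : ℕ) (γ : Gamma0 p) (i j : Fin 2) :
    ((iotaG p γ : GL (Fin 2) ℝ) : Matrix (Fin 2) (Fin 2) ℝ) i j =
      (((γ : SL(2, ℤ)) i j : ℤ) : ℝ) :=
  mapGL_val_apply _ i j

theorem epsJ_mul_self : epsJ * epsJ = 1 := by
  apply Units.ext
  ext i j
  rw [gl_mul_apply]
  fin_cases i <;> fin_cases j <;> simp

theorem epsJ_conj (p : ℕ) (γ : Gamma0 p) :
    epsJ * iotaG p γ * epsJ = iotaG p (jConjGamma0 p γ) := by
  apply Units.ext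
  ext i j
  rw [gl_mul_apply, gl_mul_apply, gl_mul_apply, iotaG_val_apply]
  simp only [iotaG_val_apply, jConjGamma0_coe]
  fin_cases i <;> fin_cases j <;> simp [jConjSL_coe, jConjMat]

theorem epsJ_inv : epsJ⁻¹ = epsJ := inv_eq_of_mul_eq_one_right epsJ_mul_self

/-- conjugation by `ε`, as `x ↦ ε x ε`. -/
theorem epsJ_conj_mul (x y : GL (Fin 2) ℝ) :
    epsJ * (x * y) * epsJ = (epsJ * x * epsJ) * (epsJ * y * epsJ) := by
  have h := epsJ_mul_self
  calc epsJ * (x * y) * epsJ = epsJ * x * (1 * y) * epsJ := by rw [one_mul]; group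
    _ = epsJ * x * (epsJ * epsJ * y) * epsJ := by rw [h]
    _ = _ := by group

theorem epsJ_conj_conj (x : GL (Fin 2) ℝ) : epsJ * (epsJ * x * epsJ) * epsJ = x := by
  have h := epsJ_mul_self
  calc epsJ * (epsJ * x * epsJ) * epsJ = (epsJ * epsJ) * x * (epsJ * epsJ) := by group
    _ = x := by rw [h, one_mul, mul_one]

/-- slash by an element of `Γ₀(p)` (viewed in `GL₂(ℝ)`) fixes a cusp form. -/
theorem slash_iotaG {p : ℕ} (f : CuspForm (Gamma0 p) 2) (γ : Gamma0 p) :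
    (f : ℍ → ℂ) ∣[(2 : ℤ)] (iotaG p γ) = f := by
  have h := Fermat.Agent.ES.slash_eq_of_mem f γ.2
  rw [ModularForm.SL_slash] at h
  exact h

/-- `periodHomPair` in terms of `periodMap`. -/
theorem periodHomPair_apply (p : ℕ) [NeZero p] (F G : CuspForm (Gamma0 p) 2) (γ : Gamma0 p) :
    periodHomPair p (F, G) (Additive.ofMul γ) =
      periodMap p F (Additive.ofMul γ) + periodMap p F (Additive.ofMul (jConjGamma0 p γ)) +
        (periodMap p G (Additive.ofMul γ) - periodMap p G (Additive.ofMul (jConjGamma0 p γ))) := by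
  obtain ⟨pml, hpml, h⟩ := periodHomPair_def p (Fermat.Agent.ES.existsPeriodMapLinear p)
  rw [h, LinearMap.coprod_apply]
  simp only [LinearMap.comp_apply, LinearMap.add_apply, LinearMap.sub_apply, LinearMap.id_apply,
    AddMonoidHom.add_apply, AddMonoidHom.sub_apply, charInvolution_apply, hpml, toMul_ofMul]

section Main

variable (p : ℕ) [NeZero p] (m : ℕ) (delta : Fin m → GL (Fin 2) ℝ)
  (hdelta : ∀ i, ∃ a b d : ℤ, 0 < a ∧ 0 < d ∧
    ((delta i : GL (Fin 2) ℝ) : Matrix (Fin 2) (Fin 2) ℝ) = !![(a : ℝ), (b : ℝ); 0, (d : ℝ)])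
  (k : Fin m → Gamma0 p → Gamma0 p) (sigma : Gamma0 p → Equiv.Perm (Fin m))
  (hk : ∀ (i : Fin m) (gamma : Gamma0 p),
    delta i * Matrix.SpecialLinearGroup.mapGL ℝ (gamma : SL(2, ℤ)) =
    Matrix.SpecialLinearGroup.mapGL ℝ ((k i gamma : Gamma0 p) : SL(2, ℤ)) * delta (sigma gamma i))
  (T : Module.End ℂ (CuspForm (Gamma0 p) 2))
  (hT : ∀ (f : CuspForm (Gamma0 p) 2) (z : ℍ),
    T f z = ∑ i, ((f : ℍ → ℂ) ∣[(2 : ℤ)] delta i) z)

include hdelta hk hT in
/-- the transfer formula for `periodMap` (restatement of `PeriodHecke.periodMap_sum`). -/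
theorem periodMap_T (f : CuspForm (Gamma0 p) 2) (γ : Gamma0 p) :
    periodMap p (T f) (Additive.ofMul γ) = ∑ i, periodMap p f (Additive.ofMul (k i γ)) :=
  PeriodHecke.periodMap_sum p m delta hdelta k sigma hk f (T f) (hT f) γ

variable (e : Equiv.Perm (Fin m)) (t : Fin m → Gamma0 p)
  (ht : ∀ i, epsJ * delta i * epsJ = iotaG p (t i) * delta (e i))

include hdelta in
theorem hdelta_conj : ∀ i, ∃ a b d : ℤ, 0 < a ∧ 0 < d ∧
    ((epsJ * delta i * epsJ : GL (Fin 2) ℝ) : Matrix (Fin 2) (Fin 2) ℝ) =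
      !![(a : ℝ), (b : ℝ); 0, (d : ℝ)] := by
  intro i
  obtain ⟨a, b, d, ha, hd, h⟩ := hdelta i
  refine ⟨a, -b, d, ha, hd, ?_⟩
  ext r c
  rw [gl_mul_apply, gl_mul_apply, gl_mul_apply, h]
  fin_cases r <;> fin_cases c <;> simp

omit [NeZero p] in
include hk in
theorem hk_conj (i : Fin m) (γ : Gamma0 p) :
    epsJ * delta i * epsJ * Matrix.SpecialLinearGroup.mapGL ℝ (γ : SL(2, ℤ)) =
      Matrix.SpecialLinearGroup.mapGL ℝ
        ((jConjGamma0 p (k i (jConjGamma0 p γ)) : Gamma0 p) : SL(2, ℤ)) *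
        (epsJ * delta (sigma (jConjGamma0 p γ) i) * epsJ) := by
  have h1 := hk i (jConjGamma0 p γ)
  have h2 : epsJ * (delta i * iotaG p (jConjGamma0 p γ)) * epsJ =
      epsJ * (iotaG p (k i (jConjGamma0 p γ)) * delta (sigma (jConjGamma0 p γ) i)) * epsJ := by
    rw [iotaG_apply, iotaG_apply, h1]
  rw [epsJ_conj_mul, epsJ_conj_mul, epsJ_conj, epsJ_conj, jConjGamma0_jConjGamma0] at h2
  exact h2

omit [NeZero p] in
include hT ht in
theorem hT_conj (f : CuspForm (Gamma0 p) 2) (z : ℍ) :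
    T f z = ∑ i, ((f : ℍ → ℂ) ∣[(2 : ℤ)] (epsJ * delta i * epsJ)) z := by
  have h1 : ∀ i, (f : ℍ → ℂ) ∣[(2 : ℤ)] (epsJ * delta i * epsJ) =
      (f : ℍ → ℂ) ∣[(2 : ℤ)] delta (e i) := by
    intro i
    rw [ht i, SlashAction.slash_mul, slash_iotaG]
  simp only [h1]
  rw [hT f z]
  exact (Equiv.sum_comp e (fun i => ((f : ℍ → ℂ) ∣[(2 : ℤ)] delta i) z)).symm

include hdelta hk hT ht in
/-- compatibility of the transfer elements with the involution `jConjGamma0`, on periods. -/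
theorem periodMap_sum_jConj (f : CuspForm (Gamma0 p) 2) (γ : Gamma0 p) :
    ∑ i, periodMap p f (Additive.ofMul (k i (jConjGamma0 p γ))) =
      ∑ i, periodMap p f (Additive.ofMul (jConjGamma0 p (k i γ))) := by
  have h1 := periodMap_T p m delta hdelta k sigma hk T hT f (jConjGamma0 p γ)
  have h2 := PeriodHecke.periodMap_sum p m (fun i => epsJ * delta i * epsJ)
    (hdelta_conj m delta hdelta)
    (fun i γ => jConjGamma0 p (k i (jConjGamma0 p γ))) (fun γ => sigma (jConjGamma0 p γ))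
    (hk_conj p m delta k sigma hk) f (T f) (hT_conj p m delta T hT e t ht f) (jConjGamma0 p γ)
  simp only [jConjGamma0_jConjGamma0] at h2
  rw [← h1, h2]

include hdelta hk hT ht in
/-- **G1.** The transfer relation for `periodHomPair`. -/
theorem main (f g : CuspForm (Gamma0 p) 2) (γ : Gamma0 p) :
    periodHomPair p (T f, T g) (Additive.ofMul γ) =
      ∑ i, periodHomPair p (f, g) (Additive.ofMul (k i γ)) := by
  simp only [periodHomPair_apply]
  rw [periodMap_T p m delta hdelta k sigma hk T hT f γ,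
    periodMap_T p m delta hdelta k sigma hk T hT g γ,
    periodMap_T p m delta hdelta k sigma hk T hT f (jConjGamma0 p γ),
    periodMap_T p m delta hdelta k sigma hk T hT g (jConjGamma0 p γ),
    periodMap_sum_jConj p m delta hdelta k sigma hk T hT e t ht f γ,
    periodMap_sum_jConj p m delta hdelta k sigma hk T hT e t ht g γ]
  simp only [Finset.sum_add_distrib, Finset.sum_sub_distrib]

end Main

/-- **G2.** If the lower right entries of the `δ i` are prime to `p`, the product of the lower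
right entries (mod `p`) of the transfer elements is `d(γ)^m`. -/
theorem prod_Gamma0Map (p : ℕ) [Fact p.Prime] (m : ℕ) (delta : Fin m → GL (Fin 2) ℝ)
    (hdelta : ∀ i, ∃ a b d : ℤ, 0 < a ∧ 0 < d ∧ ¬ (p : ℤ) ∣ d ∧
      ((delta i : GL (Fin 2) ℝ) : Matrix (Fin 2) (Fin 2) ℝ) = !![(a : ℝ), (b : ℝ); 0, (d : ℝ)])
    (k : Fin m → Gamma0 p → Gamma0 p) (sigma : Gamma0 p → Equiv.Perm (Fin m))
    (hk : ∀ (i : Fin m) (gamma : Gamma0 p),
      delta i * Matrix.SpecialLinearGroup.mapGL ℝ (gamma : SL(2, ℤ)) =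
      Matrix.SpecialLinearGroup.mapGL ℝ ((k i gamma : Gamma0 p) : SL(2, ℤ)) * delta (sigma gamma i))
    (γ : Gamma0 p) :
    ∏ i, Gamma0Map p (k i γ) = Gamma0Map p γ ^ m := by
  choose a b d _ _ hpd hmat using hdelta
  have hG : ∀ x : Gamma0 p, Gamma0Map p x = (((x : SL(2, ℤ)) 1 1 : ℤ) : ZMod p) := fun x => rfl
  -- the congruence for each `i`
  have key : ∀ i, (d i : ZMod p) * Gamma0Map p γ = Gamma0Map p (k i γ) * (d (sigma γ i) : ZMod p) := by
    intro i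
    have h1 := congrArg (fun M : GL (Fin 2) ℝ => (M : Matrix (Fin 2) (Fin 2) ℝ) 1 1) (hk i γ)
    simp only [gl_mul_apply, mapGL_val_apply, hmat] at h1
    simp only [Matrix.of_apply, Matrix.cons_val_one, Matrix.cons_val_zero, Matrix.cons_val',
      Matrix.cons_val_fin_one, zero_mul, zero_add] at h1
    have h2 : d i * ((γ : SL(2, ℤ)) 1 1 : ℤ) =
        ((k i γ : SL(2, ℤ)) 1 0 : ℤ) * b (sigma γ i) + ((k i γ : SL(2, ℤ)) 1 1 : ℤ) * d (sigma γ i) := by
      exact_mod_cast h1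
    have h3 := congrArg (Int.cast : ℤ → ZMod p) h2
    have hc : ((((k i γ : Gamma0 p) : SL(2, ℤ)) 1 0 : ℤ) : ZMod p) = 0 := Gamma0_mem.mp (k i γ).2
    push_cast at h3
    rw [hc, zero_mul, zero_add] at h3
    rw [hG, hG]
    exact h3
  have hprod := Finset.prod_congr (s₁ := Finset.univ) rfl (fun i _ => key i)
  rw [Finset.prod_mul_distrib, Finset.prod_mul_distrib, Finset.prod_const, Finset.card_univ,
    Fintype.card_fin, Equiv.prod_comp (sigma γ) (fun i => (d i : ZMod p))] at hprod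
  have hne : (∏ i, (d i : ZMod p)) ≠ 0 := by
    rw [Finset.prod_ne_zero_iff]
    intro i _
    rw [Ne, ZMod.intCast_zmod_eq_zero_iff_dvd]
    exact hpd i
  have h4 : (∏ i, (d i : ZMod p)) * Gamma0Map p γ ^ m =
      (∏ i, (d i : ZMod p)) * ∏ i, Gamma0Map p (k i γ) := by
    rw [hprod, mul_comm]
  exact (mul_left_cancel₀ hne h4).symm

/-- G2 for a `HeckeFamily`. -/
theorem prod_Gamma0Map_family (p : ℕ) [Fact p.Prime] (m : ℕ) (delta : Fin m → GL (Fin 2) ℝ)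
    (hdelta : ∀ i, ∃ a b d : ℤ, 0 < a ∧ 0 < d ∧ ¬ (p : ℤ) ∣ d ∧
      ((delta i : GL (Fin 2) ℝ) : Matrix (Fin 2) (Fin 2) ℝ) = !![(a : ℝ), (b : ℝ); 0, (d : ℝ)])
    (hfam : HomHecke.HeckeFamily (iotaG p) delta) (γ : Gamma0 p) :
    ∏ i, Gamma0Map p (hfam.cocEl γ i) = Gamma0Map p γ ^ m :=
  prod_Gamma0Map p m delta hdelta (fun i γ => hfam.cocEl γ i) (fun γ => hfam.perm γ)
    (fun i γ => hfam.spec γ i) γ

/-- **G3.** `TransferStmt p ℓ` from a `HeckeFamily` computing `heckeTop p ℓ`. -/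
theorem transferStmt_of_family (p : ℕ) [Fact p.Prime] (ℓ : Nat.Primes) (m : ℕ)
    (delta : Fin m → GL (Fin 2) ℝ)
    (hdelta : ∀ i, ∃ a b d : ℤ, 0 < a ∧ 0 < d ∧
      ((delta i : GL (Fin 2) ℝ) : Matrix (Fin 2) (Fin 2) ℝ) = !![(a : ℝ), (b : ℝ); 0, (d : ℝ)])
    (hfam : HomHecke.HeckeFamily (iotaG p) delta)
    (hT : ∀ (f : CuspForm (Gamma0 p) 2) (z : ℍ),
      heckeTop p ℓ f z = ∑ i, ((f : ℍ → ℂ) ∣[(2 : ℤ)] delta i) z)
    (e : Equiv.Perm (Fin m)) (t : Fin m → Gamma0 p)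
    (ht : ∀ i, epsJ * delta i * epsJ = iotaG p (t i) * delta (e i))
    (hprod : ∀ γ : Gamma0 p, ∏ i, Gamma0Map p (hfam.cocEl γ i)
      = Gamma0Map p γ ^ (eisensteinSystem p ℓ).toNat) :
    TransferStmt p ℓ :=
  ⟨m, fun i γ => hfam.cocEl γ i,
    main p m delta hdelta (fun i γ => hfam.cocEl γ i) (fun γ => hfam.perm γ)
      (fun i γ => hfam.spec γ i) (heckeTop p ℓ) hT e t ht, hprod⟩

/-- `TransferStmt p ℓ` from explicit coset data. -/
theorem transferStmt_of_data (p : ℕ) [Fact p.Prime] (ℓ : Nat.Primes) (m : ℕ)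
    (delta : Fin m → GL (Fin 2) ℝ)
    (hdelta : ∀ i, ∃ a b d : ℤ, 0 < a ∧ 0 < d ∧
      ((delta i : GL (Fin 2) ℝ) : Matrix (Fin 2) (Fin 2) ℝ) = !![(a : ℝ), (b : ℝ); 0, (d : ℝ)])
    (k : Fin m → Gamma0 p → Gamma0 p) (sigma : Gamma0 p → Equiv.Perm (Fin m))
    (hk : ∀ (i : Fin m) (gamma : Gamma0 p),
      delta i * Matrix.SpecialLinearGroup.mapGL ℝ (gamma : SL(2, ℤ)) =
      Matrix.SpecialLinearGroup.mapGL ℝ ((k i gamma : Gamma0 p) : SL(2, ℤ)) * delta (sigma gamma i))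
    (hT : ∀ (f : CuspForm (Gamma0 p) 2) (z : ℍ),
      heckeTop p ℓ f z = ∑ i, ((f : ℍ → ℂ) ∣[(2 : ℤ)] delta i) z)
    (e : Equiv.Perm (Fin m)) (t : Fin m → Gamma0 p)
    (ht : ∀ i, epsJ * delta i * epsJ = iotaG p (t i) * delta (e i))
    (hprod : ∀ γ : Gamma0 p, ∏ i, Gamma0Map p (k i γ)
      = Gamma0Map p γ ^ (eisensteinSystem p ℓ).toNat) :
    TransferStmt p ℓ :=
  ⟨m, k, main p m delta hdelta k sigma hk (heckeTop p ℓ) hT e t ht, hprod⟩

/-- `heckeTop` for `ℓ ∤ p`, pointwise. -/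
theorem heckeTop_apply_of_not_dvd (p : ℕ) [Fact p.Prime] (ℓ : Nat.Primes) (h : ¬ (ℓ : ℕ) ∣ p)
    (f : CuspForm (Gamma0 p) 2) (z : ℍ) :
    heckeTop p ℓ f z = ∑ j ∈ Finset.range (ℓ : ℕ),
      ((f : ℍ → ℂ) ∣[(2 : ℤ)] ModularForm.heckeMatrix ℓ j) z +
        ((f : ℍ → ℂ) ∣[(2 : ℤ)] ModularForm.heckeDiagMatrix ℓ) z := by
  unfold heckeTop
  rw [heckeFormsGen_of_not_dvd h, heckeAlgebra.coe_T]
  show ModularForm.heckeT 2 (ℓ : ℕ) (f : ℍ → ℂ) z = _
  rw [ModularForm.heckeT_def, Pi.add_apply, Finset.sum_apply]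

/-- `heckeTop` for `ℓ ∣ p`, pointwise. -/
theorem heckeTop_apply_of_dvd (p : ℕ) [Fact p.Prime] (ℓ : Nat.Primes) (h : (ℓ : ℕ) ∣ p)
    (f : CuspForm (Gamma0 p) 2) (z : ℍ) :
    heckeTop p ℓ f z = ∑ j ∈ Finset.range (ℓ : ℕ),
      ((f : ℍ → ℂ) ∣[(2 : ℤ)] ModularForm.heckeMatrix ℓ j) z := by
  unfold heckeTop
  rw [heckeFormsGen_of_dvd h, heckeAlgebra.coe_U]
  show ModularForm.heckeU 2 (ℓ : ℕ) (f : ℍ → ℂ) z = _
  rw [ModularForm.heckeU_def, Finset.sum_apply]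

end

end Fermat.Agent.S16.TransferGen
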