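import Mathlib
import Fermat.Agent.S16.Defs
import Fermat.Agent.S16.TransferGen
import Fermat.Agent.S16.TransferComb

/-!
# S16 / TransferT: `TransferStmt p ℓ` for a prime `ℓ ∤ p`

Assembly of the transfer description of `T_ℓ` on the periods of `S₂(Γ₀(p))`:
the coset data of `TransferComb` (`δ_i γ = k_i(γ) δ_{σ_γ(i)}`, product of the lower right
entries, compatibility with the involution `jConjGamma0`) fed into the period formula
`TransferGen.periodMap_T` (`PeriodHecke.periodMap_sum`).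
-/

set_option autoImplicit false

namespace Fermat.Agent.S16.TransferT

open UpperHalfPlane CongruenceSubgroup ModularCurve ModularCurve.Period CuspForm
open scoped MatrixGroups ModularForm

/-- `heckeTop p ℓ` (`ℓ ∤ p`) is the sum of the slashes by the `TransferComb.delta ℓ i`. -/
theorem heckeTop_apply (p : ℕ) [Fact p.Prime] (ℓ : Nat.Primes) (h : ¬ (ℓ : ℕ) ∣ p)
    (f : CuspForm (Gamma0 p) 2) (z : ℍ) :
    heckeTop p ℓ f z = ∑ i, ((f : ℍ → ℂ) ∣[(2 : ℤ)] TransferComb.delta (ℓ : ℕ) i) z := by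
  rw [TransferGen.heckeTop_apply_of_not_dvd p ℓ h f z]
  have h1 := congrFun (TransferComb.sum_slash_delta 2 (ℓ : ℕ) (f : ℍ → ℂ)) z
  rw [Finset.sum_apply] at h1
  rw [h1, ModularForm.heckeT_def, Pi.add_apply, Finset.sum_apply]

/-- The exponent `e_ℓ = ℓ + 1` for `ℓ ∤ p`. -/
theorem toNat_eisensteinSystem (p : ℕ) (ℓ : Nat.Primes) (h : ¬ (ℓ : ℕ) ∣ p) :
    (eisensteinSystem p ℓ).toNat = (ℓ : ℕ) + 1 := by
  rw [eisensteinSystem_of_not_dvd h]
  omega

/-- **P13.** The transfer description of `T_ℓ` on periods, `ℓ ∤ p`. -/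
theorem main (p : ℕ) [Fact p.Prime] (ℓ : Nat.Primes) (h : ¬ (ℓ : ℕ) ∣ p) : TransferStmt p ℓ := by
  have hℓ : (ℓ : ℕ).Prime := ℓ.2
  refine ⟨(ℓ : ℕ) + 1, TransferComb.kT p hℓ h, ?_, ?_⟩
  · intro f g γ
    have hP := TransferGen.periodMap_T p ((ℓ : ℕ) + 1) (TransferComb.delta (ℓ : ℕ))
      (TransferComb.delta_upper hℓ.ne_zero) (TransferComb.kT p hℓ h) (TransferComb.sig p hℓ)
      (TransferComb.delta_mul p hℓ h) (heckeTop p ℓ) (heckeTop_apply p ℓ h)
    simp only [TransferGen.periodHomPair_apply]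
    rw [hP f γ, hP g γ, hP f (jConjGamma0 p γ), hP g (jConjGamma0 p γ),
      TransferComb.sum_jConj p hℓ h (periodMap p f) γ,
      TransferComb.sum_jConj p hℓ h (periodMap p g) γ]
    simp only [Finset.sum_add_distrib, Finset.sum_sub_distrib]
  · intro γ
    rw [TransferComb.prod_Gamma0Map p hℓ h γ, toNat_eisensteinSystem p ℓ h]

end Fermat.Agent.S16.TransferT
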