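/-
S16, package P14 (TransferU), part (A): the coset data of `U_p` on `Γ₀(p)`.

For `γ = [a b; c d] ∈ Γ₀(p)` and `δ_j = [1 j; 0 p]` (`j < p`) we have
`δ_j γ = k_j(γ) δ_{σ_γ(j)}` with `σ_γ(j) ≡ (b + j d) d mod p` and
`k_j(γ) = [a + j c, (b + j d - (a + j c) σ_γ(j)) / p; p c, d - c σ_γ(j)] ∈ Γ₀(p)`.
The lower right entry of `k_j(γ)` is `≡ d mod p`, hence the product over `j` is `d ^ p = d`.
-/
import Mathlib
import Fermat.Prelude.Def_ModularForm_HeckeOperatorForms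
import Fermat.Prelude.Def_ModularCurve_PeriodHomPair

set_option autoImplicit false
set_option linter.unusedSectionVars false

namespace Fermat.Agent.S16.TransferU

open CongruenceSubgroup Matrix ModularForm UpperHalfPlane Matrix.SpecialLinearGroup
open scoped MatrixGroups ModularForm

/-! ### `Fin n ≃ ZMod n` bookkeeping -/

theorem val_finEquiv : ∀ (n : ℕ) [NeZero n] (i : Fin n), (ZMod.finEquiv n i).val = (i : ℕ)
  | 0, h, _ => (h.ne _ rfl).elim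
  | _ + 1, _, _ => rfl

theorem coe_finEquiv_symm : ∀ (n : ℕ) [NeZero n] (x : ZMod n),
    (((ZMod.finEquiv n).symm x : Fin n) : ℕ) = x.val
  | 0, h, _ => (h.ne _ rfl).elim
  | _ + 1, _, _ => rfl

theorem finEquiv_apply (n : ℕ) [NeZero n] (i : Fin n) :
    ZMod.finEquiv n i = ((i : ℕ) : ZMod n) := by
  rw [← val_finEquiv n i, ZMod.natCast_zmod_val]

variable (p : ℕ) [Fact p.Prime]

/-! ### Entries of elements of `Γ₀(p)` -/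

section Entries

variable {p}

theorem c_cast (γ : Gamma0 p) : (((γ : SL(2, ℤ)) 1 0 : ℤ) : ZMod p) = 0 :=
  Gamma0_mem.mp γ.2

theorem det_eq (γ : Gamma0 p) :
    (γ : SL(2, ℤ)) 0 0 * (γ : SL(2, ℤ)) 1 1 - (γ : SL(2, ℤ)) 0 1 * (γ : SL(2, ℤ)) 1 0 = 1 := by
  have h := (γ : SL(2, ℤ)).2
  rwa [Matrix.det_fin_two] at h

theorem ad_cast (γ : Gamma0 p) :
    (((γ : SL(2, ℤ)) 0 0 : ℤ) : ZMod p) * (((γ : SL(2, ℤ)) 1 1 : ℤ) : ZMod p) = 1 := by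
  have h := congrArg (Int.cast : ℤ → ZMod p) (det_eq γ)
  push_cast at h
  rw [c_cast, mul_zero, sub_zero] at h
  exact h

end Entries

/-! ### The permutation `σ_γ` -/

/-- The affine permutation `x ↦ (b + x d) d` of `ZMod p`. -/
def affPerm (γ : Gamma0 p) : Equiv.Perm (ZMod p) where
  toFun x := ((((γ : SL(2, ℤ)) 0 1 : ℤ) : ZMod p) + x * (((γ : SL(2, ℤ)) 1 1 : ℤ) : ZMod p)) *
    (((γ : SL(2, ℤ)) 1 1 : ℤ) : ZMod p)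
  invFun y := (y * (((γ : SL(2, ℤ)) 0 0 : ℤ) : ZMod p) - (((γ : SL(2, ℤ)) 0 1 : ℤ) : ZMod p)) *
    (((γ : SL(2, ℤ)) 0 0 : ℤ) : ZMod p)
  left_inv x := by
    have h := ad_cast γ
    simp only
    linear_combination ((((γ : SL(2, ℤ)) 0 1 : ℤ) : ZMod p) * (((γ : SL(2, ℤ)) 0 0 : ℤ) : ZMod p) +
      x * ((((γ : SL(2, ℤ)) 0 0 : ℤ) : ZMod p) * (((γ : SL(2, ℤ)) 1 1 : ℤ) : ZMod p) + 1)) * h
  right_inv y := by
    have h := ad_cast γ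
    simp only
    linear_combination (-((((γ : SL(2, ℤ)) 0 1 : ℤ) : ZMod p) * (((γ : SL(2, ℤ)) 1 1 : ℤ) : ZMod p)) +
      y * ((((γ : SL(2, ℤ)) 0 0 : ℤ) : ZMod p) * (((γ : SL(2, ℤ)) 1 1 : ℤ) : ZMod p) + 1)) * h

/-- The permutation `σ_γ` of `Fin p`: `σ_γ(j) ≡ (b + j d) d mod p`. -/
def sigma (γ : Gamma0 p) : Equiv.Perm (Fin p) :=
  ((ZMod.finEquiv p).toEquiv.trans (affPerm p γ)).trans (ZMod.finEquiv p).toEquiv.symm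

theorem sigma_cast (γ : Gamma0 p) (i : Fin p) :
    (((sigma p γ i : Fin p) : ℕ) : ZMod p) =
      ((((γ : SL(2, ℤ)) 0 1 : ℤ) : ZMod p) + ((i : ℕ) : ZMod p) * (((γ : SL(2, ℤ)) 1 1 : ℤ) : ZMod p)) *
        (((γ : SL(2, ℤ)) 1 1 : ℤ) : ZMod p) := by
  have h1 : sigma p γ i = (ZMod.finEquiv p).symm (affPerm p γ (ZMod.finEquiv p i)) := rfl
  rw [h1, coe_finEquiv_symm, ZMod.natCast_zmod_val, finEquiv_apply]
  rfl

/-! ### The transfer elements `k_j(γ)` -/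

theorem dvd_aux (γ : Gamma0 p) (i : Fin p) :
    (p : ℤ) ∣ (γ : SL(2, ℤ)) 0 1 + (i : ℕ) * (γ : SL(2, ℤ)) 1 1 -
      ((γ : SL(2, ℤ)) 0 0 + (i : ℕ) * (γ : SL(2, ℤ)) 1 0) * ((sigma p γ i : Fin p) : ℕ) := by
  rw [← ZMod.intCast_zmod_eq_zero_iff_dvd]
  have h := ad_cast γ
  push_cast
  rw [sigma_cast, c_cast]
  linear_combination (-((((γ : SL(2, ℤ)) 0 1 : ℤ) : ZMod p) +
    ((i : ℕ) : ZMod p) * (((γ : SL(2, ℤ)) 1 1 : ℤ) : ZMod p))) * h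

/-- The upper right entry of `k_j(γ)`. -/
def kB (γ : Gamma0 p) (i : Fin p) : ℤ :=
  ((γ : SL(2, ℤ)) 0 1 + (i : ℕ) * (γ : SL(2, ℤ)) 1 1 -
      ((γ : SL(2, ℤ)) 0 0 + (i : ℕ) * (γ : SL(2, ℤ)) 1 0) * ((sigma p γ i : Fin p) : ℕ)) / p

theorem kB_mul (γ : Gamma0 p) (i : Fin p) :
    kB p γ i * p = (γ : SL(2, ℤ)) 0 1 + (i : ℕ) * (γ : SL(2, ℤ)) 1 1 -
      ((γ : SL(2, ℤ)) 0 0 + (i : ℕ) * (γ : SL(2, ℤ)) 1 0) * ((sigma p γ i : Fin p) : ℕ) :=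
  Int.ediv_mul_cancel (dvd_aux p γ i)

/-- `k_j(γ)` as an element of `SL(2, ℤ)`. -/
def kSL (γ : Gamma0 p) (i : Fin p) : SL(2, ℤ) :=
  ⟨!![(γ : SL(2, ℤ)) 0 0 + (i : ℕ) * (γ : SL(2, ℤ)) 1 0, kB p γ i;
      (p : ℤ) * (γ : SL(2, ℤ)) 1 0,
      (γ : SL(2, ℤ)) 1 1 - (γ : SL(2, ℤ)) 1 0 * ((sigma p γ i : Fin p) : ℕ)], by
    rw [Matrix.det_fin_two_of]
    linear_combination det_eq γ - (γ : SL(2, ℤ)) 1 0 * kB_mul p γ i⟩

/-- The transfer element `k_j(γ) ∈ Γ₀(p)`: `δ_j γ = k_j(γ) δ_{σ_γ(j)}`. -/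
def k (i : Fin p) (γ : Gamma0 p) : Gamma0 p :=
  ⟨kSL p γ i, by
    rw [Gamma0_mem]
    simp [kSL]⟩

theorem coe_k (i : Fin p) (γ : Gamma0 p) : ((k p i γ : Gamma0 p) : SL(2, ℤ)) = kSL p γ i := rfl

theorem kSL_zero_zero (γ : Gamma0 p) (i : Fin p) :
    (kSL p γ i) 0 0 = (γ : SL(2, ℤ)) 0 0 + (i : ℕ) * (γ : SL(2, ℤ)) 1 0 := rfl

theorem kSL_zero_one (γ : Gamma0 p) (i : Fin p) : (kSL p γ i) 0 1 = kB p γ i := rfl

theorem kSL_one_zero (γ : Gamma0 p) (i : Fin p) :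
    (kSL p γ i) 1 0 = (p : ℤ) * (γ : SL(2, ℤ)) 1 0 := rfl

theorem kSL_one_one (γ : Gamma0 p) (i : Fin p) :
    (kSL p γ i) 1 1 = (γ : SL(2, ℤ)) 1 1 - (γ : SL(2, ℤ)) 1 0 * ((sigma p γ i : Fin p) : ℕ) := rfl

theorem k_lowerRight (i : Fin p) (γ : Gamma0 p) : Gamma0Map p (k p i γ) = Gamma0Map p γ := by
  have h := c_cast γ
  show (((kSL p γ i) 1 1 : ℤ) : ZMod p) = (((γ : SL(2, ℤ)) 1 1 : ℤ) : ZMod p)
  rw [kSL_one_one]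
  push_cast
  rw [h, zero_mul, sub_zero]

theorem prod_lowerRight (γ : Gamma0 p) : ∏ i, Gamma0Map p (k p i γ) = Gamma0Map p γ := by
  rw [Finset.prod_congr rfl (fun i _ => k_lowerRight p i γ), Finset.prod_const, Finset.card_univ,
    Fintype.card_fin, ZMod.pow_card]

omit [Fact p.Prime] in
theorem coe_mapGL (g : SL(2, ℤ)) :
    ((mapGL ℝ g : GL (Fin 2) ℝ) : Matrix (Fin 2) (Fin 2) ℝ) =
      !![((g 0 0 : ℤ) : ℝ), ((g 0 1 : ℤ) : ℝ); ((g 1 0 : ℤ) : ℝ), ((g 1 1 : ℤ) : ℝ)] := by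
  rw [mapGL_coe_matrix]
  ext r s
  fin_cases r <;> fin_cases s <;> simp

theorem hk (i : Fin p) (γ : Gamma0 p) :
    heckeMatrix p i * mapGL ℝ (γ : SL(2, ℤ)) =
      mapGL ℝ ((k p i γ : Gamma0 p) : SL(2, ℤ)) * heckeMatrix p (sigma p γ i) := by
  have hp : p ≠ 0 := (Fact.out : p.Prime).ne_zero
  have hB : ((kB p γ i : ℤ) : ℝ) * (p : ℝ) = ((γ : SL(2, ℤ)) 0 1 : ℤ) + (i : ℕ) * ((γ : SL(2, ℤ)) 1 1 : ℤ) -
      (((γ : SL(2, ℤ)) 0 0 : ℤ) + (i : ℕ) * ((γ : SL(2, ℤ)) 1 0 : ℤ)) * ((sigma p γ i : Fin p) : ℕ) := by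
    exact_mod_cast congrArg (Int.cast : ℤ → ℝ) (kB_mul p γ i)
  apply Units.ext
  rw [Units.val_mul, Units.val_mul, val_heckeMatrix hp, val_heckeMatrix hp, coe_mapGL, coe_mapGL,
    coe_k, kSL_zero_zero, kSL_zero_one, kSL_one_zero, kSL_one_one, Matrix.mul_fin_two,
    Matrix.mul_fin_two]
  push_cast
  ext r s
  fin_cases r <;> fin_cases s
  · simp
  · simp
    linear_combination -hB
  · simp
  · simp
    ring

end Fermat.Agent.S16.TransferU
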