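/-
S16, package P14 (TransferU): `TransferStmt p ℓ` for `ℓ = p` (the operator `U_p`).

Data: `m = p`, `δ_j = heckeMatrix p j`, `k_j`, `σ` from `TransferUCoset`.  The compatibility with
the involution `γ ↦ ε γ ε` (`ε = diag(1,-1)`) is obtained by applying `PeriodHecke.periodMap_sum`
a second time, to the `ε`-conjugated system `δ'_j = [1 -j; 0 p]`,
`k'_j(γ) = J(k_j(Jγ))`, `σ'(γ) = σ(Jγ)`.
-/
import Mathlib
import Fermat.Agent.S16.Defs
import Fermat.Agent.S16.PeriodHecke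
import Fermat.Agent.S16.TransferUCoset

set_option autoImplicit false
set_option linter.unusedSectionVars false

namespace Fermat.Agent.S16.TransferU

open CongruenceSubgroup Matrix ModularForm UpperHalfPlane Matrix.SpecialLinearGroup
open ModularCurve ModularCurve.Period CuspForm
open scoped MatrixGroups ModularForm

variable (p : ℕ) [Fact p.Prime]

/-! ### The conjugated system -/

/-- `ε = diag(1, -1)`. -/
noncomputable def epsGL : GL (Fin 2) ℝ :=
  Matrix.GeneralLinearGroup.mkOfDetNeZero !![1, 0; 0, -1] (by simp [Matrix.det_fin_two_of])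

theorem coe_epsGL : ((epsGL : GL (Fin 2) ℝ) : Matrix (Fin 2) (Fin 2) ℝ) = !![1, 0; 0, -1] := rfl

theorem epsGL_mul_self : epsGL * epsGL = 1 := by
  apply Units.ext
  rw [Units.val_mul, coe_epsGL, Matrix.mul_fin_two]
  ext r s
  fin_cases r <;> fin_cases s <;> simp

theorem epsGL_mul_mapGL (g : SL(2, ℤ)) : epsGL * mapGL ℝ g = mapGL ℝ (jConjSL g) * epsGL := by
  apply Units.ext
  rw [Units.val_mul, Units.val_mul, coe_epsGL, coe_mapGL, coe_mapGL, Matrix.mul_fin_two,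
    Matrix.mul_fin_two]
  ext r s
  fin_cases r <;> fin_cases s <;> simp [jConjSL_coe]

/-- `δ'_j = [1 -j; 0 p] = ε δ_j ε`. -/
noncomputable def deltaN (j : ℕ) : GL (Fin 2) ℝ :=
  upperTriangularGL 1 (-(j : ℝ)) p (by
    rw [one_mul]; exact_mod_cast (Fact.out : p.Prime).ne_zero)

theorem coe_deltaN (j : ℕ) :
    ((deltaN p j : GL (Fin 2) ℝ) : Matrix (Fin 2) (Fin 2) ℝ) = !![1, -(j : ℝ); 0, (p : ℝ)] := rfl

theorem epsGL_mul_heckeMatrix (j : ℕ) : epsGL * heckeMatrix p j = deltaN p j * epsGL := by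
  have hp : p ≠ 0 := (Fact.out : p.Prime).ne_zero
  apply Units.ext
  rw [Units.val_mul, Units.val_mul, coe_epsGL, coe_deltaN, val_heckeMatrix hp, Matrix.mul_fin_two,
    Matrix.mul_fin_two]
  ext r s
  fin_cases r <;> fin_cases s <;> simp

theorem deltaN_mul_epsGL (j : ℕ) : deltaN p j * epsGL = epsGL * heckeMatrix p j :=
  (epsGL_mul_heckeMatrix p j).symm

/-- `k'_j(γ) = J(k_j(Jγ))`. -/
noncomputable def kN (i : Fin p) (γ : Gamma0 p) : Gamma0 p :=
  jConjGamma0 p (k p i (jConjGamma0 p γ))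

theorem hkN (i : Fin p) (γ : Gamma0 p) :
    deltaN p i * mapGL ℝ (γ : SL(2, ℤ)) =
      mapGL ℝ ((kN p i γ : Gamma0 p) : SL(2, ℤ)) * deltaN p (sigma p (jConjGamma0 p γ) i) := by
  have h1 := hk p i (jConjGamma0 p γ)
  have h2 : mapGL ℝ (γ : SL(2, ℤ)) = epsGL * mapGL ℝ (jConjSL (γ : SL(2, ℤ))) * epsGL := by
    rw [epsGL_mul_mapGL, jConjSL_jConjSL, mul_assoc, epsGL_mul_self, mul_one]
  have h3 : deltaN p i = epsGL * heckeMatrix p i * epsGL := by
    rw [epsGL_mul_heckeMatrix, mul_assoc, epsGL_mul_self, mul_one]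
  have h4 : deltaN p (sigma p (jConjGamma0 p γ) i) =
      epsGL * heckeMatrix p (sigma p (jConjGamma0 p γ) i) * epsGL := by
    rw [epsGL_mul_heckeMatrix, mul_assoc, epsGL_mul_self, mul_one]
  rw [jConjGamma0_coe] at h1
  calc deltaN p i * mapGL ℝ (γ : SL(2, ℤ))
      = epsGL * heckeMatrix p i * (epsGL * epsGL) * mapGL ℝ (jConjSL (γ : SL(2, ℤ))) * epsGL := by
        rw [h3, h2]; simp only [mul_assoc]
    _ = epsGL * (heckeMatrix p i * mapGL ℝ (jConjSL (γ : SL(2, ℤ)))) * epsGL := by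
        rw [epsGL_mul_self]; simp only [mul_assoc, one_mul]
    _ = epsGL * mapGL ℝ ((k p i (jConjGamma0 p γ) : Gamma0 p) : SL(2, ℤ)) *
          heckeMatrix p (sigma p (jConjGamma0 p γ) i) * epsGL := by
        rw [h1]; simp only [mul_assoc]
    _ = mapGL ℝ ((kN p i γ : Gamma0 p) : SL(2, ℤ)) * deltaN p (sigma p (jConjGamma0 p γ) i) := by
        rw [h4, epsGL_mul_mapGL]
        simp only [kN, jConjGamma0_coe, mul_assoc]

/-! ### `U_p f` as a sum over either system -/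

theorem coe_T_zpow_mem (n : ℤ) : ModularGroup.T ^ n ∈ Gamma0 p := by
  rw [Gamma0_mem, ModularGroup.coe_T_zpow]
  simp

/-- For `f` on `Γ₀(p)`, `f ∣[2] [1 b; 0 p]` only depends on `b` modulo `p`. -/
theorem slash_upper_congr (f : CuspForm (Gamma0 p) 2) {g g' : GL (Fin 2) ℝ} {b b' : ℤ}
    (hg : (g : Matrix (Fin 2) (Fin 2) ℝ) = !![1, (b : ℝ); 0, (p : ℝ)])
    (hg' : (g' : Matrix (Fin 2) (Fin 2) ℝ) = !![1, (b' : ℝ); 0, (p : ℝ)])
    (h : (p : ℤ) ∣ b - b') :
    (f : ℍ → ℂ) ∣[(2 : ℤ)] g = (f : ℍ → ℂ) ∣[(2 : ℤ)] g' := by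
  obtain ⟨n, hn⟩ := h
  have hgg : g = mapGL ℝ (ModularGroup.T ^ n) * g' := by
    apply Units.ext
    rw [Units.val_mul, hg, hg', coe_mapGL, ModularGroup.coe_T_zpow, Matrix.mul_fin_two]
    have hb : (b : ℝ) = b' + p * n := by
      have : b = b' + p * n := by linarith
      exact_mod_cast congrArg (Int.cast : ℤ → ℝ) this
    ext r s
    fin_cases r <;> fin_cases s <;> simp [hb, mul_comm]
  rw [hgg, SlashAction.slash_mul]
  congr 1
  exact SlashInvariantFormClass.slash_action_eq f _ ⟨_, coe_T_zpow_mem p n, rfl⟩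

/-- Negation on `Fin p`. -/
def negPerm : Equiv.Perm (Fin p) :=
  ((ZMod.finEquiv p).toEquiv.trans (Equiv.neg (ZMod p))).trans (ZMod.finEquiv p).toEquiv.symm

theorem negPerm_cast (i : Fin p) :
    (((negPerm p i : Fin p) : ℕ) : ZMod p) = -((i : ℕ) : ZMod p) := by
  have h1 : negPerm p i = (ZMod.finEquiv p).symm (-(ZMod.finEquiv p i)) := rfl
  rw [h1, coe_finEquiv_symm, ZMod.natCast_zmod_val, finEquiv_apply]

theorem slash_deltaN (f : CuspForm (Gamma0 p) 2) (i : Fin p) :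
    (f : ℍ → ℂ) ∣[(2 : ℤ)] deltaN p i = (f : ℍ → ℂ) ∣[(2 : ℤ)] heckeMatrix p (negPerm p i) := by
  have hp : p ≠ 0 := (Fact.out : p.Prime).ne_zero
  refine slash_upper_congr p f (b := -((i : ℕ) : ℤ)) (b' := ((negPerm p i : Fin p) : ℕ)) ?_ ?_ ?_
  · rw [coe_deltaN]; push_cast; rfl
  · rw [val_heckeMatrix hp]; push_cast; rfl
  · rw [← ZMod.intCast_zmod_eq_zero_iff_dvd]
    push_cast
    rw [negPerm_cast]
    ring

theorem heckeU_eq_sum (f : CuspForm (Gamma0 p) 2) (z : ℍ) :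
    heckeU 2 p (f : ℍ → ℂ) z = ∑ i : Fin p, ((f : ℍ → ℂ) ∣[(2 : ℤ)] heckeMatrix p i) z := by
  rw [heckeU_def, Finset.sum_apply]
  exact (Fin.sum_univ_eq_sum_range (fun j => ((f : ℍ → ℂ) ∣[(2 : ℤ)] heckeMatrix p j) z) p).symm

theorem heckeU_eq_sumN (f : CuspForm (Gamma0 p) 2) (z : ℍ) :
    heckeU 2 p (f : ℍ → ℂ) z = ∑ i : Fin p, ((f : ℍ → ℂ) ∣[(2 : ℤ)] deltaN p i) z := by
  rw [heckeU_eq_sum]
  simp_rw [slash_deltaN]
  exact (Equiv.sum_comp (negPerm p)
    (fun j : Fin p => ((f : ℍ → ℂ) ∣[(2 : ℤ)] heckeMatrix p j) z)).symm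

/-! ### Periods -/

theorem hdelta (i : Fin p) : ∃ a b d : ℤ, 0 < a ∧ 0 < d ∧
    ((heckeMatrix p i : GL (Fin 2) ℝ) : Matrix (Fin 2) (Fin 2) ℝ) =
      !![(a : ℝ), (b : ℝ); 0, (d : ℝ)] := by
  have hp : p ≠ 0 := (Fact.out : p.Prime).ne_zero
  refine ⟨1, ((i : ℕ) : ℤ), (p : ℤ), one_pos, by exact_mod_cast Nat.pos_of_ne_zero hp, ?_⟩
  rw [val_heckeMatrix hp]; push_cast; rfl

theorem hdeltaN (i : Fin p) : ∃ a b d : ℤ, 0 < a ∧ 0 < d ∧
    ((deltaN p i : GL (Fin 2) ℝ) : Matrix (Fin 2) (Fin 2) ℝ) =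
      !![(a : ℝ), (b : ℝ); 0, (d : ℝ)] := by
  have hp : p ≠ 0 := (Fact.out : p.Prime).ne_zero
  refine ⟨1, -((i : ℕ) : ℤ), (p : ℤ), one_pos, by exact_mod_cast Nat.pos_of_ne_zero hp, ?_⟩
  rw [coe_deltaN]; push_cast; rfl

/-- The operator `U_p` on `S₂(Γ₀(p))`. -/
noncomputable abbrev UpOp : Module.End ℂ (CuspForm (Gamma0 p) 2) :=
  CuspForm.heckeULin (N := p) (p := p) 2 (dvd_refl p)

theorem periodMap_Up (f : CuspForm (Gamma0 p) 2) (γ : Gamma0 p) :
    periodMap p (UpOp p f) (Additive.ofMul γ) =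
      ∑ i, periodMap p f (Additive.ofMul (k p i γ)) :=
  PeriodHecke.periodMap_sum p p (fun i => heckeMatrix p i) (hdelta p) (k p) (sigma p) (hk p)
    f (UpOp p f) (fun z => heckeU_eq_sum p f z) γ

theorem periodMap_Up_jConj (f : CuspForm (Gamma0 p) 2) (γ : Gamma0 p) :
    periodMap p (UpOp p f) (Additive.ofMul (jConjGamma0 p γ)) =
      ∑ i, periodMap p f (Additive.ofMul (jConjGamma0 p (k p i γ))) := by
  have h := PeriodHecke.periodMap_sum p p (fun i => deltaN p i) (hdeltaN p) (kN p)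
    (fun γ => sigma p (jConjGamma0 p γ)) (hkN p) f (UpOp p f) (fun z => heckeU_eq_sumN p f z)
    (jConjGamma0 p γ)
  rw [h]
  simp only [kN, jConjGamma0_jConjGamma0]

theorem periodHomPair_apply (h : ExistsPeriodMapLinear p) (F G : CuspForm (Gamma0 p) 2)
    (γ : Gamma0 p) :
    periodHomPair p (F, G) (Additive.ofMul γ) =
      periodMap p F (Additive.ofMul γ) + periodMap p F (Additive.ofMul (jConjGamma0 p γ)) +
        (periodMap p G (Additive.ofMul γ) - periodMap p G (Additive.ofMul (jConjGamma0 p γ))) := by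
  obtain ⟨pml, hpml, hdef⟩ := periodHomPair_def p h
  rw [hdef]
  simp only [LinearMap.coprod_apply, LinearMap.comp_apply, LinearMap.add_apply,
    LinearMap.sub_apply, LinearMap.id_apply, AddMonoidHom.add_apply, AddMonoidHom.sub_apply,
    charInvolution_apply, hpml, toMul_ofMul]

theorem periodHomPair_Up (f g : CuspForm (Gamma0 p) 2) (γ : Gamma0 p) :
    periodHomPair p (UpOp p f, UpOp p g) (Additive.ofMul γ) =
      ∑ i, periodHomPair p (f, g) (Additive.ofMul (k p i γ)) := by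
  by_cases h : ExistsPeriodMapLinear p
  · rw [periodHomPair_apply p h]
    simp_rw [periodHomPair_apply p h]
    rw [periodMap_Up_jConj, periodMap_Up_jConj, periodMap_Up, periodMap_Up,
      Finset.sum_add_distrib, Finset.sum_add_distrib, Finset.sum_sub_distrib]
  · have h0 : periodHomPair p = 0 := by
      unfold periodHomPair
      rw [dif_neg h]
    simp [h0]

/-- **P14.** `TransferStmt p ℓ` for `ℓ = p`. -/
theorem main (ℓ : Nat.Primes) (h : (ℓ : ℕ) ∣ p) : TransferStmt p ℓ := by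
  have hlp : (ℓ : ℕ) = p := (Nat.prime_dvd_prime_iff_eq ℓ.2 Fact.out).mp h
  have htop : heckeTop p ℓ = UpOp p := by
    unfold heckeTop
    rw [heckeFormsGen_of_dvd h, heckeAlgebra.coe_U]
    apply LinearMap.ext
    intro f
    apply DFunLike.coe_injective
    show heckeU 2 (ℓ : ℕ) (f : ℍ → ℂ) = heckeU 2 p (f : ℍ → ℂ)
    rw [hlp]
  refine ⟨p, k p, ?_, ?_⟩
  · intro f g γ
    rw [htop]
    exact periodHomPair_Up p f g γ
  · intro γ
    rw [eisensteinSystem_of_dvd h, prod_lowerRight]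
    simp

end Fermat.Agent.S16.TransferU
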