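/-
S16 project, package P3 `UBMain` (helper14): the arithmetic glue of the upper bound.

* `UBMain.noForm` : the Eisenstein series of level `p` together with the non-existence statements
  `Kstmt p ℓ (sExp p ℓ)` for all primes `ℓ` (only needed for `p ≥ 5`) give `NoFormStmt p`.
* `UBMain.kAll`   : dispatch of `Kstmt p ℓ (sExp p ℓ)` into the eight `K`-cases
  (evaluation of `sExp`).
* `UBMain.noForm_of_cases` : the two combined.
-/
import Mathlib
import Fermat.Prelude.Thm_ModularForm_sturm_bound_Gamma0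
import Fermat.Prelude.Thm_CongruenceSubgroup_one_mem_strictPeriods_Gamma0
import Fermat.Agent.S16.Defs

set_option autoImplicit false

namespace Fermat.Agent.S16.UBMain

open UpperHalfPlane CongruenceSubgroup ModularCurve CuspForm
open scoped MatrixGroups ModularForm

/-! ### Small primes: `S₂(Γ₀(p)) = 0` for `p < 5` -/

/-- The class of the first column of `g` in `ℙ¹(𝔽_p)`. -/
noncomputable def colClass (p : ℕ) [Fact p.Prime] (g : SL(2, ℤ)) : Option (ZMod p) :=
  if ((g 0 0 : ℤ) : ZMod p) = 0 then none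
  else some (((g 1 0 : ℤ) : ZMod p) / ((g 0 0 : ℤ) : ZMod p))

theorem mem_Gamma0_of_colClass_eq (p : ℕ) [Fact p.Prime] (g h : SL(2, ℤ))
    (hgh : colClass p g = colClass p h) : g⁻¹ * h ∈ Gamma0 p := by
  rw [Gamma0_mem]
  have hmul : (g⁻¹ * h) 1 0 = - g 1 0 * h 0 0 + g 0 0 * h 1 0 := by
    rw [Matrix.SpecialLinearGroup.coe_mul, Matrix.SpecialLinearGroup.SL2_inv_expl,
      Matrix.mul_apply, Fin.sum_univ_two]
    simp
  rw [hmul]
  push_cast
  unfold colClass at hgh
  by_cases hg : ((g 0 0 : ℤ) : ZMod p) = 0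
  · by_cases hh : ((h 0 0 : ℤ) : ZMod p) = 0
    · rw [hg, hh]; ring
    · simp [hg, hh] at hgh
  · by_cases hh : ((h 0 0 : ℤ) : ZMod p) = 0
    · simp [hg, hh] at hgh
    · rw [if_neg hg, if_neg hh, Option.some.injEq, div_eq_div_iff hg hh] at hgh
      linear_combination -hgh

theorem index_Gamma0_le (p : ℕ) [Fact p.Prime] : (Gamma0 p).index ≤ p + 1 := by
  classical
  have : NeZero p := ⟨(Fact.out : p.Prime).ne_zero⟩
  let φ : SL(2, ℤ) ⧸ Gamma0 p → Option (ZMod p) := fun q => colClass p q.out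
  have hφ : Function.Injective φ := by
    intro a b hab
    have hmem := mem_Gamma0_of_colClass_eq p a.out b.out hab
    have : (QuotientGroup.mk a.out : SL(2, ℤ) ⧸ Gamma0 p) = QuotientGroup.mk b.out :=
      QuotientGroup.eq.mpr hmem
    simpa using this
  have hcard : Nat.card (Option (ZMod p)) = p + 1 := by
    rw [Nat.card_eq_fintype_card, Fintype.card_option, ZMod.card]
  calc (Gamma0 p).index = Nat.card (SL(2, ℤ) ⧸ Gamma0 p) := rfl
    _ ≤ Nat.card (Option (ZMod p)) := Nat.card_le_card_of_injective φ hφ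
    _ = p + 1 := hcard

/-- There are no cusp forms of weight two on `Γ₀(p)` for `p = 2, 3`. -/
theorem cuspForm_eq_zero_of_lt_five (p : ℕ) [Fact p.Prime] (hp : p < 5)
    (f : CuspForm (Gamma0 p) 2) : f = 0 := by
  have : NeZero p := ⟨(Fact.out : p.Prime).ne_zero⟩
  have h0 : CuspForm.toModularFormₗ f = 0 := by
    refine ModularForm.sturm_bound_Gamma0 p (CuspForm.toModularFormₗ f) ?_
    intro n hn
    have hn0 : n = 0 := by
      have hle := index_Gamma0_le p
      have h12 : ((2 : ℤ) * (((Gamma0 p).index : ℕ) : ℤ)).toNat / 12 = 0 := by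
        have h2 : ((2 : ℤ) * (((Gamma0 p).index : ℕ) : ℤ)).toNat = 2 * (Gamma0 p).index := by
          have h3 : ((2 : ℤ) * (((Gamma0 p).index : ℕ) : ℤ))
              = ((2 * (Gamma0 p).index : ℕ) : ℤ) := by push_cast; ring
          rw [h3, Int.toNat_natCast]
        rw [h2]
        omega
      rw [h12] at hn
      exact Nat.le_zero.mp hn
    subst hn0
    exact CuspFormClass.qExpansion_coeff_zero f one_pos
      (CongruenceSubgroup.one_mem_strictPeriods_Gamma0 p)
  exact CuspForm.toModularFormₗ_injective (by rw [h0, map_zero])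

/-! ### Arithmetic -/

theorem eisensteinNumerator_ne_zero (p : ℕ) (hp : 2 ≤ p) : eisensteinNumerator p ≠ 0 := by
  unfold eisensteinNumerator
  have hg : Nat.gcd (p - 1) 12 ∣ p - 1 := Nat.gcd_dvd_left _ _
  have hpos : 0 < p - 1 := by omega
  exact (Nat.div_pos (Nat.le_of_dvd hpos hg) (Nat.gcd_pos_of_pos_left _ hpos)).ne'

theorem exists_prime_padicValNat_lt {d n : ℕ} (hd : 0 < d) (hn : n ≠ 0) (h : ¬ d ∣ n) :
    ∃ l : ℕ, l.Prime ∧ padicValNat l n < padicValNat l d := by
  by_contra hcon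
  push Not at hcon
  apply h
  rw [← Nat.factorization_le_iff_dvd hd.ne' hn]
  intro l
  by_cases hl : l.Prime
  · rw [Nat.factorization_def _ hl, Nat.factorization_def _ hl]
    exact hcon l hl
  · rw [Nat.factorization_eq_zero_of_not_prime _ hl]
    exact Nat.zero_le _

theorem padicValNat_le_of_dvd' {l a b : ℕ} [Fact l.Prime] (hb : b ≠ 0) (h : a ∣ b) :
    padicValNat l a ≤ padicValNat l b :=
  (padicValNat_dvd_iff_le hb).mp (pow_padicValNat_dvd.trans h)

/-- The key divisibility: if `v_ℓ(d) > v_ℓ(n)` then `24 d / ((p-1) ℓ^s)` is `ℓ`-integral. -/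
theorem exists_coprime_dvd (p l d : ℕ) (hp : 2 ≤ p) (hl : l.Prime) (hd : 0 < d)
    (h : padicValNat l (eisensteinNumerator p) < padicValNat l d) :
    ∃ b : ℕ, b.Coprime l ∧ l ^ (sExp p l) * (p - 1) ∣ 24 * d * b := by
  have := Fact.mk hl
  have hp1 : p - 1 ≠ 0 := by omega
  have hgdvd : Nat.gcd (p - 1) 12 ∣ p - 1 := Nat.gcd_dvd_left _ _
  have hg24 : Nat.gcd (p - 1) 12 ∣ 24 := (Nat.gcd_dvd_right _ _).trans (by norm_num)
  have hvn : padicValNat l (eisensteinNumerator p)
      = padicValNat l (p - 1) - padicValNat l (Nat.gcd (p - 1) 12) :=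
    padicValNat.div_of_dvd hgdvd
  have hvg_le : padicValNat l (Nat.gcd (p - 1) 12) ≤ padicValNat l (p - 1) :=
    padicValNat_le_of_dvd' hp1 hgdvd
  have hvg24 : padicValNat l (Nat.gcd (p - 1) 12) ≤ padicValNat l 24 :=
    padicValNat_le_of_dvd' (by norm_num) hg24
  refine ⟨(p - 1) / l ^ (p - 1).factorization l, (Nat.coprime_ordCompl hl hp1).symm, ?_⟩
  have hfac : l ^ padicValNat l (p - 1) * ((p - 1) / l ^ (p - 1).factorization l) = p - 1 := by
    have := Nat.ordProj_mul_ordCompl_eq_self (p - 1) l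
    rwa [Nat.factorization_def _ hl] at this ⊢
  have h24d : l ^ (sExp p l + padicValNat l (p - 1)) ∣ 24 * d := by
    rw [padicValNat_dvd_iff_le (Nat.mul_ne_zero (by norm_num) hd.ne'),
      padicValNat.mul (by norm_num) hd.ne']
    unfold sExp
    omega
  calc l ^ sExp p l * (p - 1)
      = l ^ (sExp p l + padicValNat l (p - 1)) * ((p - 1) / l ^ (p - 1).factorization l) := by
        conv_lhs => rw [← hfac]
        rw [pow_add, mul_assoc]
    _ ∣ 24 * d * ((p - 1) / l ^ (p - 1).factorization l) := Nat.mul_dvd_mul_right h24d _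

/-! ### The main reduction -/

theorem sigmaP_one (p : ℕ) (hp : 2 ≤ p) : sigmaP p 1 = 1 := by
  unfold sigmaP
  rw [Nat.divisors_one, Finset.filter_singleton, if_pos (by
    intro h
    have := Nat.le_of_dvd one_pos h
    omega), Finset.sum_singleton]

/-- `NoFormStmt p` from the Eisenstein series and the non-existence statements `Kstmt`. -/
theorem noForm (p : ℕ) [Fact p.Prime] (eis : EisStmt p)
    (hK : 5 ≤ p → ∀ l : ℕ, l.Prime → Kstmt p l (sExp p l)) : NoFormStmt p := by
  have hp2 : 2 ≤ p := (Fact.out : p.Prime).two_le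
  have h1 := CongruenceSubgroup.one_mem_strictPeriods_Gamma0 p
  intro d hd f hf
  by_cases hp5 : p < 5
  · -- `f = 0`
    have hf0 := cuspForm_eq_zero_of_lt_five p hp5 f
    obtain ⟨m, hm, hdvd⟩ := hf 1 le_rfl
    have hm0 : m = 0 := by
      have hz : (qExpansion 1 f).coeff 1 = 0 := by
        rw [hf0, FunLike.coe_zero, qExpansion_zero]
        simp
      rw [hz] at hm
      exact_mod_cast hm.symm
    rw [hm0, sigmaP_one p hp2] at hdvd
    have hd1 : (d : ℤ) ∣ 1 := by
      have : (d : ℤ) ∣ -((0 : ℤ) - ((1 : ℕ) : ℤ)) := (dvd_neg).mpr hdvd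
      simpa using this
    have : d = 1 := by
      have := Int.natCast_dvd_natCast.mp (show ((d : ℕ) : ℤ) ∣ ((1 : ℕ) : ℤ) by simpa using hd1)
      exact Nat.dvd_one.mp this
    rw [this]
    exact one_dvd _
  · push Not at hp5
    by_contra hnd
    obtain ⟨l, hl, hlt⟩ :=
      exists_prime_padicValNat_lt hd (eisensteinNumerator_ne_zero p hp2) hnd
    obtain ⟨b, hb, c, hc⟩ := exists_coprime_dvd p l d hp2 hl hd hlt
    obtain ⟨E, hE0, hE⟩ := eis
    apply hK hp5 l hl
    have hpC : (p : ℂ) - 1 ≠ 0 := by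
      intro h0
      have h1' : (p : ℂ) = 1 := by linear_combination h0
      have : ((p : ℕ) : ℂ) = ((1 : ℕ) : ℂ) := by simpa using h1'
      have := Nat.cast_injective this
      omega
    have hq : qExpansion 1 (⇑(((24 : ℂ) / ((p : ℂ) - 1)) • (E - CuspForm.toModularFormₗ f)))
        = ((24 : ℂ) / ((p : ℂ) - 1)) •
          (qExpansion 1 ⇑E - qExpansion 1 ⇑(CuspForm.toModularFormₗ f)) := by
      have e1 : (⇑(((24 : ℂ) / ((p : ℂ) - 1)) • (E - CuspForm.toModularFormₗ f)) : ℍ → ℂ)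
          = ((24 : ℂ) / ((p : ℂ) - 1)) • ⇑(E - CuspForm.toModularFormₗ f) := rfl
      have e2 : (⇑(E - CuspForm.toModularFormₗ f) : ℍ → ℂ)
          = ⇑E - ⇑(CuspForm.toModularFormₗ f) := rfl
      rw [e1, ModularForm.qExpansion_smul one_pos h1, e2, ModularForm.qExpansion_sub one_pos h1]
    refine ⟨((24 : ℂ) / ((p : ℂ) - 1)) • (E - CuspForm.toModularFormₗ f), ?_, ?_⟩
    · -- constant term
      show (qExpansion 1 (⇑(((24 : ℂ) / ((p : ℂ) - 1)) • (E - CuspForm.toModularFormₗ f)))).coeff 0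
        = 1
      rw [hq]
      have hf0 : (qExpansion 1 (⇑(CuspForm.toModularFormₗ f))).coeff 0 = 0 :=
        CuspFormClass.qExpansion_coeff_zero f one_pos h1
      simp only [PowerSeries.coeff_smul, map_sub, hE0, hf0, smul_eq_mul, sub_zero]
      field_simp
    · intro m hm
      obtain ⟨a, ha, t, ht⟩ := hf m hm
      have hEm := hE m hm
      have hfm : (qExpansion 1 (⇑(CuspForm.toModularFormₗ f))).coeff m = (a : ℂ) := ha
      have hlC : (l : ℂ) ≠ 0 := by exact_mod_cast hl.ne_zero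
      have hcC : ((l : ℂ) ^ sExp p l) * ((p : ℂ) - 1) * (c : ℂ) = 24 * (d : ℂ) * (b : ℂ) := by
        have h2 : ((l ^ sExp p l * (p - 1) * c : ℕ) : ℂ) = ((24 * d * b : ℕ) : ℂ) := by
          rw [hc]
        push_cast [Nat.cast_sub (show 1 ≤ p by omega)] at h2
        linear_combination h2
      have hbC : (b : ℂ) ≠ 0 := by
        intro hb0
        have hb0' : b = 0 := by exact_mod_cast hb0
        rw [hb0', Nat.coprime_zero_left] at hb
        exact hl.one_lt.ne' hb
      have haC : (a : ℂ) - (sigmaP p m : ℂ) = (d : ℂ) * (t : ℂ) := by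
        have : ((a - (sigmaP p m : ℤ) : ℤ) : ℂ) = (((d : ℤ) * t : ℤ) : ℂ) := by rw [ht]
        push_cast at this
        exact this
      refine ⟨-((c : ℂ) * (t : ℂ)) / (b : ℂ), ⟨b, hb, ?_⟩, ?_⟩
      · have : (b : ℂ) * (-((c : ℂ) * (t : ℂ)) / (b : ℂ)) = ((-((c : ℤ) * t) : ℤ) : ℂ) := by
          push_cast
          field_simp
        rw [this]
        simpa using (isIntegral_algebraMap (R := ℤ) (A := ℂ) (x := (-((c : ℤ) * t))))
      · show (qExpansion 1
            (⇑(((24 : ℂ) / ((p : ℂ) - 1)) • (E - CuspForm.toModularFormₗ f)))).coeff m = _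
        rw [hq]
        simp only [PowerSeries.coeff_smul, map_sub, hEm, hfm, smul_eq_mul]
        have key : (24 : ℂ) * ((sigmaP p m : ℂ) - (a : ℂ)) * (b : ℂ)
            = (l : ℂ) ^ sExp p l * -((c : ℂ) * (t : ℂ)) * ((p : ℂ) - 1) := by
          linear_combination (t : ℂ) * hcC - 24 * (b : ℂ) * haC
        rw [div_mul_eq_mul_div, mul_div_assoc', div_eq_div_iff hpC hbC]
        exact key

/-! ### Evaluation of `sExp` and the case dispatch -/

theorem Kstmt_mono {p l s s' : ℕ} (h : s ≤ s') (hK : Kstmt p l s) : Kstmt p l s' := by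
  rintro ⟨G, hG0, hG⟩
  refine hK ⟨G, hG0, fun m hm => ?_⟩
  obtain ⟨y, hy, hym⟩ := hG m hm
  refine ⟨(l : ℂ) ^ (s' - s) * y, ?_, ?_⟩
  · have hl : (l : ℂ) ∈ RL l := by
      have : ((l : ℕ) : ℂ) = ((l : ℤ) : ℂ) := by push_cast; rfl
      exact ⟨1, Nat.coprime_one_left _, by
        simpa using (isIntegral_algebraMap (R := ℤ) (A := ℂ) (x := (l : ℤ)))⟩
    exact (RL l).mul_mem ((RL l).pow_mem hl _) hy
  · rw [hym, ← mul_assoc, ← pow_add]
    congr 2
    omega

theorem padicValNat_eq_of {l a k : ℕ} [Fact l.Prime] (ha : a ≠ 0) (h1 : l ^ k ∣ a)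
    (h2 : ¬ l ^ (k + 1) ∣ a) : padicValNat l a = k := by
  have h1' := (padicValNat_dvd_iff_le ha).mp h1
  have h2' : ¬ (k + 1 ≤ padicValNat l a) := fun h => h2 ((padicValNat_dvd_iff_le ha).mpr h)
  omega

theorem gcd12_ne_zero (p : ℕ) : Nat.gcd (p - 1) 12 ≠ 0 :=
  (Nat.gcd_pos_of_pos_right _ (by norm_num)).ne'

theorem sExp_of_five_le (p l : ℕ) (hl : l.Prime) (h5 : 5 ≤ l) : sExp p l = 1 := by
  have h24 : padicValNat l 24 = 0 := by
    apply padicValNat.eq_zero_of_not_dvd
    intro h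
    have h' : l ∣ 2 ^ 3 * 3 := by simpa using h
    rcases (Nat.Prime.dvd_mul hl).mp h' with h2 | h3
    · have := Nat.le_of_dvd (by norm_num) (hl.dvd_of_dvd_pow h2)
      omega
    · have := Nat.le_of_dvd (by norm_num) h3
      omega
  unfold sExp
  rw [h24]
  omega

theorem padicValNat_three_24 : padicValNat 3 24 = 1 := by
  have : Fact (Nat.Prime 3) := ⟨by norm_num⟩
  exact padicValNat_eq_of (by norm_num) (by norm_num) (by norm_num)

theorem padicValNat_two_24 : padicValNat 2 24 = 3 := by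
  have : Fact (Nat.Prime 2) := ⟨by norm_num⟩
  exact padicValNat_eq_of (by norm_num) (by norm_num) (by norm_num)

theorem sExp_three_of_mod_one (p : ℕ) (hp : p % 3 = 1) : sExp p 3 = 1 := by
  have : Fact (Nat.Prime 3) := ⟨by norm_num⟩
  have hg : padicValNat 3 (Nat.gcd (p - 1) 12) = 1 := by
    apply padicValNat_eq_of (gcd12_ne_zero p)
    · exact Nat.dvd_gcd (by omega) (by norm_num)
    · intro h
      have := h.trans (Nat.gcd_dvd_right _ _)
      omega
  unfold sExp
  rw [padicValNat_three_24, hg]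

theorem sExp_three_of_mod_two (p : ℕ) (hp : p % 3 = 2) : sExp p 3 = 2 := by
  have hg : padicValNat 3 (Nat.gcd (p - 1) 12) = 0 := by
    apply padicValNat.eq_zero_of_not_dvd
    intro h
    have := h.trans (Nat.gcd_dvd_left _ _)
    omega
  unfold sExp
  rw [padicValNat_three_24, hg]

theorem sExp_two_of_mod_four_one (p : ℕ) (hp : p % 4 = 1) : sExp p 2 = 2 := by
  have : Fact (Nat.Prime 2) := ⟨by norm_num⟩
  have hg : padicValNat 2 (Nat.gcd (p - 1) 12) = 2 := by
    apply padicValNat_eq_of (gcd12_ne_zero p)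
    · exact Nat.dvd_gcd (by omega) (by norm_num)
    · intro h
      have := h.trans (Nat.gcd_dvd_right _ _)
      omega
  unfold sExp
  rw [padicValNat_two_24, hg]

theorem sExp_two_of_mod_four_three (p : ℕ) (hp : p % 4 = 3) : sExp p 2 = 3 := by
  have : Fact (Nat.Prime 2) := ⟨by norm_num⟩
  have hg : padicValNat 2 (Nat.gcd (p - 1) 12) = 1 := by
    apply padicValNat_eq_of (gcd12_ne_zero p)
    · exact Nat.dvd_gcd (by omega) (by norm_num)
    · intro h
      have := h.trans (Nat.gcd_dvd_left _ _)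
      omega
  unfold sExp
  rw [padicValNat_two_24, hg]

/-- The case dispatch: `Kstmt p ℓ (sExp p ℓ)` for all primes `ℓ` from the eight `K`-cases. -/
theorem kAll (p : ℕ) [Fact p.Prime] (hp : 5 ≤ p)
    (K5c : ∀ l : ℕ, l.Prime → 5 ≤ l → ¬ l ∣ p * (p + 1) → Kstmt p l 1)
    (K5a : ∀ l : ℕ, l.Prime → 5 ≤ l → l ∣ p + 1 → Kstmt p l 1)
    (K5p : Kstmt p p 1)
    (K3a : p % 3 = 1 → Kstmt p 3 1)
    (K3b : p % 3 = 2 → Kstmt p 3 2)
    (K2a : p % 4 = 1 → Kstmt p 2 2)
    (K2b : p % 8 = 3 → Kstmt p 2 3)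
    (K2c : p % 8 = 7 → Kstmt p 2 3) :
    ∀ l : ℕ, l.Prime → Kstmt p l (sExp p l) := by
  have hpp : p.Prime := Fact.out
  intro l hl
  by_cases h5 : 5 ≤ l
  · rw [sExp_of_five_le p l hl h5]
    by_cases hlp : l = p
    · rw [hlp]; exact K5p
    · by_cases hdiv : l ∣ p + 1
      · exact K5a l hl h5 hdiv
      · refine K5c l hl h5 ?_
        intro h
        rcases (Nat.Prime.dvd_mul hl).mp h with h' | h'
        · exact hlp ((Nat.prime_dvd_prime_iff_eq hl hpp).mp h')
        · exact hdiv h'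
  · push Not at h5
    have hl2 := hl.two_le
    have hl4 : l ≠ 4 := by
      rintro rfl
      exact absurd hl (by norm_num)
    have hcases : l = 2 ∨ l = 3 := by omega
    rcases hcases with rfl | rfl
    · -- `ℓ = 2`
      have hodd : p % 2 = 1 := by
        rcases hpp.eq_two_or_odd with h | h
        · omega
        · exact h
      have h4 : p % 4 = 1 ∨ p % 4 = 3 := by omega
      rcases h4 with h4 | h4
      · rw [sExp_two_of_mod_four_one p h4]; exact K2a h4
      · rw [sExp_two_of_mod_four_three p h4]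
        have h8 : p % 8 = 3 ∨ p % 8 = 7 := by omega
        rcases h8 with h8 | h8
        · exact K2b h8
        · exact K2c h8
    · -- `ℓ = 3`
      have h3 : p % 3 ≠ 0 := by
        intro h
        have hd : 3 ∣ p := Nat.dvd_of_mod_eq_zero h
        have := (Nat.prime_dvd_prime_iff_eq (by norm_num) hpp).mp hd
        omega
      have h3' : p % 3 = 1 ∨ p % 3 = 2 := by omega
      rcases h3' with h3' | h3'
      · rw [sExp_three_of_mod_one p h3']; exact K3a h3'
      · rw [sExp_three_of_mod_two p h3']; exact K3b h3'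

/-- `NoFormStmt p` from the Eisenstein series and the eight `K`-cases. -/
theorem noForm_of_cases (p : ℕ) [Fact p.Prime] (eis : EisStmt p)
    (K5c : 5 ≤ p → ∀ l : ℕ, l.Prime → 5 ≤ l → ¬ l ∣ p * (p + 1) → Kstmt p l 1)
    (K5a : 5 ≤ p → ∀ l : ℕ, l.Prime → 5 ≤ l → l ∣ p + 1 → Kstmt p l 1)
    (K5p : 5 ≤ p → Kstmt p p 1)
    (K3a : 5 ≤ p → p % 3 = 1 → Kstmt p 3 1)
    (K3b : 5 ≤ p → p % 3 = 2 → Kstmt p 3 2)
    (K2a : 5 ≤ p → p % 4 = 1 → Kstmt p 2 2)
    (K2b : 5 ≤ p → p % 8 = 3 → Kstmt p 2 3)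
    (K2c : 5 ≤ p → p % 8 = 7 → Kstmt p 2 3) :
    NoFormStmt p :=
  noForm p eis fun hp =>
    kAll p hp (K5c hp) (K5a hp) (K5p hp) (K3a hp) (K3b hp) (K2a hp) (K2b hp) (K2c hp)

end Fermat.Agent.S16.UBMain
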