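/-
S16 project: final wiring. Everything except the integral lifting statement `LiftStmt p`.
-/
import Fermat.Agent.S16.Glue
import Fermat.Agent.S16.LB
import Fermat.Agent.S16.UBMain
import Fermat.Agent.S16.Eis
import Fermat.Agent.S16.TkMain
import Fermat.Agent.S16.L1
import Fermat.Agent.S16.SturmL1
import Fermat.Agent.S16.SDConst
import Fermat.Agent.S16.K2a
import Fermat.Agent.S16.K2b
import Fermat.Agent.S16.K2c
import Fermat.Agent.S16.K3a
import Fermat.Agent.S16.K3b
import Fermat.Agent.S16.K5a
import Fermat.Agent.S16.K5c
import Fermat.Agent.S16.K5p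
import Fermat.Agent.S16.TransferT
import Fermat.Agent.S16.TransferU

set_option autoImplicit false

namespace Fermat.Agent.S16.Pre

open ModularCurve CuspForm

/-- The upper bound input: no cusp form is congruent to the Eisenstein series modulo `d ∤ n`. -/
theorem noForm (p : ℕ) [Fact p.Prime] : NoFormStmt p := by
  have tk := TkMain.main p
  have l1 := L1.facts
  have st := SturmL1.main
  have sd := SDConst.main
  exact UBMain.noForm p (Eis.main p) (fun h5 => UBMain.kAll p h5
    (fun l hl h5l hnd => K5c.main p tk l1 l hl h5l (fun h => hnd (dvd_mul_of_dvd_left h _))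
      (fun h => hnd (dvd_mul_of_dvd_right h _)))
    (fun l hl h5l hd => K5a.main p tk l1 sd l hl h5l hd)
    (K5p.main p h5 tk l1 sd)
    (fun h => K3a.main p tk l1 h)
    (fun h => K3b.main p h tk l1 st)
    (fun h => K2a.main p tk l1 h)
    (fun h => K2b.main p tk l1 h)
    (fun h => K2c.main p h tk l1 st))

/-- All transfer statements. -/
theorem transfer (p : ℕ) [Fact p.Prime] (l : Nat.Primes) : TransferStmt p l := by
  by_cases h : (l : ℕ) ∣ p
  · exact TransferU.main p l h
  · exact TransferT.main p l h

/-- The lower bound, from the lifting statement. -/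
theorem lb (p : ℕ) [Fact p.Prime] (hL : LiftStmt p) : LBstmt p :=
  LB.main p (transfer p) hL

/-- The S16 statement, from the lifting statement. -/
theorem main (p : ℕ) [Fact p.Prime] (hL : LiftStmt p) :
    Nat.card (↥(heckeLatticeAlgebra p ∅) ⧸
        Ideal.map ((latticeRestrictHom p ∅).toRingHom.comp (heckeEvalForms p 2))
          (eisensteinIdeal p)) =
      eisensteinNumerator p :=
  Glue.main p (lb p hL) (noForm p)

end Fermat.Agent.S16.Pre
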