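/-
S16 project, K-case K5p (helper15): `ℓ = p ≥ 5`, `s = 1`.
No `G ∈ M₂(Γ₀(p))` has `q`-expansion `≡ 1 mod p` (`p`-integrally).

Proof: with `A` the `q`-expansion of `G` and `B` the `q^{1/p}`-expansion of `G ∣ S`, the weight two
trace relation gives `p B = -U_p A ≡ -1 mod p`, while `p A ≡ 0 mod p`.  Hence the `p`-th elementary
symmetric function of the `p + 1` conjugates of `p G` is `≡ (-1)^p = -1 mod p`; it is a level one
form of weight `2p`, which contradicts `SDConstStmt`.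
-/
import Fermat.Agent.S16.PSAlg2
import Fermat.Agent.S16.PSAlgW

set_option autoImplicit false

namespace Fermat.Agent.S16.K5p

open PowerSeries UpperHalfPlane CongruenceSubgroup
open Fermat.Agent.S16 Fermat.Agent.S16.PSAlg2
open scoped MatrixGroups ModularForm

noncomputable section

/-- `esymm` of a `cons`. -/
theorem esymm_cons {R : Type*} [CommSemiring R] (a : R) (t : Multiset R) (n : ℕ) :
    (a ::ₘ t).esymm (n + 1) = t.esymm (n + 1) + a * t.esymm n := by
  simp only [Multiset.esymm, Multiset.powersetCard_cons, Multiset.map_add, Multiset.sum_add,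
    Multiset.map_map, Function.comp_def, Multiset.prod_cons, Multiset.sum_map_mul_left]

/-- `esymm` at the cardinality is the product. -/
theorem esymm_card {R : Type*} [CommSemiring R] (t : Multiset R) : t.esymm t.card = t.prod := by
  simp [Multiset.esymm, Multiset.powersetCard_self]

theorem rescale_const (c a : ℂ) : rescale c (C a : PowerSeries ℂ) = C a := by
  ext n
  rw [coeff_rescale, coeff_C]
  split_ifs with h <;> simp [h]

theorem Up_sub_one (p : ℕ) (hp : 0 < p) (A : PowerSeries ℂ) : Up p (A - 1) = Up p A - 1 := by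
  ext n
  simp only [Up, coeff_mk, map_sub, coeff_one]
  have : p * n = 0 ↔ n = 0 := by
    constructor
    · intro h
      rcases Nat.mul_eq_zero.mp h with h | h
      · omega
      · exact h
    · rintro rfl; simp
  simp only [this]

theorem coeff_stretch_mul (p : ℕ) (hp : 0 < p) (Q : PowerSeries ℂ) (n : ℕ) :
    coeff (p * n) (stretch p Q) = coeff n Q := by
  simp [stretch, coeff_mk, Nat.mul_div_cancel_left n hp]

/-- Core of K5p: from the weight two trace relation `B = -p⁻¹ U_p A`. -/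
theorem main_of (p : ℕ) [Fact p.Prime] (hp5 : 5 ≤ p) (tk : Toolkit p) (sd : SDConstStmt)
    (hW2 : ∀ A B : PowerSeries ℂ, Cusp2 p 2 A B → B = C (-(p : ℂ)⁻¹) * Up p A) :
    Kstmt p p 1 := by
  have hp : p.Prime := Fact.out
  have hp0 : 0 < p := hp.pos
  have hpC : (p : ℂ) ≠ 0 := by exact_mod_cast hp.ne_zero
  have hpRL : (p : ℂ) ∈ RL p := by
    exact natCast_mem (RL p) p
  have hodd : Odd p := hp.odd_of_ne_two (by omega)
  rintro ⟨G, hG⟩
  set A : PowerSeries ℂ := qExpansion 1 G with hAdef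
  set B : PowerSeries ℂ := qExpansion (p : ℝ) (⇑G ∣[(2 : ℤ)] ModularGroup.S) with hBdef
  have hc : Cusp2 p 2 A B := ⟨G, rfl, rfl⟩
  obtain ⟨hA0, hA1⟩ := oneMod_iff_sub_one_mem.mp hG
  rw [pow_one] at hA1
  have hB := hW2 A B hc
  have hc' := tk.smul (p : ℂ) hc
  obtain ⟨e, he⟩ := tk.esymm hc' p
  -- the series `V = p B = - U_p A ≡ -1`
  have hV : C (p : ℂ) * B = -Up p A := by
    rw [hB, ← mul_assoc, ← map_mul, mul_neg, mul_inv_cancel₀ hpC, map_neg, map_one, neg_one_mul]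
  have hU1 : Up p A - 1 ∈ MulI p (p : ℂ) := by
    rw [← Up_sub_one p hp0]
    exact Up_mem_MulI hA1 p
  have hV1 : C (p : ℂ) * B - C (-1 : ℂ) ∈ MulI p (p : ℂ) := by
    have : C (p : ℂ) * B - C (-1 : ℂ) = -(Up p A - 1) := by
      rw [hV, map_neg, map_one]; ring
    rw [this]
    exact (MulI p (p : ℂ)).neg_mem hU1
  have hAint : A ∈ IntPS p := by
    have h1 : A - 1 ∈ IntPS p := mem_IntPS_of_mem_MulI hpRL hA1
    have : A = (A - 1) + 1 := by ring
    rw [this]
    exact (IntPS p).add_mem h1 (IntPS p).one_mem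
  -- the multiset of conjugates
  set a : PowerSeries ℂ := stretch p (C (p : ℂ) * A) with hadef
  set t : Multiset (PowerSeries ℂ) :=
    (Multiset.range p).map (fun j => rescale (zetaP p ^ j) (C (p : ℂ) * B)) with htdef
  have hconj : conjMS p (C (p : ℂ) * A) (C (p : ℂ) * B) = a ::ₘ t := rfl
  have ha : a ∈ MulI p (p : ℂ) := stretch_mem_MulI (C_mul_mem_MulI _ hAint) p
  have ht : ∀ x ∈ t, x - C (-1 : ℂ) ∈ MulI p (p : ℂ) := by
    intro x hx
    obtain ⟨j, -, rfl⟩ := Multiset.mem_map.mp hx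
    have : rescale (zetaP p ^ j) (C (p : ℂ) * B) - C (-1 : ℂ) =
        rescale (zetaP p ^ j) (C (p : ℂ) * B - C (-1 : ℂ)) := by
      rw [map_sub, rescale_const]
    rw [this]
    exact rescale_zetaP_mem_MulI hV1 p j
  have hneg1 : (-1 : ℂ) ∈ RL p := (RL p).neg_mem (RL p).one_mem
  have htint : ∀ x ∈ t, x ∈ IntPS p := by
    intro x hx
    have h1 : x - C (-1 : ℂ) ∈ IntPS p := mem_IntPS_of_mem_MulI hpRL (ht x hx)
    have : x = (x - C (-1 : ℂ)) + C (-1 : ℂ) := by ring
    rw [this]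
    exact (IntPS p).add_mem h1 (C_mem_IntPS hneg1)
  have htcard : t.card = p := by simp [htdef]
  -- the elementary symmetric function of degree `p`
  have hE : (a ::ₘ t).esymm p - C (-1 : ℂ) ∈ MulI p (p : ℂ) := by
    obtain ⟨m, rfl⟩ : ∃ m, p = m + 1 := ⟨p - 1, by omega⟩
    rw [esymm_cons]
    have h1 := esymm_sub_const_mem_MulI hpRL hneg1 ht (m + 1)
    rw [htcard, Nat.choose_self, Nat.cast_one, one_mul, hodd.neg_one_pow] at h1
    have h2 : a * t.esymm m ∈ MulI (m + 1) ((m + 1 : ℕ) : ℂ) :=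
      mul_mem_MulI ha (esymm_mem_IntPS htint m)
    have : t.esymm (m + 1) + a * t.esymm m - C (-1 : ℂ) =
        (t.esymm (m + 1) - C (-1 : ℂ)) + a * t.esymm m := by ring
    rw [this]
    exact (MulI (m + 1) ((m + 1 : ℕ) : ℂ)).add_mem h1 h2
  rw [hconj] at he
  -- coefficients of the level one form `e`
  have hcoef : ∀ n, ∃ y ∈ RL p, coeff n (qExpansion 1 e) = (if n = 0 then -1 else 0) + (p : ℂ) * y := by
    intro n
    obtain ⟨y, hy, hyE⟩ := coeff_of_mem_MulI hE (p * n)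
    refine ⟨y, hy, ?_⟩
    rw [← coeff_stretch_mul p hp0, he]
    rw [map_sub, coeff_C] at hyE
    have hpn : p * n = 0 ↔ n = 0 := by
      constructor
      · intro h
        rcases Nat.mul_eq_zero.mp h with h | h
        · omega
        · exact h
      · rintro rfl; simp
    simp only [hpn] at hyE
    linear_combination hyE
  choose y hy hyc using hcoef
  obtain ⟨𝔪, h𝔪, hp𝔪⟩ := exists_maximal hp
  have hcRL : ∀ n, coeff n (qExpansion 1 e) ∈ RL p := by
    intro n
    rw [hyc n]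
    refine (RL p).add_mem ?_ ((RL p).mul_mem hpRL (hy n))
    split_ifs
    · exact hneg1
    · exact (RL p).zero_mem
  let c : ℕ → RL p := fun n => ⟨coeff n (qExpansion 1 e), hcRL n⟩
  have hc0 : ∀ n, c n = (if n = 0 then (-1 : RL p) else 0) + ((p : ℕ) : RL p) * ⟨y n, hy n⟩ := by
    intro n
    apply Subtype.ext
    show coeff n (qExpansion 1 e) = _
    rw [hyc n]
    split_ifs <;> simp
  have hmem : ∀ n, 1 ≤ n → c n ∈ 𝔪 := by
    intro n hn
    rw [hc0 n, if_neg (by omega), zero_add]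
    exact 𝔪.mul_mem_right _ hp𝔪
  have h0 := sd p hp hp5 𝔪 h𝔪 hp𝔪 1 le_rfl (2 * (p : ℤ)) (by rw [pow_one]) e c (fun n => rfl) hmem
  rw [hc0 0, if_pos rfl] at h0
  have h1 : (1 : RL p) ∈ 𝔪 := by
    have h2 : ((p : ℕ) : RL p) * ⟨y 0, hy 0⟩ ∈ 𝔪 := 𝔪.mul_mem_right _ hp𝔪
    have : (1 : RL p) = ((p : ℕ) : RL p) * ⟨y 0, hy 0⟩ - (-1 + ((p : ℕ) : RL p) * ⟨y 0, hy 0⟩) := by
      ring
    rw [this]
    exact 𝔪.sub_mem h2 h0
  exact h𝔪.ne_top ((Ideal.eq_top_iff_one 𝔪).mpr h1)

/-- K5p: for a prime `p ≥ 5` no `G ∈ M₂(Γ₀(p))` is `≡ 1 mod p`. -/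
theorem main (p : ℕ) [Fact p.Prime] (hp5 : 5 ≤ p) (tk : Toolkit p) (l1 : L1Facts)
    (sd : SDConstStmt) : Kstmt p p 1 :=
  main_of p hp5 tk sd (fun _ _ h => (PSAlgW.wt2 p tk l1 h).1)

end

end Fermat.Agent.S16.K5p
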