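/-
S16 project, lower bound: pure lemmas for the integral lifting of characters.
-/
import Mathlib

set_option autoImplicit false

namespace Fermat.Agent.S16.LiftComb

open scoped MatrixGroups

/-- A set-theoretic section of `ℤ → ZMod n`. -/
noncomputable def lift (n : ℕ) (z : ZMod n) : ℤ := (ZMod.cast z : ℤ)

theorem lift_cast (n : ℕ) [NeZero n] (z : ZMod n) : ((lift n z : ℤ) : ZMod n) = z := by
  unfold lift
  rw [ZMod.intCast_cast, ZMod.cast_id]

open Classical in
/-- The orbit-wise lift for an involution. -/
noncomputable def liftInvol {X : Type*} (n : ℕ) (s : X → X) (r : X → ℕ) (a₀ : X → ZMod n)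
    (x : X) : ℤ :=
  if s x = x then 0 else if r x < r (s x) then lift n (a₀ x) else - lift n (a₀ (s x))

open Classical in
/-- The orbit-wise lift for a map of order three. -/
noncomputable def liftThree {X : Type*} (n : ℕ) (u : X → X) (r : X → ℕ) (b₀ : X → ZMod n)
    (x : X) : ℤ :=
  if u x = x then 0 else
    if r (u x) < r x ∧ r (u (u x)) < r x then - lift n (b₀ (u x)) - lift n (b₀ (u (u x)))
    else lift n (b₀ x)

/-- Orbit-wise integral lifting for an involution. -/
theorem exists_lift_invol {X : Type*} [Countable X] (n : ℕ) [NeZero n] (s : X → X)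
    (hs : ∀ x, s (s x) = x) (a₀ : X → ZMod n) (h : ∀ x, a₀ (s x) = - a₀ x)
    (hfix : ∀ x, s x = x → a₀ x = 0) :
    ∃ a : X → ℤ, (∀ x, a (s x) = - a x) ∧ ∀ x, ((a x : ℤ) : ZMod n) = a₀ x := by
  classical
  obtain ⟨r, hr⟩ := exists_injective_nat X
  refine ⟨liftInvol n s r a₀, ?_, ?_⟩
  · intro x
    by_cases hx : s x = x
    · have e1 : liftInvol n s r a₀ x = 0 := by unfold liftInvol; rw [if_pos hx]
      rw [hx, e1, neg_zero]
    · have hx' : s (s x) ≠ s x := by rw [hs]; exact fun h' => hx h'.symm
      have hne : r x ≠ r (s x) := fun h' => hx (hr h').symm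
      have e1 : liftInvol n s r a₀ x
          = if r x < r (s x) then lift n (a₀ x) else - lift n (a₀ (s x)) := by
        unfold liftInvol; rw [if_neg hx]
      have e2 : liftInvol n s r a₀ (s x)
          = if r (s x) < r x then lift n (a₀ (s x)) else - lift n (a₀ x) := by
        unfold liftInvol; rw [if_neg hx', hs]
      rw [e1, e2]
      rcases lt_or_gt_of_ne hne with hlt | hgt
      · rw [if_neg (not_lt.2 hlt.le), if_pos hlt]
      · rw [if_pos hgt, if_neg (not_lt.2 hgt.le), neg_neg]
  · intro x
    unfold liftInvol
    by_cases hx : s x = x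
    · rw [if_pos hx, hfix x hx]; simp
    · rw [if_neg hx]
      split_ifs
      · exact lift_cast n _
      · rw [Int.cast_neg, lift_cast, h, neg_neg]

/-- Orbit-wise integral lifting for a map of order three. -/
theorem exists_lift_order_three {X : Type*} [Countable X] (n : ℕ) [NeZero n] (u : X → X)
    (hu : ∀ x, u (u (u x)) = x) (b₀ : X → ZMod n)
    (h : ∀ x, b₀ x + b₀ (u x) + b₀ (u (u x)) = 0)
    (hfix : ∀ x, u x = x → b₀ x = 0) :
    ∃ b : X → ℤ, (∀ x, b x + b (u x) + b (u (u x)) = 0) ∧
      ∀ x, ((b x : ℤ) : ZMod n) = b₀ x := by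
  classical
  obtain ⟨r, hr⟩ := exists_injective_nat X
  refine ⟨liftThree n u r b₀, ?_, ?_⟩
  · intro x
    by_cases hx : u x = x
    · have e1 : liftThree n u r b₀ x = 0 := by unfold liftThree; rw [if_pos hx]
      rw [hx, hx, e1]; simp
    · have h3 : u (u (u x)) = x := hu x
      have hy : u (u x) ≠ u x := by
        intro h'
        apply hx
        have h4 := hu x
        rw [h', h'] at h4
        exact h4
      have hz : u (u (u x)) ≠ u (u x) := by
        rw [h3]; intro h'
        apply hx
        have := congrArg u h'
        rw [h3] at this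
        exact this
      have hxy : r x ≠ r (u x) := fun h' => hx (hr h').symm
      have hyz : r (u x) ≠ r (u (u x)) := fun h' => hy (hr h').symm
      have hxz : r x ≠ r (u (u x)) := fun h' => hz (by rw [h3]; exact hr h')
      have e1 : liftThree n u r b₀ x
          = if r (u x) < r x ∧ r (u (u x)) < r x then
              - lift n (b₀ (u x)) - lift n (b₀ (u (u x))) else lift n (b₀ x) := by
        unfold liftThree; rw [if_neg hx]
      have e2 : liftThree n u r b₀ (u x)
          = if r (u (u x)) < r (u x) ∧ r x < r (u x) then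
              - lift n (b₀ (u (u x))) - lift n (b₀ x) else lift n (b₀ (u x)) := by
        unfold liftThree; rw [if_neg hy]; simp only [h3]
      have e3 : liftThree n u r b₀ (u (u x))
          = if r x < r (u (u x)) ∧ r (u x) < r (u (u x)) then
              - lift n (b₀ x) - lift n (b₀ (u x)) else lift n (b₀ (u (u x))) := by
        unfold liftThree; rw [if_neg hz]; simp only [h3]
      rw [e1, e2, e3]
      split_ifs with h1 h2 h3' <;> first | (exfalso; omega) | ring
  · intro x
    unfold liftThree
    by_cases hx : u x = x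
    · rw [if_pos hx, hfix x hx]; simp
    · rw [if_neg hx]
      split_ifs
      · rw [Int.cast_sub, Int.cast_neg, lift_cast, lift_cast]
        linear_combination -(h x)
      · exact lift_cast n _

end Fermat.Agent.S16.LiftComb
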