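/-
S16 project, lower bound: elements of `SL(2, ℤ)` with `trace² = 4` are conjugate to `± T^m`.
-/
import Mathlib

set_option autoImplicit false

namespace Fermat.Agent.S16.LiftConj

open scoped MatrixGroups
open Matrix

theorem conj_of_fixed (g : SL(2, ℤ)) (htr : g 0 0 + g 1 1 = 2) (x y u v : ℤ)
    (h1 : g 0 0 * x + g 0 1 * y = x) (h2 : g 1 0 * x + g 1 1 * y = y)
    (h3 : u * x + v * y = 1) :
    ∃ (h : SL(2, ℤ)) (m : ℤ), g = h * ModularGroup.T ^ m * h⁻¹ := by
  have hdet : (!![x, -v; y, u] : Matrix (Fin 2) (Fin 2) ℤ).det = 1 := by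
    rw [Matrix.det_fin_two_of]; linarith
  let h : SL(2, ℤ) := ⟨!![x, -v; y, u], hdet⟩
  let m : ℤ := u * (g 0 1 * u - g 0 0 * v) + v * (g 1 1 * u - g 1 0 * v)
  refine ⟨h, m, ?_⟩
  have key : g * h = h * ModularGroup.T ^ m := by
    apply Subtype.ext
    rw [Matrix.SpecialLinearGroup.coe_mul, Matrix.SpecialLinearGroup.coe_mul,
      ModularGroup.coe_T_zpow]
    show (g : Matrix (Fin 2) (Fin 2) ℤ) * !![x, -v; y, u] = !![x, -v; y, u] * !![1, m; 0, 1]
    ext i j
    fin_cases i <;> fin_cases j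
    · simp [Matrix.mul_apply, Fin.sum_univ_two]
      linear_combination h1
    · simp [Matrix.mul_apply, Fin.sum_univ_two, m]
      linear_combination (-(g 0 1 * u - g 0 0 * v) - v * (g 0 0 + g 1 1 - 1)) * h3 - v * htr
        + v * v * h2 + v * u * h1
    · simp [Matrix.mul_apply, Fin.sum_univ_two]
      linear_combination h2
    · simp [Matrix.mul_apply, Fin.sum_univ_two, m]
      linear_combination (-(g 1 1 * u - g 1 0 * v) + u * (g 0 0 + g 1 1 - 1)) * h3 + u * htr
        - u * v * h2 - u * u * h1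
  exact eq_mul_inv_of_mul_eq key

theorem conj_of_trace_two (g : SL(2, ℤ)) (htr : (g : Matrix (Fin 2) (Fin 2) ℤ).trace = 2) :
    ∃ (h : SL(2, ℤ)) (m : ℤ), g = h * ModularGroup.T ^ m * h⁻¹ := by
  rw [Matrix.trace_fin_two] at htr
  have hdet := g.2
  rw [Matrix.det_fin_two] at hdet
  by_cases hb : g 0 1 = 0 ∧ 1 - g 0 0 = 0
  · -- the vector (0, 1)
    obtain ⟨hb0, ha1⟩ := hb
    have ha : g 0 0 = 1 := by linarith
    have hd : g 1 1 = 1 := by linarith
    exact conj_of_fixed g htr 0 1 0 1 (by rw [hb0]; ring) (by rw [hd]; ring) (by ring)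
  · set e : ℤ := (Int.gcd (g 0 1) (1 - g 0 0) : ℤ) with he
    have he0 : e ≠ 0 := by
      rw [he]
      intro h0
      have := Int.gcd_eq_zero_iff.1 (by exact_mod_cast h0)
      exact hb this
    obtain ⟨x, hx⟩ : e ∣ g 0 1 := Int.gcd_dvd_left _ _
    obtain ⟨y, hy⟩ : e ∣ 1 - g 0 0 := Int.gcd_dvd_right _ _
    have hbez : (Int.gcd (g 0 1) (1 - g 0 0) : ℤ)
        = g 0 1 * Int.gcdA (g 0 1) (1 - g 0 0) + (1 - g 0 0) * Int.gcdB (g 0 1) (1 - g 0 0) :=
      Int.gcd_eq_gcd_ab _ _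
    set u := Int.gcdA (g 0 1) (1 - g 0 0)
    set v := Int.gcdB (g 0 1) (1 - g 0 0)
    have h3 : u * x + v * y = 1 := by
      have : e * (u * x + v * y) = e * 1 := by
        rw [mul_one]
        calc e * (u * x + v * y) = (e * x) * u + (e * y) * v := by ring
          _ = g 0 1 * u + (1 - g 0 0) * v := by rw [← hx, ← hy]
          _ = e := hbez.symm
      exact mul_left_cancel₀ he0 this
    have h1 : g 0 0 * x + g 0 1 * y = x := by
      have : e * (g 0 0 * x + g 0 1 * y) = e * x := by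
        calc e * (g 0 0 * x + g 0 1 * y) = g 0 0 * (e * x) + g 0 1 * (e * y) := by ring
          _ = g 0 0 * g 0 1 + g 0 1 * (1 - g 0 0) := by rw [← hx, ← hy]
          _ = g 0 1 := by ring
          _ = e * x := hx
      exact mul_left_cancel₀ he0 this
    have h2 : g 1 0 * x + g 1 1 * y = y := by
      have : e * (g 1 0 * x + g 1 1 * y) = e * y := by
        calc e * (g 1 0 * x + g 1 1 * y) = g 1 0 * (e * x) + g 1 1 * (e * y) := by ring
          _ = g 1 0 * g 0 1 + g 1 1 * (1 - g 0 0) := by rw [← hx, ← hy]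
          _ = 1 - g 0 0 := by linear_combination -hdet + htr
          _ = e * y := hy
      exact mul_left_cancel₀ he0 this
    exact conj_of_fixed g htr x y u v h1 h2 h3

theorem S_mul_S_mul (h : SL(2, ℤ)) :
    ModularGroup.S * ModularGroup.S * h = h * (ModularGroup.S * ModularGroup.S) := by
  apply Subtype.ext
  simp only [Matrix.SpecialLinearGroup.coe_mul, ModularGroup.S_mul_S_eq]
  rw [neg_one_mul, mul_neg_one]

theorem S_pow_four : ModularGroup.S * ModularGroup.S * (ModularGroup.S * ModularGroup.S)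
    = (1 : SL(2, ℤ)) := by
  apply Subtype.ext
  simp only [Matrix.SpecialLinearGroup.coe_mul, ModularGroup.S_mul_S_eq,
    Matrix.SpecialLinearGroup.coe_one]
  simp

/-- Every element of `SL(2, ℤ)` with `trace² = 4` is conjugate to `T^m` or to `-T^m`
(`S * S = -1`). -/
theorem exists_conj (g : SL(2, ℤ)) (hg : (g : Matrix (Fin 2) (Fin 2) ℤ).trace ^ 2 = 4) :
    ∃ (h : SL(2, ℤ)) (m : ℤ), g = h * ModularGroup.T ^ m * h⁻¹ ∨
      g = h * (ModularGroup.S * ModularGroup.S * ModularGroup.T ^ m) * h⁻¹ := by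
  have h4 : (g : Matrix (Fin 2) (Fin 2) ℤ).trace = 2 ∨ (g : Matrix (Fin 2) (Fin 2) ℤ).trace = -2 := by
    have : ((g : Matrix (Fin 2) (Fin 2) ℤ).trace - 2) * ((g : Matrix (Fin 2) (Fin 2) ℤ).trace + 2)
        = 0 := by linear_combination hg
    rcases mul_eq_zero.1 this with h' | h'
    · left; linarith
    · right; linarith
  rcases h4 with h2 | h2
  · obtain ⟨h, m, hm⟩ := conj_of_trace_two g h2
    exact ⟨h, m, Or.inl hm⟩
  · have htr : ((ModularGroup.S * ModularGroup.S * g : SL(2, ℤ)) :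
        Matrix (Fin 2) (Fin 2) ℤ).trace = 2 := by
      simp only [Matrix.SpecialLinearGroup.coe_mul, ModularGroup.S_mul_S_eq]
      rw [neg_one_mul, Matrix.trace_neg, h2]; norm_num
    obtain ⟨h, m, hm⟩ := conj_of_trace_two _ htr
    refine ⟨h, m, Or.inr ?_⟩
    have : g = ModularGroup.S * ModularGroup.S * (h * ModularGroup.T ^ m * h⁻¹) := by
      rw [← hm, ← mul_assoc, S_pow_four, one_mul]
    rw [this, ← mul_assoc, ← mul_assoc, S_mul_S_mul h]
    group

end Fermat.Agent.S16.LiftConj
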