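/-
S16 / LiftOrb (helper18, slice of the `LiftStmt` package for helper27): the orbits of `T` on
`X0 p = SL(2, ℤ) ⧸ Γ₀(p)` (`p` prime) are `{x0}` and `{T ^ j • S • x0 | j < p}`, where `x0` is the
class of `1`.

* `S_smul_ne`     : `S • x0 ≠ x0`;
* `exists_T_pow`  : every `x ≠ x0` is `T ^ j • S • x0` for some `j : ℕ`;
* `dvd_of_T_zpow` : `T ^ k • S • x0 = S • x0 → p ∣ k`.
-/
import Mathlib
import Fermat.Agent.S24.OrbDefs

set_option autoImplicit false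

open scoped MatrixGroups

namespace Fermat.Agent.S16.LiftOrb

open Fermat.Agent.S24 ModularGroup CongruenceSubgroup

/-- `g • x0 = h • x0` iff the lower left entry of `g⁻¹ h` vanishes mod `p`. -/
lemma mk_eq_mk_iff (p : ℕ) (g h : SL(2, ℤ)) :
    ((g : SL(2, ℤ)) : X0 p) = ((h : SL(2, ℤ)) : X0 p) ↔
      (((g 0 0 * h 1 0 - g 1 0 * h 0 0 : ℤ)) : ZMod p) = 0 := by
  rw [QuotientGroup.eq, Gamma0_mem]
  have : ((g⁻¹ * h : SL(2, ℤ)) : Matrix (Fin 2) (Fin 2) ℤ) 1 0 = g 0 0 * h 1 0 - g 1 0 * h 0 0 := by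
    rw [Matrix.SpecialLinearGroup.coe_mul, Matrix.SpecialLinearGroup.coe_inv,
      Matrix.adjugate_fin_two, Matrix.mul_apply, Fin.sum_univ_two]
    simp
    ring
  rw [this]

lemma smul_one_eq (p : ℕ) (g : SL(2, ℤ)) :
    g • ((1 : SL(2, ℤ)) : X0 p) = ((g : SL(2, ℤ)) : X0 p) := by
  rw [MulAction.Quotient.smul_mk, smul_eq_mul, mul_one]

lemma smul_smul_one_eq (p : ℕ) (g h : SL(2, ℤ)) :
    g • h • ((1 : SL(2, ℤ)) : X0 p) = ((g * h : SL(2, ℤ)) : X0 p) := by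
  rw [smul_one_eq, MulAction.Quotient.smul_mk, smul_eq_mul]

lemma T_zpow_mul_S_apply (k : ℤ) :
    ((T ^ k * S : SL(2, ℤ)) : Matrix (Fin 2) (Fin 2) ℤ) = !![k, -1; 1, 0] := by
  rw [Matrix.SpecialLinearGroup.coe_mul, coe_T_zpow, coe_S]
  ext i j
  fin_cases i <;> fin_cases j <;> simp [Matrix.mul_apply, Fin.sum_univ_two]

theorem S_smul_ne (p : ℕ) [Fact p.Prime] :
    S • ((1 : SL(2, ℤ)) : X0 p) ≠ ((1 : SL(2, ℤ)) : X0 p) := by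
  have hp : p.Prime := Fact.out
  rw [smul_one_eq, Ne, mk_eq_mk_iff]
  have h1 : (S : SL(2, ℤ)) 0 0 = 0 := by simp [coe_S]
  have h2 : (S : SL(2, ℤ)) 1 0 = 1 := by simp [coe_S]
  have h3 : ((1 : SL(2, ℤ)) : Matrix (Fin 2) (Fin 2) ℤ) 1 0 = 0 := by simp
  have h4 : ((1 : SL(2, ℤ)) : Matrix (Fin 2) (Fin 2) ℤ) 0 0 = 1 := by simp
  rw [h1, h2, h3, h4]
  intro h
  have h' : ((1 : ℕ) : ZMod p) = 0 := by
    have : ((0 * 0 - 1 * 1 : ℤ) : ZMod p) = -((1 : ℕ) : ZMod p) := by push_cast; ring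
    rw [this, neg_eq_zero] at h
    exact h
  rw [ZMod.natCast_eq_zero_iff] at h'
  exact hp.one_lt.ne' (Nat.dvd_one.mp h')

theorem exists_T_pow (p : ℕ) [Fact p.Prime] (x : X0 p) (hx : x ≠ ((1 : SL(2, ℤ)) : X0 p)) :
    ∃ j : ℕ, x = T ^ j • S • ((1 : SL(2, ℤ)) : X0 p) := by
  have hp : p.Prime := Fact.out
  obtain ⟨g, rfl⟩ := QuotientGroup.mk_surjective x
  have hc : ((g 1 0 : ℤ) : ZMod p) ≠ 0 := by
    intro h
    apply hx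
    rw [eq_comm, mk_eq_mk_iff]
    simp [h]
  refine ⟨(((g 0 0 : ℤ) : ZMod p) * ((g 1 0 : ℤ) : ZMod p)⁻¹).val, ?_⟩
  rw [smul_smul_one_eq, eq_comm, mk_eq_mk_iff, ← zpow_natCast]
  have e := T_zpow_mul_S_apply ((((g 0 0 : ℤ) : ZMod p) * ((g 1 0 : ℤ) : ZMod p)⁻¹).val : ℤ)
  have h00 : (T ^ ((((g 0 0 : ℤ) : ZMod p) * ((g 1 0 : ℤ) : ZMod p)⁻¹).val : ℤ) * S : SL(2, ℤ)) 0 0
      = ((((g 0 0 : ℤ) : ZMod p) * ((g 1 0 : ℤ) : ZMod p)⁻¹).val : ℤ) := by rw [e]; simp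
  have h10 : (T ^ ((((g 0 0 : ℤ) : ZMod p) * ((g 1 0 : ℤ) : ZMod p)⁻¹).val : ℤ) * S : SL(2, ℤ)) 1 0
      = 1 := by rw [e]; simp
  rw [h00, h10]
  have : NeZero p := ⟨hp.ne_zero⟩
  push_cast
  rw [ZMod.natCast_zmod_val, mul_assoc, inv_mul_cancel₀ hc]
  ring

theorem dvd_of_T_zpow (p : ℕ) [Fact p.Prime] (k : ℤ)
    (h : T ^ k • S • ((1 : SL(2, ℤ)) : X0 p) = S • ((1 : SL(2, ℤ)) : X0 p)) : (p : ℤ) ∣ k := by
  rw [smul_smul_one_eq, smul_one_eq, mk_eq_mk_iff] at h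
  have e := T_zpow_mul_S_apply k
  have h00 : (T ^ k * S : SL(2, ℤ)) 0 0 = k := by rw [e]; simp
  have h10 : (T ^ k * S : SL(2, ℤ)) 1 0 = 1 := by rw [e]; simp
  have s10 : (S : SL(2, ℤ)) 1 0 = 1 := by simp [coe_S]
  have s00 : (S : SL(2, ℤ)) 0 0 = 0 := by simp [coe_S]
  rw [h00, h10, s10, s00] at h
  have h' : ((k : ℤ) : ZMod p) = 0 := by
    have : ((k * 1 - 1 * 0 : ℤ) : ZMod p) = ((k : ℤ) : ZMod p) := by push_cast; ring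
    rw [this] at h
    exact h
  exact (ZMod.intCast_zmod_eq_zero_iff_dvd k p).mp h'

end Fermat.Agent.S16.LiftOrb
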