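/-
S16 project, lower bound: `LiftStmt p` by the Eichler–Shimura route (no free products).

* `exists_hom_of_parCocycles` : the Shapiro map `Psi` of `ES/Cocycle` is onto the parabolic cocycle
  data (dimension count: S20, S21, the genus of `X₀(N)` and the two `ES` bounds close with equality);
* `cocA …` : Shapiro cocycles with values in any abelian group are determined by `S`, `S * T`;
* `exists_int_of_coc` : integral cocycle data come from an integral homomorphism;
* `mem_parCocycles_of_int` : integral pairs `(a, b)` with `b x₀ = a x₀` are parabolic (`p` prime);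
* `lift : LiftStmt p`.
-/
import Mathlib
import Fermat.Agent.S16.LiftIface
import Fermat.Agent.S16.LiftComb
import Fermat.Agent.S16.LiftOrb
import Fermat.Agent.S20
import Fermat.Agent.S21
import Fermat.Agent.ES.Cocycle
import Fermat.Agent.ES.PermRepX0
import Fermat.Agent.ES.Final
import Fermat.Agent.S24.GenusX0

set_option autoImplicit false

namespace Fermat.Agent.S16.LiftES

open ModularCurve ModularCurve.Period CongruenceSubgroup Module
open Fermat.Agent.S24 (X0 cosetPerm orbCount)
open Fermat.Agent.ES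
open scoped MatrixGroups

/-- **E1.** Every parabolic cocycle datum on the cosets of `Γ₀(N)` comes from a parabolic
homomorphism `Γ₀(N) → ℂ` twisted by a coboundary (Eichler–Shimura dimension count). -/
theorem exists_hom_of_parCocycles (N : ℕ) [NeZero N] (a b : X0 N → ℂ)
    (h : (a, b) ∈ parCocycles (cosetPerm N ModularGroup.S)
      (cosetPerm N (ModularGroup.S * ModularGroup.T)) (cosetPerm N ModularGroup.T) N) :
    ∃ (φ : Additive (Gamma0 N) →+ ℂ) (v : X0 N → ℂ), IsParabolicHom (Gamma0 N) φ ∧
      Cocycle.coc N φ v ModularGroup.S = a ∧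
      Cocycle.coc N φ v (ModularGroup.S * ModularGroup.T) = b := by
  classical
  have hfinX : Finite (X0 N) := Subgroup.finite_quotient_of_finiteIndex
  have : Fintype (X0 N) := Fintype.ofFinite _
  set PC := parCocycles (cosetPerm N ModularGroup.S)
      (cosetPerm N (ModularGroup.S * ModularGroup.T)) (cosetPerm N ModularGroup.T) N with hPC
  let Φ : (↥(parabolicHoms ℂ (Gamma0 N) ℂ) × ↥(Cocycle.V0 N)) →ₗ[ℂ] PC :=
    LinearMap.codRestrict PC (Cocycle.Psi N)
      (fun p => Cocycle.mem_parCocycles_of_parabolic N p.1.2 p.2.1)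
  have hinj : Function.Injective Φ := by
    intro p q hpq
    apply Cocycle.Psi_injective N
    exact congrArg Subtype.val hpq
  have hP : FiniteDimensional ℂ (parabolicHoms ℂ (Gamma0 N) ℂ) := finiteDimensional_parabolicHoms N
  have h21 := Fermat.Agent.S21.result N
  have h20 := Fermat.Agent.S20.result N
  obtain ⟨g, hg, hgf⟩ := Fermat.Agent.S24.exists_genus N
  have hcard := Fermat.Agent.S24.card_X0 N
  have hS2 : finrank ℂ (CuspForm (Gamma0 N) 2) = g := by
    have : (finrank ℂ (CuspForm (Gamma0 N) 2) : ℚ) = (g : ℚ) := by rw [h20, hgf]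
    exact_mod_cast this
  have hfinS : Module.Finite ℂ (CuspForm (Gamma0 N) 2) :=
    (finrank_cuspForm_le_of_injective N h21.1).1
  have hpar : finrank ℂ (parabolicHoms ℂ (Gamma0 N) ℂ) = 2 * g := by
    rw [← h21.2, LinearMap.finrank_range_of_inj h21.1, Module.finrank_prod, hS2]
    ring
  have hV0 : finrank ℂ (Cocycle.V0 N) + 1 = Nat.card (X0 N) := by
    have h3 := LinearMap.finrank_range_add_finrank_ker
      (LinearMap.proj (R := ℂ) (φ := fun _ : X0 N => ℂ) (QuotientGroup.mk 1))
    rw [LinearMap.range_eq_top.mpr (LinearMap.proj_surjective _), finrank_top,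
      Module.finrank_self, Module.finrank_fintype_fun_eq_card] at h3
    rw [Nat.card_eq_fintype_card, ← h3, add_comm]
    rfl
  have hle : finrank ℂ PC + orbCount (cosetPerm N ModularGroup.S)
      + orbCount (cosetPerm N (ModularGroup.S * ModularGroup.T))
      + orbCount (cosetPerm N ModularGroup.T) ≤ 2 * Nat.card (X0 N) + 1 :=
    finrank_parCocycles_X0_le N
  have hdom : finrank ℂ (↥(parabolicHoms ℂ (Gamma0 N) ℂ) × ↥(Cocycle.V0 N))
      = finrank ℂ (parabolicHoms ℂ (Gamma0 N) ℂ) + finrank ℂ (Cocycle.V0 N) := Module.finrank_prod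
  have hge : finrank ℂ PC ≤ finrank ℂ (↥(parabolicHoms ℂ (Gamma0 N) ℂ) × ↥(Cocycle.V0 N)) := by
    rw [hdom, hpar]
    rw [← hcard] at hg
    omega
  have hrange : LinearMap.range Φ = ⊤ := by
    apply Submodule.eq_top_of_finrank_eq
    have h1 := LinearMap.finrank_range_of_inj hinj
    have h2 := Submodule.finrank_le (LinearMap.range Φ)
    omega
  obtain ⟨⟨⟨φ, hφ⟩, ⟨v, hv⟩⟩, hΦ⟩ := LinearMap.range_eq_top.mp hrange ⟨(a, b), h⟩
  have hΦ' := congrArg Subtype.val hΦ
  refine ⟨φ, v, hφ, ?_, ?_⟩
  · exact congrArg Prod.fst hΦ'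
  · exact congrArg Prod.snd hΦ'

/-! ### Shapiro cocycles with values in an arbitrary abelian group -/

section General

variable (N : ℕ) {A : Type*} [AddCommGroup A]

/-- The Shapiro cocycle of `φ : Γ₀(N) → A` twisted by the coboundary of `v`. -/
noncomputable def cocA (φ : Additive (Gamma0 N) →+ A) (v : X0 N → A) (g : SL(2, ℤ))
    (x : X0 N) : A :=
  φ (Additive.ofMul (Cocycle.kfun N g x)) + v (g • x) - v x

theorem cocA_mul (φ : Additive (Gamma0 N) →+ A) (v : X0 N → A) (g h : SL(2, ℤ)) (x : X0 N) :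
    cocA N φ v (g * h) x = cocA N φ v g (h • x) + cocA N φ v h x := by
  simp only [cocA, Cocycle.kfun_mul, ofMul_mul, map_add, mul_smul]
  abel

theorem cocA_one (φ : Additive (Gamma0 N) →+ A) (v : X0 N → A) (x : X0 N) :
    cocA N φ v 1 x = 0 := by
  have h := cocA_mul N φ v 1 1 x
  simp only [mul_one, one_smul] at h
  exact left_eq_add.mp h

theorem cocA_inv (φ : Additive (Gamma0 N) →+ A) (v : X0 N → A) (g : SL(2, ℤ)) (x : X0 N) :
    cocA N φ v g⁻¹ x = - cocA N φ v g (g⁻¹ • x) := by
  have h := cocA_mul N φ v g g⁻¹ x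
  rw [mul_inv_cancel, cocA_one] at h
  exact eq_neg_of_add_eq_zero_right h.symm

/-- A cocycle vanishing on `S` and `S * T` vanishes identically. -/
theorem cocA_eq_zero (φ : Additive (Gamma0 N) →+ A) (v : X0 N → A)
    (hS : ∀ x, cocA N φ v ModularGroup.S x = 0)
    (hU : ∀ x, cocA N φ v (ModularGroup.S * ModularGroup.T) x = 0)
    (g : SL(2, ℤ)) (x : X0 N) : cocA N φ v g x = 0 := by
  have hT : ∀ x, cocA N φ v ModularGroup.T x = 0 := by
    intro x
    have h := cocA_mul N φ v ModularGroup.S ModularGroup.T x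
    rw [hU, hS, zero_add] at h
    exact h.symm
  have hg : g ∈ Subgroup.closure ({ModularGroup.S, ModularGroup.T} : Set SL(2, ℤ)) := by
    rw [_root_.SpecialLinearGroup.SL2Z_generators]; trivial
  revert x
  induction hg using Subgroup.closure_induction with
  | mem y hy =>
    rcases hy with rfl | rfl
    · exact hS
    · exact hT
  | one => exact fun x => cocA_one N φ v x
  | mul a b _ _ ha hb =>
    intro x
    rw [cocA_mul, ha, hb, add_zero]
  | inv a _ ha =>
    intro x
    rw [cocA_inv, ha, neg_zero]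

/-- If the twisted Shapiro cocycle vanishes identically then `φ = 0`. -/
theorem hom_eq_zero_of_cocA (φ : Additive (Gamma0 N) →+ A) (v : X0 N → A)
    (hall : ∀ g x, cocA N φ v g x = 0) (γ : Gamma0 N) : φ (Additive.ofMul γ) = 0 := by
  have h := hall (γ : SL(2, ℤ)) (QuotientGroup.mk 1)
  have hfix : (γ : SL(2, ℤ)) • (QuotientGroup.mk 1 : X0 N) = QuotientGroup.mk 1 := by
    show ((γ * 1 : SL(2, ℤ)) : X0 N) = _
    rw [QuotientGroup.eq]
    simp
  have he : (QuotientGroup.mk 1 : X0 N).out ∈ Gamma0 N := by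
    have h1 := QuotientGroup.out_eq' (QuotientGroup.mk 1 : X0 N)
    have h2 := QuotientGroup.eq.mp h1
    simpa using (Gamma0 N).inv_mem h2
  have hk : Cocycle.kfun N γ (QuotientGroup.mk 1) =
      (⟨_, he⟩ : Gamma0 N)⁻¹ * γ * (⟨_, he⟩ : Gamma0 N) := by
    apply Subtype.ext
    rw [Cocycle.coe_kfun, hfix]
    rfl
  simp only [cocA, hk, hfix, ofMul_mul, ofMul_inv, map_add, map_neg] at h
  rw [← h]
  abel

/-- If the twisted Shapiro cocycle vanishes identically then `v` is constant. -/
theorem v_eq_of_cocA (φ : Additive (Gamma0 N) →+ A) (v : X0 N → A)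
    (hall : ∀ g x, cocA N φ v g x = 0) (x : X0 N) : v x = v (QuotientGroup.mk 1) := by
  induction x using QuotientGroup.induction_on with
  | H g =>
    have h := hall g (QuotientGroup.mk 1)
    have hg : g • (QuotientGroup.mk 1 : X0 N) = QuotientGroup.mk g := by
      show ((g * 1 : SL(2, ℤ)) : X0 N) = _
      rw [mul_one]
    have hk : φ (Additive.ofMul (Cocycle.kfun N g (QuotientGroup.mk 1))) = 0 :=
      hom_eq_zero_of_cocA N φ v hall _
    simp only [cocA, hk, hg, zero_add] at h
    exact sub_eq_zero.mp h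

end General

/-! ### Integrality -/

/-- **E3a.** If the cocycle data `(c(S), c(ST))` of `(φ, v)` are integer valued then `φ` is integer
valued and `v` is integer valued up to a constant. -/
theorem exists_int_of_coc (N : ℕ) (φ : Additive (Gamma0 N) →+ ℂ) (v : X0 N → ℂ)
    (a b : X0 N → ℤ) (hS : ∀ x, Cocycle.coc N φ v ModularGroup.S x = (a x : ℂ))
    (hU : ∀ x, Cocycle.coc N φ v (ModularGroup.S * ModularGroup.T) x = (b x : ℂ)) :
    ∃ (ψ : Additive (Gamma0 N) →+ ℤ) (w : X0 N → ℤ),
      (∀ γ, ((ψ γ : ℤ) : ℂ) = φ γ) ∧ ∀ x, ((w x : ℤ) : ℂ) = v x - v (QuotientGroup.mk 1) := by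
  classical
  let Zc : AddSubgroup ℂ := (Int.castAddHom ℂ).range
  let π : ℂ →+ ℂ ⧸ Zc := QuotientAddGroup.mk' Zc
  have hπ : ∀ z : ℂ, π z = 0 ↔ ∃ m : ℤ, (m : ℂ) = z := by
    intro z
    rw [QuotientAddGroup.mk'_apply, QuotientAddGroup.eq_zero_iff]
    rfl
  have hcoc : ∀ g x, cocA N (π.comp φ) (fun x => π (v x)) g x = π (Cocycle.coc N φ v g x) := by
    intro g x
    simp only [cocA, Cocycle.coc, AddMonoidHom.comp_apply, map_add, map_sub]
  have hall := cocA_eq_zero N (π.comp φ) (fun x => π (v x))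
    (fun x => by rw [hcoc, hS, hπ]; exact ⟨a x, rfl⟩)
    (fun x => by rw [hcoc, hU, hπ]; exact ⟨b x, rfl⟩)
  have h1 : ∀ γ : Additive (Gamma0 N), ∃ m : ℤ, (m : ℂ) = φ γ := by
    intro γ
    have := hom_eq_zero_of_cocA N (π.comp φ) (fun x => π (v x)) hall (Additive.toMul γ)
    exact (hπ _).mp this
  have h2 : ∀ x : X0 N, ∃ m : ℤ, (m : ℂ) = v x - v (QuotientGroup.mk 1) := by
    intro x
    have := v_eq_of_cocA N (π.comp φ) (fun x => π (v x)) hall x
    apply (hπ _).mp
    rw [map_sub]
    exact sub_eq_zero.mpr this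
  choose m hm using h1
  choose w hw using h2
  refine ⟨AddMonoidHom.mk' m (fun x y => ?_), w, hm, hw⟩
  apply Int.cast_injective (α := ℂ)
  push_cast
  rw [hm, hm, hm, map_add]

/-! ### Integral parabolic cocycle data at prime level -/

theorem T_smul_base (N : ℕ) :
    ModularGroup.T • (QuotientGroup.mk 1 : X0 N) = QuotientGroup.mk 1 := by
  show ((ModularGroup.T * 1 : SL(2, ℤ)) : X0 N) = _
  rw [QuotientGroup.eq, Gamma0_mem]
  simp [ModularGroup.coe_T]

/-- **E2.** An integral pair `(a, b)` with `a ∘ S = -a`, `b + b ∘ U + b ∘ U² = 0` and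
`b x₀ = a x₀` is parabolic cocycle data (for `p` prime). -/
theorem mem_parCocycles_of_int (p : ℕ) [Fact p.Prime] (a b : X0 p → ℤ)
    (ha : ∀ x, a (ModularGroup.S • x) = - a x)
    (hb : ∀ x, b x + b ((ModularGroup.S * ModularGroup.T) • x)
      + b ((ModularGroup.S * ModularGroup.T) • (ModularGroup.S * ModularGroup.T) • x) = 0)
    (h0 : b (QuotientGroup.mk 1) = a (QuotientGroup.mk 1)) :
    ((fun x => (a x : ℂ)), (fun x => (b x : ℂ))) ∈
      parCocycles (cosetPerm p ModularGroup.S) (cosetPerm p (ModularGroup.S * ModularGroup.T))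
        (cosetPerm p ModularGroup.T) p := by
  classical
  have hp : p.Prime := Fact.out
  have : NeZero p := ⟨hp.ne_zero⟩
  have hfinX : Finite (X0 p) := Subgroup.finite_quotient_of_finiteIndex
  let _ : Fintype (X0 p) := Fintype.ofFinite _
  let c : X0 p → ℤ := fun y => b y - a (ModularGroup.T • y)
  let F : X0 p → ℤ := fun x => ∑ i ∈ Finset.range p, c ((cosetPerm p ModularGroup.T ^ i) x)
  have hsa : ∑ x, a x = 0 := by
    have h1 : ∑ x, a (ModularGroup.S • x) = ∑ x, a x :=
      Equiv.sum_comp (cosetPerm p ModularGroup.S) a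
    have h2 : ∑ x, a (ModularGroup.S • x) = - ∑ x, a x := by
      rw [← Finset.sum_neg_distrib]
      exact Finset.sum_congr rfl (fun x _ => ha x)
    omega
  have hsb : ∑ x, b x = 0 := by
    have h1 : ∑ x, b ((ModularGroup.S * ModularGroup.T) • x) = ∑ x, b x :=
      Equiv.sum_comp (cosetPerm p (ModularGroup.S * ModularGroup.T)) b
    have h2 : ∑ x, b ((ModularGroup.S * ModularGroup.T) • (ModularGroup.S * ModularGroup.T) • x)
        = ∑ x, b ((ModularGroup.S * ModularGroup.T) • x) :=
      Equiv.sum_comp (cosetPerm p (ModularGroup.S * ModularGroup.T))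
        (fun x => b ((ModularGroup.S * ModularGroup.T) • x))
    have h3 : ∑ x, (b x + b ((ModularGroup.S * ModularGroup.T) • x)
      + b ((ModularGroup.S * ModularGroup.T) • (ModularGroup.S * ModularGroup.T) • x)) = 0 :=
      Finset.sum_eq_zero (fun x _ => hb x)
    rw [Finset.sum_add_distrib, Finset.sum_add_distrib] at h3
    omega
  have hsc : ∑ x, c x = 0 := by
    have h1 : ∑ x, a (ModularGroup.T • x) = ∑ x, a x :=
      Equiv.sum_comp (cosetPerm p ModularGroup.T) a
    simp only [c, Finset.sum_sub_distrib]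
    omega
  have hsF : ∑ x, F x = 0 := by
    simp only [F]
    rw [Finset.sum_comm]
    apply Finset.sum_eq_zero
    intro i _
    rw [Equiv.sum_comp (cosetPerm p ModularGroup.T ^ i) c, hsc]
  have hTx0 := T_smul_base p
  have htx0 : ∀ i : ℕ, (cosetPerm p ModularGroup.T ^ i) (QuotientGroup.mk 1 : X0 p)
      = QuotientGroup.mk 1 := by
    intro i
    induction i with
    | zero => simp
    | succ i ih =>
      rw [pow_succ, Equiv.Perm.mul_apply, Fermat.Agent.S24.cosetPerm_apply, hTx0, ih]
  have hF0 : F (QuotientGroup.mk 1) = 0 := by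
    simp only [F, htx0, c, hTx0, h0, sub_self, Finset.sum_const_zero]
  have htp : cosetPerm p ModularGroup.T ^ p = 1 := PermRepX0.cosetPerm_T_pow p
  have hFt : ∀ x, F (ModularGroup.T • x) = F x := by
    intro x
    have e : ∀ i : ℕ, (cosetPerm p ModularGroup.T ^ i) (ModularGroup.T • x)
        = (cosetPerm p ModularGroup.T ^ (i + 1)) x := by
      intro i
      rw [pow_succ, Equiv.Perm.mul_apply, Fermat.Agent.S24.cosetPerm_apply]
    have h1 := Finset.sum_range_succ (fun i => c ((cosetPerm p ModularGroup.T ^ i) x)) p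
    have h2 := Finset.sum_range_succ' (fun i => c ((cosetPerm p ModularGroup.T ^ i) x)) p
    rw [htp] at h1
    simp only [pow_zero, Equiv.Perm.coe_one, id_eq] at h1 h2
    simp only [F, e]
    omega
  have hFT : ∀ (j : ℕ) (x : X0 p), F (ModularGroup.T ^ j • x) = F x := by
    intro j
    induction j with
    | zero => intro x; simp
    | succ j ih =>
      intro x
      rw [pow_succ', mul_smul]
      exact (hFt _).trans (ih x)
  have hFc : ∀ x : X0 p, x ≠ QuotientGroup.mk 1 →
      F x = F (ModularGroup.S • (QuotientGroup.mk 1 : X0 p)) := by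
    intro x hx
    obtain ⟨j, rfl⟩ := LiftOrb.exists_T_pow p x hx
    exact hFT j _
  have hFS : F (ModularGroup.S • (QuotientGroup.mk 1 : X0 p)) = 0 := by
    have h1 : ∑ x, F x = F (QuotientGroup.mk 1)
        + ∑ x ∈ Finset.univ.erase (QuotientGroup.mk 1 : X0 p), F x :=
      (Finset.add_sum_erase _ _ (Finset.mem_univ _)).symm
    have h2 : ∑ x ∈ Finset.univ.erase (QuotientGroup.mk 1 : X0 p), F x
        = (Finset.univ.erase (QuotientGroup.mk 1 : X0 p)).card
          • F (ModularGroup.S • (QuotientGroup.mk 1 : X0 p)) := by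
      rw [← Finset.sum_const]
      exact Finset.sum_congr rfl (fun x hx => hFc x (Finset.ne_of_mem_erase hx))
    have h3 : (Finset.univ.erase (QuotientGroup.mk 1 : X0 p)).card ≠ 0 := by
      apply Finset.card_ne_zero_of_mem (a := ModularGroup.S • (QuotientGroup.mk 1 : X0 p))
      exact Finset.mem_erase.mpr ⟨LiftOrb.S_smul_ne p, Finset.mem_univ _⟩
    rw [hsF, hF0, zero_add, h2] at h1
    rcases smul_eq_zero.mp h1.symm with h | h
    · exact absurd h h3
    · exact h
  have hF : ∀ x, F x = 0 := by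
    intro x
    by_cases hx : x = QuotientGroup.mk 1
    · rw [hx, hF0]
    · rw [hFc x hx, hFS]
  rw [mem_parCocycles]
  refine ⟨fun x => ?_, fun x => ?_, fun x => ?_⟩
  · show ((a (ModularGroup.S • x) : ℤ) : ℂ) + a x = 0
    rw [ha]
    push_cast
    ring
  · show ((b ((ModularGroup.S * ModularGroup.T) • (ModularGroup.S * ModularGroup.T) • x) : ℤ) : ℂ)
      + b ((ModularGroup.S * ModularGroup.T) • x) + b x = 0
    have h := hb x
    have h' : b ((ModularGroup.S * ModularGroup.T) • (ModularGroup.S * ModularGroup.T) • x)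
      + b ((ModularGroup.S * ModularGroup.T) • x) + b x = 0 := by omega
    exact_mod_cast h'
  · have h := congrArg (Int.cast : ℤ → ℂ) (hF x)
    simp only [F, c] at h
    push_cast at h
    exact h

/-! ### The lifting statement -/

theorem trace_kfun_of_fix (N : ℕ) (g : SL(2, ℤ)) (x : X0 N) (h : g • x = x) :
    (((Cocycle.kfun N g x : Gamma0 N) : SL(2, ℤ)) : Matrix (Fin 2) (Fin 2) ℤ).trace
      = (g : Matrix (Fin 2) (Fin 2) ℤ).trace := by
  have h1 : ((Cocycle.kfun N g x : Gamma0 N) : SL(2, ℤ)) = x.out⁻¹ * g * x.out := by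
    rw [Cocycle.coe_kfun, h]
  rw [h1, Matrix.SpecialLinearGroup.coe_mul, Matrix.SpecialLinearGroup.coe_mul,
    Matrix.trace_mul_comm, ← mul_assoc, ← Matrix.SpecialLinearGroup.coe_mul, mul_inv_cancel,
    Matrix.SpecialLinearGroup.coe_one, one_mul]

/-- **Integral lifting** (Eichler–Shimura route): `LiftStmt p` for every prime `p`. -/
theorem lift (p : ℕ) [Fact p.Prime] : LiftStmt p := by
  intro n _ φ0 hφ0
  classical
  have hp : p.Prime := Fact.out
  have : NeZero p := ⟨hp.ne_zero⟩
  have hfinX : Finite (X0 p) := Subgroup.finite_quotient_of_finiteIndex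
  have : Countable (X0 p) := Finite.to_countable
  have hk0 : ∀ (g : SL(2, ℤ)) (x : X0 p), g • x = x →
      (g : Matrix (Fin 2) (Fin 2) ℤ).trace ^ 2 ≤ 4 →
      φ0 (Additive.ofMul (Cocycle.kfun p g x)) = 0 :=
    fun g x h htr => hφ0 _ (by rw [trace_kfun_of_fix p g x h]; exact htr)
  let a0 : X0 p → ZMod n := fun x => φ0 (Additive.ofMul (Cocycle.kfun p ModularGroup.S x))
  let b0 : X0 p → ZMod n :=
    fun x => φ0 (Additive.ofMul (Cocycle.kfun p (ModularGroup.S * ModularGroup.T) x))
  have hSS : ∀ x : X0 p, ModularGroup.S • ModularGroup.S • x = x := fun x => by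
    rw [← mul_smul]; exact Cocycle.S_mul_S_smul p x
  have hUUU : ∀ x : X0 p, (ModularGroup.S * ModularGroup.T) • (ModularGroup.S * ModularGroup.T) •
      (ModularGroup.S * ModularGroup.T) • x = x := fun x => by
    rw [← mul_smul, ← mul_smul, Cocycle.ST_cube]; exact Cocycle.S_mul_S_smul p x
  have ha0 : ∀ x, a0 (ModularGroup.S • x) = - a0 x := by
    intro x
    have h1 : Cocycle.kfun p (ModularGroup.S * ModularGroup.S) x
        = Cocycle.kfun p ModularGroup.S (ModularGroup.S • x) * Cocycle.kfun p ModularGroup.S x :=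
      Cocycle.kfun_mul p _ _ x
    have h2 : φ0 (Additive.ofMul (Cocycle.kfun p (ModularGroup.S * ModularGroup.S) x)) = 0 :=
      hk0 _ x (Cocycle.S_mul_S_smul p x) (le_of_eq Cocycle.trace_S_mul_S)
    rw [h1, ofMul_mul, map_add] at h2
    exact eq_neg_of_add_eq_zero_left h2
  have ha0fix : ∀ x : X0 p, ModularGroup.S • x = x → a0 x = 0 := fun x h =>
    hk0 _ x h (by simp [ModularGroup.coe_S, Matrix.trace_fin_two])
  have hb0 : ∀ x, b0 x + b0 ((ModularGroup.S * ModularGroup.T) • x)
      + b0 ((ModularGroup.S * ModularGroup.T) • (ModularGroup.S * ModularGroup.T) • x) = 0 := by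
    intro x
    have h1 : Cocycle.kfun p ((ModularGroup.S * ModularGroup.T) * (ModularGroup.S * ModularGroup.T)
          * (ModularGroup.S * ModularGroup.T)) x
        = Cocycle.kfun p (ModularGroup.S * ModularGroup.T)
            ((ModularGroup.S * ModularGroup.T) • (ModularGroup.S * ModularGroup.T) • x)
          * Cocycle.kfun p (ModularGroup.S * ModularGroup.T) ((ModularGroup.S * ModularGroup.T) • x)
          * Cocycle.kfun p (ModularGroup.S * ModularGroup.T) x := by
      rw [Cocycle.kfun_mul p _ (ModularGroup.S * ModularGroup.T) x,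
        Cocycle.kfun_mul p _ (ModularGroup.S * ModularGroup.T)
          ((ModularGroup.S * ModularGroup.T) • x)]
    have h2 : φ0 (Additive.ofMul (Cocycle.kfun p ((ModularGroup.S * ModularGroup.T)
        * (ModularGroup.S * ModularGroup.T) * (ModularGroup.S * ModularGroup.T)) x)) = 0 := by
      rw [Cocycle.ST_cube]
      exact hk0 _ x (Cocycle.S_mul_S_smul p x) (le_of_eq Cocycle.trace_S_mul_S)
    rw [h1, ofMul_mul, ofMul_mul, map_add, map_add] at h2
    linear_combination h2
  have hb0fix : ∀ x : X0 p, (ModularGroup.S * ModularGroup.T) • x = x → b0 x = 0 := fun x h =>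
    hk0 _ x h (by
      rw [Matrix.SpecialLinearGroup.coe_mul]
      simp [ModularGroup.coe_S, ModularGroup.coe_T, Matrix.trace_fin_two])
  obtain ⟨a1, ha1, ha1c⟩ := LiftComb.exists_lift_invol n
    (fun x : X0 p => ModularGroup.S • x) hSS a0 ha0 ha0fix
  obtain ⟨b, hb, hbc⟩ := LiftComb.exists_lift_order_three n
    (fun x : X0 p => (ModularGroup.S * ModularGroup.T) • x) hUUU b0 hb0 hb0fix
  have hd : (n : ℤ) ∣ b (QuotientGroup.mk 1) - a1 (QuotientGroup.mk 1) := by
    rw [← ZMod.intCast_zmod_eq_zero_iff_dvd]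
    push_cast
    rw [hbc, ha1c]
    show φ0 (Additive.ofMul (Cocycle.kfun p (ModularGroup.S * ModularGroup.T) (QuotientGroup.mk 1)))
      - φ0 (Additive.ofMul (Cocycle.kfun p ModularGroup.S (QuotientGroup.mk 1))) = 0
    have h1 : Cocycle.kfun p (ModularGroup.S * ModularGroup.T) (QuotientGroup.mk 1)
        = Cocycle.kfun p ModularGroup.S (ModularGroup.T • (QuotientGroup.mk 1 : X0 p))
          * Cocycle.kfun p ModularGroup.T (QuotientGroup.mk 1) := Cocycle.kfun_mul p _ _ _
    have h2 : φ0 (Additive.ofMul (Cocycle.kfun p ModularGroup.T (QuotientGroup.mk 1))) = 0 :=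
      hk0 _ _ (T_smul_base p) (by simp [ModularGroup.coe_T, Matrix.trace_fin_two])
    rw [h1, ofMul_mul, map_add, h2, T_smul_base p, add_zero, sub_self]
  obtain ⟨k, hk⟩ := hd
  have hSx0 : ModularGroup.S • (QuotientGroup.mk 1 : X0 p) ≠ QuotientGroup.mk 1 :=
    LiftOrb.S_smul_ne p
  let a : X0 p → ℤ := fun x => a1 x + n * k *
    ((if x = QuotientGroup.mk 1 then 1 else 0)
      - (if x = ModularGroup.S • (QuotientGroup.mk 1 : X0 p) then 1 else 0))
  have ha : ∀ x, a (ModularGroup.S • x) = - a x := by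
    intro x
    have e1 : (ModularGroup.S • x = QuotientGroup.mk 1)
        ↔ (x = ModularGroup.S • (QuotientGroup.mk 1 : X0 p)) :=
      ⟨fun h => by rw [← h, hSS], fun h => by rw [h, hSS]⟩
    have e2 : (ModularGroup.S • x = ModularGroup.S • (QuotientGroup.mk 1 : X0 p))
        ↔ (x = QuotientGroup.mk 1) :=
      ⟨fun h => by
        have := congrArg (fun y : X0 p => ModularGroup.S • y) h
        simpa only [hSS] using this, fun h => by rw [h]⟩
    have h1 : a1 (ModularGroup.S • x) = - a1 x := ha1 x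
    simp only [a, h1, e1, e2]
    ring
  have hac : ∀ x, ((a x : ℤ) : ZMod n) = a0 x := by
    intro x
    simp only [a]
    push_cast
    rw [ha1c]
    simp
  have hab : b (QuotientGroup.mk 1) = a (QuotientGroup.mk 1) := by
    simp only [a, if_true, if_neg hSx0.symm]
    linarith [hk]
  have hmem := mem_parCocycles_of_int p a b ha hb hab
  obtain ⟨φ, v, hφ, hS, hU⟩ := exists_hom_of_parCocycles p _ _ hmem
  obtain ⟨ψ, w, hψ, hw⟩ := exists_int_of_coc p φ v a b (fun x => congrFun hS x)
    (fun x => congrFun hU x)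
  refine ⟨ψ, ?_, ?_⟩
  · intro γ hγ
    apply Int.cast_injective (α := ℂ)
    rw [hψ, Int.cast_zero]
    exact hφ γ hγ
  · let φ' : Additive (Gamma0 p) →+ ZMod n := (Int.castAddHom (ZMod n)).comp ψ - φ0
    let v' : X0 p → ZMod n := fun x => (w x : ZMod n)
    have hint : ∀ (g : SL(2, ℤ)) (x : X0 p),
        ((ψ (Additive.ofMul (Cocycle.kfun p g x)) + w (g • x) - w x : ℤ) : ℂ)
          = Cocycle.coc p φ v g x := by
      intro g x
      push_cast
      rw [hψ, hw, hw]
      simp only [Cocycle.coc]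
      ring
    have hcocS : ∀ x, cocA p φ' v' ModularGroup.S x = 0 := by
      intro x
      have h1 : ψ (Additive.ofMul (Cocycle.kfun p ModularGroup.S x)) + w (ModularGroup.S • x) - w x
          = a x := by
        apply Int.cast_injective (α := ℂ)
        rw [hint, hS]
      have h2 := congrArg (Int.cast : ℤ → ZMod n) h1
      push_cast at h2
      rw [hac] at h2
      simp only [cocA, φ', v', AddMonoidHom.sub_apply, AddMonoidHom.comp_apply,
        Int.coe_castAddHom]
      linear_combination h2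
    have hcocU : ∀ x, cocA p φ' v' (ModularGroup.S * ModularGroup.T) x = 0 := by
      intro x
      have h1 : ψ (Additive.ofMul (Cocycle.kfun p (ModularGroup.S * ModularGroup.T) x))
          + w ((ModularGroup.S * ModularGroup.T) • x) - w x = b x := by
        apply Int.cast_injective (α := ℂ)
        rw [hint, hU]
      have h2 := congrArg (Int.cast : ℤ → ZMod n) h1
      push_cast at h2
      rw [hbc] at h2
      simp only [cocA, φ', v', AddMonoidHom.sub_apply, AddMonoidHom.comp_apply,
        Int.coe_castAddHom]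
      linear_combination h2
    have hall := cocA_eq_zero p φ' v' hcocS hcocU
    intro γ
    have h := hom_eq_zero_of_cocA p φ' v' hall γ
    simp only [φ', AddMonoidHom.sub_apply, AddMonoidHom.comp_apply, Int.coe_castAddHom] at h
    exact sub_eq_zero.mp h

end Fermat.Agent.S16.LiftES
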