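/-
S16 project, lower bound: parabolicity for free.

* `phi_W` / `psi_W`: every homomorphism `ψ` from `Γ₀(p)` to `ℂ` (or `ℤ`) satisfies
  `ψ(S T⁻ᵖ S⁻¹) = ψ(T)` (the sum of the Shapiro cocycle `c(T)` over `SL(2, ℤ) ⧸ Γ₀(p)` vanishes,
  and the `T`-orbits are the base coset and its complement);
* `parabolic_of_T`: a homomorphism `ψ : Γ₀(p) → ℤ` with `ψ(T) = 0` kills every element with
  `trace² = 4`;
* `liftStmt_of`: `LiftStmt p` from an arbitrary integral lift and a homomorphism `χ` with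
  `χ(T) = 1`.
-/
import Mathlib
import Fermat.Agent.S16.Defs
import Fermat.Agent.S16.LiftIface
import Fermat.Agent.S16.LiftConj
import Fermat.Agent.S16.TkCosetReps
import Fermat.Agent.ES.Cocycle

set_option autoImplicit false

namespace Fermat.Agent.S16.LiftPar

open CongruenceSubgroup Fermat.Agent.ES Fermat.Agent.ES.Cocycle
open Fermat.Agent.S24 (X0)
open scoped MatrixGroups

/-! ### coset representatives -/

/-- `Option (Fin p) ≃ SL(2, ℤ) ⧸ Γ₀(p)`, `o ↦ (rep o)⁻¹ Γ₀(p)`. -/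
noncomputable def cosetEquiv (p : ℕ) [Fact p.Prime] : Option (Fin p) ≃ X0 p :=
  Equiv.ofBijective (fun o => (((TkCosetReps.rep p o)⁻¹ : SL(2, ℤ)) : X0 p)) (by
    constructor
    · intro o o' h
      have h' := QuotientGroup.eq.mp h
      rw [inv_inv] at h'
      exact TkCosetReps.rep_injective p h'
    · intro x
      induction x using QuotientGroup.induction_on with
      | H g =>
        obtain ⟨o, ho⟩ := TkCosetReps.exists_mul_rep_inv_mem p g⁻¹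
        refine ⟨o, ?_⟩
        show (((TkCosetReps.rep p o)⁻¹ : SL(2, ℤ)) : X0 p) = (g : X0 p)
        rw [QuotientGroup.eq, inv_inv]
        have := inv_mem ho
        simpa [mul_inv_rev] using this)

theorem cosetEquiv_none (p : ℕ) [Fact p.Prime] :
    cosetEquiv p none = ((1 : SL(2, ℤ)) : X0 p) := by
  show (((TkCosetReps.rep p none)⁻¹ : SL(2, ℤ)) : X0 p) = _
  simp [TkCosetReps.rep]

theorem cosetEquiv_some (p : ℕ) [Fact p.Prime] (j : Fin p) :
    cosetEquiv p (some j)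
      = (ModularGroup.T⁻¹) ^ (j : ℕ) • ((ModularGroup.S⁻¹ : SL(2, ℤ)) : X0 p) := by
  show (((TkCosetReps.rep p (some j))⁻¹ : SL(2, ℤ)) : X0 p)
    = (((ModularGroup.T⁻¹) ^ (j : ℕ) * ModularGroup.S⁻¹ : SL(2, ℤ)) : X0 p)
  congr 1
  rw [TkCosetReps.rep, mul_inv_rev, zpow_natCast, inv_pow]

theorem sum_X0 (p : ℕ) [Fact p.Prime] [Fintype (X0 p)] (f : X0 p → ℂ) :
    ∑ x, f x = f ((1 : SL(2, ℤ)) : X0 p)
      + ∑ j ∈ Finset.range p,
          f ((ModularGroup.T⁻¹) ^ j • ((ModularGroup.S⁻¹ : SL(2, ℤ)) : X0 p)) := by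
  rw [← Equiv.sum_comp (cosetEquiv p) f, Fintype.sum_option, cosetEquiv_none]
  congr 1
  rw [← Fin.sum_univ_eq_sum_range
    (fun j => f ((ModularGroup.T⁻¹) ^ j • ((ModularGroup.S⁻¹ : SL(2, ℤ)) : X0 p))) p]
  exact Finset.sum_congr rfl (fun j _ => by rw [cosetEquiv_some])

/-! ### the cocycle sum -/

section

variable (p : ℕ)

theorem T_mem : ModularGroup.T ∈ Gamma0 p := by
  rw [Gamma0_mem, ModularGroup.coe_T]
  simp

theorem W_mem : ModularGroup.S * (ModularGroup.T⁻¹) ^ p * ModularGroup.S⁻¹ ∈ Gamma0 p := by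
  have h := inv_mem (conj_T_pow_mem p ModularGroup.S⁻¹)
  have e : (ModularGroup.S⁻¹⁻¹ * ModularGroup.T ^ p * ModularGroup.S⁻¹)⁻¹
      = ModularGroup.S * (ModularGroup.T⁻¹) ^ p * ModularGroup.S⁻¹ := by
    rw [inv_pow]; group
  rwa [e] at h

theorem phi_neg_one (φ : Additive (Gamma0 p) →+ ℂ) :
    φ (Additive.ofMul ⟨ModularGroup.S * ModularGroup.S, S_mul_S_mem p⟩) = 0 := by
  have h : (⟨ModularGroup.S * ModularGroup.S, S_mul_S_mem p⟩ : Gamma0 p)
      * ⟨ModularGroup.S * ModularGroup.S, S_mul_S_mem p⟩ = 1 := by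
    apply Subtype.ext
    show ModularGroup.S * ModularGroup.S * (ModularGroup.S * ModularGroup.S) = 1
    decide
  have h2 := congrArg (fun g => φ (Additive.ofMul g)) h
  simp only [ofMul_mul, map_add, ofMul_one, map_zero] at h2
  linear_combination h2 / 2

theorem coc_SS (φ : Additive (Gamma0 p) →+ ℂ) (x : X0 p) :
    coc p φ 0 (ModularGroup.S * ModularGroup.S) x = 0 := by
  have hk : kfun p (ModularGroup.S * ModularGroup.S) x
      = ⟨ModularGroup.S * ModularGroup.S, S_mul_S_mem p⟩ := by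
    apply Subtype.ext
    rw [coe_kfun, S_mul_S_smul, conj_S_mul_S]
  simp [coc, hk, phi_neg_one]

theorem sum_coc_S (φ : Additive (Gamma0 p) →+ ℂ) [Fintype (X0 p)] :
    ∑ x : X0 p, coc p φ 0 ModularGroup.S x = 0 := by
  have h1 : ∀ x, coc p φ 0 ModularGroup.S (ModularGroup.S • x) + coc p φ 0 ModularGroup.S x = 0 :=
    fun x => by rw [← coc_mul, coc_SS]
  have h2 : ∑ x : X0 p, coc p φ 0 ModularGroup.S (ModularGroup.S • x)
      = ∑ x : X0 p, coc p φ 0 ModularGroup.S x :=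
    Equiv.sum_comp (MulAction.toPerm ModularGroup.S) (fun x => coc p φ 0 ModularGroup.S x)
  have h3 : ∑ x : X0 p, (coc p φ 0 ModularGroup.S (ModularGroup.S • x)
      + coc p φ 0 ModularGroup.S x) = 0 := Finset.sum_eq_zero (fun x _ => h1 x)
  rw [Finset.sum_add_distrib, h2] at h3
  linear_combination h3 / 2

theorem sum_coc_U (φ : Additive (Gamma0 p) →+ ℂ) [Fintype (X0 p)] :
    ∑ x : X0 p, coc p φ 0 (ModularGroup.S * ModularGroup.T) x = 0 := by
  set U := ModularGroup.S * ModularGroup.T with hU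
  have h1 : ∀ x, coc p φ 0 U (U • U • x) + coc p φ 0 U (U • x) + coc p φ 0 U x = 0 := by
    intro x
    have e1 := coc_mul p φ 0 (U * U) U x
    have e2 := coc_mul p φ 0 U U (U • x)
    have e3 : U * U * U = ModularGroup.S * ModularGroup.S := ST_cube
    rw [e3, coc_SS] at e1
    linear_combination -e1 - e2
  have h2 : ∑ x : X0 p, coc p φ 0 U (U • x) = ∑ x : X0 p, coc p φ 0 U x :=
    Equiv.sum_comp (MulAction.toPerm U) (fun x => coc p φ 0 U x)
  have h2' : ∑ x : X0 p, coc p φ 0 U (U • U • x) = ∑ x : X0 p, coc p φ 0 U x := by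
    rw [← h2]
    exact Equiv.sum_comp (MulAction.toPerm U) (fun x => coc p φ 0 U (U • x))
  have h3 : ∑ x : X0 p, (coc p φ 0 U (U • U • x) + coc p φ 0 U (U • x) + coc p φ 0 U x) = 0 :=
    Finset.sum_eq_zero (fun x _ => h1 x)
  rw [Finset.sum_add_distrib, Finset.sum_add_distrib, h2, h2'] at h3
  linear_combination h3 / 3

theorem sum_coc_T (φ : Additive (Gamma0 p) →+ ℂ) [Fintype (X0 p)] :
    ∑ x : X0 p, coc p φ 0 ModularGroup.T x = 0 := by
  have h1 : ∀ x, coc p φ 0 ModularGroup.T x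
      = - coc p φ 0 ModularGroup.S (ModularGroup.T • x)
        + coc p φ 0 (ModularGroup.S * ModularGroup.T) x := by
    intro x
    have e1 := coc_mul p φ 0 ModularGroup.S⁻¹ (ModularGroup.S * ModularGroup.T) x
    have e2 := coc_inv p φ 0 ModularGroup.S ((ModularGroup.S * ModularGroup.T) • x)
    have e3 : ModularGroup.S⁻¹ * (ModularGroup.S * ModularGroup.T) = ModularGroup.T := by group
    have e4 : ModularGroup.S⁻¹ • (ModularGroup.S * ModularGroup.T) • x = ModularGroup.T • x := by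
      rw [← mul_smul, e3]
    rw [e3] at e1
    rw [e4] at e2
    rw [e1, e2]
  have h2 : ∑ x : X0 p, coc p φ 0 ModularGroup.S (ModularGroup.T • x)
      = ∑ x : X0 p, coc p φ 0 ModularGroup.S x :=
    Equiv.sum_comp (MulAction.toPerm ModularGroup.T) (fun x => coc p φ 0 ModularGroup.S x)
  rw [Finset.sum_congr rfl (fun x _ => h1 x), Finset.sum_add_distrib, Finset.sum_neg_distrib, h2,
    sum_coc_S, sum_coc_U]
  ring

theorem sum_coc_T_inv (φ : Additive (Gamma0 p) →+ ℂ) [Fintype (X0 p)] :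
    ∑ x : X0 p, coc p φ 0 ModularGroup.T⁻¹ x = 0 := by
  have h1 : ∀ x, coc p φ 0 ModularGroup.T⁻¹ x
      = - coc p φ 0 ModularGroup.T (ModularGroup.T⁻¹ • x) := fun x => coc_inv p φ 0 _ x
  have h2 : ∑ x : X0 p, coc p φ 0 ModularGroup.T (ModularGroup.T⁻¹ • x)
      = ∑ x : X0 p, coc p φ 0 ModularGroup.T x :=
    Equiv.sum_comp (MulAction.toPerm ModularGroup.T⁻¹) (fun x => coc p φ 0 ModularGroup.T x)
  rw [Finset.sum_congr rfl (fun x _ => h1 x), Finset.sum_neg_distrib, h2, sum_coc_T, neg_zero]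

/-- the cocycle at the base coset recovers `φ` -/
theorem coc_base (φ : Additive (Gamma0 p) →+ ℂ) (γ : SL(2, ℤ)) (hγ : γ ∈ Gamma0 p) :
    coc p φ 0 γ ((1 : SL(2, ℤ)) : X0 p) = φ (Additive.ofMul ⟨γ, hγ⟩) := by
  have hx : γ • (((1 : SL(2, ℤ)) : X0 p)) = ((1 : SL(2, ℤ)) : X0 p) := by
    show (((γ * 1 : SL(2, ℤ))) : X0 p) = _
    rw [QuotientGroup.eq]
    simpa using inv_mem hγ
  have ho : (((1 : SL(2, ℤ)) : X0 p)).out ∈ Gamma0 p := by
    have h := QuotientGroup.out_eq' (((1 : SL(2, ℤ)) : X0 p))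
    rw [QuotientGroup.eq] at h
    simpa using inv_mem h
  have hk : kfun p γ ((1 : SL(2, ℤ)) : X0 p)
      = (⟨_, ho⟩ : Gamma0 p)⁻¹ * ⟨γ, hγ⟩ * ⟨_, ho⟩ := by
    apply Subtype.ext
    rw [coe_kfun, hx]
    rfl
  simp only [coc, hk, ofMul_mul, ofMul_inv, map_add, map_neg, Pi.zero_apply]
  ring

theorem T_inv_pow_smul (x : X0 p) : ((ModularGroup.T⁻¹) ^ p) • x = x := by
  rw [inv_pow, inv_smul_eq_iff, T_pow_smul]

/-- **The cusp relation**: every homomorphism `Γ₀(p) → ℂ` takes the same value on `T` and on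
`S T⁻ᵖ S⁻¹`. -/
theorem phi_W (p : ℕ) [Fact p.Prime] (φ : Additive (Gamma0 p) →+ ℂ) :
    φ (Additive.ofMul ⟨ModularGroup.S * (ModularGroup.T⁻¹) ^ p * ModularGroup.S⁻¹, W_mem p⟩)
      = φ (Additive.ofMul ⟨ModularGroup.T, T_mem p⟩) := by
  have hp : p.Prime := Fact.out
  have : NeZero p := ⟨hp.ne_zero⟩
  have : Finite (X0 p) := Subgroup.finite_quotient_of_finiteIndex
  have : Fintype (X0 p) := Fintype.ofFinite _
  have h1 := sum_coc_T_inv p φ
  rw [sum_X0 p (fun x => coc p φ 0 ModularGroup.T⁻¹ x)] at h1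
  -- the orbit sum
  have h2 := coc_pow p φ 0 ModularGroup.T⁻¹ p ((ModularGroup.S⁻¹ : SL(2, ℤ)) : X0 p)
  rw [← h2] at h1
  -- base point
  have h3 : coc p φ 0 ModularGroup.T⁻¹ ((1 : SL(2, ℤ)) : X0 p)
      = - φ (Additive.ofMul ⟨ModularGroup.T, T_mem p⟩) := by
    rw [coc_base p φ _ (inv_mem (T_mem p))]
    have : (⟨ModularGroup.T⁻¹, inv_mem (T_mem p)⟩ : Gamma0 p)
        = (⟨ModularGroup.T, T_mem p⟩ : Gamma0 p)⁻¹ := rfl
    rw [this, ofMul_inv, map_neg]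
  -- the other cusp
  have h4 : coc p φ 0 ((ModularGroup.T⁻¹) ^ p) ((ModularGroup.S⁻¹ : SL(2, ℤ)) : X0 p)
      = φ (Additive.ofMul
          ⟨ModularGroup.S * (ModularGroup.T⁻¹) ^ p * ModularGroup.S⁻¹, W_mem p⟩) := by
    rw [← coc_base p φ _ (W_mem p)]
    have e1 := coc_mul p φ 0 (ModularGroup.S * (ModularGroup.T⁻¹) ^ p) ModularGroup.S⁻¹
      ((1 : SL(2, ℤ)) : X0 p)
    have e2 := coc_mul p φ 0 ModularGroup.S ((ModularGroup.T⁻¹) ^ p)
      (ModularGroup.S⁻¹ • (((1 : SL(2, ℤ)) : X0 p)))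
    have e3 := coc_inv p φ 0 ModularGroup.S ((1 : SL(2, ℤ)) : X0 p)
    have e4 : ModularGroup.S⁻¹ • (((1 : SL(2, ℤ)) : X0 p))
        = ((ModularGroup.S⁻¹ : SL(2, ℤ)) : X0 p) := by
      show (((ModularGroup.S⁻¹ * 1 : SL(2, ℤ))) : X0 p) = _
      rw [mul_one]
    rw [T_inv_pow_smul] at e2
    rw [e4] at e1 e2 e3
    rw [e1, e2, e3]
    ring
  rw [h3, h4] at h1
  linear_combination h1

end

/-! ### parabolicity -/

/-- integral version of the cusp relation -/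
theorem psi_W (p : ℕ) [Fact p.Prime] (ψ : Additive (Gamma0 p) →+ ℤ) :
    ψ (Additive.ofMul ⟨ModularGroup.S * (ModularGroup.T⁻¹) ^ p * ModularGroup.S⁻¹, W_mem p⟩)
      = ψ (Additive.ofMul ⟨ModularGroup.T, T_mem p⟩) := by
  have h := phi_W p ((Int.castAddHom ℂ).comp ψ)
  simp only [AddMonoidHom.coe_comp, Function.comp_apply, Int.coe_castAddHom] at h
  exact_mod_cast h

/-- the kernel of `ψ`, as a subgroup of `SL(2, ℤ)` -/
def kerSub (p : ℕ) (ψ : Additive (Gamma0 p) →+ ℤ) : Subgroup SL(2, ℤ) where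
  carrier := {g | ∃ h : g ∈ Gamma0 p, ψ (Additive.ofMul ⟨g, h⟩) = 0}
  mul_mem' := by
    rintro a b ⟨ha, ha0⟩ ⟨hb, hb0⟩
    refine ⟨mul_mem ha hb, ?_⟩
    have : (⟨a * b, mul_mem ha hb⟩ : Gamma0 p) = ⟨a, ha⟩ * ⟨b, hb⟩ := rfl
    rw [this, ofMul_mul, map_add, ha0, hb0, add_zero]
  one_mem' := ⟨one_mem _, by
    have : (⟨1, one_mem _⟩ : Gamma0 p) = 1 := rfl
    rw [this, ofMul_one, map_zero]⟩
  inv_mem' := by
    rintro a ⟨ha, ha0⟩
    refine ⟨inv_mem ha, ?_⟩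
    have : (⟨a⁻¹, inv_mem ha⟩ : Gamma0 p) = (⟨a, ha⟩ : Gamma0 p)⁻¹ := rfl
    rw [this, ofMul_inv, map_neg, ha0, neg_zero]

theorem mem_kerSub {p : ℕ} {ψ : Additive (Gamma0 p) →+ ℤ} {g : SL(2, ℤ)} :
    g ∈ kerSub p ψ ↔ ∃ h : g ∈ Gamma0 p, ψ (Additive.ofMul ⟨g, h⟩) = 0 := Iff.rfl

theorem mem_Gamma0_of_mem_kerSub {p : ℕ} {ψ : Additive (Gamma0 p) →+ ℤ} {g : SL(2, ℤ)}
    (h : g ∈ kerSub p ψ) : g ∈ Gamma0 p := h.1

theorem conj_mem_kerSub {p : ℕ} {ψ : Additive (Gamma0 p) →+ ℤ} {g γ : SL(2, ℤ)}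
    (hg : g ∈ kerSub p ψ) (hγ : γ ∈ Gamma0 p) : γ * g * γ⁻¹ ∈ kerSub p ψ := by
  obtain ⟨hg', hg0⟩ := hg
  refine ⟨mul_mem (mul_mem hγ hg') (inv_mem hγ), ?_⟩
  have : (⟨γ * g * γ⁻¹, mul_mem (mul_mem hγ hg') (inv_mem hγ)⟩ : Gamma0 p)
      = ⟨γ, hγ⟩ * ⟨g, hg'⟩ * (⟨γ, hγ⟩ : Gamma0 p)⁻¹ := rfl
  rw [this, ofMul_mul, ofMul_mul, ofMul_inv, map_add, map_add, map_neg, hg0]
  ring

theorem SS_mem_kerSub (p : ℕ) (ψ : Additive (Gamma0 p) →+ ℤ) :
    ModularGroup.S * ModularGroup.S ∈ kerSub p ψ := by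
  refine ⟨S_mul_S_mem p, ?_⟩
  have h : (⟨ModularGroup.S * ModularGroup.S, S_mul_S_mem p⟩ : Gamma0 p)
      * ⟨ModularGroup.S * ModularGroup.S, S_mul_S_mem p⟩ = 1 := by
    apply Subtype.ext
    exact LiftConj.S_pow_four
  have h2 := congrArg (fun g => ψ (Additive.ofMul g)) h
  simp only [ofMul_mul, map_add, ofMul_one, map_zero] at h2
  omega

theorem coe_S_inv :
    ((ModularGroup.S⁻¹ : SL(2, ℤ)) : Matrix (Fin 2) (Fin 2) ℤ) = !![0, 1; -1, 0] := by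
  rw [Matrix.SpecialLinearGroup.SL2_inv_expl]
  ext i j
  fin_cases i <;> fin_cases j <;> simp [ModularGroup.S]

theorem S_T_zpow_S_inv_apply (m : ℤ) :
    ((ModularGroup.S * ModularGroup.T ^ m * ModularGroup.S⁻¹ : SL(2, ℤ)) 1 0 : ℤ) = -m := by
  rw [Matrix.SpecialLinearGroup.coe_mul, Matrix.SpecialLinearGroup.coe_mul,
    ModularGroup.coe_T_zpow, coe_S_inv, ModularGroup.coe_S]
  simp [Matrix.mul_apply, Fin.sum_univ_two]

/-- conjugates of powers of `T` lying in `Γ₀(p)` are killed by `ψ` if `T` is. -/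
theorem conj_T_zpow_mem_kerSub (p : ℕ) [Fact p.Prime] (ψ : Additive (Gamma0 p) →+ ℤ)
    (hT : ψ (Additive.ofMul ⟨ModularGroup.T, T_mem p⟩) = 0) (h : SL(2, ℤ)) (m : ℤ)
    (hmem : h * ModularGroup.T ^ m * h⁻¹ ∈ Gamma0 p) :
    h * ModularGroup.T ^ m * h⁻¹ ∈ kerSub p ψ := by
  have hTk : ModularGroup.T ∈ kerSub p ψ := ⟨T_mem p, hT⟩
  have hWk : ModularGroup.S * (ModularGroup.T⁻¹) ^ p * ModularGroup.S⁻¹ ∈ kerSub p ψ :=
    ⟨W_mem p, by rw [psi_W, hT]⟩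
  obtain ⟨o, ho⟩ := TkCosetReps.exists_mul_rep_inv_mem p h
  rcases o with _ | j
  · -- `h ∈ Γ₀(p)`
    have hh : h ∈ Gamma0 p := by simpa [TkCosetReps.rep] using ho
    exact conj_mem_kerSub (zpow_mem hTk m) hh
  · -- `h = γ' S T^j`
    set γ' := h * (TkCosetReps.rep p (some j))⁻¹ with hγ'
    have e1 : h * ModularGroup.T ^ m * h⁻¹
        = γ' * (ModularGroup.S * ModularGroup.T ^ m * ModularGroup.S⁻¹) * γ'⁻¹ := by
      rw [hγ', TkCosetReps.rep]
      group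
    have e2 : ModularGroup.S * ModularGroup.T ^ m * ModularGroup.S⁻¹
        = γ'⁻¹ * (h * ModularGroup.T ^ m * h⁻¹) * γ' := by
      rw [e1]; group
    have hmem2 : ModularGroup.S * ModularGroup.T ^ m * ModularGroup.S⁻¹ ∈ Gamma0 p := by
      rw [e2]
      exact mul_mem (mul_mem (inv_mem ho) hmem) ho
    rw [Gamma0_mem, S_T_zpow_S_inv_apply] at hmem2
    have hdvd : (p : ℤ) ∣ m := by
      have := (ZMod.intCast_zmod_eq_zero_iff_dvd (-m) p).mp hmem2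
      exact (dvd_neg).mp this
    obtain ⟨m', rfl⟩ := hdvd
    have e3 : ModularGroup.S * ModularGroup.T ^ ((p : ℤ) * m') * ModularGroup.S⁻¹
        = (ModularGroup.S * (ModularGroup.T⁻¹) ^ p * ModularGroup.S⁻¹) ^ (-m') := by
      rw [conj_zpow, inv_pow, ← zpow_natCast, ← inv_zpow, ← zpow_mul, inv_zpow, ← zpow_neg,
        mul_neg, neg_neg]
    rw [e1, e3]
    exact conj_mem_kerSub (zpow_mem hWk _) ho

/-- **Parabolicity for free**: a homomorphism `ψ : Γ₀(p) → ℤ` with `ψ(T) = 0` kills every element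
with `trace² = 4`. -/
theorem parabolic_of_T (p : ℕ) [Fact p.Prime] (ψ : Additive (Gamma0 p) →+ ℤ)
    (hT : ψ (Additive.ofMul ⟨ModularGroup.T, T_mem p⟩) = 0) :
    ∀ γ : Gamma0 p, (((γ : SL(2, ℤ)) : Matrix (Fin 2) (Fin 2) ℤ).trace) ^ 2 = 4 →
      ψ (Additive.ofMul γ) = 0 := by
  intro γ hγ
  have key : (γ : SL(2, ℤ)) ∈ kerSub p ψ := by
    obtain ⟨h, m, hm | hm⟩ := LiftConj.exists_conj (γ : SL(2, ℤ)) hγ
    · rw [hm]
      exact conj_T_zpow_mem_kerSub p ψ hT h m (hm ▸ γ.2)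
    · have e1 : h * (ModularGroup.S * ModularGroup.S * ModularGroup.T ^ m) * h⁻¹
          = (ModularGroup.S * ModularGroup.S) * (h * ModularGroup.T ^ m * h⁻¹) := by
        rw [LiftConj.S_mul_S_mul (h * ModularGroup.T ^ m * h⁻¹)]
        have := LiftConj.S_mul_S_mul (ModularGroup.T ^ m)
        rw [this]
        have h2 := LiftConj.S_mul_S_mul h⁻¹
        calc h * (ModularGroup.T ^ m * (ModularGroup.S * ModularGroup.S)) * h⁻¹
            = h * ModularGroup.T ^ m * (ModularGroup.S * ModularGroup.S * h⁻¹) := by group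
          _ = h * ModularGroup.T ^ m * (h⁻¹ * (ModularGroup.S * ModularGroup.S)) := by rw [h2]
          _ = h * ModularGroup.T ^ m * h⁻¹ * (ModularGroup.S * ModularGroup.S) := by group
      have hmem : h * ModularGroup.T ^ m * h⁻¹ ∈ Gamma0 p := by
        have e2 : h * ModularGroup.T ^ m * h⁻¹
            = (ModularGroup.S * ModularGroup.S)⁻¹ * (γ : SL(2, ℤ)) := by
          rw [hm, e1]; group
        rw [e2]
        exact mul_mem (inv_mem (S_mul_S_mem p)) γ.2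
      rw [hm, e1]
      exact mul_mem (SS_mem_kerSub p ψ) (conj_T_zpow_mem_kerSub p ψ hT h m hmem)
  obtain ⟨_, h0⟩ := key
  exact h0

/-- **Final assembly of `LiftStmt`** from a (not necessarily parabolic) integral lift and a
homomorphism `χ` with `χ(T) = 1`. -/
theorem liftStmt_of (p : ℕ) [Fact p.Prime]
    (h0 : ∀ (n : ℕ) [NeZero n] (φ : Additive (Gamma0 p) →+ ZMod n),
      (∀ γ : Gamma0 p, (((γ : SL(2, ℤ)) : Matrix (Fin 2) (Fin 2) ℤ).trace) ^ 2 ≤ 4 →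
        φ (Additive.ofMul γ) = 0) →
      ∃ ψ : Additive (Gamma0 p) →+ ℤ,
        ∀ γ : Gamma0 p, ((ψ (Additive.ofMul γ) : ℤ) : ZMod n) = φ (Additive.ofMul γ))
    (hχ : ∃ χ : Additive (Gamma0 p) →+ ℤ,
      χ (Additive.ofMul ⟨ModularGroup.T, T_mem p⟩) = 1) : LiftStmt p := by
  intro n _ φ hφ
  obtain ⟨ψ0, hψ0⟩ := h0 n φ hφ
  obtain ⟨χ, hχ⟩ := hχ
  have hT0 : φ (Additive.ofMul ⟨ModularGroup.T, T_mem p⟩) = 0 := by
    apply hφ
    show ((ModularGroup.T : SL(2, ℤ)) : Matrix (Fin 2) (Fin 2) ℤ).trace ^ 2 ≤ 4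
    rw [ModularGroup.coe_T, Matrix.trace_fin_two_of]
    norm_num
  set t : ℤ := ψ0 (Additive.ofMul ⟨ModularGroup.T, T_mem p⟩) with ht
  have ht0 : ((t : ℤ) : ZMod n) = 0 := by rw [ht, hψ0, hT0]
  refine ⟨ψ0 - t • χ, ?_, ?_⟩
  · apply parabolic_of_T
    simp only [AddMonoidHom.sub_apply, AddMonoidHom.smul_apply, hχ, smul_eq_mul, mul_one]
    rw [← ht, sub_self]
  · intro γ
    simp only [AddMonoidHom.sub_apply, AddMonoidHom.smul_apply, smul_eq_mul]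
    push_cast
    rw [ht0, zero_mul, sub_zero, hψ0]

end Fermat.Agent.S16.LiftPar
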