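/-
S16 project: basic facts on the ring `RL ℓ` of `ℓ`-integral algebraic numbers
(the "ring" block of PSAlg-2).
-/
import Fermat.Agent.S16.Defs

set_option autoImplicit false

namespace Fermat.Agent.S16.RLFacts

noncomputable section

variable {ℓ : ℕ}

/-- Algebraic integers are `ℓ`-integral. -/
theorem isIntegral_mem {x : ℂ} (hx : IsIntegral ℤ x) : x ∈ RL ℓ :=
  ⟨1, Nat.coprime_one_left ℓ, by simpa using hx⟩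

theorem intCast_mem (z : ℤ) : (z : ℂ) ∈ RL ℓ := _root_.intCast_mem (RL ℓ) z

theorem natCast_mem (n : ℕ) : (n : ℂ) ∈ RL ℓ := _root_.natCast_mem (RL ℓ) n

/-- `ζ_p = exp(2πi/p)` is an algebraic integer. -/
theorem isIntegral_zetaP (p : ℕ) : IsIntegral ℤ (zetaP p) := by
  rcases Nat.eq_zero_or_pos p with rfl | hp
  · simp [zetaP, isIntegral_one]
  · refine IsIntegral.of_pow hp ?_
    have : zetaP p ^ p = 1 := by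
      rw [zetaP, ← Complex.exp_nat_mul]
      have hp' : (p : ℂ) ≠ 0 := by exact_mod_cast hp.ne'
      rw [show (p : ℂ) * (2 * Real.pi * Complex.I / p) = 2 * Real.pi * Complex.I by
        field_simp]
      exact Complex.exp_two_pi_mul_I
    rw [this]
    exact isIntegral_one

theorem zetaP_mem (p : ℕ) : zetaP p ∈ RL ℓ := isIntegral_mem (isIntegral_zetaP p)

theorem zetaP_pow_mem (p j : ℕ) : zetaP p ^ j ∈ RL ℓ := pow_mem (zetaP_mem p) j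

/-- Inverses of integers prime to `ℓ` are `ℓ`-integral. -/
theorem inv_natCast_mem {b : ℕ} (hb : b.Coprime ℓ) : ((b : ℂ))⁻¹ ∈ RL ℓ := by
  rcases Nat.eq_zero_or_pos b with rfl | hb0
  · simp
  · refine ⟨b, hb, ?_⟩
    have hb' : (b : ℂ) ≠ 0 := by exact_mod_cast hb0.ne'
    rw [mul_inv_cancel₀ hb']
    exact isIntegral_one

theorem ratCast_mem_of_not_dvd (hℓ : ℓ.Prime) {r : ℚ} (h : ¬ ℓ ∣ r.den) : (r : ℂ) ∈ RL ℓ := by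
  refine ⟨r.den, ((Nat.Prime.coprime_iff_not_dvd hℓ).mpr h).symm, ?_⟩
  have : ((r.den : ℂ)) * (r : ℂ) = ((r.num : ℤ) : ℂ) := by
    have h1 : (r.den : ℚ) * r = r.num := Rat.den_mul_eq_num r
    exact_mod_cast congrArg (fun x : ℚ => (x : ℂ)) h1
  rw [this]
  exact isIntegral_algebraMap (R := ℤ) (A := ℂ) (x := r.num)

/-- `RL ℓ ∩ ℚ = ℤ_(ℓ)`. -/
theorem ratCast_mem_iff (hℓ : ℓ.Prime) (r : ℚ) : (r : ℂ) ∈ RL ℓ ↔ ¬ ℓ ∣ r.den := by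
  refine ⟨?_, ratCast_mem_of_not_dvd hℓ⟩
  rintro ⟨b, hb, hint⟩ hdvd
  have h1 : IsIntegral ℤ (((b : ℚ) * r : ℚ)) := by
    have : ((b : ℂ)) * (r : ℂ) = algebraMap ℚ ℂ ((b : ℚ) * r) := by
      simp
    rw [this] at hint
    exact (isIntegral_algebraMap_iff (algebraMap ℚ ℂ).injective).mp hint
  obtain ⟨z, hz⟩ := IsIntegrallyClosed.isIntegral_iff.mp h1
  have hb0 : b ≠ 0 := by
    rintro rfl
    have := Nat.Coprime.eq_one_of_dvd hb.symm (dvd_zero ℓ)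
    exact hℓ.one_lt.ne' this
  have hbQ : (b : ℚ) ≠ 0 := by exact_mod_cast hb0
  have hr : r = (z : ℚ) / (b : ℚ) := by
    rw [eq_div_iff hbQ, mul_comm]
    exact hz.symm
  have hden : (r.den : ℤ) ∣ (b : ℤ) := by
    rw [hr]
    have := Rat.den_dvd z (b : ℤ)
    rwa [Rat.divInt_eq_div] at this
  have hℓb : ℓ ∣ b := by
    have : (ℓ : ℤ) ∣ (b : ℤ) := (Int.natCast_dvd_natCast.mpr hdvd).trans hden
    exact Int.natCast_dvd_natCast.mp this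
  have := Nat.Coprime.eq_one_of_dvd hb.symm hℓb
  exact hℓ.one_lt.ne' this

/-- `ℓ` is not a unit of `RL ℓ`. -/
theorem natCast_mul_ne_one (hℓ : ℓ.Prime) {y : ℂ} (hy : y ∈ RL ℓ) : (ℓ : ℂ) * y ≠ 1 := by
  intro h
  have hℓ0 : (ℓ : ℂ) ≠ 0 := by exact_mod_cast hℓ.ne_zero
  have hy' : y = (((ℓ : ℚ))⁻¹ : ℚ) := by
    push_cast
    exact eq_inv_of_mul_eq_one_left (by rw [mul_comm]; exact h)
  rw [hy', ratCast_mem_iff hℓ] at hy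
  apply hy
  rw [Rat.inv_natCast_den_of_pos hℓ.pos]

/-- If `z = ℓ * y` with `y` an `ℓ`-integral algebraic number, then `ℓ ∣ z`. -/
theorem dvd_of_intCast_eq_mul (hℓ : ℓ.Prime) {z : ℤ} {y : ℂ} (hy : y ∈ RL ℓ)
    (h : (z : ℂ) = (ℓ : ℂ) * y) : (ℓ : ℤ) ∣ z := by
  by_contra hnd
  have hcop : IsCoprime (ℓ : ℤ) z :=
    (Nat.prime_iff_prime_int.mp hℓ).coprime_iff_not_dvd.mpr hnd
  obtain ⟨u, v, huv⟩ := hcop
  refine natCast_mul_ne_one hℓ (y := (u : ℂ) + (v : ℂ) * y)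
    (add_mem (intCast_mem u) (mul_mem (intCast_mem v) hy)) ?_
  have := congrArg (Int.cast : ℤ → ℂ) huv
  push_cast at this
  rw [h] at this
  linear_combination this

/-- If `z = ℓ^s * y` with `y` an `ℓ`-integral algebraic number, then `ℓ^s ∣ z`. -/
theorem dvd_of_intCast_eq_pow_mul (hℓ : ℓ.Prime) (s : ℕ) {z : ℤ} {y : ℂ} (hy : y ∈ RL ℓ)
    (h : (z : ℂ) = (ℓ : ℂ) ^ s * y) : (ℓ : ℤ) ^ s ∣ z := by
  induction s generalizing z y with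
  | zero => simp
  | succ s ih =>
    have hℓ0 : (ℓ : ℂ) ≠ 0 := by exact_mod_cast hℓ.ne_zero
    have h1 : (z : ℂ) = (ℓ : ℂ) ^ s * ((ℓ : ℂ) * y) := by rw [h]; ring
    obtain ⟨z', rfl⟩ := ih (mul_mem (natCast_mem ℓ) hy) h1
    have h2 : (z' : ℂ) = (ℓ : ℂ) * y := by
      have h3 : (ℓ : ℂ) ^ s * (z' : ℂ) = (ℓ : ℂ) ^ s * ((ℓ : ℂ) * y) := by
        rw [← h1]; push_cast; ring
      exact mul_left_cancel₀ (pow_ne_zero s hℓ0) h3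
    obtain ⟨z'', rfl⟩ := dvd_of_intCast_eq_mul hℓ hy h2
    exact ⟨z'', by ring⟩

/-- natural number version -/
theorem dvd_of_natCast_eq_pow_mul (hℓ : ℓ.Prime) (s : ℕ) {n : ℕ} {y : ℂ} (hy : y ∈ RL ℓ)
    (h : (n : ℂ) = (ℓ : ℂ) ^ s * y) : ℓ ^ s ∣ n := by
  have := dvd_of_intCast_eq_pow_mul hℓ s (z := (n : ℤ)) hy (by exact_mod_cast h)
  exact_mod_cast this

/-- Membership in the ideal `(ℓ^s)` of `RL ℓ`. -/
theorem mem_span_pow_iff (s : ℕ) (x : RL ℓ) :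
    x ∈ Ideal.span {((ℓ : ℕ) : RL ℓ) ^ s} ↔ ∃ y ∈ RL ℓ, (x : ℂ) = (ℓ : ℂ) ^ s * y := by
  rw [Ideal.mem_span_singleton']
  constructor
  · rintro ⟨a, rfl⟩
    exact ⟨a, a.2, by push_cast; ring⟩
  · rintro ⟨y, hy, h⟩
    exact ⟨⟨y, hy⟩, Subtype.ext (by push_cast; rw [h]; ring)⟩

theorem mem_span_iff (x : RL ℓ) :
    x ∈ Ideal.span {((ℓ : ℕ) : RL ℓ)} ↔ ∃ y ∈ RL ℓ, (x : ℂ) = (ℓ : ℂ) * y := by
  have := mem_span_pow_iff (ℓ := ℓ) 1 x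
  simpa using this

/-- The ideal `(ℓ)` of `RL ℓ` is proper. -/
theorem span_ne_top (hℓ : ℓ.Prime) : Ideal.span {((ℓ : ℕ) : RL ℓ)} ≠ ⊤ := by
  intro h
  have h1 : (1 : RL ℓ) ∈ Ideal.span {((ℓ : ℕ) : RL ℓ)} := by rw [h]; trivial
  obtain ⟨y, hy, h2⟩ := (mem_span_iff 1).mp h1
  exact natCast_mul_ne_one hℓ hy (by rw [← h2]; simp)

/-- There is a maximal ideal of `RL ℓ` containing `ℓ`. -/
theorem exists_maximal (hℓ : ℓ.Prime) :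
    ∃ 𝔪 : Ideal (RL ℓ), 𝔪.IsMaximal ∧ ((ℓ : ℕ) : RL ℓ) ∈ 𝔪 := by
  obtain ⟨𝔪, hmax, hle⟩ := Ideal.exists_le_maximal _ (span_ne_top hℓ)
  exact ⟨𝔪, hmax, hle (Ideal.subset_span rfl)⟩

/-- A proper ideal of `RL ℓ` containing `ℓ` meets `ℤ` in `ℓℤ`. -/
theorem dvd_of_intCast_mem (hℓ : ℓ.Prime) {𝔪 : Ideal (RL ℓ)} (h𝔪 : 𝔪 ≠ ⊤)
    (hℓ𝔪 : ((ℓ : ℕ) : RL ℓ) ∈ 𝔪) {z : ℤ} (hz : ((z : ℤ) : RL ℓ) ∈ 𝔪) : (ℓ : ℤ) ∣ z := by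
  by_contra hnd
  have hcop : IsCoprime (ℓ : ℤ) z :=
    (Nat.prime_iff_prime_int.mp hℓ).coprime_iff_not_dvd.mpr hnd
  obtain ⟨u, v, huv⟩ := hcop
  apply h𝔪
  rw [Ideal.eq_top_iff_one]
  have h1 : (1 : RL ℓ) = ((u : ℤ) : RL ℓ) * ((ℓ : ℕ) : RL ℓ) + ((v : ℤ) : RL ℓ) * ((z : ℤ) : RL ℓ) := by
    have := congrArg (Int.cast : ℤ → RL ℓ) huv
    push_cast at this
    exact this.symm
  rw [h1]
  exact 𝔪.add_mem (𝔪.mul_mem_left _ hℓ𝔪) (𝔪.mul_mem_left _ hz)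

theorem intCast_mem_iff (hℓ : ℓ.Prime) {𝔪 : Ideal (RL ℓ)} (h𝔪 : 𝔪 ≠ ⊤)
    (hℓ𝔪 : ((ℓ : ℕ) : RL ℓ) ∈ 𝔪) (z : ℤ) : ((z : ℤ) : RL ℓ) ∈ 𝔪 ↔ (ℓ : ℤ) ∣ z := by
  refine ⟨dvd_of_intCast_mem hℓ h𝔪 hℓ𝔪, ?_⟩
  rintro ⟨w, rfl⟩
  push_cast
  exact 𝔪.mul_mem_right _ hℓ𝔪

theorem natCast_mem_iff (hℓ : ℓ.Prime) {𝔪 : Ideal (RL ℓ)} (h𝔪 : 𝔪 ≠ ⊤)
    (hℓ𝔪 : ((ℓ : ℕ) : RL ℓ) ∈ 𝔪) (n : ℕ) : ((n : ℕ) : RL ℓ) ∈ 𝔪 ↔ ℓ ∣ n := by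
  have := intCast_mem_iff hℓ h𝔪 hℓ𝔪 (n : ℤ)
  rw [Int.natCast_dvd_natCast] at this
  rw [← this]
  simp

end

end Fermat.Agent.S16.RLFacts
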