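/-
S16 project, backup proof of `SDConstStmt` (lead): from the level-one Sturm bound modulo an ideal
and the Hecke operator `T₂` of the Prelude.  No von Staudt, no structure theorem.
-/
import Mathlib
import Fermat.Agent.S16.Defs
import Fermat.Agent.S16.L1
import Fermat.Agent.S16.LevelOneStruct
import Fermat.Agent.S16.SturmL1
import Fermat.Prelude.Thm_ModularFormClass_qCoeff_heckeT
import Fermat.Prelude.Thm_ModularForm_heckeT_slash_eq_self_of_mem_Gamma0
import Fermat.Prelude.Thm_ModularForm_mdifferentiable_heckeT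
import Fermat.Prelude.Thm_ModularFormClass_isBoundedAt_heckeT

set_option autoImplicit false

namespace Fermat.Agent.S16.SDHecke

open UpperHalfPlane CongruenceSubgroup ModularForm ModularFormClass
open scoped MatrixGroups ModularForm Manifold

theorem mem_Gamma0_one_of_mem_SL (γ : GL (Fin 2) ℝ) (hγ : γ ∈ 𝒮ℒ) :
    γ ∈ (Gamma0 1 : Subgroup (GL (Fin 2) ℝ)) := by
  obtain ⟨g, rfl⟩ := hγ
  refine ⟨g, ?_, rfl⟩
  simp [Gamma0_mem, eq_iff_true_of_subsingleton]

theorem mem_SL_of_mem_Gamma0_one (γ : GL (Fin 2) ℝ)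
    (hγ : γ ∈ (Gamma0 1 : Subgroup (GL (Fin 2) ℝ))) : γ ∈ 𝒮ℒ := by
  obtain ⟨g, -, rfl⟩ := hγ
  exact ⟨g, rfl⟩

/-- The Hecke operator `T₂` on level one forms of weight `κ`. -/
noncomputable def T2 (κ : ℤ) (F : ModularForm 𝒮ℒ κ) : ModularForm 𝒮ℒ κ where
  toFun := heckeT κ 2 F
  slash_action_eq' := fun γ hγ =>
    heckeT_slash_eq_self_of_mem_Gamma0 (N := 1) κ Nat.prime_two (by norm_num)
      (fun δ hδ => SlashInvariantFormClass.slash_action_eq F δ (mem_SL_of_mem_Gamma0_one δ hδ))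
      γ (mem_Gamma0_one_of_mem_SL γ hγ)
  holo' := mdifferentiable_heckeT (ModularFormClass.holo F) κ 2
  bdd_at_cusps' := fun hc => ModularFormClass.isBoundedAt_heckeT F 2 hc

theorem coe_T2 (κ : ℤ) (F : ModularForm 𝒮ℒ κ) : (T2 κ F : ℍ → ℂ) = heckeT κ 2 F := rfl

theorem coeff_T2 (κ : ℤ) (F : ModularForm 𝒮ℒ κ) (n : ℕ) :
    (qExpansion 1 (T2 κ F)).coeff n =
      (qExpansion 1 F).coeff (n * 2) +
        if 2 ∣ n then (2 : ℂ) ^ (κ - 1) * (qExpansion 1 F).coeff (n / 2) else 0 := by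
  have h := ModularFormClass.qCoeff_heckeT (k := κ) F (Γ := 𝒮ℒ) one_mem_strictPeriods_SL
    (p := 2) two_ne_zero n
  simpa [ModularFormClass.qCoeff, coeffHeckeT, coe_T2] using h

/-! ### The formal `T₂` on power series -/

section Formal

variable {A B : Type*} [CommRing A] [CommRing B]

/-- formal Hecke operator: `(TT w s)ₙ = s₂ₙ + [2 ∣ n] w s_{n/2}`. -/
noncomputable def TT (w : A) (s : PowerSeries A) : PowerSeries A :=
  PowerSeries.mk fun n => PowerSeries.coeff (n * 2) s +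
    if 2 ∣ n then w * PowerSeries.coeff (n / 2) s else 0

theorem coeff_TT (w : A) (s : PowerSeries A) (n : ℕ) :
    PowerSeries.coeff n (TT w s) = PowerSeries.coeff (n * 2) s +
      if 2 ∣ n then w * PowerSeries.coeff (n / 2) s else 0 := by
  simp [TT]

theorem map_TT (φ : A →+* B) (w : A) (s : PowerSeries A) :
    PowerSeries.map φ (TT w s) = TT (φ w) (PowerSeries.map φ s) := by
  ext n
  simp only [PowerSeries.coeff_map, coeff_TT]
  split_ifs <;> simp

theorem TT_C_mul (w a : A) (s : PowerSeries A) :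
    TT w (PowerSeries.C a * s) = PowerSeries.C a * TT w s := by
  ext n
  simp only [coeff_TT, PowerSeries.coeff_C_mul]
  split_ifs <;> ring

theorem coeff_key (w w' a : A) (s : PowerSeries A) (n : ℕ) :
    PowerSeries.coeff n (TT w (PowerSeries.C a * s) - PowerSeries.C a * TT w' s) =
      if 2 ∣ n then a * (w - w') * PowerSeries.coeff (n / 2) s else 0 := by
  rw [TT_C_mul, map_sub, PowerSeries.coeff_C_mul, PowerSeries.coeff_C_mul, coeff_TT, coeff_TT]
  split_ifs <;> ring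

end Formal

theorem qExpansion_T2 (κ : ℤ) (F : ModularForm 𝒮ℒ κ) :
    qExpansion 1 (T2 κ F) = TT ((2 : ℂ) ^ (κ - 1)) (qExpansion 1 F) := by
  ext n
  rw [coeff_T2, coeff_TT]

/-! ### Arithmetic: `2^(2ℓ^a) - 1` is prime to `ℓ ≥ 5` -/

theorem not_dvd_two_pow_sub_one {ℓ : ℕ} (hℓ : ℓ.Prime) (h5 : 5 ≤ ℓ) (a : ℕ) :
    ¬ ℓ ∣ 2 ^ (2 * ℓ ^ a) - 1 := by
  intro h
  have : Fact ℓ.Prime := ⟨hℓ⟩
  have h1 : ((2 ^ (2 * ℓ ^ a) - 1 : ℕ) : ZMod ℓ) = 0 := (ZMod.natCast_eq_zero_iff _ _).mpr h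
  have hpos : 1 ≤ 2 ^ (2 * ℓ ^ a) := Nat.one_le_two_pow
  rw [Nat.cast_sub hpos] at h1
  push_cast at h1
  have h2 : ((2 : ZMod ℓ) ^ 2) ^ (ℓ ^ a) = (2 : ZMod ℓ) ^ 2 := by
    have := ZMod.pow_card_pow (n := a) (p := ℓ) ((2 : ZMod ℓ) ^ 2)
    simpa using this
  rw [pow_mul, h2] at h1
  have h3 : ((3 : ℕ) : ZMod ℓ) = 0 := by
    have : (3 : ZMod ℓ) = 2 ^ 2 - 1 := by norm_num
    push_cast
    rw [this]; exact h1
  have h4 : ℓ ∣ 3 := (ZMod.natCast_eq_zero_iff _ _).mp h3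
  have := Nat.le_of_dvd (by norm_num) h4
  omega

theorem coprime_aux {ℓ : ℕ} (hℓ : ℓ.Prime) (h5 : 5 ≤ ℓ) (a m : ℕ) :
    Nat.Coprime (2 ^ m * (2 ^ (2 * ℓ ^ a) - 1)) ℓ := by
  rw [Nat.coprime_comm, Nat.Prime.coprime_iff_not_dvd hℓ]
  intro h
  rcases (Nat.Prime.dvd_mul hℓ).mp h with h | h
  · have h2 : ℓ ∣ 2 := hℓ.dvd_of_dvd_pow h
    have := Nat.le_of_dvd (by norm_num) h2
    omega
  · exact not_dvd_two_pow_sub_one hℓ h5 a h

/-! ### Main theorem -/

open PowerSeries in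
/-- **`SDConstStmt` from the Sturm bound and `T₂`.** -/
theorem main (st : SturmStmt) : SDConstStmt := by
  intro ℓ hℓ h5 𝔪 hmax hℓm a ha k hk e c hc hcm
  subst hk
  by_contra hc0
  have := hmax
  let ι : RL ℓ →+* ℂ := (RL ℓ).subtype
  let π : RL ℓ →+* (RL ℓ ⧸ 𝔪) := Ideal.Quotient.mk 𝔪
  let r : ℕ := 2 * ℓ ^ a + 1
  let ΔM : ModularForm 𝒮ℒ 12 := CuspForm.toModularFormₗ CuspForm.discriminant
  let D : ModularForm 𝒮ℒ ((r : ℤ) * 12) := ΔM.pow r
  let Xf : ModularForm 𝒮ℒ (2 * (ℓ : ℤ) ^ a + (r : ℤ) * 12) :=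
    T2 _ (e.mul D) - e.mul (T2 _ D)
  -- q-expansions over ℂ
  have hD : qExpansion 1 D = Dq ^ r := by
    show qExpansion 1 (ΔM.pow r) = _
    rw [ModularForm.qExpansion_pow one_pos one_mem_strictPeriods_SL]
    rfl
  have hX : qExpansion 1 Xf =
      TT ((2 : ℂ) ^ (2 * (ℓ : ℤ) ^ a + (r : ℤ) * 12 - 1)) (qExpansion 1 e * Dq ^ r) -
        qExpansion 1 e * TT ((2 : ℂ) ^ ((r : ℤ) * 12 - 1)) (Dq ^ r) := by
    show qExpansion 1 (⇑(T2 _ (e.mul D)) - ⇑(e.mul (T2 _ D))) = _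
    rw [ModularForm.qExpansion_sub one_pos one_mem_strictPeriods_SL, qExpansion_T2,
      ModularForm.qExpansion_mul one_pos one_mem_strictPeriods_SL,
      ModularForm.qExpansion_mul one_pos one_mem_strictPeriods_SL, qExpansion_T2, hD]
  -- the same over `RL ℓ`
  let εR : PowerSeries (RL ℓ) := PowerSeries.mk c
  let dR : PowerSeries (RL ℓ) := PowerSeries.map (Int.castRingHom (RL ℓ)) (L1.DZ ^ r)
  have hε : PowerSeries.map ι εR = qExpansion 1 e := by
    ext n
    simp [εR, ι, hc n]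
  have hd : PowerSeries.map ι dR = Dq ^ r := by
    have hcomp : PowerSeries.map ι (PowerSeries.map (Int.castRingHom (RL ℓ)) L1.DZ) =
        PowerSeries.map (Int.castRingHom ℂ) L1.DZ := by
      ext n
      simp [ι]
    rw [← L1.map_DZ]
    simp only [dR, map_pow, hcomp]
  let wK : RL ℓ := ((2 ^ (2 * ℓ ^ a + r * 12 - 1) : ℕ) : RL ℓ)
  let wm : RL ℓ := ((2 ^ (r * 12 - 1) : ℕ) : RL ℓ)
  have hwK : ι wK = (2 : ℂ) ^ (2 * (ℓ : ℤ) ^ a + (r : ℤ) * 12 - 1) := by
    have : (2 * (ℓ : ℤ) ^ a + (r : ℤ) * 12 - 1) = ((2 * ℓ ^ a + r * 12 - 1 : ℕ) : ℤ) := by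
      have h1 : 1 ≤ 2 * ℓ ^ a + r * 12 := by omega
      push_cast [Nat.cast_sub h1]
      ring
    rw [this, zpow_natCast]
    have h2 : ι wK = ((2 ^ (2 * ℓ ^ a + r * 12 - 1) : ℕ) : ℂ) := map_natCast (RL ℓ).subtype _
    rw [h2]
    push_cast
    rfl
  have hwm : ι wm = (2 : ℂ) ^ ((r : ℤ) * 12 - 1) := by
    have : ((r : ℤ) * 12 - 1) = ((r * 12 - 1 : ℕ) : ℤ) := by
      have h1 : 1 ≤ r * 12 := by omega
      push_cast [Nat.cast_sub h1]
      ring
    rw [this, zpow_natCast]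
    have h2 : ι wm = ((2 ^ (r * 12 - 1) : ℕ) : ℂ) := map_natCast (RL ℓ).subtype _
    rw [h2]
    push_cast
    rfl
  let XR : PowerSeries (RL ℓ) := TT wK (εR * dR) - εR * TT wm dR
  have hXR : PowerSeries.map ι XR = qExpansion 1 Xf := by
    rw [hX]
    simp only [XR, map_sub, map_mul, map_TT, hε, hd, hwK, hwm]
  -- coefficients of `dR`
  have hιinj : Function.Injective ι := Subtype.val_injective
  have hd_lt : ∀ j, j < r → PowerSeries.coeff j dR = 0 := by
    intro j hj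
    apply hιinj
    have : ι (PowerSeries.coeff j dR) = PowerSeries.coeff j (PowerSeries.map ι dR) := by simp
    rw [this, hd, map_zero]
    exact LevelOneStruct.coeff_discriminant_pow_of_lt hj
  have hd_self : PowerSeries.coeff r dR = 1 := by
    apply hιinj
    have : ι (PowerSeries.coeff r dR) = PowerSeries.coeff r (PowerSeries.map ι dR) := by simp
    rw [this, hd, map_one]
    exact LevelOneStruct.coeff_discriminant_pow_self r
  -- reduction mod 𝔪
  have hεπ : PowerSeries.map π εR = PowerSeries.C (π (c 0)) := by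
    ext n
    rcases Nat.eq_zero_or_pos n with rfl | hn
    · simp [εR]
    · have : π (c n) = 0 := Ideal.Quotient.eq_zero_iff_mem.mpr (hcm n hn)
      simp [εR, this, PowerSeries.coeff_C, Nat.pos_iff_ne_zero.mp hn]
  have hred : ∀ n, π (PowerSeries.coeff n XR) =
      if 2 ∣ n then π (c 0) * (π wK - π wm) * π (PowerSeries.coeff (n / 2) dR) else 0 := by
    intro n
    have h1 : π (PowerSeries.coeff n XR) = PowerSeries.coeff n (PowerSeries.map π XR) := by simp
    have hmap : PowerSeries.map π XR =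
        TT (π wK) (PowerSeries.C (π (c 0)) * PowerSeries.map π dR) -
          PowerSeries.C (π (c 0)) * TT (π wm) (PowerSeries.map π dR) := by
      simp only [XR, map_sub, map_mul, map_TT, hεπ]
    rw [h1, hmap, coeff_key]
    simp
  -- Sturm
  have hall := st ℓ 𝔪 (2 * (ℓ : ℤ) ^ a + (r : ℤ) * 12) Xf (fun n => PowerSeries.coeff n XR)
    (fun n => by rw [← hXR]; simp [ι])
    (fun n hn => by
      apply Ideal.Quotient.eq_zero_iff_mem.mp
      show π (PowerSeries.coeff n XR) = 0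
      rw [hred n]
      split_ifs with h2
      · have hlt : n / 2 < r := by
          have hn' : 12 * n ≤ 2 * ℓ ^ a + r * 12 := by exact_mod_cast hn
          omega
        rw [hd_lt _ hlt, map_zero, mul_zero]
      · rfl)
  have h2r := Ideal.Quotient.eq_zero_iff_mem.mpr (hall (2 * r))
  change π (PowerSeries.coeff (2 * r) XR) = 0 at h2r
  rw [hred (2 * r), if_pos (dvd_mul_right 2 r), Nat.mul_div_cancel_left r (by norm_num : 0 < 2),
    hd_self, map_one, mul_one] at h2r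
  rcases mul_eq_zero.mp h2r with h | h
  · exact hc0 (Ideal.Quotient.eq_zero_iff_mem.mp h)
  · -- `wK - wm ∈ 𝔪` contradicts coprimality with `ℓ`
    have hmem : wK - wm ∈ 𝔪 := by
      apply Ideal.Quotient.eq_zero_iff_mem.mp
      rw [map_sub]; exact h
    have hN : wK - wm = ((2 ^ (r * 12 - 1) * (2 ^ (2 * ℓ ^ a) - 1) : ℕ) : RL ℓ) := by
      have hpos : 1 ≤ 2 ^ (2 * ℓ ^ a) := Nat.one_le_two_pow
      have he : 2 * ℓ ^ a + r * 12 - 1 = (r * 12 - 1) + 2 * ℓ ^ a := by omega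
      simp only [wK, wm]
      rw [he, pow_add]
      push_cast [Nat.cast_sub hpos]
      ring
    rw [hN] at hmem
    have hcop := coprime_aux hℓ h5 a (r * 12 - 1)
    obtain ⟨u, v, huv⟩ := (Nat.isCoprime_iff_coprime.mpr hcop)
    have h1 : (1 : RL ℓ) ∈ 𝔪 := by
      have : (1 : RL ℓ) = (u : RL ℓ) * ((2 ^ (r * 12 - 1) * (2 ^ (2 * ℓ ^ a) - 1) : ℕ) : RL ℓ)
          + (v : RL ℓ) * ((ℓ : ℕ) : RL ℓ) := by
        have := congrArg (Int.cast : ℤ → RL ℓ) huv
        push_cast at this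
        push_cast
        rw [← this]
      rw [this]
      exact 𝔪.add_mem (𝔪.mul_mem_left _ hmem) (𝔪.mul_mem_left _ hℓm)
    exact hmax.ne_top ((Ideal.eq_top_iff_one 𝔪).mpr h1)

/-- `SDConstStmt`, unconditionally (with the landed `SturmL1.main`). -/
theorem sdConst : SDConstStmt := main SturmL1.main

end Fermat.Agent.S16.SDHecke
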