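/-
S16 project, package P8 (Sturm): the Sturm bound modulo an ideal in level one.

If the `q`-expansion coefficients `a_n`, `12 n ≤ k`, of a level one modular form of weight `k`
lie in an additive subgroup `J` of `ℂ`, then all coefficients lie in `J`
(`coeff_mem_addSubgroup`).  The interface statement `SturmStmt` of `Defs.lean` is the special
case where `J` is the image of an ideal of `RL ℓ` (`main`).

Proof: induction on the weight.  Subtract `a_0 • E₄^a E₆^b` (integral `q`-expansion with constant
term `1`), divide the resulting cusp form by `Δ` (Mathlib's `discriminantEquiv`) and use that the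
`q`-expansion of `Δ` is integral and starts with `q`.
-/
import Fermat.Agent.S16.Defs

set_option autoImplicit false

namespace Fermat.Agent.S16.Sturm

open UpperHalfPlane ModularForm CongruenceSubgroup
open scoped MatrixGroups ModularForm

/-- All coefficients of the power series are rational integers. -/
def IsIntPS (f : PowerSeries ℂ) : Prop := ∀ n, ∃ z : ℤ, PowerSeries.coeff n f = (z : ℂ)

theorem isIntPS_one : IsIntPS 1 := by
  intro n
  by_cases h : n = 0
  · exact ⟨1, by simp [h]⟩
  · exact ⟨0, by simp [PowerSeries.coeff_one, h]⟩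

theorem IsIntPS.mul {f g : PowerSeries ℂ} (hf : IsIntPS f) (hg : IsIntPS g) :
    IsIntPS (f * g) := by
  intro n
  rw [PowerSeries.coeff_mul]
  choose a ha using hf
  choose b hb using hg
  refine ⟨∑ p ∈ Finset.HasAntidiagonal.antidiagonal n, a p.1 * b p.2, ?_⟩
  push_cast
  exact Finset.sum_congr rfl fun p _ => by rw [ha, hb]

theorem IsIntPS.pow {f : PowerSeries ℂ} (hf : IsIntPS f) (n : ℕ) : IsIntPS (f ^ n) := by
  induction n with
  | zero => simpa using isIntPS_one
  | succ n ih => rw [pow_succ]; exact ih.mul hf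

theorem isIntPS_E4q (l1 : L1Facts) : IsIntPS E4q := by
  intro n
  rw [l1.E4q_eq]
  refine ⟨(if n = 0 then 1 else 0) + 240 * (ArithmeticFunction.sigma 3 n : ℤ), ?_⟩
  simp only [map_add, PowerSeries.coeff_one, PowerSeries.coeff_C_mul, Sq, PowerSeries.coeff_mk]
  split_ifs <;> push_cast <;> ring

theorem isIntPS_E6q (l1 : L1Facts) : IsIntPS E6q := by
  intro n
  rw [l1.E6q_eq]
  refine ⟨(if n = 0 then 1 else 0) - 504 * (ArithmeticFunction.sigma 5 n : ℤ), ?_⟩
  simp only [map_sub, PowerSeries.coeff_one, PowerSeries.coeff_C_mul, Sq, PowerSeries.coeff_mk]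
  split_ifs <;> push_cast <;> ring

theorem coeff_zero_E4q (l1 : L1Facts) : PowerSeries.coeff 0 E4q = 1 := by
  rw [l1.E4q_eq]
  simp [Sq]

theorem coeff_zero_E6q (l1 : L1Facts) : PowerSeries.coeff 0 E6q = 1 := by
  rw [l1.E6q_eq]
  simp [Sq]

/-- The form `E₄^a E₆^b`: integral `q`-expansion with constant term `1`. -/
theorem exists_intForm (l1 : L1Facts) (a b : ℕ) :
    ∃ E : ModularForm 𝒮ℒ ((a : ℤ) * 4 + (b : ℤ) * 6),
      PowerSeries.coeff 0 (qExpansion 1 E) = 1 ∧ IsIntPS (qExpansion 1 E) := by
  refine ⟨(ModularForm.E₄.pow a).mul (ModularForm.E₆.pow b), ?_, ?_⟩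
  · rw [ModularForm.qExpansion_mul one_pos one_mem_strictPeriods_SL,
      ModularForm.qExpansion_pow one_pos one_mem_strictPeriods_SL,
      ModularForm.qExpansion_pow one_pos one_mem_strictPeriods_SL]
    have h4 := coeff_zero_E4q l1
    have h6 := coeff_zero_E6q l1
    simp only [E4q, E6q, PowerSeries.coeff_zero_eq_constantCoeff] at h4 h6
    simp [h4, h6]
  · rw [ModularForm.qExpansion_mul one_pos one_mem_strictPeriods_SL,
      ModularForm.qExpansion_pow one_pos one_mem_strictPeriods_SL,
      ModularForm.qExpansion_pow one_pos one_mem_strictPeriods_SL]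
    exact ((isIntPS_E4q l1).pow a).mul ((isIntPS_E6q l1).pow b)

/-- Multiplication by an integral series preserves "all coefficients in `J`". -/
theorem coeff_mul_mem (J : AddSubgroup ℂ) {D f : PowerSeries ℂ} (hD : IsIntPS D)
    (hf : ∀ n, PowerSeries.coeff n f ∈ J) : ∀ n, PowerSeries.coeff n (D * f) ∈ J := by
  intro n
  rw [PowerSeries.coeff_mul]
  refine J.sum_mem fun p _ => ?_
  obtain ⟨z, hz⟩ := hD p.1
  rw [hz, ← zsmul_eq_mul]
  exact J.zsmul_mem (hf _) z

/-- Division by an integral series `D = q + ...`: if the coefficients `n ≤ N + 1` of `D * f`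
lie in `J`, then the coefficients `n ≤ N` of `f` lie in `J`. -/
theorem coeff_mem_of_mul (J : AddSubgroup ℂ) {D f : PowerSeries ℂ} (hD : IsIntPS D)
    (hD0 : PowerSeries.coeff 0 D = 0) (hD1 : PowerSeries.coeff 1 D = 1) (N : ℕ)
    (hg : ∀ n, n ≤ N + 1 → PowerSeries.coeff n (D * f) ∈ J) :
    ∀ n, n ≤ N → PowerSeries.coeff n f ∈ J := by
  intro n
  induction n using Nat.strong_induction_on with
  | _ n ih =>
    intro hn
    have h1 := hg (n + 1) (by omega)
    rw [PowerSeries.coeff_mul, Finset.Nat.antidiagonal_succ, Finset.sum_cons, hD0, zero_mul,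
      zero_add, Finset.sum_map,
      ← Finset.add_sum_erase _ _ (show (0, n) ∈ Finset.HasAntidiagonal.antidiagonal n by simp)] at h1
    simp only [Function.Embedding.prodMap, Function.Embedding.coeFn_mk, Prod.map_fst,
      Prod.map_snd, Function.Embedding.refl_apply, Nat.succ_eq_add_one, zero_add, hD1,
      one_mul] at h1
    have h2 : ∑ x ∈ (Finset.HasAntidiagonal.antidiagonal n).erase (0, n),
        PowerSeries.coeff (x.1 + 1) D * PowerSeries.coeff x.2 f ∈ J := by
      refine J.sum_mem fun x hx => ?_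
      obtain ⟨z, hz⟩ := hD (x.1 + 1)
      rw [hz, ← zsmul_eq_mul]
      rw [Finset.mem_erase, Finset.HasAntidiagonal.mem_antidiagonal] at hx
      obtain ⟨hne, hsum⟩ := hx
      have hlt : x.2 < n := by
        by_contra hcon
        apply hne
        ext <;> simp <;> omega
      exact J.zsmul_mem (ih x.2 hlt (by omega)) z
    have h3 := J.sub_mem h1 h2
    simpa using h3

theorem isIntPS_discriminant (l1 : L1Facts) :
    IsIntPS (qExpansion 1 ModularForm.discriminant) := by
  have h := l1.Dq_int
  simpa [Dq, CuspForm.coe_discriminant, IsIntPS] using h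

/-- **Level one Sturm bound for an additive subgroup**, auxiliary inductive form. -/
theorem coeff_mem_aux (l1 : L1Facts) (J : AddSubgroup ℂ) :
    ∀ (m : ℕ) (k : ℤ), k < 12 * (m : ℤ) → ∀ F : ModularForm 𝒮ℒ k,
      (∀ n : ℕ, 12 * (n : ℤ) ≤ k → PowerSeries.coeff n (qExpansion 1 F) ∈ J) →
      ∀ n, PowerSeries.coeff n (qExpansion 1 F) ∈ J := by
  have zero_case : ∀ (k : ℤ) (F : ModularForm 𝒮ℒ k), F = 0 →
      ∀ n, PowerSeries.coeff n (qExpansion 1 F) ∈ J := by
    intro k F hF n
    subst hF
    rw [FunLike.coe_zero, qExpansion_zero]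
    simp
  intro m
  induction m with
  | zero =>
    intro k hk F _
    refine zero_case k F ?_
    have := ModularFormClass.levelOne_neg_weight_eq_zero (by simpa using hk) F
    exact DFunLike.coe_injective (by simpa using this)
  | succ m ih =>
    intro k hk F hF
    rcases lt_or_ge k 0 with hneg | hnn
    · refine zero_case k F ?_
      have := ModularFormClass.levelOne_neg_weight_eq_zero hneg F
      exact DFunLike.coe_injective (by simpa using this)
    rcases Int.even_or_odd k with hev | hodd
    swap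
    · exact zero_case k F (ModularForm.levelOne_odd_weight_eq_zero hodd F)
    by_cases h2 : k = 2
    · subst h2
      exact zero_case 2 F (l1.wt2 F)
    obtain ⟨a, b, hab⟩ : ∃ a b : ℕ, (a : ℤ) * 4 + (b : ℤ) * 6 = k := by
      obtain ⟨j, hj⟩ := hev
      rcases Int.even_or_odd j with ⟨i, hi⟩ | ⟨i, hi⟩
      · exact ⟨i.toNat, 0, by omega⟩
      · exact ⟨(i - 1).toNat, 1, by omega⟩
    subst hab
    obtain ⟨E0, hE0, hEint⟩ := exists_intForm l1 a b
    have ha0 : PowerSeries.coeff 0 (qExpansion 1 F) ∈ J := hF 0 (by simpa using hnn)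
    set a0 := PowerSeries.coeff 0 (qExpansion 1 F) with ha0def
    have hsmul : ∀ j, a0 * PowerSeries.coeff j (qExpansion 1 E0) ∈ J := by
      intro j
      obtain ⟨z, hz⟩ := hEint j
      rw [hz, mul_comm, ← zsmul_eq_mul]
      exact J.zsmul_mem ha0 z
    obtain ⟨G, hG⟩ : ∃ G : ModularForm 𝒮ℒ ((a : ℤ) * 4 + (b : ℤ) * 6), G = F - a0 • E0 := ⟨_, rfl⟩
    have hGq : qExpansion 1 (⇑G) = qExpansion 1 (⇑F) - a0 • qExpansion 1 (⇑E0) := by
      rw [hG, FunLike.coe_sub,
        ModularForm.qExpansion_sub one_pos one_mem_strictPeriods_SL,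
        FunLike.coe_smul,
        ModularForm.qExpansion_smul one_pos one_mem_strictPeriods_SL]
    have hG0 : PowerSeries.coeff 0 (qExpansion 1 (⇑G)) = 0 := by
      rw [hGq, map_sub, PowerSeries.coeff_smul, hE0, smul_eq_mul, mul_one, sub_self]
    have hfac := ModularForm.qExpansion_eq_qExpansion_discriminant_mul G hG0
    have hD := isIntPS_discriminant l1
    have hD0 : PowerSeries.coeff 0 (qExpansion 1 ModularForm.discriminant) = 0 := by
      simpa [Dq, CuspForm.coe_discriminant] using l1.Dq_zero
    have hD1 : PowerSeries.coeff 1 (qExpansion 1 ModularForm.discriminant) = 1 := by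
      simpa [Dq, CuspForm.coe_discriminant] using l1.Dq_one
    have hF'all : ∀ n, PowerSeries.coeff n (qExpansion 1
        (⇑(CuspForm.discriminantEquiv (ModularForm.toCuspForm G hG0)))) ∈ J := by
      refine ih _ (by push_cast at hk ⊢; omega) _ ?_
      intro n hn
      refine coeff_mem_of_mul J hD hD0 hD1 n ?_ n le_rfl
      intro j hj
      rw [← hfac, hGq, map_sub, PowerSeries.coeff_smul, smul_eq_mul]
      exact J.sub_mem (hF j (by omega)) (hsmul j)
    have hGall := coeff_mul_mem J hD hF'all
    rw [← hfac, hGq] at hGall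
    intro n
    have h3 := J.add_mem (hGall n) (hsmul n)
    rw [map_sub, PowerSeries.coeff_smul, smul_eq_mul, sub_add_cancel] at h3
    exact h3

/-- **Level one Sturm bound for an additive subgroup of `ℂ`**: if the coefficients `a_n`,
`12 n ≤ k`, of a level one form of weight `k` lie in `J`, then all coefficients do. -/
theorem coeff_mem_addSubgroup (l1 : L1Facts) (J : AddSubgroup ℂ) (k : ℤ)
    (F : ModularForm 𝒮ℒ k)
    (hF : ∀ n : ℕ, 12 * (n : ℤ) ≤ k → PowerSeries.coeff n (qExpansion 1 F) ∈ J) (n : ℕ) :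
    PowerSeries.coeff n (qExpansion 1 F) ∈ J :=
  coeff_mem_aux l1 J (k.toNat + 1) k (by omega) F hF n

/-- **P8**: the Sturm bound modulo an ideal of `RL ℓ` in level one. -/
theorem main (l1 : L1Facts) : SturmStmt := by
  intro ℓ I k F c hc hI n
  let J : AddSubgroup ℂ := (I.toAddSubgroup).map ((RL ℓ).subtype : RL ℓ →+ ℂ)
  have key : ∀ x : RL ℓ, (x : ℂ) ∈ J ↔ x ∈ I := by
    intro x
    constructor
    · rintro ⟨y, hy, hxy⟩
      have hyx : y = x := Subtype.ext hxy
      exact hyx ▸ hy
    · intro hx
      exact ⟨x, hx, rfl⟩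
  have h := coeff_mem_addSubgroup l1 J k F
    (fun n hn => by rw [hc n]; exact (key _).2 (hI n hn)) n
  rw [hc n] at h
  exact (key _).1 h

end Fermat.Agent.S16.Sturm
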