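/-
S16 / P13 (TransferT), part A: coset bookkeeping for the Hecke operator `T_ℓ` on `Γ₀(p)`.
Pure integer matrices: representatives `D i` (`[1 j; 0 ℓ]`, `j < ℓ`, and `[ℓ 0; 0 1]`),
decomposition `D i * g = K * D i'`, the induced permutation, and the product of the lower right
entries modulo `p`.
-/
import Mathlib
import Fermat.Agent.S16.Defs

set_option autoImplicit false

namespace Fermat.Agent.S16.TransferTCoset

open Matrix CongruenceSubgroup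
open scoped MatrixGroups

/-- Integer coset representatives of `T_ℓ`: `[1 j; 0 ℓ]` for `j < ℓ` and `[ℓ 0; 0 1]` for the last
index. -/
def D (ℓ : ℕ) (i : Fin (ℓ + 1)) : Matrix (Fin 2) (Fin 2) ℤ :=
  if (i : ℕ) < ℓ then !![1, ((i : ℕ) : ℤ); 0, (ℓ : ℤ)] else !![(ℓ : ℤ), 0; 0, 1]

theorem D_of_lt {ℓ : ℕ} {i : Fin (ℓ + 1)} (h : (i : ℕ) < ℓ) :
    D ℓ i = !![1, ((i : ℕ) : ℤ); 0, (ℓ : ℤ)] := if_pos h

theorem D_of_not_lt {ℓ : ℕ} {i : Fin (ℓ + 1)} (h : ¬ (i : ℕ) < ℓ) :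
    D ℓ i = !![(ℓ : ℤ), 0; 0, 1] := if_neg h

theorem D_one_zero (ℓ : ℕ) (i : Fin (ℓ + 1)) : D ℓ i 1 0 = 0 := by
  unfold D; split_ifs <;> simp

/-- Solving `u * j ≡ w mod ℓ` when `ℓ ∤ u`. -/
theorem exists_lt_dvd {ℓ : ℕ} (hℓ : ℓ.Prime) {u : ℤ} (hu : ¬ (ℓ : ℤ) ∣ u) (w : ℤ) :
    ∃ j : ℕ, j < ℓ ∧ (ℓ : ℤ) ∣ w - u * j := by
  have : Fact ℓ.Prime := ⟨hℓ⟩
  have hu' : ((u : ℤ) : ZMod ℓ) ≠ 0 := by
    rwa [Ne, ZMod.intCast_zmod_eq_zero_iff_dvd]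
  refine ⟨(((w : ℤ) : ZMod ℓ) * ((u : ℤ) : ZMod ℓ)⁻¹).val, ZMod.val_lt _, ?_⟩
  rw [← ZMod.intCast_zmod_eq_zero_iff_dvd]
  push_cast
  rw [ZMod.natCast_zmod_val]
  field_simp
  ring

theorem exists_decomp_aux {ℓ : ℕ} (hℓ : ℓ.Prime) (a b c d : ℤ) (hdet : a * d - b * c = 1)
    (i : Fin (ℓ + 1)) :
    ∃ (i' : Fin (ℓ + 1)) (K : Matrix (Fin 2) (Fin 2) ℤ),
      K.det = 1 ∧ D ℓ i * !![a, b; c, d] = K * D ℓ i' := by
  have hlast : ¬ ((Fin.last ℓ : Fin (ℓ + 1)) : ℕ) < ℓ := by simp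
  by_cases hi : (i : ℕ) < ℓ
  · -- finite index `j`
    rw [D_of_lt hi]
    generalize ((i : ℕ) : ℤ) = j
    by_cases hu : (ℓ : ℤ) ∣ a + j * c
    · obtain ⟨u', hu'⟩ := hu
      refine ⟨Fin.last ℓ, !![u', b + j * d; c, ℓ * d], ?_, ?_⟩
      · rw [Matrix.det_fin_two_of]
        linear_combination hdet - d * hu'
      · rw [D_of_not_lt hlast]
        ext x y; fin_cases x <;> fin_cases y <;>
          simp [Matrix.mul_apply, Fin.sum_univ_two] <;>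
          first | ring1 | linear_combination hu'
    · obtain ⟨j', hj', y, hy⟩ := exists_lt_dvd hℓ hu (b + j * d)
      refine ⟨⟨j', by omega⟩, !![a + j * c, y; ℓ * c, d - c * j'], ?_, ?_⟩
      · rw [Matrix.det_fin_two_of]
        linear_combination hdet + c * hy
      · have hj'' : ((⟨j', by omega⟩ : Fin (ℓ + 1)) : ℕ) < ℓ := hj'
        rw [D_of_lt hj'']
        ext x y; fin_cases x <;> fin_cases y <;>
          simp [Matrix.mul_apply, Fin.sum_univ_two] <;>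
          first | ring1 | linear_combination hy
  · -- the index `∞`
    rw [D_of_not_lt hi]
    by_cases hc : (ℓ : ℤ) ∣ c
    · obtain ⟨c', hc'⟩ := hc
      refine ⟨Fin.last ℓ, !![a, ℓ * b; c', d], ?_, ?_⟩
      · rw [Matrix.det_fin_two_of]
        linear_combination hdet + b * hc'
      · rw [D_of_not_lt hlast]
        ext x y; fin_cases x <;> fin_cases y <;>
          simp [Matrix.mul_apply, Fin.sum_univ_two] <;>
          first | ring1 | linear_combination hc'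
    · obtain ⟨j', hj', t, ht⟩ := exists_lt_dvd hℓ hc d
      refine ⟨⟨j', by omega⟩, !![ℓ * a, b - a * j'; c, t], ?_, ?_⟩
      · rw [Matrix.det_fin_two_of]
        linear_combination hdet - a * ht
      · have hj'' : ((⟨j', by omega⟩ : Fin (ℓ + 1)) : ℕ) < ℓ := hj'
        rw [D_of_lt hj'']
        ext x y; fin_cases x <;> fin_cases y <;>
          simp [Matrix.mul_apply, Fin.sum_univ_two] <;>
          first | ring1 | linear_combination ht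

/-- Existence of the decomposition `D i * g = K * D i'`. -/
theorem exists_decomp {ℓ : ℕ} (hℓ : ℓ.Prime) (g : Matrix (Fin 2) (Fin 2) ℤ) (hg : g.det = 1)
    (i : Fin (ℓ + 1)) :
    ∃ (i' : Fin (ℓ + 1)) (K : Matrix (Fin 2) (Fin 2) ℤ), K.det = 1 ∧ D ℓ i * g = K * D ℓ i' := by
  have hdet : g 0 0 * g 1 1 - g 0 1 * g 1 0 = 1 := by rw [← hg, Matrix.det_fin_two]
  have hgeta : g = !![g 0 0, g 0 1; g 1 0, g 1 1] := by
    ext a b; fin_cases a <;> fin_cases b <;> rfl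
  rw [hgeta]
  exact exists_decomp_aux hℓ _ _ _ _ hdet i

/-- The representatives lie in distinct left cosets. -/
theorem D_unique {ℓ : ℕ} (hℓ : 2 ≤ ℓ) {i i' : Fin (ℓ + 1)} (M : Matrix (Fin 2) (Fin 2) ℤ)
    (h : D ℓ i = M * D ℓ i') : i = i' := by
  by_cases hi : (i : ℕ) < ℓ <;> by_cases hi' : (i' : ℕ) < ℓ
  · rw [D_of_lt hi, D_of_lt hi'] at h
    have h00 := congrFun (congrFun h 0) 0
    have h01 := congrFun (congrFun h 0) 1
    simp [Matrix.mul_apply, Fin.sum_univ_two] at h00 h01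
    have hdvd : (ℓ : ℤ) ∣ ((i' : ℕ) : ℤ) - ((i : ℕ) : ℤ) := ⟨-M 0 1, by rw [h01, ← h00]; ring⟩
    have hmod : (i : ℕ) ≡ (i' : ℕ) [MOD ℓ] := by
      rw [← Int.natCast_modEq_iff]; exact Int.modEq_iff_dvd.mpr hdvd
    exact Fin.ext (Nat.ModEq.eq_of_lt_of_lt hmod hi hi')
  · exfalso
    rw [D_of_lt hi, D_of_not_lt hi'] at h
    have h00 := congrFun (congrFun h 0) 0
    simp [Matrix.mul_apply, Fin.sum_univ_two] at h00
    have hdvd : (ℓ : ℤ) ∣ 1 := ⟨M 0 0, by rw [h00]; ring⟩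
    have := Int.le_of_dvd one_pos hdvd
    omega
  · exfalso
    rw [D_of_not_lt hi, D_of_lt hi'] at h
    have h10 := congrFun (congrFun h 1) 0
    have h11 := congrFun (congrFun h 1) 1
    simp [Matrix.mul_apply, Fin.sum_univ_two] at h10 h11
    have hdvd : (ℓ : ℤ) ∣ 1 := ⟨M 1 1, by rw [h11, ← h10]; ring⟩
    have := Int.le_of_dvd one_pos hdvd
    omega
  · apply Fin.ext
    have := i.2
    have := i'.2
    omega

theorem eq_of_decomp {ℓ : ℕ} (hℓ : 2 ≤ ℓ) {g K K' : Matrix (Fin 2) (Fin 2) ℤ} (hg : g.det = 1)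
    (hK' : K'.det = 1) {i i' t : Fin (ℓ + 1)} (h : D ℓ i * g = K * D ℓ t)
    (h' : D ℓ i' * g = K' * D ℓ t) : i = i' := by
  apply D_unique hℓ (K * K'.adjugate)
  have h1 : D ℓ t = K'.adjugate * (D ℓ i' * g) := by
    rw [h', ← Matrix.mul_assoc, Matrix.adjugate_mul, hK', one_smul, Matrix.one_mul]
  have h2 : D ℓ i = D ℓ i * g * g.adjugate := by
    rw [Matrix.mul_assoc, Matrix.mul_adjugate, hg, one_smul, Matrix.mul_one]
  rw [h2, h, h1]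
  simp only [Matrix.mul_assoc]
  rw [Matrix.mul_adjugate, hg, one_smul, Matrix.mul_one]

section Defs

variable {ℓ : ℕ} (hℓ : ℓ.Prime)

/-- The target index of `i` under right multiplication by `g`. -/
noncomputable def idx (g : SL(2, ℤ)) (i : Fin (ℓ + 1)) : Fin (ℓ + 1) :=
  (exists_decomp hℓ g.1 g.2 i).choose

/-- The transfer element: `D i * g = kSL g i * D (idx g i)`. -/
noncomputable def kSL (g : SL(2, ℤ)) (i : Fin (ℓ + 1)) : SL(2, ℤ) :=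
  ⟨(exists_decomp hℓ g.1 g.2 i).choose_spec.choose,
    (exists_decomp hℓ g.1 g.2 i).choose_spec.choose_spec.1⟩

theorem D_mul (g : SL(2, ℤ)) (i : Fin (ℓ + 1)) :
    D ℓ i * (g : Matrix (Fin 2) (Fin 2) ℤ)
      = (kSL hℓ g i : Matrix (Fin 2) (Fin 2) ℤ) * D ℓ (idx hℓ g i) :=
  (exists_decomp hℓ g.1 g.2 i).choose_spec.choose_spec.2

theorem idx_injective (g : SL(2, ℤ)) : Function.Injective (idx hℓ g) := by
  intro i i' h
  refine eq_of_decomp hℓ.two_le g.2 (kSL hℓ g i').2 (D_mul hℓ g i) ?_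
  rw [h]
  exact D_mul hℓ g i'

/-- The permutation of the index set induced by `g`. -/
noncomputable def perm (g : SL(2, ℤ)) : Equiv.Perm (Fin (ℓ + 1)) :=
  Equiv.ofBijective (idx hℓ g) (Finite.injective_iff_bijective.mp (idx_injective hℓ g))

@[simp] theorem perm_apply (g : SL(2, ℤ)) (i : Fin (ℓ + 1)) : perm hℓ g i = idx hℓ g i := rfl

variable {p : ℕ} [Fact p.Prime]

include hℓ in
theorem D_zero_zero_ne (hℓp : ℓ ≠ p) (i : Fin (ℓ + 1)) : ((D ℓ i 0 0 : ℤ) : ZMod p) ≠ 0 := by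
  have hℓ0 : ((ℓ : ℕ) : ZMod p) ≠ 0 := by
    rw [Ne, ZMod.natCast_eq_zero_iff]
    intro h
    exact hℓp ((Nat.prime_dvd_prime_iff_eq Fact.out hℓ).mp h).symm
  unfold D; split_ifs <;> simp [hℓ0]

include hℓ in
theorem D_one_one_ne (hℓp : ℓ ≠ p) (i : Fin (ℓ + 1)) : ((D ℓ i 1 1 : ℤ) : ZMod p) ≠ 0 := by
  have hℓ0 : ((ℓ : ℕ) : ZMod p) ≠ 0 := by
    rw [Ne, ZMod.natCast_eq_zero_iff]
    intro h
    exact hℓp ((Nat.prime_dvd_prime_iff_eq Fact.out hℓ).mp h).symm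
  unfold D; split_ifs <;> simp [hℓ0]

theorem kSL_mem_Gamma0 (hℓp : ℓ ≠ p) {g : SL(2, ℤ)} (hg : g ∈ Gamma0 p) (i : Fin (ℓ + 1)) :
    kSL hℓ g i ∈ Gamma0 p := by
  rw [Gamma0_mem] at hg ⊢
  have h := congrFun (congrFun (D_mul hℓ g i) 1) 0
  simp only [Matrix.mul_apply, Fin.sum_univ_two, D_one_zero, zero_mul, zero_add, mul_zero,
    add_zero] at h
  have h' := congrArg (Int.cast : ℤ → ZMod p) h
  push_cast at h'
  rw [hg, mul_zero] at h'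
  exact (mul_eq_zero.mp h'.symm).resolve_right (D_zero_zero_ne hℓ hℓp _)

/-- The transfer elements in `Γ₀(p)`. -/
noncomputable def kG (hℓp : ℓ ≠ p) (i : Fin (ℓ + 1)) (γ : Gamma0 p) : Gamma0 p :=
  ⟨kSL hℓ γ.1 i, kSL_mem_Gamma0 hℓ hℓp γ.2 i⟩

@[simp] theorem kG_coe (hℓp : ℓ ≠ p) (i : Fin (ℓ + 1)) (γ : Gamma0 p) :
    ((kG hℓ hℓp i γ : Gamma0 p) : SL(2, ℤ)) = kSL hℓ γ.1 i := rfl

theorem lower_right (hℓp : ℓ ≠ p) (i : Fin (ℓ + 1)) (γ : Gamma0 p) :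
    Gamma0Map p (kG hℓ hℓp i γ) * ((D ℓ (idx hℓ γ.1 i) 1 1 : ℤ) : ZMod p)
      = ((D ℓ i 1 1 : ℤ) : ZMod p) * Gamma0Map p γ := by
  have hk := kSL_mem_Gamma0 hℓ hℓp γ.2 i
  rw [Gamma0_mem] at hk
  have h := congrFun (congrFun (D_mul hℓ γ.1 i) 1) 1
  simp only [Matrix.mul_apply, Fin.sum_univ_two, D_one_zero, zero_mul, zero_add] at h
  have h' := congrArg (Int.cast : ℤ → ZMod p) h
  push_cast at h'
  rw [hk, zero_mul, zero_add] at h'
  exact h'.symm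

theorem prod_lower_right (hℓp : ℓ ≠ p) (γ : Gamma0 p) :
    ∏ i, Gamma0Map p (kG hℓ hℓp i γ) = Gamma0Map p γ ^ (ℓ + 1) := by
  have h1 : (∏ i, Gamma0Map p (kG hℓ hℓp i γ)) * ∏ i, ((D ℓ (perm hℓ γ.1 i) 1 1 : ℤ) : ZMod p)
      = (∏ i : Fin (ℓ + 1), ((D ℓ i 1 1 : ℤ) : ZMod p)) * Gamma0Map p γ ^ (ℓ + 1) := by
    rw [← Finset.prod_mul_distrib]
    simp only [perm_apply, lower_right hℓ hℓp]
    rw [Finset.prod_mul_distrib, Finset.prod_const, Finset.card_univ, Fintype.card_fin]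
  rw [Equiv.prod_comp (perm hℓ γ.1) (fun i => ((D ℓ i 1 1 : ℤ) : ZMod p)), mul_comm] at h1
  exact mul_left_cancel₀ (Finset.prod_ne_zero_iff.mpr fun i _ => D_one_one_ne hℓ hℓp i) h1

end Defs

section Real

open ModularForm

/-- The real coset representatives of `T_ℓ`: `heckeMatrix ℓ j` (`j < ℓ`) and `heckeDiagMatrix ℓ`. -/
noncomputable def delta (ℓ : ℕ) (i : Fin (ℓ + 1)) : GL (Fin 2) ℝ :=
  if (i : ℕ) < ℓ then heckeMatrix ℓ i else heckeDiagMatrix ℓ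

theorem delta_of_lt {ℓ : ℕ} {i : Fin (ℓ + 1)} (h : (i : ℕ) < ℓ) :
    delta ℓ i = heckeMatrix ℓ i := if_pos h

theorem delta_of_not_lt {ℓ : ℕ} {i : Fin (ℓ + 1)} (h : ¬ (i : ℕ) < ℓ) :
    delta ℓ i = heckeDiagMatrix ℓ := if_neg h

theorem delta_castSucc {ℓ : ℕ} (j : Fin ℓ) : delta ℓ j.castSucc = heckeMatrix ℓ j :=
  delta_of_lt (by simp)

theorem delta_last (ℓ : ℕ) : delta ℓ (Fin.last ℓ) = heckeDiagMatrix ℓ :=
  delta_of_not_lt (by simp)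

theorem coe_delta {ℓ : ℕ} (hℓ : ℓ ≠ 0) (i : Fin (ℓ + 1)) :
    ((delta ℓ i : GL (Fin 2) ℝ) : Matrix (Fin 2) (Fin 2) ℝ)
      = (D ℓ i).map (Int.cast : ℤ → ℝ) := by
  by_cases h : (i : ℕ) < ℓ
  · rw [delta_of_lt h, D_of_lt h, val_heckeMatrix hℓ]
    ext a b; fin_cases a <;> fin_cases b <;> simp
  · rw [delta_of_not_lt h, D_of_not_lt h, val_heckeDiagMatrix hℓ]
    ext a b; fin_cases a <;> fin_cases b <;> simp

/-- `hdelta` of `PeriodHecke.periodMap_sum`. -/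
theorem hdelta {ℓ : ℕ} (hℓ : ℓ ≠ 0) (i : Fin (ℓ + 1)) :
    ∃ a b d : ℤ, 0 < a ∧ 0 < d ∧
      ((delta ℓ i : GL (Fin 2) ℝ) : Matrix (Fin 2) (Fin 2) ℝ)
        = !![(a : ℝ), (b : ℝ); 0, (d : ℝ)] := by
  have hpos : (0 : ℤ) < ℓ := by exact_mod_cast Nat.pos_of_ne_zero hℓ
  by_cases h : (i : ℕ) < ℓ
  · refine ⟨1, ((i : ℕ) : ℤ), ℓ, one_pos, hpos, ?_⟩
    rw [delta_of_lt h, val_heckeMatrix hℓ]; simp
  · refine ⟨ℓ, 0, 1, hpos, one_pos, ?_⟩
    rw [delta_of_not_lt h, val_heckeDiagMatrix hℓ]; simp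

variable {ℓ : ℕ} (hℓ : ℓ.Prime) {p : ℕ} [Fact p.Prime]

/-- `hk` of `PeriodHecke.periodMap_sum`. -/
theorem hk (hℓp : ℓ ≠ p) (i : Fin (ℓ + 1)) (γ : Gamma0 p) :
    delta ℓ i * Matrix.SpecialLinearGroup.mapGL ℝ (γ : SL(2, ℤ)) =
      Matrix.SpecialLinearGroup.mapGL ℝ ((kG hℓ hℓp i γ : Gamma0 p) : SL(2, ℤ))
        * delta ℓ (perm hℓ γ.1 i) := by
  apply Units.ext
  rw [Units.val_mul, Units.val_mul, coe_delta hℓ.ne_zero, coe_delta hℓ.ne_zero,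
    Matrix.SpecialLinearGroup.mapGL_coe_matrix, Matrix.SpecialLinearGroup.mapGL_coe_matrix]
  have h := congrArg (fun M : Matrix (Fin 2) (Fin 2) ℤ => M.map (Int.cast : ℤ → ℝ))
    (D_mul hℓ γ.1 i)
  simp only [Matrix.map_mul_intCast] at h
  exact h

end Real

section Hecke

open ModularForm CuspForm UpperHalfPlane
open scoped ModularForm

/-- `T_ℓ f = ∑ i, f ∣[2] δ i` (`hT` of `TransferGen.main`). -/
theorem heckeTop_apply (p : ℕ) [NeZero p] (ℓ : Nat.Primes) (h : ¬ (ℓ : ℕ) ∣ p)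
    (f : CuspForm (Gamma0 p) 2) (z : ℍ) :
    heckeTop p ℓ f z = ∑ i, ((f : ℍ → ℂ) ∣[(2 : ℤ)] delta (ℓ : ℕ) i) z := by
  have h1 : heckeTop p ℓ = CuspForm.heckeTLin 2 ℓ.2 h := by
    unfold heckeTop
    rw [heckeFormsGen_of_not_dvd h]
    rfl
  rw [h1, CuspForm.heckeTLin_apply_apply, heckeT_def, Fin.sum_univ_castSucc, delta_last]
  simp only [delta_castSucc]
  rw [Pi.add_apply, Finset.sum_apply, Finset.sum_range]

end Hecke

end Fermat.Agent.S16.TransferTCoset
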