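/-
S16 project (helper14): the upper bound, unconditionally.

`UBAll.noForm p : NoFormStmt p` - wiring of `UBMain.noForm_of_cases` with the Eisenstein series
(`Eis.main`), the toolkit (`TkMain.main`), the level one facts (`L1.facts`, `SturmL1.main`,
`SDConst.main`) and the eight `K`-cases.
-/
import Fermat.Agent.S16.UBMain
import Fermat.Agent.S16.Eis
import Fermat.Agent.S16.TkMain
import Fermat.Agent.S16.L1
import Fermat.Agent.S16.SturmL1
import Fermat.Agent.S16.SDConst
import Fermat.Agent.S16.K2a
import Fermat.Agent.S16.K2b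
import Fermat.Agent.S16.K2c
import Fermat.Agent.S16.K3a
import Fermat.Agent.S16.K3b
import Fermat.Agent.S16.K5a
import Fermat.Agent.S16.K5c
import Fermat.Agent.S16.K5p

set_option autoImplicit false

namespace Fermat.Agent.S16.UBAll

/-- For every prime `ℓ` there is no `G ∈ M₂(Γ₀(p))` with `G ≡ 1 mod ℓ^(sExp p ℓ)` (`p ≥ 5`). -/
theorem kstmt (p : ℕ) [Fact p.Prime] (hp : 5 ≤ p) (tk : Toolkit p) :
    ∀ l : ℕ, l.Prime → Kstmt p l (sExp p l) :=
  UBMain.kAll p hp
    (fun l hl h5 h => K5c.main p tk L1.facts l hl h5 (fun h' => h (Dvd.dvd.mul_right h' _))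
      (fun h' => h (Dvd.dvd.mul_left h' _)))
    (fun l hl h5 h => K5a.main p tk L1.facts SDConst.main l hl h5 h)
    (K5p.main p hp tk L1.facts SDConst.main)
    (fun h => K3a.main p tk L1.facts h)
    (fun h => K3b.main p h tk L1.facts SturmL1.main)
    (fun h => K2a.main p tk L1.facts h)
    (fun h => K2b.main p tk L1.facts h)
    (fun h => K2c.main p h tk L1.facts SturmL1.main)

/-- The upper bound from a toolkit. -/
theorem noForm_of_toolkit (p : ℕ) [Fact p.Prime] (tk : Toolkit p) : NoFormStmt p :=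
  UBMain.noForm p (Eis.main p) (fun hp => kstmt p hp tk)

/-- The upper bound: a cusp form of weight two on `Γ₀(p)` whose `q`-expansion is integral and
congruent to `∑ σ'(k) q^k` modulo `d` forces `d ∣ (p - 1) / gcd (p - 1, 12)`. -/
theorem noForm (p : ℕ) [Fact p.Prime] : NoFormStmt p :=
  noForm_of_toolkit p (TkMain.main p)

end Fermat.Agent.S16.UBAll
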